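import Mathlib
import Fermat.Agent.CFT.Dict.Places
import Fermat.Agent.CFT.Local.Model
import Fermat.Agent.CFT.Semilocal.Finite
import Fermat.Agent.CFT.Local.PowIndexModel

/-!
# PROJECT C, slice C5 (second inequality), concrete part (i'): the local fields `K_v`

For a number field `K`, a rational prime `q` and `v : PrimeOver q (𝓞 K)` (helper5's Dict):

* `Kv v := Loc K q ⧸ ker (v.locToKv)`: a FIELD, finite over `ℚ_q` (an (M2) field of `Local/Model`);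
* `locEquiv : Loc K q ≃+* ∀ v, Kv v` (Chinese remainder theorem);
* `piV v : (Loc K q)ˣ →* (Kv v)ˣ`, `single v : (Kv v)ˣ →* (Loc K q)ˣ`;
* `ordAt v u = 1 ↔ nrm (piV v u) = 1`, `u ∈ intUnits K q ↔ ∀ v, nrm (piV v u) = 1`.
-/

set_option autoImplicit false
set_option linter.unusedSectionVars false

open scoped TensorProduct NumberField Fermat.Agent.CFT.Idele

open Fermat.Agent.CFT.Idele Fermat.Agent.CFT.Dict Fermat.Agent.CFT.Local.Model

noncomputable section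

namespace Fermat.Agent.CFT.C5.LocalFields

variable (K : Type) [Field K] [NumberField K] (q : Nat.Primes)

/-- the `ℚ_q`-algebra structure of `K ⊗ ℚ_q` (right factor) -/
scoped instance algebraQLoc : Algebra ℚ_[(q : ℕ)] (Loc K q) := (inclQ K q).toAlgebra

theorem algebraMap_Loc_apply (c : ℚ_[(q : ℕ)]) : algebraMap ℚ_[(q : ℕ)] (Loc K q) c = inclQ K q c :=
  rfl

/-- `ℚ_q ⊗ K ≃ K ⊗ ℚ_q` as `ℚ_q`-modules -/
def swapLin : (ℚ_[(q : ℕ)] ⊗[ℚ] K) ≃ₗ[ℚ_[(q : ℕ)]] Loc K q :=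
  { (swapLoc K q).symm.toLinearEquiv.toAddEquiv with
    map_smul' := by
      intro c x
      obtain ⟨y, rfl⟩ := (swapLoc K q).surjective x
      change (swapLoc K q).symm (c • swapLoc K q y) = c • (swapLoc K q).symm (swapLoc K q y)
      rw [← swapLoc_inclQ_mul, AlgEquiv.symm_apply_apply, AlgEquiv.symm_apply_apply,
        Algebra.smul_def]
      rfl }

instance finite_Loc : Module.Finite ℚ_[(q : ℕ)] (Loc K q) :=
  Module.Finite.equiv (swapLin K q)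

theorem finrank_Loc : Module.finrank ℚ_[(q : ℕ)] (Loc K q) = Module.finrank ℚ K := by
  rw [← (swapLin K q).finrank_eq, Module.finrank_baseChange]

instance isArtinianRing_Loc : IsArtinianRing (Loc K q) :=
  IsArtinianRing.of_finite ℚ_[(q : ℕ)] (Loc K q)

variable {K q}

/-- the kernel of `K ⊗ ℚ_q → K_v` (helper5's `v.Kv`) -/
def kerV (v : PrimeOver (q : ℕ) (𝓞 K)) : Ideal (Loc K q) := RingHom.ker v.locToKv

instance kerV_isPrime (v : PrimeOver (q : ℕ) (𝓞 K)) : (kerV v).IsPrime :=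
  RingHom.ker_isPrime v.locToKv

instance kerV_isMaximal (v : PrimeOver (q : ℕ) (𝓞 K)) : (kerV v).IsMaximal :=
  IsArtinianRing.isMaximal_of_isPrime _

/-- the local field at `v`: a quotient of `K ⊗ ℚ_q`, finite over `ℚ_q` -/
abbrev Kv (v : PrimeOver (q : ℕ) (𝓞 K)) : Type := Loc K q ⧸ kerV v

instance field_Kv (v : PrimeOver (q : ℕ) (𝓞 K)) : Field (Kv v) := Ideal.Quotient.field (kerV v)

instance finite_Kv (v : PrimeOver (q : ℕ) (𝓞 K)) : FiniteDimensional ℚ_[(q : ℕ)] (Kv v) :=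
  Module.Finite.of_surjective (Ideal.Quotient.mkₐ ℚ_[(q : ℕ)] (kerV v)).toLinearMap
    (Ideal.Quotient.mkₐ_surjective ℚ_[(q : ℕ)] (kerV v))

/-- the projection `K ⊗ ℚ_q → K_v` -/
def toKv (v : PrimeOver (q : ℕ) (𝓞 K)) : Loc K q →ₐ[ℚ_[(q : ℕ)]] Kv v :=
  Ideal.Quotient.mkₐ ℚ_[(q : ℕ)] (kerV v)

theorem toKv_surjective (v : PrimeOver (q : ℕ) (𝓞 K)) : Function.Surjective (toKv v) :=
  Ideal.Quotient.mkₐ_surjective ℚ_[(q : ℕ)] (kerV v)

theorem toKv_eq_zero_iff (v : PrimeOver (q : ℕ) (𝓞 K)) (x : Loc K q) :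
    toKv v x = 0 ↔ v.locToKv x = 0 := by
  rw [toKv, Ideal.Quotient.mkₐ_eq_mk, Ideal.Quotient.eq_zero_iff_mem, kerV, RingHom.mem_ker]

/-- `K_v` embeds into helper5's `v.Kv` -/
def kvToDict (v : PrimeOver (q : ℕ) (𝓞 K)) : Kv v →+* v.Kv := RingHom.kerLift v.locToKv

theorem kvToDict_toKv (v : PrimeOver (q : ℕ) (𝓞 K)) (x : Loc K q) :
    kvToDict v (toKv v x) = v.locToKv x := rfl

theorem kvToDict_injective (v : PrimeOver (q : ℕ) (𝓞 K)) : Function.Injective (kvToDict v) :=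
  RingHom.kerLift_injective v.locToKv

theorem algebraMap_Kv_apply (v : PrimeOver (q : ℕ) (𝓞 K)) (c : ℚ_[(q : ℕ)]) :
    algebraMap ℚ_[(q : ℕ)] (Kv v) c = toKv v (inclQ K q c) := rfl

theorem kvToDict_comp_algebraMap_int (v : PrimeOver (q : ℕ) (𝓞 K)) :
    (kvToDict v).comp (algebraMap ℤ_[(q : ℕ)] (Kv v)) = (algebraMap v.Loc v.Kv).comp
      ((algebraMap (SL (q : ℕ) (𝓞 K)) v.Loc).comp
        (algebraMap ℤ_[(q : ℕ)] (SL (q : ℕ) (𝓞 K)))) := by
  rw [← v.locToKv_comp_inclZ]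
  ext a
  rfl

/-- `q` is not a unit of the discrete valuation ring `v.Loc` -/
theorem natCast_mem_maximalIdeal_Loc (v : PrimeOver (q : ℕ) (𝓞 K)) :
    ((q : ℕ) : v.Loc) ∈ IsLocalRing.maximalIdeal v.Loc := by
  have h1 : ((q : ℕ) : SL (q : ℕ) (𝓞 K)) ∈ extIdeal (q : ℕ) v.ideal :=
    natCast_mem_of_isMaximal (q : ℕ) _
  have h2 := (IsLocalization.AtPrime.to_map_mem_maximal_iff v.Loc (extIdeal (q : ℕ) v.ideal)
    ((q : ℕ) : SL (q : ℕ) (𝓞 K))).mpr h1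
  rwa [map_natCast] at h2

/-- integrality in `K_v` is integrality in helper5's discrete valuation ring `v.Loc` -/
theorem mem_𝒪_iff_kvToDict (v : PrimeOver (q : ℕ) (𝓞 K)) (x : Kv v) :
    x ∈ 𝒪 (q : ℕ) (Kv v) ↔ kvToDict v x ∈ Set.range (algebraMap v.Loc v.Kv) := by
  have hfwd : ∀ y : Kv v, y ∈ 𝒪 (q : ℕ) (Kv v) →
      kvToDict v y ∈ Set.range (algebraMap v.Loc v.Kv) := by
    intro y hy
    rw [mem_𝒪_iff_isIntegral] at hy
    have h1 := RingHom.IsIntegralElem.map hy (kvToDict v)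
    rw [kvToDict_comp_algebraMap_int] at h1
    have h2 : IsIntegral v.Loc (kvToDict v y) := RingHom.IsIntegralElem.of_comp h1
    exact IsIntegrallyClosed.isIntegral_iff.mp h2
  refine ⟨hfwd x, ?_⟩
  rintro ⟨s, hs⟩
  by_contra hx
  rw [mem_𝒪_iff, not_le] at hx
  have hx0 : x ≠ 0 := by
    rintro rfl
    rw [nrm_zero] at hx
    exact absurd hx (by norm_num)
  have hy : nrm (q : ℕ) (Kv v) x⁻¹ < 1 := by
    rw [nrm_inv]
    exact inv_lt_one_of_one_lt₀ hx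
  obtain ⟨n, hn⟩ := exists_pow_lt_of_lt_one (inv_pos.mpr (q_pos (q : ℕ))) hy
  -- `z = x⁻¹ ^ n / q` is integral
  have hz : x⁻¹ ^ n * ((q : ℕ) : Kv v)⁻¹ ∈ 𝒪 (q : ℕ) (Kv v) := by
    rw [mem_𝒪_iff, nrm_mul, nrm_pow, nrm_inv (q : ℕ) (Kv v) ((q : ℕ) : Kv v), nrm_q, inv_inv]
    have hq := q_pos (q : ℕ)
    calc nrm (q : ℕ) (Kv v) x⁻¹ ^ n * ((q : ℕ) : ℝ) ≤ ((q : ℕ) : ℝ)⁻¹ * ((q : ℕ) : ℝ) :=
          mul_le_mul_of_nonneg_right hn.le hq.le
      _ = 1 := inv_mul_cancel₀ hq.ne'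
  obtain ⟨t, ht⟩ := hfwd _ hz
  have hq0 : ((q : ℕ) : Kv v) ≠ 0 := q_ne_zero (q : ℕ) (Kv v)
  have h1 : x ^ n * ((q : ℕ) : Kv v) * (x⁻¹ ^ n * ((q : ℕ) : Kv v)⁻¹) = 1 := by
    rw [mul_mul_mul_comm, ← mul_pow, mul_inv_cancel₀ hx0, one_pow, mul_inv_cancel₀ hq0, one_mul]
  have h2 : s ^ n * ((q : ℕ) : v.Loc) * t = 1 := by
    apply IsFractionRing.injective v.Loc v.Kv
    rw [map_mul, map_mul, map_pow, map_natCast, hs, ht, map_one, ← map_natCast (kvToDict v),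
      ← map_pow, ← map_mul, ← map_mul, h1, map_one]
  have h3 : IsUnit ((q : ℕ) : v.Loc) :=
    IsUnit.of_mul_eq_one (s ^ n * t) (by rw [← h2]; ring)
  exact (IsLocalRing.mem_maximalIdeal _).mp (natCast_mem_maximalIdeal_Loc v) h3

/-- the projection on units `(K ⊗ ℚ_q)ˣ → K_vˣ` -/
def piV (v : PrimeOver (q : ℕ) (𝓞 K)) : (Loc K q)ˣ →* (Kv v)ˣ :=
  Units.map (toKv v : Loc K q →* Kv v)

theorem coe_piV (v : PrimeOver (q : ℕ) (𝓞 K)) (u : (Loc K q)ˣ) :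
    ((piV v u : (Kv v)ˣ) : Kv v) = toKv v (u : Loc K q) := rfl

/-- **units at `v`**: the valuation of helper5's Dict is trivial iff the norm in `K_v` is one -/
theorem ordAt_eq_one_iff_nrm (v : PrimeOver (q : ℕ) (𝓞 K)) (u : (Loc K q)ˣ) :
    v.ordAt u = 1 ↔ nrm (q : ℕ) (Kv v) (piV v u : (Kv v)ˣ) = 1 := by
  have hinv : nrm (q : ℕ) (Kv v) ((piV v u⁻¹ : (Kv v)ˣ) : Kv v) =
      (nrm (q : ℕ) (Kv v) (piV v u : (Kv v)ˣ))⁻¹ := by
    rw [map_inv, Units.val_inv_eq_inv_val, nrm_inv]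
  rw [v.ordAt_eq_one_iff]
  constructor
  · rintro ⟨s, hs⟩
    have h1 : ((piV v u : (Kv v)ˣ) : Kv v) ∈ 𝒪 (q : ℕ) (Kv v) := by
      rw [mem_𝒪_iff_kvToDict, coe_piV, kvToDict_toKv]
      exact ⟨s, hs⟩
    have h2 : ((piV v u⁻¹ : (Kv v)ˣ) : Kv v) ∈ 𝒪 (q : ℕ) (Kv v) := by
      rw [mem_𝒪_iff_kvToDict, coe_piV, kvToDict_toKv]
      refine ⟨((s⁻¹ : v.Locˣ) : v.Loc), ?_⟩
      have h3 : algebraMap v.Loc v.Kv (s : v.Loc) * v.locToKv ((u⁻¹ : (Loc K q)ˣ) : Loc K q) = 1 := by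
        rw [hs, ← map_mul, Units.mul_inv, map_one]
      have h4 : algebraMap v.Loc v.Kv (s : v.Loc) * algebraMap v.Loc v.Kv ((s⁻¹ : v.Locˣ) : v.Loc)
          = 1 := by
        rw [← map_mul, Units.mul_inv, map_one]
      have hs0 : algebraMap v.Loc v.Kv (s : v.Loc) ≠ 0 := by
        intro h0
        rw [h0, zero_mul] at h4
        exact zero_ne_one h4
      exact mul_left_cancel₀ hs0 (h4.trans h3.symm)
    rw [mem_𝒪_iff] at h1 h2
    rw [hinv] at h2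
    have hpos : 0 < nrm (q : ℕ) (Kv v) (piV v u : (Kv v)ˣ) := nrm_pos _ _ (Units.ne_zero _)
    exact le_antisymm h1 ((inv_le_one₀ hpos).mp h2)
  · intro h
    have h1 : ((piV v u : (Kv v)ˣ) : Kv v) ∈ 𝒪 (q : ℕ) (Kv v) := by
      rw [mem_𝒪_iff, h]
    have h2 : ((piV v u⁻¹ : (Kv v)ˣ) : Kv v) ∈ 𝒪 (q : ℕ) (Kv v) := by
      rw [mem_𝒪_iff, hinv, h, inv_one]
    rw [mem_𝒪_iff_kvToDict, coe_piV, kvToDict_toKv] at h1 h2
    obtain ⟨s, hs⟩ := h1
    obtain ⟨s', hs'⟩ := h2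
    have hss' : s * s' = 1 := by
      apply IsFractionRing.injective v.Loc v.Kv
      rw [map_mul, hs, hs', ← map_mul, Units.mul_inv, map_one, map_one]
    exact ⟨⟨s, s', hss', by rw [mul_comm]; exact hss'⟩, hs⟩

/-- distinct primes over `q` have distinct kernels -/
theorem kerV_injective : Function.Injective (kerV : PrimeOver (q : ℕ) (𝓞 K) → Ideal (Loc K q)) := by
  classical
  intro v w hvw
  by_contra hne
  obtain ⟨u, hu⟩ := PrimeOver.exists_forall_ordAt_eq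
    (fun x : PrimeOver (q : ℕ) (𝓞 K) => if x = v then (1 : ℤ) else 0)
  have hv : v.ordAt u ≠ 1 := by
    rw [hu v, if_pos rfl]
    intro h
    have := congrArg Multiplicative.toAdd h
    simp at this
  have hw : w.ordAt u = 1 := by
    rw [hu w, if_neg (Ne.symm hne)]
    rfl
  apply hv
  rw [ordAt_eq_one_iff_nrm] at hw ⊢
  rw [← hw, ← nrm_algEquiv (q : ℕ) (Ideal.quotientEquivAlgOfEq ℚ_[(q : ℕ)] hvw)
    ((piV v u : (Kv v)ˣ) : Kv v)]
  rfl

theorem isCoprime_kerV : Pairwise (Function.onFun IsCoprime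
    (kerV : PrimeOver (q : ℕ) (𝓞 K) → Ideal (Loc K q))) := by
  intro v w hvw
  rw [Function.onFun, Ideal.isCoprime_iff_sup_eq]
  exact Ideal.IsMaximal.coprime_of_ne inferInstance inferInstance fun h => hvw (kerV_injective h)

theorem iInf_kerV : ⨅ v : PrimeOver (q : ℕ) (𝓞 K), kerV v = ⊥ := by
  rw [eq_bot_iff]
  intro x hx
  rw [Ideal.mem_iInf] at hx
  have hx' : ∀ v : PrimeOver (q : ℕ) (𝓞 K), v.locToKv x = 0 := fun v => hx v
  have hmem : ∀ m : ℕ, inclQ K q ((((q : ℕ) : ℚ_[(q : ℕ)]) ^ m)⁻¹) * x ∈ intRing K q := by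
    intro m
    rw [mem_intRing_iff_forall]
    intro v
    refine ⟨0, ?_⟩
    rw [map_zero, map_mul, hx' v, mul_zero]
  have h0 : x ∈ intRing K q := by
    have := hmem 0
    rwa [pow_zero, inv_one, map_one, one_mul] at this
  have hq0 : (((q : ℕ) : ℚ_[(q : ℕ)])) ≠ 0 := by exact_mod_cast q.2.ne_zero
  have key := Semilocal.sep_intRing K q ⟨x, h0⟩ (fun m => ⟨⟨_, hmem m⟩, by
    apply Subtype.ext
    rw [Subring.coe_mul, Subring.coe_pow, Semilocal.coe_qInt, ← map_natCast (inclQ K q),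
      ← map_pow, ← mul_assoc, ← map_mul, mul_inv_cancel₀ (pow_ne_zero m hq0), map_one, one_mul]⟩)
  exact congrArg Subtype.val key

/-- **Chinese remainder theorem**: `K ⊗ ℚ_q` is the product of the local fields `K_v`, `v ∣ q` -/
def locEquiv : Loc K q ≃+* ∀ v : PrimeOver (q : ℕ) (𝓞 K), Kv v :=
  ((RingEquiv.quotientBot (Loc K q)).symm.trans (Ideal.quotEquivOfEq iInf_kerV.symm)).trans
    (Ideal.quotientInfRingEquivPiQuotient kerV isCoprime_kerV)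

theorem locEquiv_apply (x : Loc K q) (v : PrimeOver (q : ℕ) (𝓞 K)) :
    locEquiv x v = toKv v x := rfl

/-- `(K ⊗ ℚ_q)ˣ ≃ ∏_{v ∣ q} K_vˣ` -/
def locUnitsEquiv : (Loc K q)ˣ ≃* ∀ v : PrimeOver (q : ℕ) (𝓞 K), (Kv v)ˣ :=
  (Units.mapEquiv (locEquiv (K := K) (q := q)).toMulEquiv).trans MulEquiv.piUnits

theorem locUnitsEquiv_apply (u : (Loc K q)ˣ) (v : PrimeOver (q : ℕ) (𝓞 K)) :
    locUnitsEquiv u v = piV v u := rfl

/-- the unit of `K ⊗ ℚ_q` with component `a` at `v` and `1` at the other primes over `q` -/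
def single (v : PrimeOver (q : ℕ) (𝓞 K)) : (Kv v)ˣ →* (Loc K q)ˣ :=
  (locUnitsEquiv (K := K) (q := q)).symm.toMonoidHom.comp
    (MonoidHom.mulSingle (fun w : PrimeOver (q : ℕ) (𝓞 K) => (Kv w)ˣ) v)

theorem locUnitsEquiv_single (v : PrimeOver (q : ℕ) (𝓞 K)) (a : (Kv v)ˣ) :
    locUnitsEquiv (single v a) = Pi.mulSingle v a := by
  rw [single, MonoidHom.comp_apply, MulEquiv.coe_toMonoidHom, MulEquiv.apply_symm_apply]
  rfl

theorem piV_single_same (v : PrimeOver (q : ℕ) (𝓞 K)) (a : (Kv v)ˣ) : piV v (single v a) = a := by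
  rw [← locUnitsEquiv_apply, locUnitsEquiv_single, Pi.mulSingle_eq_same]

theorem piV_single_of_ne {v w : PrimeOver (q : ℕ) (𝓞 K)} (h : w ≠ v) (a : (Kv v)ˣ) :
    piV w (single v a) = 1 := by
  rw [← locUnitsEquiv_apply, locUnitsEquiv_single, Pi.mulSingle_eq_of_ne h]

theorem piV_single (v w : PrimeOver (q : ℕ) (𝓞 K)) (a : (Kv v)ˣ) :
    piV w (single v a) = (Pi.mulSingle v a : ∀ x : PrimeOver (q : ℕ) (𝓞 K), (Kv x)ˣ) w := by
  rw [← locUnitsEquiv_apply, locUnitsEquiv_single]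

/-- a unit of `K ⊗ ℚ_q` is determined by its components -/
theorem ext_piV {u u' : (Loc K q)ˣ} (h : ∀ v : PrimeOver (q : ℕ) (𝓞 K), piV v u = piV v u') :
    u = u' :=
  (locUnitsEquiv (K := K) (q := q)).injective (funext h)

theorem prod_single_piV (u : (Loc K q)ˣ) :
    ∏ v : PrimeOver (q : ℕ) (𝓞 K), single v (piV v u) = u := by
  apply ext_piV
  intro w
  rw [map_prod, Finset.prod_eq_single w]
  · exact piV_single_same w _
  · intro v _ hv
    exact piV_single_of_ne (Ne.symm hv) _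
  · intro h
    exact absurd (Finset.mem_univ w) h

/-- every family of local units comes from a unit of `K ⊗ ℚ_q` -/
theorem exists_forall_piV_eq (a : ∀ v : PrimeOver (q : ℕ) (𝓞 K), (Kv v)ˣ) :
    ∃ u : (Loc K q)ˣ, ∀ v, piV v u = a v :=
  ⟨locUnitsEquiv.symm a, fun v => by
    rw [← locUnitsEquiv_apply, MulEquiv.apply_symm_apply]⟩

/-- the local units at `v` -/
def UV (v : PrimeOver (q : ℕ) (𝓞 K)) : Subgroup (Kv v)ˣ := (𝒪 (q : ℕ) (Kv v)).unitGroup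

theorem mem_UV_iff (v : PrimeOver (q : ℕ) (𝓞 K)) (a : (Kv v)ˣ) :
    a ∈ UV v ↔ nrm (q : ℕ) (Kv v) (a : Kv v) = 1 := by
  rw [UV, ValuationSubring.mem_unitGroup_iff]
  constructor
  · intro h
    have ha : (a : Kv v) ∈ 𝒪 (q : ℕ) (Kv v) :=
      (ValuationSubring.valuation_le_one_iff _ _).mp h.le
    exact (isUnit_iff_nrm_eq_one (q : ℕ) (Kv v) ⟨(a : Kv v), ha⟩).mp
      ((ValuationSubring.valuation_eq_one_iff _ ⟨(a : Kv v), ha⟩).mpr h)
  · intro h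
    have ha : (a : Kv v) ∈ 𝒪 (q : ℕ) (Kv v) := by rw [mem_𝒪_iff, h]
    exact (ValuationSubring.valuation_eq_one_iff _ ⟨(a : Kv v), ha⟩).mp
      ((isUnit_iff_nrm_eq_one (q : ℕ) (Kv v) ⟨(a : Kv v), ha⟩).mpr h)

theorem ordAt_eq_one_iff_mem_UV (v : PrimeOver (q : ℕ) (𝓞 K)) (u : (Loc K q)ˣ) :
    v.ordAt u = 1 ↔ piV v u ∈ UV v := by
  rw [ordAt_eq_one_iff_nrm, mem_UV_iff]

/-- **integral units are the units at every place** -/
theorem mem_intUnits_iff_forall_mem_UV (u : (Loc K q)ˣ) :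
    u ∈ intUnits K q ↔ ∀ v : PrimeOver (q : ℕ) (𝓞 K), piV v u ∈ UV v := by
  rw [mem_intUnits_iff_forall_ordAt]
  exact forall_congr' fun v => ordAt_eq_one_iff_mem_UV v u

theorem single_mem_intUnits_iff (v : PrimeOver (q : ℕ) (𝓞 K)) (a : (Kv v)ˣ) :
    single v a ∈ intUnits K q ↔ a ∈ UV v := by
  classical
  rw [mem_intUnits_iff_forall_mem_UV]
  constructor
  · intro h
    have := h v
    rwa [piV_single_same] at this
  · intro h w
    by_cases hw : w = v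
    · subst hw
      rwa [piV_single_same]
    · rw [piV_single_of_ne hw]
      exact (UV w).one_mem

/-- `locEquiv` as an isomorphism of `ℚ_q`-algebras -/
def locAlgEquiv : Loc K q ≃ₐ[ℚ_[(q : ℕ)]] ∀ v : PrimeOver (q : ℕ) (𝓞 K), Kv v :=
  AlgEquiv.ofRingEquiv (f := locEquiv (K := K) (q := q)) (fun c => by
    funext v
    rfl)

/-- **the local degrees add up to the global degree** -/
theorem sum_finrank_Kv :
    ∑ v : PrimeOver (q : ℕ) (𝓞 K), Module.finrank ℚ_[(q : ℕ)] (Kv v) = Module.finrank ℚ K := by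
  rw [← finrank_Loc K q, (locAlgEquiv (K := K) (q := q)).toLinearEquiv.finrank_eq,
    Module.finrank_pi_fintype]

/-! ### Global elements and the index of the `p`-th powers -/

/-- `K → K_v` -/
def kToKv (v : PrimeOver (q : ℕ) (𝓞 K)) : K →+* Kv v :=
  (toKv v : Loc K q →+* Kv v).comp (inclL K q)

theorem kToKv_apply (v : PrimeOver (q : ℕ) (𝓞 K)) (a : K) : kToKv v a = toKv v (inclL K q a) := rfl

theorem kToKv_injective (v : PrimeOver (q : ℕ) (𝓞 K)) : Function.Injective (kToKv v) :=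
  (kToKv v).injective

theorem coe_piV_inclL (v : PrimeOver (q : ℕ) (𝓞 K)) (a : Kˣ) :
    ((piV v (Units.map (inclL K q : K →* Loc K q) a) : (Kv v)ˣ) : Kv v) = kToKv v a := rfl

/-- a global element is a unit at `v` iff its `v`-adic valuation is one -/
theorem piV_inclL_mem_UV_iff (v : PrimeOver (q : ℕ) (𝓞 K)) (a : Kˣ) :
    piV v (Units.map (inclL K q : K →* Loc K q) a) ∈ UV v ↔
      v.toHeightOneSpectrum.valuation K (a : K) = 1 := by
  rw [← ordAt_eq_one_iff_mem_UV, ← v.coe_ordAt_inclL, ← WithZero.coe_one, WithZero.coe_inj]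

open Fermat.Agent.CFT.Local.PowIndexModel in
/-- `[K_vˣ : K_vˣᵖ] = p²` for `v ∤ p` when `K_v` contains the `p`-th roots of unity -/
theorem index_pow_of_ne (v : PrimeOver (q : ℕ) (𝓞 K)) {p : ℕ} (hp : p.Prime) (hpq : p ≠ (q : ℕ))
    {ζ : K} (hζ : IsPrimitiveRoot ζ p) :
    (powMonoidHom p : (Kv v)ˣ →* (Kv v)ˣ).range.index = p * p := by
  have : NeZero p := ⟨hp.ne_zero⟩
  have hζ' : IsPrimitiveRoot (kToKv v ζ) p := hζ.map_of_injective (kToKv_injective v)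
  have hcop : (q : ℕ).Coprime p := (Nat.coprime_primes q.2 hp).mpr (Ne.symm hpq)
  rw [Subgroup.index, card_quotient_pow_of_coprime (q : ℕ) (Kv v) hp.ne_zero hcop,
    hζ'.card_rootsOfUnity]

open Fermat.Agent.CFT.Local.PowIndexModel in
/-- `[K_vˣ : K_vˣᵖ] = p² · p^[K_v : ℚ_p]` for `v ∣ p` when `K_v` contains the `p`-th roots of
unity -/
theorem index_pow_self (v : PrimeOver (q : ℕ) (𝓞 K)) {ζ : K} (hζ : IsPrimitiveRoot ζ (q : ℕ)) :
    (powMonoidHom (q : ℕ) : (Kv v)ˣ →* (Kv v)ˣ).range.index =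
      (q : ℕ) * (q : ℕ) * (q : ℕ) ^ Module.finrank ℚ_[(q : ℕ)] (Kv v) := by
  have : NeZero (q : ℕ) := ⟨q.2.ne_zero⟩
  have hζ' : IsPrimitiveRoot (kToKv v ζ) (q : ℕ) := hζ.map_of_injective (kToKv_injective v)
  rw [Subgroup.index, card_quotient_pow_q (q : ℕ) (Kv v), hζ'.card_rootsOfUnity]
  ring

/-- **(LI) at a prime `q ≠ p`**: `∏_{v ∣ q} [K_vˣ : K_vˣᵖ] = p ^ (2 · #{v ∣ q})` -/
theorem prod_index_pow_of_ne {p : ℕ} (hp : p.Prime) (hpq : p ≠ (q : ℕ)) {ζ : K}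
    (hζ : IsPrimitiveRoot ζ p) :
    ∏ v : PrimeOver (q : ℕ) (𝓞 K), (powMonoidHom p : (Kv v)ˣ →* (Kv v)ˣ).range.index =
      p ^ (2 * Fintype.card (PrimeOver (q : ℕ) (𝓞 K))) := by
  rw [Finset.prod_congr rfl fun v _ => index_pow_of_ne v hp hpq hζ, Finset.prod_const,
    Finset.card_univ, ← pow_two, ← pow_mul]

/-- **(LI) at the prime `p`**: `∏_{v ∣ p} [K_vˣ : K_vˣᵖ] = p ^ (2 · #{v ∣ p} + [K : ℚ])` -/
theorem prod_index_pow_self {ζ : K} (hζ : IsPrimitiveRoot ζ (q : ℕ)) :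
    ∏ v : PrimeOver (q : ℕ) (𝓞 K),
        (powMonoidHom (q : ℕ) : (Kv v)ˣ →* (Kv v)ˣ).range.index =
      (q : ℕ) ^ (2 * Fintype.card (PrimeOver (q : ℕ) (𝓞 K)) + Module.finrank ℚ K) := by
  rw [Finset.prod_congr rfl fun v _ => index_pow_self v hζ, Finset.prod_mul_distrib,
    Finset.prod_const, Finset.card_univ, Finset.prod_pow_eq_pow_sum, sum_finrank_Kv, ← pow_two,
    ← pow_mul, ← pow_add]

end Fermat.Agent.CFT.C5.LocalFields
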