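import Mathlib

/-!
# PROJECT C, slice C5-I3, part 1: norms at a completely split place (abstract)

`R` a commutative ring with a finite family `φ g : R →+* R` of endomorphisms (`g : G`, the Galois
group acting on `L ⊗ ℚ_q`), `e : R` an element whose translates `φ g e` are pairwise orthogonal and
sum to `1` ("`q` splits completely": `e` is the sum of the primitive idempotents in a set of orbit
representatives).  Then every element `u` fixed by all `φ g` is a norm:
`∏ g, φ g (u * e + (1 - e)) = u`; and `u * e + (1 - e)` is a unit (integral, ...) when `u` is.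

Also `exists_orthogonal_of_free`: a finite family of orthogonal idempotents summing to `1`,
permuted freely by `G`, produces such an `e`.
-/

set_option autoImplicit false

namespace Fermat.Agent.CFT.C5.SplitNorm

open scoped BigOperators

variable {R : Type*} [CommRing R] {G : Type*}

/-- The product of the `1 + a * e g` over a family of pairwise orthogonal elements. -/
theorem prod_one_add_mul [DecidableEq G] (e : G → R) (he : ∀ g h, g ≠ h → e g * e h = 0) (a : R)
    (s : Finset G) : ∏ g ∈ s, (1 + a * e g) = 1 + a * ∑ g ∈ s, e g := by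
  induction s using Finset.induction_on with
  | empty => simp
  | insert g s hg ih =>
    rw [Finset.prod_insert hg, ih, Finset.sum_insert hg]
    have h0 : e g * ∑ h ∈ s, e h = 0 := by
      rw [Finset.mul_sum]
      exact Finset.sum_eq_zero fun h hh => he g h (by rintro rfl; exact hg hh)
    linear_combination (a * a) * h0

variable [Fintype G]

/-- Pairwise orthogonal elements summing to `1` are idempotent. -/
theorem isIdempotentElem_of_orthogonal (e : G → R) (he : ∀ g h, g ≠ h → e g * e h = 0)
    (hsum : ∑ g, e g = 1) (g : G) : IsIdempotentElem (e g) := by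
  classical
  have h1 : e g * ∑ h, e h = e g * e g := by
    rw [Finset.mul_sum]
    exact Finset.sum_eq_single g (fun h _ hne => he g h hne.symm)
      (fun h => absurd (Finset.mem_univ g) h)
  rw [hsum, mul_one] at h1
  exact h1.symm

/-- **Norms at a split place**: if the translates of `e` are pairwise orthogonal and sum to `1`,
every invariant `u` is the norm of `u * e + (1 - e)`. -/
theorem prod_apply_eq (φ : G → R →+* R) (e u : R)
    (he : ∀ g h, g ≠ h → φ g e * φ h e = 0) (hsum : ∑ g, φ g e = 1) (hu : ∀ g, φ g u = u) :
    ∏ g, φ g (u * e + (1 - e)) = u := by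
  classical
  have h1 : ∀ g, φ g (u * e + (1 - e)) = 1 + (u - 1) * φ g e := by
    intro g
    rw [map_add, map_mul, map_sub, map_one, hu]
    ring
  rw [Finset.prod_congr rfl fun g _ => h1 g, prod_one_add_mul (fun g => φ g e) he, hsum]
  ring

/-- `u * e + (1 - e)` is invertible when `u` is and `e` is idempotent. -/
theorem mul_add_mul_add_eq_one {e u u' : R} (he : IsIdempotentElem e) (hu : u * u' = 1) :
    (u * e + (1 - e)) * (u' * e + (1 - e)) = 1 := by
  have he' : e * e = e := he
  linear_combination (e * e) * hu + (2 - u - u') * he'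

/-- The unit `u * e + (1 - e)`. -/
def splitUnit {e : R} (he : IsIdempotentElem e) (u : Rˣ) : Rˣ where
  val := (u : R) * e + (1 - e)
  inv := ((u⁻¹ : Rˣ) : R) * e + (1 - e)
  val_inv := mul_add_mul_add_eq_one he u.mul_inv
  inv_val := mul_add_mul_add_eq_one he u.inv_mul

@[simp] theorem val_splitUnit {e : R} (he : IsIdempotentElem e) (u : Rˣ) :
    ((splitUnit he u : Rˣ) : R) = (u : R) * e + (1 - e) := rfl

@[simp] theorem val_inv_splitUnit {e : R} (he : IsIdempotentElem e) (u : Rˣ) :
    (((splitUnit he u)⁻¹ : Rˣ) : R) = ((u⁻¹ : Rˣ) : R) * e + (1 - e) := rfl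

/-- Idempotents are integral over any base. -/
theorem isIntegralElem_of_isIdempotentElem {A : Type*} [CommRing A] (f : A →+* R) {e : R}
    (he : IsIdempotentElem e) : f.IsIntegralElem e := by
  refine ⟨Polynomial.X * (Polynomial.X - Polynomial.C 1), ?_, ?_⟩
  · exact Polynomial.monic_X.mul (Polynomial.monic_X_sub_C 1)
  · have he' : e * e = e := he
    simp only [Polynomial.eval₂_mul, Polynomial.eval₂_sub, Polynomial.eval₂_X, map_one,
      Polynomial.eval₂_one]
    rw [mul_sub, he', mul_one, sub_self]

/-! ### From a free action on orthogonal idempotents -/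

/-- A finite family of pairwise orthogonal elements summing to `1`, permuted by a group `G` acting
freely on the index set, gives an element `e` whose `G`-translates are pairwise orthogonal and sum
to `1` (the sum over a set of orbit representatives). -/
theorem exists_orthogonal_of_free [Group G] {X : Type*} [Fintype X] [MulAction G X]
    (φ : G → R →+* R) (ε : X → R) (hε : ∀ x y, x ≠ y → ε x * ε y = 0) (hsum : ∑ x, ε x = 1)
    (hperm : ∀ g x, φ g (ε x) = ε (g • x)) (hfree : ∀ (g : G) (x : X), g • x = x → g = 1) :
    ∃ e : R, (∀ g h, g ≠ h → φ g e * φ h e = 0) ∧ ∑ g, φ g e = 1 := by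
  classical
  -- orbit representatives
  let r : X → X := fun x => (Quotient.out (s := MulAction.orbitRel G X) (Quotient.mk'' x))
  have hr_orbit : ∀ x, ∃ g : G, g • r x = x := by
    intro x
    have h : (MulAction.orbitRel G X).r (r x) x := Quotient.exact (Quotient.out_eq _)
    rw [MulAction.orbitRel_apply] at h
    obtain ⟨g, hg⟩ := h
    exact ⟨g⁻¹, by rw [← hg, inv_smul_smul]⟩
  have hr_smul : ∀ (g : G) x, r (g • x) = r x := by
    intro g x
    have : (Quotient.mk'' (g • x) : Quotient (MulAction.orbitRel G X)) = Quotient.mk'' x :=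
      Quotient.sound (by
        change (MulAction.orbitRel G X).r (g • x) x
        rw [MulAction.orbitRel_apply]
        exact ⟨g, rfl⟩)
    simp only [r, this]
  have hr_idem : ∀ x, r (r x) = r x := by
    intro x
    obtain ⟨g, hg⟩ := hr_orbit x
    conv_lhs => rw [← hr_smul g (r x), hg]
  choose gx hgx using hr_orbit
  let T : Finset X := Finset.univ.filter fun x => r x = x
  let e : R := ∑ x ∈ T, ε x
  have hφe : ∀ g, φ g e = ∑ x ∈ T, ε (g • x) := by
    intro g
    rw [map_sum]
    exact Finset.sum_congr rfl fun x _ => hperm g x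
  refine ⟨e, ?_, ?_⟩
  · intro g h hgh
    rw [hφe, hφe, Finset.sum_mul_sum]
    refine Finset.sum_eq_zero fun x hx => Finset.sum_eq_zero fun y hy => ?_
    apply hε
    intro hxy
    -- `g • x = h • y` with `x`, `y` representatives forces `x = y` and `g = h`
    have hx' : r x = x := (Finset.mem_filter.mp hx).2
    have hy' : r y = y := (Finset.mem_filter.mp hy).2
    have h1 : x = y := by
      rw [← hx', ← hy', ← hr_smul g x, hxy, hr_smul]
    subst h1
    apply hgh
    have h2 : (h⁻¹ * g) • x = x := by rw [mul_smul, hxy, inv_smul_smul]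
    have h3 := hfree _ _ h2
    exact (inv_mul_eq_one.mp h3).symm
  · -- every `x` is `g • t` for a unique pair `(g, t)`
    rw [← hsum]
    rw [Finset.sum_congr rfl fun g _ => hφe g, ← Finset.sum_product']
    refine Finset.sum_bij' (fun p _ => p.1 • p.2)
      (fun x _ => (gx x, r x)) ?_ ?_ ?_ ?_ ?_
    · intro p _
      exact Finset.mem_univ _
    · intro x _
      rw [Finset.mem_product]
      exact ⟨Finset.mem_univ _, Finset.mem_filter.mpr ⟨Finset.mem_univ _, hr_idem x⟩⟩
    · rintro ⟨g, t⟩ hp
      have ht : r t = t := (Finset.mem_filter.mp (Finset.mem_product.mp hp).2).2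
      have h1 : r (g • t) = t := by rw [hr_smul, ht]
      have h2 := hgx (g • t)
      rw [h1] at h2
      have h3 : (g⁻¹ * gx (g • t)) • t = t := by
        rw [mul_smul, h2, inv_smul_smul]
      have h4 := hfree _ _ h3
      rw [inv_mul_eq_one] at h4
      simp only [h1, ← h4]
    · intro x _
      exact hgx x
    · intro p _
      rfl

end Fermat.Agent.CFT.C5.SplitNorm
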