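import Mathlib

/-!
# PROJECT C, slice C5-I3, part 2: `n`-th roots in adically complete rings

* `exists_isRoot_of_isAdicComplete` : Hensel's lemma (simple form: `f a₀ ∈ I`, `f' a₀` a unit
  modulo `I`) in an `I`-adically complete ring, for an **arbitrary** polynomial (Mathlib's
  `HenselianRing` asks for monic polynomials; the Newton iteration of
  `IsAdicComplete.henselianRing` does not use that hypothesis, and the proof below is that
  proof).
* `exists_pow_eq_one_add` : for `b ∈ I` there is `t ∈ I` with `(1 + n t)^n = 1 + n² b`.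
  So `1 + n² I` consists of `n`-th powers.
-/

set_option autoImplicit false

namespace Fermat.Agent.CFT.C5.AdicRoots

open Polynomial

/-- **Hensel's lemma** in an adically complete ring, without the assumption that the polynomial
is monic.  (Newton iteration; adapted from Mathlib's `IsAdicComplete.henselianRing`.) -/
theorem exists_isRoot_of_isAdicComplete {R : Type*} [CommRing R] (I : Ideal R)
    [IsAdicComplete I R] (f : R[X]) (a₀ : R) (h₁ : f.eval a₀ ∈ I)
    (h₂ : IsUnit (Ideal.Quotient.mk I (f.derivative.eval a₀))) :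
    ∃ a, f.IsRoot a ∧ a - a₀ ∈ I := by
  classical
  let f' := derivative f
  let c : ℕ → R := fun n => Nat.recOn n a₀ fun _ b => b - f.eval b * Ring.inverse (f'.eval b)
  have hc : ∀ n, c (n + 1) = c n - f.eval (c n) * Ring.inverse (f'.eval (c n)) := by
    intro n
    simp only [c]
  have hc_mod : ∀ n, c n ≡ a₀ [SMOD I] := by
    intro n
    induction n with
    | zero => rfl
    | succ n ih => ?_
    rw [hc, sub_eq_add_neg, ← add_zero a₀]
    refine ih.add ?_
    rw [SModEq.zero, Ideal.neg_mem_iff]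
    refine I.mul_mem_right _ ?_
    rw [← SModEq.zero] at h₁ ⊢
    exact (ih.eval f).trans h₁
  have hf'c : ∀ n, IsUnit (f'.eval (c n)) := by
    intro n
    have := isLocalHom_of_le_jacobson_bot I (IsAdicComplete.le_jacobson_bot I)
    apply IsUnit.of_map (Ideal.Quotient.mk I)
    convert h₂ using 1
    exact SModEq.def.mp ((hc_mod n).eval _)
  have hfcI : ∀ n, f.eval (c n) ∈ I ^ (n + 1) := by
    intro n
    induction n with
    | zero =>
      rw [zero_add, pow_one]
      exact h₁
    | succ n ih => ?_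
    rw [← taylor_eval_sub (c n), hc, sub_eq_add_neg, sub_eq_add_neg,
      add_neg_cancel_comm]
    rw [eval_eq_sum, sum_over_range' _ _ _ (lt_add_of_pos_right _ zero_lt_two), ←
      Finset.sum_range_add_sum_Ico _ (Nat.le_add_left _ _)]
    swap
    · intro i
      rw [zero_mul]
    refine Ideal.add_mem _ ?_ ?_
    · rw [← one_add_one_eq_two, Finset.sum_range_succ, Finset.range_one, Finset.sum_singleton,
        taylor_coeff_zero, taylor_coeff_one, pow_zero, pow_one, mul_one, mul_neg,
        mul_left_comm, Ring.mul_inverse_cancel _ (hf'c n), mul_one, add_neg_cancel]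
      exact Ideal.zero_mem _
    · refine Submodule.sum_mem _ ?_
      simp only [Finset.mem_Ico]
      rintro i ⟨h2i, _⟩
      have aux : n + 2 ≤ i * (n + 1) := by trans 2 * (n + 1) <;> nlinarith only [h2i]
      refine Ideal.mul_mem_left _ _ (Ideal.pow_le_pow_right aux ?_)
      rw [pow_mul']
      exact Ideal.pow_mem_pow ((Ideal.neg_mem_iff _).2 <| Ideal.mul_mem_right _ _ ih) _
  have aux : ∀ m n, m ≤ n → c m ≡ c n [SMOD (I ^ m • ⊤ : Ideal R)] := by
    intro m n hmn
    rw [← Ideal.one_eq_top, Ideal.smul_eq_mul, mul_one]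
    obtain ⟨k, rfl⟩ := Nat.exists_eq_add_of_le hmn
    clear hmn
    induction k with
    | zero => rw [add_zero]
    | succ k ih => ?_
    rw [← add_assoc, hc, ← add_zero (c m), sub_eq_add_neg]
    refine ih.add ?_
    symm
    rw [SModEq.zero, Ideal.neg_mem_iff]
    refine Ideal.mul_mem_right _ _ (Ideal.pow_le_pow_right ?_ (hfcI _))
    rw [add_assoc]
    exact le_self_add
  obtain ⟨a, ha⟩ := IsPrecomplete.prec' c (aux _ _)
  refine ⟨a, ?_, ?_⟩
  · show f.IsRoot a
    suffices ∀ n, f.eval a ≡ 0 [SMOD (I ^ n • ⊤ : Ideal R)] by exact IsHausdorff.haus' _ this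
    intro n
    specialize ha n
    rw [← Ideal.one_eq_top, Ideal.smul_eq_mul, mul_one] at ha ⊢
    refine (ha.symm.eval f).trans ?_
    rw [SModEq.zero]
    exact Ideal.pow_le_pow_right le_self_add (hfcI _)
  · show a - a₀ ∈ I
    specialize ha (0 + 1)
    rw [hc, pow_one, ← Ideal.one_eq_top, Ideal.smul_eq_mul, mul_one, sub_eq_add_neg] at ha
    rw [← SModEq.sub_mem, ← add_zero a₀]
    refine ha.symm.trans (SModEq.rfl.add ?_)
    rw [SModEq.zero, Ideal.neg_mem_iff]
    exact Ideal.mul_mem_right _ _ h₁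

/-- The binomial expansion of `(1 + ν t)^(k+2)`, with the terms of degree `≥ 2` collected. -/
theorem one_add_mul_pow_eq {R : Type*} [CommRing R] (k : ℕ) (ν t : R) :
    (1 + ν * t) ^ (k + 2) = 1 + ((k + 2 : ℕ) : R) * ν * t
      + ν ^ 2 * t ^ 2 * ∑ m ∈ Finset.range (k + 1), ν ^ m * (((k + 2).choose (m + 2) : ℕ) : R) * t ^ m := by
  rw [add_comm 1 (ν * t), add_pow, Finset.sum_range_succ', Finset.sum_range_succ', Finset.mul_sum]
  simp only [one_pow, mul_one, pow_zero, Nat.choose_zero_right, Nat.cast_one, zero_add, pow_one,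
    Nat.choose_one_right]
  have h : ∀ m ∈ Finset.range (k + 1),
      (ν * t) ^ (m + 1 + 1) * (((k + 2).choose (m + 1 + 1) : ℕ) : R)
        = ν ^ 2 * t ^ 2 * (ν ^ m * (((k + 2).choose (m + 2) : ℕ) : R) * t ^ m) := by
    intro m _
    ring
  rw [Finset.sum_congr rfl h]
  ring

/-- **`n`-th roots**: in an `I`-adically complete ring, every element of `1 + n² I` is the `n`-th
power of an element of `1 + n I`. -/
theorem exists_pow_eq_one_add {R : Type*} [CommRing R] (I : Ideal R) [IsAdicComplete I R] (n : ℕ)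
    {b : R} (hb : b ∈ I) : ∃ t ∈ I, (1 + (n : R) * t) ^ n = 1 + (n : R) ^ 2 * b := by
  rcases n with _ | _ | k
  · exact ⟨0, I.zero_mem, by simp⟩
  · exact ⟨b, hb, by simp⟩
  · set ν : R := ((k + 1 + 1 : ℕ) : R) with hν
    let Gp : R[X] := ∑ m ∈ Finset.range (k + 1),
      C (ν ^ m * (((k + 2).choose (m + 2) : ℕ) : R)) * X ^ m
    let h : R[X] := X + X ^ 2 * Gp - C b
    have h0 : h.eval 0 ∈ I := by
      have : h.eval 0 = -b := by simp [h]
      rw [this]
      exact I.neg_mem hb
    have h1 : IsUnit (Ideal.Quotient.mk I (h.derivative.eval 0)) := by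
      have : h.derivative.eval 0 = 1 := by simp [h, derivative_mul]
      rw [this, map_one]
      exact isUnit_one
    obtain ⟨t, ht, htI⟩ := exists_isRoot_of_isAdicComplete I h 0 h0 h1
    rw [sub_zero] at htI
    refine ⟨t, htI, ?_⟩
    have hroot : t + t ^ 2 * ∑ m ∈ Finset.range (k + 1),
        ν ^ m * (((k + 2).choose (m + 2) : ℕ) : R) * t ^ m = b := by
      have h2 : h.eval t = 0 := ht
      have h3 : h.eval t = t + t ^ 2 * (∑ m ∈ Finset.range (k + 1),
          ν ^ m * (((k + 2).choose (m + 2) : ℕ) : R) * t ^ m) - b := by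
        simp [h, Gp, eval_finsetSum]
      rw [h3, sub_eq_zero] at h2
      exact h2
    rw [one_add_mul_pow_eq k ν t, ← hroot]
    ring

end Fermat.Agent.CFT.C5.AdicRoots
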