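import Mathlib

/-!
# PROJECT C, slice C5-I3, part 3a: weak approximation for `ℚ` at finitely many primes

`exists_rat_approx` : for a finite set `S` of primes, `c q ∈ ℚ_q` (`q ∈ S`) and `M`, there is
`r ∈ ℚ` with `‖r - c q‖_q ≤ q^(-M)` for all `q ∈ S`.  (Density of `ℚ` in each `ℚ_q` + the Chinese
remainder theorem.)  Element form: `exists_rat_sub_eq`.
-/

set_option autoImplicit false

namespace Fermat.Agent.CFT.C5.RatApprox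

/-- Elements of `Nat.Primes` are prime (local copy of the instance, to stay Mathlib-only). -/
local instance factPrimes' (q : Nat.Primes) : Fact (q : ℕ).Prime := ⟨q.2⟩

theorem one_lt_cast (q : Nat.Primes) : (1 : ℝ) < ((q : ℕ) : ℝ) := by
  exact_mod_cast q.2.one_lt

theorem cast_pos (q : Nat.Primes) : (0 : ℝ) < ((q : ℕ) : ℝ) := by
  exact_mod_cast q.2.pos

/-- A `q`-adic number is bounded by a power of `q`. -/
theorem exists_norm_le_pow (q : Nat.Primes) (x : ℚ_[(q : ℕ)]) :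
    ∃ A : ℕ, ‖x‖ ≤ ((q : ℕ) : ℝ) ^ A := by
  obtain ⟨A, hA⟩ := pow_unbounded_of_one_lt ‖x‖ (one_lt_cast q)
  exact ⟨A, hA.le⟩

/-- A uniform exponent: `‖x‖_q * q^(-A) ≤ q^(-M)` for all `q` in a finite set. -/
theorem exists_uniform_exp (T : Finset Nat.Primes) (x : ℚ) (M : ℕ) :
    ∃ A : ℕ, ∀ q ∈ T, ‖(x : ℚ_[(q : ℕ)])‖ * ((q : ℕ) : ℝ) ^ (-(A : ℤ)) ≤ ((q : ℕ) : ℝ) ^ (-(M : ℤ)) := by
  choose B hB using fun q : Nat.Primes => exists_norm_le_pow q (x : ℚ_[(q : ℕ)])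
  refine ⟨M + ∑ q ∈ T, B q, fun q hq => ?_⟩
  have h1 : B q ≤ ∑ q ∈ T, B q := Finset.single_le_sum (fun _ _ => Nat.zero_le _) hq
  have hq0 := cast_pos q
  have hq1 := one_lt_cast q
  calc ‖(x : ℚ_[(q : ℕ)])‖ * ((q : ℕ) : ℝ) ^ (-((M + ∑ q ∈ T, B q : ℕ) : ℤ))
      ≤ ((q : ℕ) : ℝ) ^ (B q) * ((q : ℕ) : ℝ) ^ (-((M + ∑ q ∈ T, B q : ℕ) : ℤ)) := by
        exact mul_le_mul_of_nonneg_right (hB q) (zpow_nonneg hq0.le _)
    _ = ((q : ℕ) : ℝ) ^ ((B q : ℤ) + -((M + ∑ q ∈ T, B q : ℕ) : ℤ)) := by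
        rw [zpow_add₀ hq0.ne', zpow_natCast]
    _ ≤ ((q : ℕ) : ℝ) ^ (-(M : ℤ)) := by
        apply zpow_le_zpow_right₀ hq1.le
        push_cast
        have : (B q : ℤ) ≤ ∑ q ∈ T, (B q : ℤ) := by exact_mod_cast h1
        linarith

/-- **Weak approximation for `ℚ`** at finitely many primes. -/
theorem exists_rat_approx (S : Finset Nat.Primes) (c : ∀ q : Nat.Primes, ℚ_[(q : ℕ)]) (M : ℕ) :
    ∃ r : ℚ, ∀ q ∈ S, ‖(r : ℚ_[(q : ℕ)]) - c q‖ ≤ ((q : ℕ) : ℝ) ^ (-(M : ℤ)) := by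
  classical
  induction S using Finset.induction_on with
  | empty => exact ⟨0, fun q hq => absurd hq (Finset.notMem_empty q)⟩
  | insert ℓ S hℓ ih =>
    obtain ⟨r₀, hr₀⟩ := ih
    have hℓ0 := cast_pos ℓ
    -- approximate `c ℓ` by a rational
    obtain ⟨r₁, hr₁⟩ := Padic.rat_dense (ℓ : ℕ) (c ℓ)
      (ε := ((ℓ : ℕ) : ℝ) ^ (-(M : ℤ))) (zpow_pos hℓ0 _)
    set δ : ℚ := r₁ - r₀ with hδ
    obtain ⟨A, hA⟩ := exists_uniform_exp (insert ℓ S) δ M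
    -- an integer `≡ 1 mod ℓ^A`, `≡ 0 mod (∏ S)^A`
    have hco : Nat.Coprime ((ℓ : ℕ) ^ A) ((∏ q ∈ S, (q : ℕ)) ^ A) := by
      apply Nat.Coprime.pow
      apply Nat.Coprime.prod_right
      intro q hq
      rw [Nat.coprime_primes ℓ.2 q.2]
      intro h
      exact hℓ (by rwa [Subtype.ext h])
    obtain ⟨lam, hlam1, hlam0⟩ := Nat.chineseRemainder hco 1 0
    have h1 : (((ℓ : ℕ) : ℤ) ^ A) ∣ ((lam : ℤ) - 1) := by
      have := (Nat.modEq_iff_dvd.mp hlam1.symm)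
      simpa using this
    have h0 : ∀ q ∈ S, (((q : ℕ) : ℤ) ^ A) ∣ (lam : ℤ) := by
      intro q hq
      have h2 : ((∏ q ∈ S, (q : ℕ)) ^ A) ∣ lam := (Nat.modEq_zero_iff_dvd.mp hlam0)
      have h3 : ((q : ℕ) ^ A) ∣ (∏ q ∈ S, (q : ℕ)) ^ A :=
        pow_dvd_pow_of_dvd (Finset.dvd_prod_of_mem _ hq) A
      exact_mod_cast h3.trans h2
    refine ⟨r₀ + lam * δ, fun q hq => ?_⟩
    rcases Finset.mem_insert.mp hq with rfl | hqS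
    · -- at `ℓ`
      have e : ((r₀ + lam * δ : ℚ) : ℚ_[(q : ℕ)]) - c q
          = ((r₁ : ℚ_[(q : ℕ)]) - c q) + (((lam : ℤ) - 1 : ℤ) : ℚ_[(q : ℕ)]) * (δ : ℚ_[(q : ℕ)]) := by
        rw [hδ]
        push_cast
        ring
      rw [e]
      refine (Padic.nonarchimedean _ _).trans (max_le ?_ ?_)
      · rw [← norm_neg, neg_sub]
        exact hr₁.le
      · rw [norm_mul]
        have h2 : ‖(((lam : ℤ) - 1 : ℤ) : ℚ_[(q : ℕ)])‖ ≤ ((q : ℕ) : ℝ) ^ (-(A : ℤ)) :=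
          (Padic.norm_int_le_pow_iff_dvd _ _).mpr h1
        calc _ ≤ ((q : ℕ) : ℝ) ^ (-(A : ℤ)) * ‖(δ : ℚ_[(q : ℕ)])‖ :=
              mul_le_mul_of_nonneg_right h2 (norm_nonneg _)
          _ = ‖(δ : ℚ_[(q : ℕ)])‖ * ((q : ℕ) : ℝ) ^ (-(A : ℤ)) := mul_comm _ _
          _ ≤ _ := hA q hq
    · -- at `q ∈ S`
      have e : ((r₀ + lam * δ : ℚ) : ℚ_[(q : ℕ)]) - c q
          = ((r₀ : ℚ_[(q : ℕ)]) - c q) + ((lam : ℤ) : ℚ_[(q : ℕ)]) * (δ : ℚ_[(q : ℕ)]) := by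
        push_cast
        ring
      rw [e]
      refine (Padic.nonarchimedean _ _).trans (max_le (hr₀ q hqS) ?_)
      rw [norm_mul]
      have h2 : ‖((lam : ℤ) : ℚ_[(q : ℕ)])‖ ≤ ((q : ℕ) : ℝ) ^ (-(A : ℤ)) :=
        (Padic.norm_int_le_pow_iff_dvd _ _).mpr (h0 q hqS)
      calc _ ≤ ((q : ℕ) : ℝ) ^ (-(A : ℤ)) * ‖(δ : ℚ_[(q : ℕ)])‖ :=
            mul_le_mul_of_nonneg_right h2 (norm_nonneg _)
        _ = ‖(δ : ℚ_[(q : ℕ)])‖ * ((q : ℕ) : ℝ) ^ (-(A : ℤ)) := mul_comm _ _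
        _ ≤ _ := hA q hq

/-- A `q`-adic number of norm `≤ q^(-M)` is `q^M` times a `q`-adic integer. -/
theorem exists_padicInt_mul_eq (q : Nat.Primes) (x : ℚ_[(q : ℕ)]) (M : ℕ)
    (h : ‖x‖ ≤ ((q : ℕ) : ℝ) ^ (-(M : ℤ))) :
    ∃ z : ℤ_[(q : ℕ)], x = ((q : ℕ) : ℚ_[(q : ℕ)]) ^ M * (z : ℚ_[(q : ℕ)]) := by
  have hq0 : (((q : ℕ) : ℚ_[(q : ℕ)])) ≠ 0 := by exact_mod_cast q.2.ne_zero
  have hn : ‖x / ((q : ℕ) : ℚ_[(q : ℕ)]) ^ M‖ ≤ 1 := by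
    rw [norm_div, Padic.norm_p_pow, div_le_one (zpow_pos (cast_pos q) _)]
    exact h
  refine ⟨⟨x / ((q : ℕ) : ℚ_[(q : ℕ)]) ^ M, hn⟩, ?_⟩
  change x = _ * (x / _)
  rw [mul_div_cancel₀ _ (pow_ne_zero _ hq0)]

/-- **Weak approximation for `ℚ`**, element form. -/
theorem exists_rat_sub_eq (S : Finset Nat.Primes) (c : ∀ q : Nat.Primes, ℚ_[(q : ℕ)]) (M : ℕ) :
    ∃ r : ℚ, ∀ q ∈ S, ∃ z : ℤ_[(q : ℕ)],
      (r : ℚ_[(q : ℕ)]) - c q = ((q : ℕ) : ℚ_[(q : ℕ)]) ^ M * (z : ℚ_[(q : ℕ)]) := by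
  obtain ⟨r, hr⟩ := exists_rat_approx S c M
  exact ⟨r, fun q hq => exists_padicInt_mul_eq q _ M (hr q hq)⟩

/-- Every `q`-adic number becomes integral after multiplication by a power of `q`. -/
theorem exists_pow_mul_eq (q : Nat.Primes) (x : ℚ_[(q : ℕ)]) :
    ∃ (d : ℕ) (z : ℤ_[(q : ℕ)]), ((q : ℕ) : ℚ_[(q : ℕ)]) ^ d * x = (z : ℚ_[(q : ℕ)]) := by
  obtain ⟨A, hA⟩ := exists_norm_le_pow q x
  have hn : ‖((q : ℕ) : ℚ_[(q : ℕ)]) ^ A * x‖ ≤ 1 := by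
    rw [norm_mul, Padic.norm_p_pow, zpow_neg, zpow_natCast]
    rw [inv_mul_le_iff₀ (pow_pos (cast_pos q) _), mul_one]
    exact hA
  exact ⟨A, ⟨_, hn⟩, rfl⟩

end Fermat.Agent.CFT.C5.RatApprox
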