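import Fermat.Agent.CFT.Semilocal.Finite
import Fermat.Agent.CFT.C5.RatApprox
import Fermat.Agent.CFT.C5.AdicRoots

/-!
# PROJECT C, slice C5-I3, part 3b: weak approximation in the tensor model

`K` a number field, `Loc K q = K ⊗ ℚ_q` (helper11's model).

* `exists_pow_mul_mem` : every element of `K ⊗ ℚ_q` is `q^(-d)` times an integral one;
* `exists_approx` : **weak approximation**: for finitely many `q`, elements `x q ∈ K ⊗ ℚ_q` and `M`,
  there is `a ∈ K` with `a - x q ∈ q^M · intRing K q`;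
* `exists_unit_approx` : multiplicative form: `a = u q * (1 + q^(N q) z)`, `a ∈ Kˣ`;
* `exists_pow_eq` : `1 + q^N · intRing K q` consists of `n`-th powers of integral units
  (Hensel, `N = 2 v_q(n) + 1`);
* `exists_unit_mul_pow` : every family of local units at finitely many primes is a global element
  times a family of `n`-th powers.
-/

set_option autoImplicit false

open scoped TensorProduct NumberField
open Fermat.Agent.CFT.Idele Fermat.Agent.CFT.Semilocal NumberField

noncomputable section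

namespace Fermat.Agent.CFT.C5.WeakApprox

variable (K : Type*) [Field K] [NumberField K] (q : Nat.Primes)

theorem inclQ_natCast (n : ℕ) : inclQ K q (n : ℚ_[(q : ℕ)]) = (n : Loc K q) := map_natCast _ _

theorem inclQ_coe (z : ℤ_[(q : ℕ)]) : inclQ K q (z : ℚ_[(q : ℕ)]) = inclZ K q z := rfl

theorem inclL_rat_smul (r : ℚ) (b : K) :
    inclL K q (r • b) = inclL K q b * inclQ K q (r : ℚ_[(q : ℕ)]) := by
  rw [inclL_apply, inclL_apply, inclQ_apply, Algebra.TensorProduct.tmul_mul_tmul, mul_one, one_mul,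
    TensorProduct.smul_tmul, Rat.smul_one_eq_cast]

theorem natCast_mem_intRing (n : ℕ) : (n : Loc K q) ∈ intRing K q := natCast_mem _ n

theorem inclL_integralBasis_mem (i : Module.Free.ChooseBasisIndex ℤ (𝓞 K)) :
    inclL K q (integralBasis K i) ∈ intRing K q :=
  inclL_mem_intRing_of_isIntegral K q (isIntegral_integralBasis K i)

/-- Every element of `K ⊗ ℚ_q` becomes integral after multiplication by a power of `q`. -/
theorem exists_pow_mul_mem (x : Loc K q) : ∃ d : ℕ, ((q : ℕ) : Loc K q) ^ d * x ∈ intRing K q := by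
  classical
  set b := integralBasis K with hb
  choose d z hz using fun i => RatApprox.exists_pow_mul_eq q (coordQ K q b i x)
  refine ⟨∑ i, d i, ?_⟩
  have hx := eq_sum_coordQ K q b x
  have e : ((q : ℕ) : Loc K q) ^ (∑ i, d i) * x
      = ∑ i, ((q : ℕ) : Loc K q) ^ (∑ j, d j - d i) * (inclL K q (b i) * inclZ K q (z i)) := by
    conv_lhs => rw [hx, Finset.mul_sum]
    refine Finset.sum_congr rfl fun i _ => ?_
    have h1 : d i ≤ ∑ j, d j := Finset.single_le_sum (fun _ _ => Nat.zero_le _) (Finset.mem_univ i)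
    have h2 : inclZ K q (z i) = ((q : ℕ) : Loc K q) ^ d i * inclQ K q (coordQ K q b i x) := by
      rw [← inclQ_coe, ← hz i, map_mul, map_pow, inclQ_natCast]
    rw [h2]
    conv_lhs => rw [← Nat.sub_add_cancel h1, pow_add]
    ring
  rw [e]
  refine Subring.sum_mem _ fun i _ => ?_
  exact Subring.mul_mem _ (Subring.pow_mem _ (natCast_mem_intRing K q _) _)
    (Subring.mul_mem _ (inclL_integralBasis_mem K q i) (inclZ_mem_intRing K q _))

/-- **Weak approximation** in the tensor model. -/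
theorem exists_approx (S : Finset Nat.Primes) (x : ∀ q : Nat.Primes, Loc K q) (M : ℕ) :
    ∃ a : K, ∀ q ∈ S, ∃ z ∈ intRing K q,
      inclL K q a - x q = ((q : ℕ) : Loc K q) ^ M * z := by
  classical
  set b := integralBasis K with hb
  choose r hr using fun i =>
    RatApprox.exists_rat_sub_eq S (fun q => coordQ K q b i (x q)) M
  refine ⟨∑ i, r i • b i, fun q hq => ?_⟩
  choose z hz using fun i => hr i q hq
  refine ⟨∑ i, inclL K q (b i) * inclZ K q (z i), ?_, ?_⟩
  · exact Subring.sum_mem _ fun i _ =>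
      Subring.mul_mem _ (inclL_integralBasis_mem K q i) (inclZ_mem_intRing K q _)
  · have hx := eq_sum_coordQ K q b (x q)
    have e : inclL K q (∑ i, r i • b i) - x q
        = ∑ i, inclL K q (b i) * inclQ K q ((r i : ℚ_[(q : ℕ)]) - coordQ K q b i (x q)) := by
      conv_lhs => rw [hx]
      rw [map_sum, ← Finset.sum_sub_distrib]
      refine Finset.sum_congr rfl fun i _ => ?_
      rw [inclL_rat_smul, map_sub, mul_sub]
    rw [e, Finset.mul_sum]
    refine Finset.sum_congr rfl fun i _ => ?_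
    rw [hz i, map_mul, map_pow, inclQ_natCast, inclQ_coe]
    ring

/-- `1 + q^N z` (`N ≥ 1`, `z` integral) is invertible. -/
theorem isUnit_one_add_pow_mul {N : ℕ} (hN : 1 ≤ N) {z : Loc K q} (hz : z ∈ intRing K q) :
    IsUnit (1 + ((q : ℕ) : Loc K q) ^ N * z) := by
  have h1 := isUnit_one_add_qInt_mul K q (qInt K q ^ (N - 1) * ⟨z, hz⟩)
  have h2 := h1.map (intRing K q).subtype
  have e : (intRing K q).subtype (1 + qInt K q * (qInt K q ^ (N - 1) * ⟨z, hz⟩))
      = 1 + ((q : ℕ) : Loc K q) ^ N * z := by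
    simp only [Subring.coe_subtype, Subring.coe_add, Subring.coe_one, Subring.coe_mul,
      Subring.coe_pow, coe_qInt]
    conv_rhs => rw [← Nat.sub_add_cancel hN, pow_succ]
    ring
  rwa [e] at h2

/-- **Weak approximation, multiplicative form**: a family of local units at finitely many primes is
approximated by a global unit, with prescribed precision `N q ≥ 1`. -/
theorem exists_unit_approx (S : Finset Nat.Primes) (u : ∀ q : Nat.Primes, (Loc K q)ˣ)
    (N : Nat.Primes → ℕ) (hN : ∀ q, 1 ≤ N q) :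
    ∃ a : Kˣ, ∀ q ∈ S, ∃ z ∈ intRing K q,
      inclL K q (a : K) = (u q : Loc K q) * (1 + ((q : ℕ) : Loc K q) ^ (N q) * z) := by
  classical
  choose d hd using fun q : Nat.Primes => exists_pow_mul_mem K q (((u q)⁻¹ : (Loc K q)ˣ) : Loc K q)
  set M := ∑ q ∈ S, (N q + d q) with hM
  obtain ⟨a, ha⟩ := exists_approx K S (fun q => (u q : Loc K q)) M
  have key : ∀ q ∈ S, ∃ z ∈ intRing K q,
      inclL K q a = (u q : Loc K q) * (1 + ((q : ℕ) : Loc K q) ^ (N q) * z) := by
    intro q hq
    obtain ⟨z, hz, hza⟩ := ha q hq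
    have h1 : N q + d q ≤ M := Finset.single_le_sum (f := fun q => N q + d q)
      (fun _ _ => Nat.zero_le _) hq
    refine ⟨((q : ℕ) : Loc K q) ^ (M - (N q + d q)) *
      ((((q : ℕ) : Loc K q) ^ d q * (((u q)⁻¹ : (Loc K q)ˣ) : Loc K q)) * z), ?_, ?_⟩
    · exact Subring.mul_mem _ (Subring.pow_mem _ (natCast_mem_intRing K q _) _)
        (Subring.mul_mem _ (hd q) hz)
    · have h2 : inclL K q a = (u q : Loc K q) + ((q : ℕ) : Loc K q) ^ M * z := by
        rw [← hza]; ring
      rw [h2]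
      conv_lhs => rw [← Nat.sub_add_cancel h1, pow_add, pow_add]
      have h3 : (u q : Loc K q) * (((u q)⁻¹ : (Loc K q)ˣ) : Loc K q) = 1 := Units.mul_inv _
      linear_combination (-(((q : ℕ) : Loc K q) ^ (M - (N q + d q)) * ((q : ℕ) : Loc K q) ^ N q *
        ((q : ℕ) : Loc K q) ^ d q * z)) * h3
  rcases S.eq_empty_or_nonempty with hS | ⟨q₀, hq₀⟩
  · exact ⟨1, fun q hq => absurd hq (by rw [hS]; exact Finset.notMem_empty q)⟩
  · have ha0 : a ≠ 0 := by
      rintro rfl
      obtain ⟨z, hz, hza⟩ := key q₀ hq₀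
      rw [map_zero] at hza
      have h1 : IsUnit ((u q₀ : Loc K q₀) * (1 + ((q₀ : ℕ) : Loc K q₀) ^ (N q₀) * z)) :=
        (u q₀).isUnit.mul (isUnit_one_add_pow_mul K q₀ (hN q₀) hz)
      rw [← hza] at h1
      have : Nontrivial (Loc K q₀) := inferInstance
      exact not_isUnit_zero h1
    exact ⟨Units.mk0 a ha0, key⟩

/-! ### `n`-th powers -/

/-- `intRing K q` is complete for its own ideal `(q)`. -/
theorem isAdicComplete_span_qInt : IsAdicComplete (Ideal.span {qInt K q}) (intRing K q) := by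
  have := isAdicComplete_intRing K q
  have h1 : IsAdicComplete ((Ideal.span {((q : ℕ) : ℤ_[(q : ℕ)])}).map
      (algebraMap ℤ_[(q : ℕ)] (intRing K q))) (intRing K q) :=
    { toIsHausdorff := IsHausdorff.map_algebraMap_iff.mpr inferInstance
      toIsPrecomplete := IsPrecomplete.map_algebraMap_iff.mpr inferInstance }
  have h2 : (Ideal.span {((q : ℕ) : ℤ_[(q : ℕ)])}).map (algebraMap ℤ_[(q : ℕ)] (intRing K q))
      = Ideal.span {qInt K q} := by
    rw [Ideal.map_span, Set.image_singleton]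
    rfl
  rwa [h2] at h1

/-- A unit of `intRing K q`, as an element of `intUnits K q`. -/
theorem unitsMap_subtype_mem_intUnits (w : (intRing K q)ˣ) :
    Units.map ((intRing K q).subtype : intRing K q →* Loc K q) w ∈ intUnits K q := by
  rw [mem_intUnits]
  refine ⟨(w : intRing K q).2, ?_⟩
  rw [← map_inv]
  exact ((w⁻¹ : (intRing K q)ˣ) : intRing K q).2

/-- **Hensel**: `1 + q^N · intRing K q` consists of `n`-th powers of integral units, for
`N = 2 v_q(n) + 1`. -/
theorem exists_pow_eq (n : ℕ) (hn : n ≠ 0) :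
    ∃ N : ℕ, 1 ≤ N ∧ ∀ z ∈ intRing K q, ∃ w : (Loc K q)ˣ, w ∈ intUnits K q ∧
      (w : Loc K q) ^ n = 1 + ((q : ℕ) : Loc K q) ^ N * z := by
  have hn0 : (n : ℤ_[(q : ℕ)]) ≠ 0 := Nat.cast_ne_zero.mpr hn
  set ε := PadicInt.unitCoeff hn0 with hε
  set v := (n : ℤ_[(q : ℕ)]).valuation with hv
  have hspec : (n : ℤ_[(q : ℕ)]) = (ε : ℤ_[(q : ℕ)]) * ((q : ℕ) : ℤ_[(q : ℕ)]) ^ v :=
    PadicInt.unitCoeff_spec hn0
  refine ⟨2 * v + 1, by omega, fun z hz => ?_⟩
  have hcompl := isAdicComplete_span_qInt K q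
  -- notation inside `R = intRing K q`
  set εR : intRing K q := toIntRing K q (ε : ℤ_[(q : ℕ)]) with hεR
  set εR' : intRing K q := toIntRing K q ((ε⁻¹ : (ℤ_[(q : ℕ)])ˣ) : ℤ_[(q : ℕ)]) with hεR'
  have hεε : εR * εR' = 1 := by
    rw [hεR, hεR', ← map_mul, Units.mul_inv, map_one]
  have hnR : ((n : ℕ) : intRing K q) = εR * qInt K q ^ v := by
    have : ((n : ℕ) : intRing K q) = toIntRing K q (n : ℤ_[(q : ℕ)]) := (map_natCast _ n).symm
    rw [this, hspec, map_mul, map_pow]
    rfl
  set z' : intRing K q := ⟨z, hz⟩ with hz'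
  set b : intRing K q := εR' ^ 2 * (qInt K q * z') with hb
  have hbI : b ∈ Ideal.span {qInt K q} :=
    Ideal.mul_mem_left _ _ (Ideal.mul_mem_right _ _ (Ideal.subset_span (Set.mem_singleton _)))
  obtain ⟨t, -, ht⟩ := AdicRoots.exists_pow_eq_one_add (Ideal.span {qInt K q}) n hbI
  have hνb : ((n : ℕ) : intRing K q) ^ 2 * b = qInt K q ^ (2 * v + 1) * z' := by
    rw [hnR, hb]
    have h1 : (εR * qInt K q ^ v) ^ 2 * (εR' ^ 2 * (qInt K q * z'))
        = (εR * εR') ^ 2 * (qInt K q ^ (2 * v + 1) * z') := by ring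
    rw [h1, hεε, one_pow, one_mul]
  rw [hνb] at ht
  -- `w₀ = 1 + n t` is a unit of `intRing K q`
  set w₀ : intRing K q := 1 + ((n : ℕ) : intRing K q) * t with hw₀
  have hunit : IsUnit (w₀ ^ n) := by
    rw [ht]
    have := isUnit_one_add_qInt_mul K q (qInt K q ^ (2 * v) * z')
    have e : 1 + qInt K q * (qInt K q ^ (2 * v) * z') = 1 + qInt K q ^ (2 * v + 1) * z' := by ring
    rwa [e] at this
  obtain ⟨wR, hwR⟩ := (isUnit_pow_iff hn).mp hunit
  refine ⟨Units.map ((intRing K q).subtype : intRing K q →* Loc K q) wR,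
    unitsMap_subtype_mem_intUnits K q wR, ?_⟩
  have h1 : ((Units.map ((intRing K q).subtype : intRing K q →* Loc K q) wR : (Loc K q)ˣ) : Loc K q)
      = ((w₀ : intRing K q) : Loc K q) := by
    rw [← hwR]
    rfl
  rw [h1, ← Subring.coe_pow, ht]
  simp only [Subring.coe_add, Subring.coe_one, Subring.coe_mul, Subring.coe_pow, coe_qInt, hz']

/-- **Local units at finitely many primes are a global element times `n`-th powers.** -/
theorem exists_unit_mul_pow (S : Finset Nat.Primes) (u : ∀ q : Nat.Primes, (Loc K q)ˣ) (n : ℕ)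
    (hn : n ≠ 0) :
    ∃ a : Kˣ, ∀ q ∈ S, ∃ w : (Loc K q)ˣ, w ∈ intUnits K q ∧
      Units.map (inclL K q : K →* Loc K q) a = u q * w ^ n := by
  choose N hN1 hN using fun q : Nat.Primes => exists_pow_eq K q n hn
  obtain ⟨a, ha⟩ := exists_unit_approx K S u N hN1
  refine ⟨a, fun q hq => ?_⟩
  obtain ⟨z, hz, hza⟩ := ha q hq
  obtain ⟨w, hw, hwz⟩ := hN q z hz
  refine ⟨w, hw, Units.ext ?_⟩
  rw [Units.val_mul, Units.val_pow_eq_pow_val, hwz, ← hza]
  rfl

end Fermat.Agent.CFT.C5.WeakApprox
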