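import Fermat.Agent.CFT.Idele.ClassDescent
import Fermat.Agent.CFT.C5.WeakApprox
import Fermat.Agent.CFT.C5.SplitNorm

/-!
# PROJECT C, slice C5-I3, part 4: the first inequality forces non-split primes

`L/K` a finite Galois extension of number fields, `G = Gal(L/K)` acting on helper11's ideles `J L`
through `galHom K L`.

* `SplitsCompletely K L q` : tensor-model form of "every prime of `K` over `q` splits completely
  in `L`": there is `e ∈ L ⊗ ℚ_q` whose `G`-translates are pairwise orthogonal and sum to `1`;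
* `exists_local_norm_of_split` : at such a `q` every element of `(K ⊗ ℚ_q)ˣ` is a norm from
  `(L ⊗ ℚ_q)ˣ`, integral units being norms of integral units;
* `exists_eq_diag_mul_norm` : if all `q ∉ S` (`S` finite) split completely then
  `J_K = Kˣ · N_{L/K} J_L`;
* `exists_not_splitsCompletely` / `exists_not_splitsCompletely_of_class` : **(I3)** if
  `Ĥ⁰(G, C_L) ≠ 0` (first inequality, `[L : K] > 1` cyclic) then outside every finite set of primes
  there is a `q` which does not split completely.
-/

set_option autoImplicit false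

open scoped TensorProduct NumberField
open Fermat.Agent.CFT.Idele Fermat.Agent.CFT.Semilocal NumberField

noncomputable section

namespace Fermat.Agent.CFT.C5.NonSplit

variable (K L : Type*) [Field K] [Field L] [NumberField K] [NumberField L] [Algebra K L]

/-- Tensor-model form of "`q` splits completely in `L/K`": some `e ∈ L ⊗ ℚ_q` has pairwise
orthogonal `Gal(L/K)`-translates summing to `1`. -/
def SplitsCompletely (q : Nat.Primes) : Prop :=
  ∃ e : Loc L q, (∀ σ τ : L ≃ₐ[K] L, σ ≠ τ →
      Loc.aut L q (galHom K L σ) e * Loc.aut L q (galHom K L τ) e = 0) ∧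
    ∑ σ : L ≃ₐ[K] L, Loc.aut L q (galHom K L σ) e = 1

variable {K L}

/-- The base change map on local units. -/
abbrev locUp (q : Nat.Primes) : (Loc K q)ˣ →* (Loc L q)ˣ :=
  Units.map (Loc.map q (inclHom K L) : Loc K q →* Loc L q)

theorem locUp_mem_intUnits {q : Nat.Primes} {u : (Loc K q)ˣ} (hu : u ∈ intUnits K q) :
    locUp (L := L) q u ∈ intUnits L q := by
  rw [mem_intUnits] at hu ⊢
  refine ⟨Loc.map_mem_intRing q _ hu.1, ?_⟩
  rw [← map_inv]
  exact Loc.map_mem_intRing q _ hu.2

theorem autUnits_locUp (q : Nat.Primes) (σ : L ≃ₐ[K] L) (u : (Loc K q)ˣ) :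
    autUnits (galHom K L σ) q (locUp (L := L) q u) = locUp (L := L) q u := by
  apply Units.ext
  rw [autUnits_apply]
  exact Loc.aut_map_of_fixes q (inclHom K L) (galHom K L σ) (galHom_inclHom K L σ) _

/-- At a completely split `q`, every local unit of `K` is a norm from `L`, and integral units are
norms of integral units. -/
theorem exists_local_norm_of_split {q : Nat.Primes} (hq : SplitsCompletely K L q)
    (u : (Loc K q)ˣ) :
    ∃ y : (Loc L q)ˣ, (u ∈ intUnits K q → y ∈ intUnits L q) ∧
      ∏ σ : L ≃ₐ[K] L, autUnits (galHom K L σ) q y = locUp (L := L) q u := by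
  classical
  obtain ⟨e, horth, hsum⟩ := hq
  set φ : (L ≃ₐ[K] L) → Loc L q →+* Loc L q :=
    fun σ => ((Loc.aut L q (galHom K L σ) : Loc L q ≃ₐ[ℚ] Loc L q) : Loc L q →+* Loc L q) with hφ
  have he : IsIdempotentElem e := by
    have h1 := SplitNorm.isIdempotentElem_of_orthogonal (fun σ => φ σ e) horth hsum 1
    have h2 : φ 1 e = e := by
      change Loc.aut L q (galHom K L 1) e = e
      rw [map_one, Loc.aut_one]
      rfl
    rwa [h2] at h1
  set U : (Loc L q)ˣ := locUp (L := L) q u with hU
  have hUinv : ∀ σ, φ σ (U : Loc L q) = U := by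
    intro σ
    have := congrArg Units.val (autUnits_locUp q σ u)
    rwa [autUnits_apply] at this
  refine ⟨SplitNorm.splitUnit he U, ?_, ?_⟩
  · intro hu
    have hUint := locUp_mem_intUnits (L := L) hu
    have heint : e ∈ intRing L q :=
      SplitNorm.isIntegralElem_of_isIdempotentElem (inclZ L q) he
    have h1e : (1 - e) ∈ intRing L q := Subring.sub_mem _ (Subring.one_mem _) heint
    rw [mem_intUnits] at hUint ⊢
    refine ⟨?_, ?_⟩
    · rw [SplitNorm.val_splitUnit]
      exact Subring.add_mem _ (Subring.mul_mem _ hUint.1 heint) h1e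
    · rw [SplitNorm.val_inv_splitUnit]
      exact Subring.add_mem _ (Subring.mul_mem _ hUint.2 heint) h1e
  · apply Units.ext
    rw [Units.coe_prod]
    have h1 : ∀ σ : L ≃ₐ[K] L,
        ((autUnits (galHom K L σ) q (SplitNorm.splitUnit he U) : (Loc L q)ˣ) : Loc L q)
          = φ σ ((U : Loc L q) * e + (1 - e)) := by
      intro σ
      rw [autUnits_apply]
      rfl
    rw [Finset.prod_congr rfl fun σ _ => h1 σ]
    exact SplitNorm.prod_apply_eq φ e U horth hsum hUinv

theorem diag_up_apply (a : Kˣ) (q : Nat.Primes) :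
    ((diag L (Units.map (algebraMap K L : K →* L) a) : J L) : ∀ q : Nat.Primes, (Loc L q)ˣ) q
      = locUp (L := L) q (((diag K a : J K) : ∀ q : Nat.Primes, (Loc K q)ˣ) q) := by
  apply Units.ext
  rfl

/-- The component at `q` of the norm of an idele. -/
theorem prod_smul_apply (y : J L) (q : Nat.Primes) :
    ((∏ σ : L ≃ₐ[K] L, galHom K L σ • y : J L) : ∀ q : Nat.Primes, (Loc L q)ˣ) q
      = ∏ σ : L ≃ₐ[K] L, autUnits (galHom K L σ) q ((y : ∀ q : Nat.Primes, (Loc L q)ˣ) q) := by
  rw [Subgroup.val_finsetProd, Finset.prod_apply]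
  rfl

/-- **If all primes outside a finite set split completely, every idele of `K` is a principal
idele times a norm from `L`.**  (Weak approximation at `S`, `n`-th powers are norms and are open,
and everything is a norm at the split primes.) -/
theorem exists_eq_diag_mul_norm (S : Finset Nat.Primes)
    (hS : ∀ q ∉ S, SplitsCompletely K L q) (x : J K) :
    ∃ (a : Kˣ) (y : J L), J.map (inclHom K L) x
      = diag L (Units.map (algebraMap K L : K →* L) a) * ∏ σ : L ≃ₐ[K] L, galHom K L σ • y := by
  classical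
  set n := Fintype.card (L ≃ₐ[K] L) with hn'
  have hn : n ≠ 0 := Fintype.card_ne_zero
  obtain ⟨a, ha⟩ := WeakApprox.exists_unit_mul_pow K S
    (fun q => (x : ∀ q : Nat.Primes, (Loc K q)ˣ) q) n hn
  set dK : ∀ q : Nat.Primes, (Loc K q)ˣ := ((diag K a : J K) : ∀ q : Nat.Primes, (Loc K q)ˣ)
    with hdK
  set xK : ∀ q : Nat.Primes, (Loc K q)ˣ := (x : ∀ q : Nat.Primes, (Loc K q)ˣ) with hxK
  have hloc : ∀ q : Nat.Primes, ∃ y : (Loc L q)ˣ,
      (xK q ∈ intUnits K q → dK q ∈ intUnits K q → y ∈ intUnits L q) ∧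
        ∏ σ : L ≃ₐ[K] L, autUnits (galHom K L σ) q y = locUp (L := L) q (xK q / dK q) := by
    intro q
    by_cases hq : q ∈ S
    · obtain ⟨w, hw, hwa⟩ := ha q hq
      refine ⟨locUp (L := L) q w⁻¹,
        fun _ _ => locUp_mem_intUnits ((intUnits K q).inv_mem hw), ?_⟩
      rw [Finset.prod_congr rfl fun σ _ => autUnits_locUp q σ _, Finset.prod_const,
        Finset.card_univ, ← map_pow]
      congr 1
      have h1 : dK q = xK q * w ^ n := hwa
      rw [h1, div_mul_eq_div_div, div_self', one_div, inv_pow]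
    · obtain ⟨y, hy1, hy2⟩ := exists_local_norm_of_split (hS q hq) (xK q / dK q)
      exact ⟨y, fun h1 h2 => hy1 ((intUnits K q).div_mem h1 h2), hy2⟩
  choose y hy1 hy2 using hloc
  have hyJ : y ∈ J L := by
    rw [mem_J]
    have hx2 : {q | xK q ∉ intUnits K q}.Finite := x.2
    have hd2 : {q | dK q ∉ intUnits K q}.Finite := (diag K a).2
    refine (hx2.union hd2).subset ?_
    intro q hq
    by_contra h
    rw [Set.mem_union, not_or] at h
    exact hq (hy1 q (not_not.mp h.1) (not_not.mp h.2))
  refine ⟨a, ⟨y, hyJ⟩, ?_⟩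
  apply Subtype.ext
  funext q
  rw [Subgroup.coe_mul, Pi.mul_apply, diag_up_apply, prod_smul_apply]
  change locUp (L := L) q (xK q) = locUp (L := L) q (dK q) * ∏ σ : L ≃ₐ[K] L,
    autUnits (galHom K L σ) q (y q)
  rw [hy2 q, ← map_mul, mul_div_cancel]

/-- **(I3), idele form.**  If some idele of `K` is not a principal idele times a norm from `L`,
then outside every finite set of primes there is a prime which does not split completely. -/
theorem exists_not_splitsCompletely
    (h : ∃ x : J K, ∀ (a : Kˣ) (y : J L), J.map (inclHom K L) x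
      ≠ diag L (Units.map (algebraMap K L : K →* L) a) * ∏ σ : L ≃ₐ[K] L, galHom K L σ • y)
    (S : Finset Nat.Primes) : ∃ q, q ∉ S ∧ ¬ SplitsCompletely K L q := by
  by_contra hcon
  push Not at hcon
  obtain ⟨x, hx⟩ := h
  obtain ⟨a, y, hay⟩ := exists_eq_diag_mul_norm S hcon x
  exact hx a y hay

/-- The class of the norm of an idele is the norm of its class. -/
theorem toC_prod_smul (y : J L) :
    toC L (∏ σ : L ≃ₐ[K] L, galHom K L σ • y) = ∏ σ : L ≃ₐ[K] L, galHom K L σ • toC L y := by
  rw [map_prod]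
  rfl

/-- **(I3), class form.**  If `Ĥ⁰(Gal(L/K), C_L) ≠ 0`, i.e. some invariant idele class of `L` is
not a norm (this is what the first inequality gives for `L/K` cyclic of degree `> 1`), then outside
every finite set of primes there is a prime which does not split completely in `L/K`. -/
theorem exists_not_splitsCompletely_of_class [IsGalois K L]
    (h : ∃ c : C L, (∀ σ : L ≃ₐ[K] L, galHom K L σ • c = c) ∧
      ∀ d : C L, c ≠ ∏ σ : L ≃ₐ[K] L, galHom K L σ • d)
    (S : Finset Nat.Primes) : ∃ q, q ∉ S ∧ ¬ SplitsCompletely K L q := by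
  by_contra hcon
  push Not at hcon
  obtain ⟨c, hc, hcn⟩ := h
  obtain ⟨c', rfl⟩ := C.mem_range_map_inclHom K L c hc
  obtain ⟨x, rfl⟩ := toC_surjective K c'
  obtain ⟨a, y, hay⟩ := exists_eq_diag_mul_norm S hcon x
  apply hcn (toC L y)
  rw [C.map_toC, hay, map_mul, toC_diag, one_mul, toC_prod_smul]

/-- Bridge to primitive idempotents: a finite family of pairwise orthogonal elements of `L ⊗ ℚ_q`
summing to `1`, permuted by `Gal(L/K)` with trivial stabilisers, shows that `q` splits
completely.  (Contrapositive: if `q` does not split completely, some primitive idempotent of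
`L ⊗ ℚ_q` has a nontrivial stabiliser in `Gal(L/K)`.) -/
theorem splitsCompletely_of_free {q : Nat.Primes} {X : Type*} [Fintype X]
    [MulAction (L ≃ₐ[K] L) X] (ε : X → Loc L q) (hε : ∀ x y, x ≠ y → ε x * ε y = 0)
    (hsum : ∑ x, ε x = 1)
    (hperm : ∀ (σ : L ≃ₐ[K] L) x, Loc.aut L q (galHom K L σ) (ε x) = ε (σ • x))
    (hfree : ∀ (σ : L ≃ₐ[K] L) (x : X), σ • x = x → σ = 1) : SplitsCompletely K L q :=
  SplitNorm.exists_orthogonal_of_free
    (fun σ => ((Loc.aut L q (galHom K L σ) : Loc L q ≃ₐ[ℚ] Loc L q) : Loc L q →+* Loc L q))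
    ε hε hsum hperm hfree

/-- Contrapositive of `splitsCompletely_of_free`: at a prime which does not split completely, some
member of any `Gal(L/K)`-permuted complete orthogonal family has a nontrivial stabiliser. -/
theorem exists_stabilizer_ne_bot {q : Nat.Primes} (hq : ¬ SplitsCompletely K L q) {X : Type*}
    [Fintype X] [MulAction (L ≃ₐ[K] L) X] (ε : X → Loc L q)
    (hε : ∀ x y, x ≠ y → ε x * ε y = 0) (hsum : ∑ x, ε x = 1)
    (hperm : ∀ (σ : L ≃ₐ[K] L) x, Loc.aut L q (galHom K L σ) (ε x) = ε (σ • x)) :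
    ∃ x : X, MulAction.stabilizer (L ≃ₐ[K] L) x ≠ ⊥ := by
  by_contra hcon
  push Not at hcon
  apply hq
  refine splitsCompletely_of_free ε hε hsum hperm fun σ x hσ => ?_
  have : σ ∈ MulAction.stabilizer (L ≃ₐ[K] L) x := hσ
  rw [hcon x] at this
  exact Subgroup.mem_bot.mp this

end Fermat.Agent.CFT.C5.NonSplit
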