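import Mathlib

/-!
# Auxiliary places without Frobenius elements: selecting a basis of characters

Dual form of `C5/FrobBasis`: `Q` a finite commutative group of exponent `p` (e.g.
`Δ / ⟨d⟩ Δ^p` for the `S`-units `Δ` and the Kummer generator `d` of a cyclic extension of degree
`p`), `lam : I → (Q →* μ)` a family of characters (`μ = ℤ/p`; the places outside `S` splitting in
the extension) separating the points of `Q`. Then there is a finite `T ⊆ I` with `p ^ #T = #Q`
such that `x ↦ (lam i x)_{i ∈ T}` is onto `μ^T`.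

The group-level corollary `exists_finset_of_forall_imp` is the abstract `T`-selection of the second
inequality.
-/

set_option autoImplicit false

namespace Fermat.Agent.CFT.C5.CharBasis

open Module

/-- **Selecting a basis of characters.** -/
theorem exists_finset_char_basis (p : ℕ) [hp : Fact p.Prime] {Q I : Type*} [CommGroup Q]
    [Finite Q] (hQ : ∀ x : Q, x ^ p = 1) (lam : I → (Q →* Multiplicative (ZMod p)))
    (hsep : ∀ x : Q, (∀ i, lam i x = 1) → x = 1) :
    ∃ T : Finset I, p ^ T.card = Nat.card Q ∧
      ∀ z : I → Multiplicative (ZMod p), ∃ x : Q, ∀ i ∈ T, lam i x = z i := by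
  classical
  have hV : ∀ x : Additive Q, p • x = 0 := fun x => by
    induction x using Additive.rec with
    | ofMul a => rw [← ofMul_pow, hQ, ofMul_one]
  let _ : Module (ZMod p) (Additive Q) := AddCommGroup.zmodModule (n := p) hV
  have hfinV : Finite (Additive Q) := inferInstanceAs (Finite Q)
  let g : I → (Additive Q →+ ZMod p) := fun i =>
    { toFun := fun x => Multiplicative.toAdd (lam i (Additive.toMul x))
      map_zero' := by simp
      map_add' := fun x y => by simp }
  let f : I → Module.Dual (ZMod p) (Additive Q) := fun i => (g i).toZModLinearMap p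
  have hf : ∀ i (x : Additive Q), f i x = Multiplicative.toAdd (lam i (Additive.toMul x)) :=
    fun i x => rfl
  let s : Set (Module.Dual (ZMod p) (Additive Q)) := Set.range f
  have hspan : Submodule.span (ZMod p) s = ⊤ := by
    have h1 : (Submodule.span (ZMod p) s).dualCoannihilator = ⊥ := by
      rw [eq_bot_iff]
      intro x hx
      rw [Submodule.mem_dualCoannihilator] at hx
      have h2 : Additive.toMul x = 1 := hsep _ fun i => by
        have h3 := hx (f i) (Submodule.subset_span ⟨i, rfl⟩)
        rw [hf] at h3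
        exact Multiplicative.toAdd.injective h3
      rw [Submodule.mem_bot]
      exact Additive.toMul.injective h2
    have h2 := Subspace.dualCoannihilator_dualAnnihilator_eq
      (W := Submodule.span (ZMod p) s)
    rw [h1, Submodule.dualAnnihilator_bot] at h2
    exact h2.symm
  obtain ⟨b, hbs, hbspan, hli⟩ := exists_linearIndependent (ZMod p) s
  have hbtop : ⊤ ≤ Submodule.span (ZMod p)
      (Set.range (Subtype.val : b → Module.Dual (ZMod p) (Additive Q))) := by
    rw [Subtype.range_coe, hbspan, hspan]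
  let bas : Basis b (ZMod p) (Module.Dual (ZMod p) (Additive Q)) := Basis.mk hli hbtop
  have : Fintype b := FiniteDimensional.fintypeBasisIndex bas
  have : Fintype (Additive Q) := Fintype.ofFinite _
  have hidx : ∀ x : b, ∃ i : I, f i = (x : Module.Dual (ZMod p) (Additive Q)) := fun x => hbs x.2
  choose idx hidx using hidx
  have hidx_inj : Function.Injective idx := by
    intro x y hxy
    apply Subtype.ext
    rw [← hidx x, ← hidx y, hxy]
  have hcardb : Fintype.card b = finrank (ZMod p) (Additive Q) := by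
    rw [← Module.finrank_eq_card_basis bas, Subspace.dual_finrank_eq]
  refine ⟨Finset.univ.image idx, ?_, ?_⟩
  · rw [Finset.card_image_of_injective _ hidx_inj, Finset.card_univ, hcardb]
    have h1 := Module.card_eq_pow_finrank (K := ZMod p) (V := Additive Q)
    rw [ZMod.card] at h1
    rw [← h1, ← Nat.card_eq_fintype_card]
    exact Nat.card_congr Additive.ofMul.symm
  · intro z
    -- the evaluation map `V → (b → ZMod p)`
    let Φ : Additive Q →ₗ[ZMod p] (b → ZMod p) :=
      LinearMap.pi fun x => (x : Module.Dual (ZMod p) (Additive Q))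
    have hΦinj : Function.Injective Φ := by
      rw [← LinearMap.ker_eq_bot, eq_bot_iff]
      intro v hv
      rw [LinearMap.mem_ker] at hv
      rw [Submodule.mem_bot, ← Module.forall_dual_apply_eq_zero_iff (ZMod p)]
      intro φ
      have hφ : φ ∈ Submodule.span (ZMod p)
          (Set.range (Subtype.val : b → Module.Dual (ZMod p) (Additive Q))) := hbtop trivial
      refine Submodule.span_induction ?_ ?_ ?_ ?_ hφ
      · rintro _ ⟨x, rfl⟩
        exact congrFun hv x
      · rfl
      · intro φ₁ φ₂ _ _ h₁ h₂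
        rw [LinearMap.add_apply, h₁, h₂, add_zero]
      · intro c φ₁ _ h₁
        rw [LinearMap.smul_apply, h₁, smul_zero]
    have hΦsurj : Function.Surjective Φ := by
      refine (LinearMap.injective_iff_surjective_of_finrank_eq_finrank ?_).mp hΦinj
      rw [Module.finrank_pi, hcardb]
    obtain ⟨v, hv⟩ := hΦsurj fun x => Multiplicative.toAdd (z (idx x))
    refine ⟨Additive.toMul v, fun i hi => ?_⟩
    obtain ⟨x, -, rfl⟩ := Finset.mem_image.mp hi
    have h1 := congrFun hv x
    change (x : Module.Dual (ZMod p) (Additive Q)) v = _ at h1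
    rw [← hidx x, hf] at h1
    exact Multiplicative.toAdd.injective h1

/-- every element of `Multiplicative (ZMod p)` is killed by `p` -/
theorem pow_eq_one_zmod (p : ℕ) (z : Multiplicative (ZMod p)) : z ^ p = 1 := by
  apply Multiplicative.toAdd.injective
  rw [toAdd_pow, toAdd_one, nsmul_eq_mul, ZMod.natCast_self, zero_mul]

/-- **The abstract `T`-selection of the second inequality.** `Δ` a commutative group with
`[Δ : Δ^p]` finite (the `S`-units), `d ∈ Δ` (the Kummer generator of `L/K`), `lam i` characters of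
`Δ` of exponent `p` (the places outside `S`; `lam i d = 1` iff `i` splits in `L`). If (`H`)
every `b ∈ Δ` which is trivial at all places splitting in `L` lies in `⟨d⟩ Δ^p`, then there is a
finite set `T` of places splitting in `L` with `p ^ #T = [Δ : ⟨d⟩ Δ^p]` such that
`b ↦ (lam i b)_{i ∈ T}` is onto. -/
theorem exists_finset_of_forall_imp (p : ℕ) [hp : Fact p.Prime] {Δ I : Type*} [CommGroup Δ]
    (hfin : (powMonoidHom p : Δ →* Δ).range.index ≠ 0) (d : Δ)
    (lam : I → (Δ →* Multiplicative (ZMod p)))
    (H : ∀ b : Δ, (∀ i, lam i d = 1 → lam i b = 1) → ∃ (j : ℕ) (c : Δ), b = d ^ j * c ^ p) :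
    ∃ T : Finset I, (∀ i ∈ T, lam i d = 1) ∧
      p ^ T.card = (Subgroup.zpowers d ⊔ (powMonoidHom p : Δ →* Δ).range).index ∧
      ∀ z : I → Multiplicative (ZMod p), ∃ b : Δ, ∀ i ∈ T, lam i b = z i := by
  classical
  set N : Subgroup Δ := Subgroup.zpowers d ⊔ (powMonoidHom p : Δ →* Δ).range with hN
  have hNidx : N.index ≠ 0 := fun h0 =>
    hfin (Nat.eq_zero_of_zero_dvd (h0 ▸ Subgroup.index_dvd_of_le (le_sup_right : _ ≤ N)))
  have : N.FiniteIndex := ⟨hNidx⟩
  have : Finite (Δ ⧸ N) := Subgroup.finite_quotient_of_finiteIndex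
  have hQ : ∀ x : Δ ⧸ N, x ^ p = 1 := by
    intro x
    induction x using QuotientGroup.induction_on with
    | H b =>
      rw [← QuotientGroup.mk_pow, QuotientGroup.eq_one_iff]
      exact Subgroup.mem_sup_right ⟨b, rfl⟩
  have hker : ∀ i : {i : I // lam i d = 1}, N ≤ (lam i.1).ker := by
    intro i
    refine sup_le ?_ ?_
    · rw [Subgroup.zpowers_le]
      exact i.2
    · rintro _ ⟨c, rfl⟩
      rw [MonoidHom.mem_ker, powMonoidHom_apply, map_pow]
      exact pow_eq_one_zmod p _
  let lam' : {i : I // lam i d = 1} → ((Δ ⧸ N) →* Multiplicative (ZMod p)) := fun i =>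
    QuotientGroup.lift N (lam i.1) (hker i)
  have hlam' : ∀ i b, lam' i (QuotientGroup.mk b) = lam i.1 b := fun i b => rfl
  have hsep : ∀ x : Δ ⧸ N, (∀ i, lam' i x = 1) → x = 1 := by
    intro x
    induction x using QuotientGroup.induction_on with
    | H b =>
      intro hb
      obtain ⟨j, c, rfl⟩ := H b fun i hi => hb ⟨i, hi⟩
      rw [QuotientGroup.eq_one_iff]
      exact Subgroup.mul_mem _ (Subgroup.mem_sup_left (Subgroup.pow_mem _
        (Subgroup.mem_zpowers d) j)) (Subgroup.mem_sup_right ⟨c, rfl⟩)
  obtain ⟨T', hcard, hT'⟩ := exists_finset_char_basis p hQ lam' hsep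
  refine ⟨T'.map (Function.Embedding.subtype _), ?_, ?_, ?_⟩
  · intro i hi
    obtain ⟨i', -, rfl⟩ := Finset.mem_map.mp hi
    exact i'.2
  · rw [Finset.card_map, hcard]
    rfl
  · intro z
    obtain ⟨x, hx⟩ := hT' fun i => z i.1
    obtain ⟨b, rfl⟩ := QuotientGroup.mk_surjective x
    refine ⟨b, fun i hi => ?_⟩
    obtain ⟨i', hi', rfl⟩ := Finset.mem_map.mp hi
    exact hx i' hi'

/-- `[Δ : Δ^p] = p · [Δ : ⟨d⟩ Δ^p]` when `d` is not a `p`-th power -/
theorem index_range_pow_eq_mul (p : ℕ) [hp : Fact p.Prime] {Δ : Type*} [CommGroup Δ] (d : Δ)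
    (hd : d ∉ (powMonoidHom p : Δ →* Δ).range) :
    (powMonoidHom p : Δ →* Δ).range.index =
      p * (Subgroup.zpowers d ⊔ (powMonoidHom p : Δ →* Δ).range).index := by
  set R : Subgroup Δ := (powMonoidHom p : Δ →* Δ).range with hR
  rw [← Subgroup.relIndex_mul_index (le_sup_right : R ≤ Subgroup.zpowers d ⊔ R)]
  congr 1
  have h2 : R.map (QuotientGroup.mk' R) = ⊥ := by
    rw [eq_bot_iff]
    rintro _ ⟨r, hr, rfl⟩
    rw [Subgroup.mem_bot]
    exact (QuotientGroup.eq_one_iff r).mpr hr
  have h3 : R.relIndex (Subgroup.zpowers d ⊔ R) =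
      Nat.card ((Subgroup.zpowers d ⊔ R).map (QuotientGroup.mk' R)) := by
    rw [← Subgroup.relIndex_ker, QuotientGroup.ker_mk']
  rw [h3, Subgroup.map_sup, MonoidHom.map_zpowers, h2, sup_bot_eq, Nat.card_zpowers]
  refine orderOf_eq_prime ?_ ?_
  · rw [← map_pow]
    exact (QuotientGroup.eq_one_iff _).mpr ⟨d, rfl⟩
  · intro h
    exact hd ((QuotientGroup.eq_one_iff d).mp h)

end Fermat.Agent.CFT.C5.CharBasis
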