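import Mathlib
import Fermat.Agent.CFT.Devissage

/-!
# p-primary class-formation dévissage (Project C, Layer C, slice C5 (c6)(γ))

Let `P` be a class of pairs `(G, A)` closed under restriction to subgroups and under passing to
`(G ⧸ S, A^S)` (as in `Devissage.devissage`).  Assume that for every pair in `P` with `|G| = p`
one has `H¹(G, A) = 0` and `|H²(G, A)| ∣ p`.  Then

* `devissage_pGroup`      : for every finite `p`-group in `P`: `H¹ = 0` and `|H²| ∣ |G|`;
* `eq_zero_of_pow_nsmul_H1`, `exists_coprime_nsmul_H1` : for every finite group in `P`, `H¹(G, A)`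
  has no `p`-torsion (every class is killed by an integer prime to `p`);
* `card_pPrimary_H2_dvd`  : for every finite group in `P`, the `p`-primary part of `H²(G, A)` has
  order dividing `p ^ v_p(|G|)`.

(`pPrimary p X` is the subgroup of elements killed by a power of `p`.)
-/

set_option autoImplicit false
set_option linter.unusedSectionVars false

noncomputable section

namespace Fermat.Agent.CFT.C5.DevissageP

open groupCohomology CategoryTheory Rep
open Fermat.Agent.CFT

universe u

/-- The `p`-primary part of an additive commutative group. -/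
def pPrimary (p : ℕ) (X : Type*) [AddCommGroup X] : AddSubgroup X where
  carrier := {x | ∃ m : ℕ, p ^ m • x = 0}
  zero_mem' := ⟨0, smul_zero _⟩
  add_mem' := by
    rintro x y ⟨m, hm⟩ ⟨n, hn⟩
    refine ⟨m + n, ?_⟩
    rw [smul_add, pow_add, mul_smul, mul_smul, smul_comm (p ^ m) (p ^ n) x, hm, hn, smul_zero,
      smul_zero, add_zero]
  neg_mem' := by
    rintro x ⟨m, hm⟩
    exact ⟨m, by rw [smul_neg, hm, neg_zero]⟩

theorem mem_pPrimary {p : ℕ} {X : Type*} [AddCommGroup X] {x : X} :
    x ∈ pPrimary p X ↔ ∃ m : ℕ, p ^ m • x = 0 := Iff.rfl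

variable {k : Type u} [CommRing k]

section

variable (p : ℕ) [hp : Fact p.Prime]
  (P : ∀ (G : Type u) [Group G], Rep.{u} k G → Prop)
  (hres : ∀ (G : Type u) [Group G] (A : Rep.{u} k G) (S : Subgroup G),
    P G A → P S (res S.subtype A))
  (hquot : ∀ (G : Type u) [Group G] (A : Rep.{u} k G) (S : Subgroup G) [S.Normal],
    P G A → P (G ⧸ S) (A.quotientToInvariants S))
  (hprime : ∀ (G : Type u) [Group G] (A : Rep.{u} k G), P G A → Nat.card G = p →
    Subsingleton (groupCohomology A 1) ∧ Nat.card (groupCohomology A 2) ∣ p)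

include hres hquot hprime in
/-- **Dévissage for `p`-groups**: the input is only needed for groups of order `p`. -/
theorem devissage_pGroup (G : Type u) [Group G] [Finite G] (hG : IsPGroup p G)
    (A : Rep.{u} k G) (hA : P G A) :
    Subsingleton (groupCohomology A 1) ∧ Nat.card (groupCohomology A 2) ∣ Nat.card G := by
  have : Group.IsNilpotent G := hG.isNilpotent
  refine Devissage.devissage (fun G _ A => P G A ∧ IsPGroup p G)
    (fun G _ A S h => ⟨hres G A S h.1, h.2.to_subgroup S⟩)
    (fun G _ A S _ h => ⟨hquot G A S h.1, h.2.to_quotient S⟩)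
    (fun G _ A h hpr => ?_) G A ⟨hA, hG⟩
  have hfin : Finite G := Nat.finite_of_card_ne_zero hpr.ne_zero
  obtain ⟨n, hn⟩ := h.2.exists_card_eq
  have hcard : Nat.card G = p := by
    rw [hn] at hpr ⊢
    rw [Nat.Prime.eq_one_of_pow hpr, pow_one]
  have := hprime G A h.1 hcard
  rwa [hcard]

include hres hquot hprime in
/-- **`p`-primary dévissage, `H¹`**: for every finite group in the class, `H¹` has no
`p`-torsion. -/
theorem eq_zero_of_pow_nsmul_H1 (G : Type u) [Group G] [Finite G] (A : Rep.{u} k G)
    (hA : P G A) (x : groupCohomology A 1) (m : ℕ) (hm : p ^ m • x = 0) : x = 0 := by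
  obtain ⟨Q⟩ : Nonempty (Sylow p G) := inferInstance
  have h1 := (devissage_pGroup p P hres hquot hprime (Q : Subgroup G) Q.isPGroup'
    (res (Q : Subgroup G).subtype A) (hres G A _ hA)).1
  exact A1.eq_zero_of_pow_nsmul_of_rest_sylow A 1 x p m hm Q (Subsingleton.elim _ _)

include hres hquot hprime in
/-- the same in the "prime-to-`p` annihilator" form -/
theorem exists_coprime_nsmul_H1 (G : Type u) [Group G] [Finite G] (A : Rep.{u} k G)
    (hA : P G A) (x : groupCohomology A 1) : ∃ s : ℕ, ¬ p ∣ s ∧ s • x = 0 := by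
  have hcard : Nat.card G • x = 0 := A1.card_nsmul_eq_zero A 0 x
  have hne : Nat.card G ≠ 0 := Nat.card_pos.ne'
  obtain ⟨m, s, hs, hms⟩ := Nat.exists_eq_pow_mul_and_not_dvd hne p hp.out.ne_one
  refine ⟨s, hs, ?_⟩
  apply eq_zero_of_pow_nsmul_H1 p P hres hquot hprime G A hA (s • x) m
  rw [← mul_smul, ← hms, hcard]

include hres hquot hprime in
/-- **`p`-primary dévissage, `H²`**: for every finite group in the class, the `p`-primary part of
`H²` has order dividing the `p`-part of `|G|`. -/
theorem card_pPrimary_H2_dvd (G : Type u) [Group G] [Finite G] (A : Rep.{u} k G)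
    (hA : P G A) :
    Nat.card (pPrimary p (groupCohomology A 2)) ∣ p ^ (Nat.card G).factorization p := by
  obtain ⟨Q⟩ : Nonempty (Sylow p G) := inferInstance
  have h2 := (devissage_pGroup p P hres hquot hprime (Q : Subgroup G) Q.isPGroup'
    (res (Q : Subgroup G).subtype A) (hres G A _ hA)).2
  rw [Sylow.card_eq_multiplicity] at h2
  refine dvd_trans ?_ h2
  let F : pPrimary p (groupCohomology A 2) →+
      groupCohomology (res (Q : Subgroup G).subtype A) 2 :=
    ((A1.rest (Q : Subgroup G) A 2).hom.toAddMonoidHom).comp (pPrimary p _).subtype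
  apply AddSubgroup.card_dvd_of_injective F
  rw [injective_iff_map_eq_zero]
  rintro ⟨x, m, hm⟩ hx
  apply Subtype.ext
  exact A1.eq_zero_of_pow_nsmul_of_rest_sylow A 2 x p m hm Q hx

end

end Fermat.Agent.CFT.C5.DevissageP
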