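import Mathlib
import Fermat.Agent.CFT.BrauerUpper
import Fermat.Agent.CFT.Idele.ClassDescent
import Fermat.Agent.CFT.C5.DevissageP

/-!
# Dévissage for idele class groups (Project C, Layer C, slice C5 (c6)(γ), idele instance)

In helper11's model (`C M`, `repC M`, `galHom K M`), with helper17's `PairIso` vocabulary:

* `classRep K M : Rep ℤ Gal(M/K)` := `Rep.res (galHom K M) (repC M)` (the idele class group of `M`
  as a `Gal(M/K)`-module), for number fields `K ⊆ M`;
* `pairIso_res_class H`  : `(H, C_M) ≅ (Gal(M/M^H), C_M)`;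
* `pairIso_quot_class H` : `(Gal(M/K) ⧸ H, (C_M)^H) ≅ (Gal(M^H/K), C_{M^H})` (Galois descent);
* `IsClassLayer`, closed under restriction and quotients;
* MAIN: if for every Galois extension `M/K` of number fields of degree `p` one has
  `H¹(Gal(M/K), C_M) = 0` and `|H²(Gal(M/K), C_M)| ∣ p` (first + second inequality), then for every
  finite Galois extension `M/K` of number fields and every subgroup `H ≤ Gal(M/K)`:
  `H¹(H, C_M)` has no `p`-torsion (`eq_zero_of_pow_nsmul_H1`, `exists_coprime_nsmul_H1`) and the
  `p`-primary part of `H²(H, C_M)` has order dividing `|H|_p` (`card_pPrimary_H2_dvd`);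
  for `p`-extensions `H¹ = 0` and `|H²| ∣ [M:K]` (`h1_h2_of_isPGroup`).
-/

set_option autoImplicit false
set_option linter.unusedSectionVars false

noncomputable section

namespace Fermat.Agent.CFT.C5.ClassDevissage

open groupCohomology CategoryTheory Rep IntermediateField
open Fermat.Agent.CFT Fermat.Agent.CFT.Idele Fermat.Agent.CFT.BrauerUpper
open Fermat.Agent.CFT.C5.DevissageP

section Galois

variable (K M : Type) [Field K] [Field M] [NumberField K] [NumberField M] [Algebra K M]

/-- The idele class group `C_M` as a representation of `Gal(M/K)`. -/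
abbrev classRep : Rep.{0} ℤ (M ≃ₐ[K] M) := Rep.res (galHom K M) (repC M)

variable {K M}

/-- `(H, C_M)` is the pair of the extension `M / M^H`. -/
theorem pairIso_res_class (H : Subgroup (M ≃ₐ[K] M)) :
    PairIso (Rep.res H.subtype (classRep K M)) (classRep (fixedField H) M) :=
  ⟨subgroupEquivAlgEquiv H, AddEquiv.refl _, fun _ _ => rfl⟩

variable [IsGalois K M]

/-- The map `C_{M^H} → (C_M)^H`. -/
def classToInvariants (H : Subgroup (M ≃ₐ[K] M)) [H.Normal] :
    Additive (C ↥(fixedField H)) →+ ((classRep K M).quotientToInvariants H).V where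
  toFun x := ⟨Additive.ofMul (C.map (inclHom ↥(fixedField H) M) x.toMul), fun h => by
    change Additive.ofMul (galHom K M h.1 • C.map (inclHom ↥(fixedField H) M) x.toMul) = _
    congr 1
    apply C.smul_map_of_fixes
    intro a
    exact (mem_fixedField_iff H _).1 a.2 h.1 h.2⟩
  map_zero' := Subtype.ext (by simp only [toMul_zero, map_one]; rfl)
  map_add' u v := Subtype.ext (by simp only [toMul_add, map_mul]; rfl)

theorem classToInvariants_bijective (H : Subgroup (M ≃ₐ[K] M)) [H.Normal] :
    Function.Bijective (classToInvariants H) := by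
  constructor
  · intro u v huv
    have h1 : C.map (inclHom ↥(fixedField H) M) u.toMul =
        C.map (inclHom ↥(fixedField H) M) v.toMul :=
      congrArg (fun x => Additive.toMul x.1) huv
    exact congrArg Additive.ofMul (C.map_inclHom_injective ↥(fixedField H) M h1)
  · rintro ⟨a, ha⟩
    have hfix : ∀ σ : M ≃ₐ[↥(fixedField H)] M,
        galHom ↥(fixedField H) M σ • (Additive.toMul a : C M) = Additive.toMul a := by
      intro σ
      have hσ : (σ.restrictScalars K) ∈ H := by
        have := (subgroupEquivAlgEquiv H).surjective σ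
        obtain ⟨h, rfl⟩ := this
        exact h.2
      exact congrArg Additive.toMul (ha ⟨σ.restrictScalars K, hσ⟩)
    obtain ⟨y, hy⟩ := C.mem_range_map_inclHom ↥(fixedField H) M (Additive.toMul a) hfix
    exact ⟨Additive.ofMul y, Subtype.ext (congrArg Additive.ofMul hy)⟩

/-- `(Gal(M^H/K), C_{M^H}) ≅ (Gal(M/K) ⧸ H, (C_M)^H)`. -/
theorem pairIso_quot_class_symm (H : Subgroup (M ≃ₐ[K] M)) [H.Normal] :
    PairIso (classRep K ↥(fixedField H)) ((classRep K M).quotientToInvariants H) := by
  refine ⟨(IsGalois.normalAutEquivQuotient H).symm,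
    AddEquiv.ofBijective (classToInvariants H) (classToInvariants_bijective H),
    fun σ (u : Additive (C ↥(fixedField H))) => ?_⟩
  obtain ⟨q, rfl⟩ := (IsGalois.normalAutEquivQuotient H).surjective σ
  rw [MulEquiv.symm_apply_apply]
  induction q using QuotientGroup.induction_on with | @H g =>
  apply Subtype.ext
  apply Additive.toMul.injective
  change C.map (inclHom ↥(fixedField H) M)
      (galHom K ↥(fixedField H) (IsGalois.normalAutEquivQuotient H (g : (M ≃ₐ[K] M) ⧸ H)) •
        Additive.toMul u) =
    galHom K M g • C.map (inclHom ↥(fixedField H) M) (Additive.toMul u)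
  apply C.map_smul
  intro a
  rw [IsGalois.normalAutEquivQuotient_apply]
  exact (AlgEquiv.restrictNormal_commutes g (fixedField H) a).symm

/-- `(Gal(M/K) ⧸ H, (C_M)^H)` is the pair of the extension `M^H / K`. -/
theorem pairIso_quot_class (H : Subgroup (M ≃ₐ[K] M)) [H.Normal] :
    PairIso ((classRep K M).quotientToInvariants H) (classRep K ↥(fixedField H)) :=
  (pairIso_quot_class_symm H).symm

end Galois

section Layer

/-- The class of pairs `(G, A)` isomorphic to `(Gal(M/K), C_M)` for a finite Galois extension
`M/K` of fields algebraic over `ℚ`. -/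
def IsClassLayer (G : Type) [Group G] (A : Rep.{0} ℤ G) : Prop :=
  ∃ (K M : Type) (_ : Field K) (_ : Field M) (_ : NumberField K) (_ : NumberField M)
    (_ : Algebra K M) (_ : IsGalois K M), PairIso A (classRep K M)

theorem isClassLayer_self (K M : Type) [Field K] [Field M] [NumberField K] [NumberField M]
    [Algebra K M] [IsGalois K M] : IsClassLayer (M ≃ₐ[K] M) (classRep K M) :=
  ⟨K, M, _, _, ‹_›, ‹_›, _, ‹_›, PairIso.refl _⟩

theorem isClassLayer_res (G : Type) [Group G] (A : Rep.{0} ℤ G) (S : Subgroup G)
    (hA : IsClassLayer G A) : IsClassLayer S (Rep.res S.subtype A) := by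
  obtain ⟨K, M, _, _, _, _, _, _, e, e', he⟩ := hA
  exact ⟨↥(fixedField (S.map (e : G →* (M ≃ₐ[K] M)))), M, inferInstance, inferInstance,
    inferInstance, inferInstance, inferInstance, inferInstance,
    (PairIso.res e e' he S).trans (pairIso_res_class _)⟩

theorem isClassLayer_quot (G : Type) [Group G] (A : Rep.{0} ℤ G) (S : Subgroup G) [S.Normal]
    (hA : IsClassLayer G A) : IsClassLayer (G ⧸ S) (A.quotientToInvariants S) := by
  obtain ⟨K, M, _, _, _, _, _, _, e, e', he⟩ := hA
  have : (S.map (e : G →* (M ≃ₐ[K] M))).Normal := Subgroup.Normal.map ‹_› _ e.surjective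
  exact ⟨K, ↥(fixedField (S.map (e : G →* (M ≃ₐ[K] M)))), inferInstance, inferInstance,
    inferInstance, inferInstance, inferInstance, inferInstance,
    (PairIso.quot e e' he S _ rfl).trans (pairIso_quot_class _)⟩

variable (p : ℕ) [hp : Fact p.Prime]
  (hprime : ∀ (K M : Type) [Field K] [Field M] [NumberField K] [NumberField M] [Algebra K M]
    [IsGalois K M], Module.finrank K M = p →
    Subsingleton (groupCohomology (classRep K M) 1) ∧
      Nat.card (groupCohomology (classRep K M) 2) ∣ p)

include hprime in
theorem isClassLayer_prime (G : Type) [Group G] (A : Rep.{0} ℤ G) (hA : IsClassLayer G A)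
    (hG : Nat.card G = p) :
    Subsingleton (groupCohomology A 1) ∧ Nat.card (groupCohomology A 2) ∣ p := by
  obtain ⟨K, M, _, _, _, _, _, _, hiso⟩ := hA
  have hcard : Module.finrank K M = p := by
    rw [← IsGalois.card_aut_eq_finrank, ← hiso.card_group, hG]
  obtain ⟨h1, h2⟩ := hprime K M hcard
  exact ⟨hiso.subsingleton 1, by rwa [hiso.card_eq 2]⟩

variable (K M : Type) [Field K] [Field M] [NumberField K] [NumberField M] [Algebra K M]
  [IsGalois K M]

include hprime in
/-- **(I2), `H¹`**: for every subgroup `H ≤ Gal(M/K)`, `H¹(H, C_M)` has no `p`-torsion. -/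
theorem eq_zero_of_pow_nsmul_H1 (H : Subgroup (M ≃ₐ[K] M))
    (x : groupCohomology (Rep.res H.subtype (classRep K M)) 1) (m : ℕ) (hm : p ^ m • x = 0) :
    x = 0 :=
  DevissageP.eq_zero_of_pow_nsmul_H1 (k := ℤ) p (fun G _ A => IsClassLayer G A)
    (fun G _ A S hA => isClassLayer_res G A S hA)
    (fun G _ A S _ hA => isClassLayer_quot G A S hA)
    (fun G _ A hA hG => isClassLayer_prime p hprime G A hA hG)
    H _ (isClassLayer_res _ _ H (isClassLayer_self K M)) x m hm

include hprime in
/-- **(I2), `H¹`**, annihilator form (the `h1` hypothesis of `isClassModule_of_isLocRep`). -/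
theorem exists_coprime_nsmul_H1 (H : Subgroup (M ≃ₐ[K] M))
    (x : groupCohomology (Rep.res H.subtype (classRep K M)) 1) : ∃ s : ℕ, ¬ p ∣ s ∧ s • x = 0 :=
  DevissageP.exists_coprime_nsmul_H1 (k := ℤ) p (fun G _ A => IsClassLayer G A)
    (fun G _ A S hA => isClassLayer_res G A S hA)
    (fun G _ A S _ hA => isClassLayer_quot G A S hA)
    (fun G _ A hA hG => isClassLayer_prime p hprime G A hA hG)
    H _ (isClassLayer_res _ _ H (isClassLayer_self K M)) x

include hprime in
/-- **(I2), `H²`**: for every subgroup `H ≤ Gal(M/K)`, the `p`-primary part of `H²(H, C_M)` has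
order dividing the `p`-part of `|H|`. -/
theorem card_pPrimary_H2_dvd (H : Subgroup (M ≃ₐ[K] M)) :
    Nat.card (pPrimary p (groupCohomology (Rep.res H.subtype (classRep K M)) 2)) ∣
      p ^ (Nat.card H).factorization p :=
  DevissageP.card_pPrimary_H2_dvd (k := ℤ) p (fun G _ A => IsClassLayer G A)
    (fun G _ A S hA => isClassLayer_res G A S hA)
    (fun G _ A S _ hA => isClassLayer_quot G A S hA)
    (fun G _ A hA hG => isClassLayer_prime p hprime G A hA hG)
    H _ (isClassLayer_res _ _ H (isClassLayer_self K M))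

include hprime in
/-- the whole group: `H¹(Gal(M/K), C_M)` has no `p`-torsion -/
theorem eq_zero_of_pow_nsmul_H1_top (x : groupCohomology (classRep K M) 1) (m : ℕ)
    (hm : p ^ m • x = 0) : x = 0 :=
  DevissageP.eq_zero_of_pow_nsmul_H1 (k := ℤ) p (fun G _ A => IsClassLayer G A)
    (fun G _ A S hA => isClassLayer_res G A S hA)
    (fun G _ A S _ hA => isClassLayer_quot G A S hA)
    (fun G _ A hA hG => isClassLayer_prime p hprime G A hA hG)
    _ _ (isClassLayer_self K M) x m hm

include hprime in
/-- the whole group: `|H²(Gal(M/K), C_M)(p)|` divides `[M:K]_p` -/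
theorem card_pPrimary_H2_dvd_top :
    Nat.card (pPrimary p (groupCohomology (classRep K M) 2)) ∣
      p ^ (Module.finrank K M).factorization p := by
  have := DevissageP.card_pPrimary_H2_dvd (k := ℤ) p (fun G _ A => IsClassLayer G A)
    (fun G _ A S hA => isClassLayer_res G A S hA)
    (fun G _ A S _ hA => isClassLayer_quot G A S hA)
    (fun G _ A hA hG => isClassLayer_prime p hprime G A hA hG)
    _ _ (isClassLayer_self K M)
  rwa [IsGalois.card_aut_eq_finrank] at this

include hprime in
/-- `p`-extensions: if `[M:K]` is a power of `p` then `H¹(Gal(M/K), C_M) = 0` and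
`|H²(Gal(M/K), C_M)|` divides `[M:K]`. -/
theorem h1_h2_of_isPGroup (hG : IsPGroup p (M ≃ₐ[K] M)) :
    Subsingleton (groupCohomology (classRep K M) 1) ∧
      Nat.card (groupCohomology (classRep K M) 2) ∣ Module.finrank K M := by
  have := DevissageP.devissage_pGroup (k := ℤ) p (fun G _ A => IsClassLayer G A)
    (fun G _ A S hA => isClassLayer_res G A S hA)
    (fun G _ A S _ hA => isClassLayer_quot G A S hA)
    (fun G _ A hA hG => isClassLayer_prime p hprime G A hA hG)
    _ hG _ (isClassLayer_self K M)
  rwa [IsGalois.card_aut_eq_finrank] at this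

end Layer

end Fermat.Agent.CFT.C5.ClassDevissage
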