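import Mathlib
import Fermat.Agent.CFT.Herbrand
import Fermat.Agent.CFT.Idele.ClassDescent

/-!
# Coprime-degree reduction for norm indices (Project C, Layer C, slice C5 (c6)(α))

The `μ_p`-adjunction step of the second inequality: to bound `[C_K : N C_M]` for `M/K` cyclic of
degree `p` one may pass to `M K'/K'` with `K' = K(μ_p)` of degree prime to `p`.

* `exists_nrm_eq_of_coprime` : abstract key lemma (`σ`-fixed elements of `A'` that are norms from
  `A` are norms from `A'`, when a trace `T : A → A'` of degree prime to `n` commutes with `σ`);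
* `idx_dvd_of_coprime`       : `idx (σ-1) N` on `B ↪ A` divides the one on `A` (Herbrand language);
* `commute_of_fixes`         : in `M' = F₁F₂` (both normal over `K`) `Gal(M'/F₂)` and `Gal(M'/F₁)`
  commute elementwise;
* `actC L τ` : the action of `τ` on `Additive (C L)` (helper11's idele class group);
* `idx_actC_dvd` : **the idele class instance**: `M'/M` Galois of degree prime to `n`, `g'`
  extending `g`, of order dividing `n`, commuting with `Gal(M'/M)`:
  `idx (delta (actC M g)) (nrm (actC M g) n) ∣ idx (delta (actC M' g')) (nrm (actC M' g') n)`.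
-/

set_option autoImplicit false

namespace Fermat.Agent.CFT.C5.CoprimeReduction

open Fermat.Agent.CFT.Herbrand

variable {A B : Type*} [AddCommGroup A] [AddCommGroup B]

/-- an endomorphism commuting with `σ` commutes with its iterates -/
theorem comm_iterate (σ T : A →+ A) (hTσ : ∀ a, T (σ a) = σ (T a)) (i : ℕ) (a : A) :
    T (σ^[i] a) = σ^[i] (T a) := by
  induction i generalizing a with
  | zero => rfl
  | succ i ih => rw [Function.iterate_succ_apply, Function.iterate_succ_apply, ih, hTσ]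

/-- an endomorphism commuting with `σ` commutes with the norm -/
theorem comm_nrm (σ T : A →+ A) (hTσ : ∀ a, T (σ a) = σ (T a)) (n : ℕ) (a : A) :
    T (nrm σ n a) = nrm σ n (T a) := by
  rw [nrm_apply, nrm_apply, map_sum]
  exact Finset.sum_congr rfl fun i _ => comm_iterate σ T hTσ i a

theorem iterate_of_fixed (σ : A →+ A) (x : A) (hx : σ x = x) (i : ℕ) : σ^[i] x = x :=
  Function.iterate_fixed hx i

theorem nrm_of_fixed (σ : A →+ A) (n : ℕ) (x : A) (hx : σ x = x) : nrm σ n x = n • x := by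
  rw [nrm_apply, Finset.sum_congr rfl fun i _ => iterate_of_fixed σ x hx i, Finset.sum_const,
    Finset.card_range]

/-- **Key lemma.**  `σ` of "order" `n`, `T` a "trace" of degree `d` prime to `n` onto a
`σ`-stable subgroup `A'` (`T a ∈ A'`, `T = d` on `A'`, `T σ = σ T`).  A `σ`-fixed element of `A'`
which is a norm from `A` is a norm from `A'`. -/
theorem exists_nrm_eq_of_coprime (σ : A →+ A) (n d : ℕ) (hcop : n.Coprime d)
    (A' : AddSubgroup A) (T : A →+ A) (hT : ∀ a, T a ∈ A') (hTd : ∀ a ∈ A', T a = d • a)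
    (hTσ : ∀ a, T (σ a) = σ (T a)) (x : A) (hx : x ∈ A') (hxσ : σ x = x) (y : A)
    (hy : nrm σ n y = x) : ∃ z ∈ A', nrm σ n z = x := by
  have h1 : nrm σ n (T y) = d • x := by
    rw [← comm_nrm σ T hTσ, hy, hTd x hx]
  have h2 : nrm σ n x = n • x := nrm_of_fixed σ n x hxσ
  have hb : (n : ℤ) * Nat.gcdA n d + (d : ℤ) * Nat.gcdB n d = 1 := by
    have := Nat.gcd_eq_gcd_ab n d
    rw [hcop.gcd_eq_one] at this
    exact_mod_cast this.symm
  refine ⟨Nat.gcdA n d • x + Nat.gcdB n d • T y,
    A'.add_mem (A'.zsmul_mem hx _) (A'.zsmul_mem (hT y) _), ?_⟩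
  rw [map_add, map_zsmul, map_zsmul, h1, h2, ← natCast_zsmul, ← natCast_zsmul, ← mul_smul,
    ← mul_smul, ← add_smul, mul_comm _ (n : ℤ), mul_comm _ (d : ℤ), hb, one_smul]

/-- **Coprime-degree reduction.**  `ι : B → A` injective and `(σ, σ')`-equivariant, `T` a trace
of degree `d` prime to `n` from `A` onto `ι(B)`; `σ'^n = 1`.  Then the norm index
`[ker(σ - 1) : N B]` of `B` divides that of `A`. -/
theorem idx_dvd_of_coprime (σ : B →+ B) (σ' : A →+ A) (n d : ℕ) (hcop : n.Coprime d)
    (hσ' : ∀ a, σ'^[n] a = a)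
    (ι : B →+ A) (hι : Function.Injective ι) (hισ : ∀ b, ι (σ b) = σ' (ι b))
    (T : A →+ A) (hT : ∀ a, T a ∈ ι.range) (hTd : ∀ b, T (ι b) = d • ι b)
    (hTσ : ∀ a, T (σ' a) = σ' (T a)) :
    idx (delta σ) (nrm σ n) ∣ idx (delta σ') (nrm σ' n) := by
  have hδ : ∀ b, ι (delta σ b) = delta σ' (ι b) := fun b => by
    rw [delta_apply, delta_apply, map_sub, hισ]
  have hiter : ∀ (i : ℕ) (b : B), ι (σ^[i] b) = σ'^[i] (ι b) := by
    intro i
    induction i with
    | zero => intro b; rfl
    | succ i ih =>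
      intro b
      rw [Function.iterate_succ_apply, Function.iterate_succ_apply, ih, hισ]
  have hN : ∀ b, ι (nrm σ n b) = nrm σ' n (ι b) := fun b => by
    rw [nrm_apply, nrm_apply, map_sum]
    exact Finset.sum_congr rfl fun i _ => hiter i b
  rw [idx_eq_idxSub ι hι (delta σ) (nrm σ n) (delta σ') (nrm σ' n) hδ hN, idxSub, idx]
  set X := (delta σ').ker ⊓ ι.range with hX
  set R' := (nrm σ' n).range with hR'
  set R'' := ι.range.map (nrm σ' n) with hR''
  have hR''R' : R'' ≤ R' := by
    rintro _ ⟨a, -, rfl⟩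
    exact ⟨a, rfl⟩
  have hR''X : R'' ≤ X := by
    rintro _ ⟨_, ⟨b, rfl⟩, rfl⟩
    refine ⟨?_, ?_⟩
    · exact (AddMonoidHom.mem_ker).mpr (delta_nrm_eq_zero σ' n hσ' _)
    · exact ⟨nrm σ n b, hN b⟩
  have hXR' : X ⊓ R' ≤ R'' := by
    rintro x ⟨⟨hxδ, hxA'⟩, ⟨y, hy⟩⟩
    have hxσ : σ' x = x := by
      have := (AddMonoidHom.mem_ker).mp hxδ
      rwa [delta_apply, sub_eq_zero] at this
    obtain ⟨z, hz, hzx⟩ := exists_nrm_eq_of_coprime σ' n d hcop ι.range T hT
      (by rintro _ ⟨b, rfl⟩; exact hTd b) hTσ x hxA' hxσ y hy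
    exact ⟨z, hz, hzx⟩
  have h1 : R''.relIndex X = R'.relIndex X := by
    rw [← AddSubgroup.inf_relIndex_right R' X, ← AddSubgroup.inf_relIndex_right R'' X]
    congr 1
    apply le_antisymm
    · exact inf_le_inf_right _ hR''R'
    · rw [inf_comm]
      exact le_inf hXR' (inf_le_left)
  rw [h1]
  have hXk : X ≤ (delta σ').ker := inf_le_left
  have h2 : R'.relIndex X = R'.relIndex (R' ⊔ X) := (AddSubgroup.relIndex_sup_left X R').symm
  have hR'k : R' ≤ (delta σ').ker := by
    rintro _ ⟨a, rfl⟩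
    exact (AddMonoidHom.mem_ker).mpr (delta_nrm_eq_zero σ' n hσ' _)
  rw [h2, ← AddSubgroup.relIndex_mul_relIndex R' (R' ⊔ X) (delta σ').ker le_sup_left
    (sup_le hR'k hXk)]
  exact dvd_mul_right _ _

/-! ### Commuting automorphisms of a compositum -/

/-- In `M' = F₁ F₂` with `F₁`, `F₂` normal over `K`: an automorphism fixing `F₂` commutes with
an automorphism fixing `F₁`. -/
theorem commute_of_fixes {K M' : Type*} [Field K] [Field M'] [Algebra K M']
    [Algebra.IsAlgebraic K M'] (F₁ F₂ : IntermediateField K M') [Normal K F₁] [Normal K F₂]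
    (h : F₁ ⊔ F₂ = ⊤) (a b : M' ≃ₐ[K] M') (ha : ∀ x ∈ F₂, a x = x) (hb : ∀ x ∈ F₁, b x = x) :
    a * b = b * a := by
  have hadj : Algebra.adjoin K ((F₁ : Set M') ∪ (F₂ : Set M')) = ⊤ := by
    have h1 := IntermediateField.sup_toSubalgebra_of_isAlgebraic_right F₁ F₂
    rw [h, IntermediateField.top_toSubalgebra] at h1
    rw [Algebra.adjoin_union, h1]
    congr 1
    · exact Algebra.adjoin_eq F₁.toSubalgebra
    · exact Algebra.adjoin_eq F₂.toSubalgebra
  have hmem₁ : ∀ x ∈ F₁, a x ∈ F₁ := fun x hx => by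
    have := AlgEquiv.restrictNormal_commutes a F₁ ⟨x, hx⟩
    rw [← show algebraMap F₁ M' ⟨x, hx⟩ = x from rfl, ← this]
    exact (a.restrictNormal F₁ ⟨x, hx⟩).2
  have hmem₂ : ∀ x ∈ F₂, b x ∈ F₂ := fun x hx => by
    have := AlgEquiv.restrictNormal_commutes b F₂ ⟨x, hx⟩
    rw [← show algebraMap F₂ M' ⟨x, hx⟩ = x from rfl, ← this]
    exact (b.restrictNormal F₂ ⟨x, hx⟩).2
  have : ((a * b : M' ≃ₐ[K] M') : M' →ₐ[K] M') = ((b * a : M' ≃ₐ[K] M') : M' →ₐ[K] M') := by
    apply AlgHom.ext_of_adjoin_eq_top hadj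
    rintro x (hx | hx)
    · change a (b x) = b (a x)
      rw [hb x hx, hb _ (hmem₁ x hx)]
    · change a (b x) = b (a x)
      rw [ha x hx, ha _ (hmem₂ x hx)]
  ext x
  exact DFunLike.congr_fun this x

/-! ### The idele class instance -/

section Idele

open Fermat.Agent.CFT.Idele

/-- the action of an automorphism on the idele class group, additively -/
noncomputable def actC (L : Type*) [Field L] [Algebra ℚ L] [Algebra.IsAlgebraic ℚ L]
    (τ : L ≃ₐ[ℚ] L) : Additive (C L) →+ Additive (C L) :=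
  MonoidHom.toAdditive (MulDistribMulAction.toMonoidHom (C L) τ)

theorem actC_apply (L : Type*) [Field L] [Algebra ℚ L] [Algebra.IsAlgebraic ℚ L]
    (τ : L ≃ₐ[ℚ] L) (x : Additive (C L)) : actC L τ x = Additive.ofMul (τ • x.toMul) := rfl

theorem actC_iterate (L : Type*) [Field L] [Algebra ℚ L] [Algebra.IsAlgebraic ℚ L]
    (τ : L ≃ₐ[ℚ] L) (i : ℕ) (x : Additive (C L)) :
    (actC L τ)^[i] x = Additive.ofMul ((τ ^ i) • x.toMul) := by
  induction i generalizing x with
  | zero => simp
  | succ i ih =>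
    rw [Function.iterate_succ_apply', ih, actC_apply, pow_succ', mul_smul]
    rfl

variable (M M' : Type*) [Field M] [Field M'] [Algebra ℚ M] [Algebra ℚ M'] [Algebra M M']
  [IsScalarTower ℚ M M'] [Algebra.IsAlgebraic ℚ M] [Algebra.IsAlgebraic ℚ M']
  [FiniteDimensional M M'] [IsGalois M M']

/-- **(α) for idele class groups.**  `M'/M` finite Galois of degree prime to `n`; `g'` an
automorphism of `M'` of order dividing `n`, restricting to `g` on `M` and commuting with
`Gal(M'/M)`.  Then the norm index `[C_M^{g} : N_g C_M]` divides `[C_{M'}^{g'} : N_{g'} C_{M'}]`.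
(Second inequality for `M/K` from the one for `M K(μ_p)/K(μ_p)`.) -/
theorem idx_actC_dvd (n : ℕ) (hcop : n.Coprime (Module.finrank M M'))
    (g : M ≃ₐ[ℚ] M) (g' : M' ≃ₐ[ℚ] M') (hg : ∀ a : M, g' (algebraMap M M' a) = algebraMap M M' (g a))
    (hg'n : g' ^ n = 1) (hcomm : ∀ δ : M' ≃ₐ[M] M', g' * galHom M M' δ = galHom M M' δ * g') :
    idx (delta (actC M g)) (nrm (actC M g) n) ∣ idx (delta (actC M' g')) (nrm (actC M' g') n) := by
  classical
  have : Fintype (M' ≃ₐ[M] M') := Fintype.ofFinite _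
  -- the inclusion
  let ι : Additive (C M) →+ Additive (C M') := MonoidHom.toAdditive (C.map (inclHom M M'))
  have hι : Function.Injective ι := fun x y h =>
    congrArg Additive.ofMul (C.map_inclHom_injective M M' (congrArg Additive.toMul h))
  -- the trace
  let T : Additive (C M') →+ Additive (C M') := ∑ δ : M' ≃ₐ[M] M', actC M' (galHom M M' δ)
  have hTapp : ∀ a, T a = ∑ δ : M' ≃ₐ[M] M', actC M' (galHom M M' δ) a := fun a => by
    simp only [T, AddMonoidHom.finsetSum_apply]
  refine idx_dvd_of_coprime (actC M g) (actC M' g') n (Module.finrank M M') hcop ?_ ι hι ?_ T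
    ?_ ?_ ?_
  · intro a
    rw [actC_iterate, hg'n, one_smul]
    rfl
  · intro b
    change Additive.ofMul (C.map (inclHom M M') (g • b.toMul)) =
      Additive.ofMul (g' • C.map (inclHom M M') b.toMul)
    congr 1
    exact C.map_smul (inclHom M M') g g' hg b.toMul
  · intro a
    have hinv : ∀ τ : M' ≃ₐ[M] M', galHom M M' τ • (Additive.toMul (T a) : C M') =
        Additive.toMul (T a) := by
      intro τ
      have h1 : actC M' (galHom M M' τ) (T a) = T a := by
        rw [hTapp, map_sum]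
        refine Fintype.sum_equiv (Equiv.mulLeft τ) _ _ fun δ => ?_
        rw [actC_apply, actC_apply, actC_apply, Equiv.coe_mulLeft, map_mul, mul_smul]
        rfl
      exact congrArg Additive.toMul h1
    obtain ⟨y, hy⟩ := C.mem_range_map_inclHom M M' (Additive.toMul (T a)) hinv
    exact ⟨Additive.ofMul y, congrArg Additive.ofMul hy⟩
  · intro b
    rw [hTapp]
    have : ∀ δ : M' ≃ₐ[M] M', actC M' (galHom M M' δ) (ι b) = ι b := fun δ =>
      congrArg Additive.ofMul
        (C.smul_map_of_fixes (inclHom M M') (galHom M M' δ) (galHom_inclHom M M' δ) b.toMul)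
    rw [Finset.sum_congr rfl fun δ _ => this δ, Finset.sum_const, Finset.card_univ,
      ← Nat.card_eq_fintype_card, IsGalois.card_aut_eq_finrank]
  · intro a
    rw [hTapp, hTapp, map_sum]
    refine Finset.sum_congr rfl fun δ _ => ?_
    rw [actC_apply, actC_apply, actC_apply, actC_apply]
    change Additive.ofMul (galHom M M' δ • g' • a.toMul) =
      Additive.ofMul (g' • galHom M M' δ • a.toMul)
    rw [← mul_smul, ← mul_smul, hcomm δ]

end Idele

end Fermat.Agent.CFT.C5.CoprimeReduction
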