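import Mathlib
import Fermat.Agent.CFT.C5.CoprimeReduction
import Fermat.Agent.CFT.C4.FirstInequalityNorm
import Fermat.Agent.CFT.C4.FirstInequalityRep

/-!
# PROJECT C, slice C5 (c6)(α), field-theoretic half: adjoining `μ_p`

The second inequality `[J_K : Kˣ · N J_M] ∣ p` for ALL cyclic extensions `M/K` of number fields of
odd prime degree `p` follows from the case `μ_p ⊂ K` (`second_inequality_of_core`).

Proof: `M' := M(μ_p)` (`CyclotomicField p M`) is Galois over `K`, `[M' : M] ∣ p - 1`.  Lift a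
generator `g` of `Gal(M/K)` to `g̃ ∈ Gal(M'/K)` and put `g' := g̃ ^ ((p-1)^2)`: then `g'` restricts to
`g`, fixes `μ_p`, has order `p` and commutes with `Gal(M'/M)`.  With `K' := M'^{⟨g'⟩} ⊇ K(μ_p)`,
`M'/K'` is cyclic of degree `p` and by `CoprimeReduction.idx_actC_dvd`
`[C_K : N C_M] ∣ [C_{K'} : N C_{M'}] ∣ p`.
-/

set_option autoImplicit false
set_option linter.unusedSectionVars false

open scoped NumberField

noncomputable section

namespace Fermat.Agent.CFT.C5.CoprimeIndex

open Module Polynomial IntermediateField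
open Fermat.Agent.CFT.Herbrand Fermat.Agent.CFT.Idele Fermat.Agent.CFT.C4.FirstInequality
  Fermat.Agent.CFT.C4.FirstInequalityNorm Fermat.Agent.CFT.C6.IdeleNorm
  Fermat.Agent.CFT.C5.CoprimeReduction

section Abstract

variable {K M M' : Type} [Field K] [Field M] [Field M'] [Algebra K M] [Algebra M M'] [Algebra K M']
  [IsScalarTower K M M'] {p : ℕ} [hp : Fact p.Prime] [IsCyclotomicExtension {p} M M']
  {ζ : M'} (hζ : IsPrimitiveRoot ζ p)

include hζ in
/-- an automorphism of `M' = M(ζ)` fixing `M` and `ζ` is trivial -/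
theorem eq_one_of_fixes (τ : M' ≃ₐ[K] M')
    (h1 : ∀ x : M, τ (algebraMap M M' x) = algebraMap M M' x) (h2 : τ ζ = ζ) : τ = 1 := by
  let τM : M' ≃ₐ[M] M' := { τ.toRingEquiv with commutes' := h1 }
  have h : (τM : M' →ₐ[M] M') = AlgHom.id M M' := by
    apply (hζ.powerBasis M).algHom_ext
    rw [IsPrimitiveRoot.powerBasis_gen]
    exact h2
  ext x
  exact DFunLike.congr_fun h x

include hζ in
/-- automorphisms fix `ζ` as soon as their `(p-1)`-st root does -/
theorem pow_pred_fixes (τ : M' ≃ₐ[K] M') : (τ ^ (p - 1)) ζ = ζ := by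
  haveI : NeZero p := ⟨hp.out.ne_zero⟩
  have h := hζ.autToPow_spec K (τ ^ (p - 1))
  have h1 : hζ.autToPow K (τ ^ (p - 1)) = 1 := by
    rw [map_pow, ← ZMod.card_units p]
    exact pow_card_eq_one
  rw [h1, Units.val_one, ZMod.val_one, pow_one] at h
  exact h.symm

theorem pow_apply_algebraMap (g : M ≃ₐ[K] M) (τ : M' ≃ₐ[K] M')
    (h : ∀ x : M, τ (algebraMap M M' x) = algebraMap M M' (g x)) (k : ℕ) (x : M) :
    (τ ^ k) (algebraMap M M' x) = algebraMap M M' ((g ^ k) x) := by
  induction k generalizing x with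
  | zero => rfl
  | succ k ih =>
    rw [pow_succ, pow_succ, AlgEquiv.mul_apply, AlgEquiv.mul_apply, h, ih]

include hζ in
/-- **The lift.**  A `K`-automorphism `g` of `M` with `g ^ p = 1` lifts to a `K`-automorphism `g'` of
`M' = M(μ_p)` which fixes `μ_p` and satisfies `g' ^ p = 1`. -/
theorem exists_lift [Normal K M'] (g : M ≃ₐ[K] M) (hg : g ^ p = 1) :
    ∃ g' : M' ≃ₐ[K] M', (∀ x : M, g' (algebraMap M M' x) = algebraMap M M' (g x)) ∧ g' ζ = ζ ∧
      g' ^ p = 1 := by
  have hp1 : 1 ≤ p := hp.out.one_lt.le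
  -- `(p - 1)^2 = 1 + p * (p - 2)`
  have hm : (p - 1) * (p - 1) = 1 + p * (p - 2) := by
    obtain ⟨k, rfl⟩ : ∃ k, p = k + 2 := ⟨p - 2, by have := hp.out.two_le; omega⟩
    simp only [Nat.add_sub_cancel]
    have : k + 2 - 1 = k + 1 := by omega
    rw [this]
    ring
  have hgm : g ^ ((p - 1) * (p - 1)) = g := by
    rw [hm, pow_add, pow_one, pow_mul, hg, one_pow, mul_one]
  let g0 : M' ≃ₐ[K] M' := g.liftNormal M'
  have hg0 : ∀ x : M, g0 (algebraMap M M' x) = algebraMap M M' (g x) :=
    fun x => g.liftNormal_commutes M' x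
  refine ⟨g0 ^ ((p - 1) * (p - 1)), ?_, ?_, ?_⟩
  · intro x
    rw [pow_apply_algebraMap g g0 hg0, hgm]
  · rw [pow_mul]
    exact pow_pred_fixes hζ _
  · apply eq_one_of_fixes (M := M) hζ
    · intro x
      rw [← pow_mul, pow_apply_algebraMap g g0 hg0, mul_comm, pow_mul, hg, one_pow]
      rfl
    · rw [← pow_mul, mul_comm, ← mul_assoc, pow_mul]
      exact pow_pred_fixes hζ _

theorem inv_apply_of_apply_eq {F E : Type*} [Field F] [Field E] [Algebra F E] (σ : E ≃ₐ[F] E)
    {x y : E} (h : σ x = y) : σ⁻¹ y = x := by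
  rw [← h]
  exact σ.symm_apply_apply x

include hζ in
/-- `g'` (fixing `ζ`, inducing `g` on `M`) commutes with `Gal(M'/M)` -/
theorem commute_of_fixes_zeta (g : M ≃ₐ[K] M) (g' : M' ≃ₐ[K] M')
    (h1 : ∀ x : M, g' (algebraMap M M' x) = algebraMap M M' (g x)) (h2 : g' ζ = ζ)
    (δ : M' ≃ₐ[M] M') : g' * δ.restrictScalars K = δ.restrictScalars K * g' := by
  have hδ : ∀ x : M, (δ.restrictScalars K) (algebraMap M M' x) = algebraMap M M' x :=
    fun x => δ.commutes x
  have hc : g' * δ.restrictScalars K * g'⁻¹ * (δ.restrictScalars K)⁻¹ = 1 := by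
    apply eq_one_of_fixes (M := M) hζ
    · intro x
      rw [AlgEquiv.mul_apply, AlgEquiv.mul_apply, AlgEquiv.mul_apply,
        inv_apply_of_apply_eq _ (hδ x),
        inv_apply_of_apply_eq g' (x := algebraMap M M' (g.symm x)) (y := algebraMap M M' x)
          (by rw [h1, g.apply_symm_apply]),
        hδ, h1, g.apply_symm_apply]
    · rw [AlgEquiv.mul_apply, AlgEquiv.mul_apply, AlgEquiv.mul_apply]
      have hη : ((δ.restrictScalars K)⁻¹ ζ) ^ p = 1 := by
        rw [← map_pow, hζ.pow_eq_one, map_one]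
      obtain ⟨i, -, hi⟩ := hζ.eq_pow_of_pow_eq_one hη
      have h3 : g'⁻¹ ((δ.restrictScalars K)⁻¹ ζ) = (δ.restrictScalars K)⁻¹ ζ := by
        rw [← hi, map_pow, inv_apply_of_apply_eq g' h2]
      rw [h3]
      have h4 : (δ.restrictScalars K) ((δ.restrictScalars K)⁻¹ ζ) = ζ :=
        (δ.restrictScalars K).apply_symm_apply ζ
      rw [h4, h2]
  have h5 := mul_inv_eq_one.mp hc
  exact mul_inv_eq_iff_eq_mul.mp h5

end Abstract

/-! ### The reduction -/

section Reduction

/-- `[M(μ_p) : M]` is prime to `p` -/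
theorem coprime_finrank_cyclotomic {M M' : Type} [Field M] [Field M'] [Algebra M M'] {p : ℕ}
    [hp : Fact p.Prime] [IsCyclotomicExtension {p} M M'] : p.Coprime (finrank M M') := by
  haveI : NeZero p := ⟨hp.out.ne_zero⟩
  haveI : IsGalois M M' := IsCyclotomicExtension.isGalois {p} M M'
  haveI : FiniteDimensional M M' := IsCyclotomicExtension.finiteDimensional {p} M M'
  obtain ⟨ζ, hζ⟩ := IsCyclotomicExtension.exists_isPrimitiveRoot M M' (Set.mem_singleton p)
    hp.out.ne_zero
  have h1 : Nat.card (M' ≃ₐ[M] M') ∣ Nat.card (ZMod p)ˣ :=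
    Subgroup.card_dvd_of_injective (hζ.autToPow M) (hζ.autToPow_injective M)
  rw [IsGalois.card_aut_eq_finrank, Nat.card_eq_fintype_card, ZMod.card_units p] at h1
  rw [Nat.Prime.coprime_iff_not_dvd hp.out]
  intro h2
  have h3 := Nat.le_of_dvd (Nat.sub_pos_of_lt hp.out.one_lt) (h2.trans h1)
  have := hp.out.one_lt
  omega

/-- **The `μ_p`-adjunction step**: the second inequality for `M/K` (degree `p`) follows from the
second inequality for extensions of degree `p` of fields containing `μ_p`, given a model `M'` of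
`M(μ_p)` which is Galois over `K`. -/
theorem index_dvd_of_cyclotomic {K M : Type} (M' : Type) [Field K] [Field M] [Field M']
    [NumberField K] [NumberField M] [NumberField M'] [Algebra K M] [Algebra M M'] [Algebra K M']
    [IsScalarTower K M M'] [IsGalois K M] [IsGalois K M'] {p : ℕ} [hp : Fact p.Prime]
    [IsCyclotomicExtension {p} M M'] (hdeg : finrank K M = p)
    (hcore : ∀ (K₁ M₁ : Type) [Field K₁] [Field M₁] [NumberField K₁] [NumberField M₁]
      [Algebra K₁ M₁] [IsGalois K₁ M₁], finrank K₁ M₁ = p → (primitiveRoots p K₁).Nonempty →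
      ((diag K₁).range ⊔ (normJ K₁ M₁).range).index ∣ p) :
    ((diag K).range ⊔ (normJ K M).range).index ∣ p := by
  classical
  haveI : NeZero p := ⟨hp.out.ne_zero⟩
  haveI : IsGalois M M' := IsCyclotomicExtension.isGalois {p} M M'
  -- a generator of `Gal(M/K)`
  have hcard : Nat.card (M ≃ₐ[K] M) = p := by rw [IsGalois.card_aut_eq_finrank, hdeg]
  obtain ⟨g, hg⟩ := (isCyclic_of_prime_card hcard).exists_generator
  have hgp : g ^ p = 1 := by
    rw [← hcard]
    exact pow_card_eq_one'
  have hg1 : g ≠ 1 := by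
    intro h
    have h1 := orderOf_eq_card_of_forall_mem_zpowers hg
    rw [h, orderOf_one, hcard] at h1
    exact hp.out.one_lt.ne h1
  -- the lift
  obtain ⟨ζ, hζ⟩ := IsCyclotomicExtension.exists_isPrimitiveRoot M M' (Set.mem_singleton p)
    hp.out.ne_zero
  obtain ⟨g', h1, h2, h3⟩ := exists_lift (K := K) (M := M) hζ g hgp
  have hg'1 : g' ≠ 1 := by
    intro h
    apply hg1
    ext x
    apply (algebraMap M M').injective
    rw [← h1, h]
    rfl
  have hord : orderOf g' = p := orderOf_eq_prime h3 hg'1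
  -- the fixed field
  let K' : IntermediateField K M' := fixedField (Subgroup.zpowers g')
  have hdeg' : finrank K' M' = p := by
    rw [finrank_fixedField_eq_card, Nat.card_zpowers, hord]
  have hfix : ∀ x : K', g' (x : M') = x := fun x =>
    (mem_fixedField_iff (Subgroup.zpowers g') x.1).mp x.2 g' (Subgroup.mem_zpowers g')
  have hζK' : ζ ∈ K' := by
    rw [mem_fixedField_iff]
    intro f hf
    have hle : Subgroup.zpowers g' ≤ MulAction.stabilizer (M' ≃ₐ[K] M') ζ := by
      rw [Subgroup.zpowers_le]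
      exact h2
    exact hle hf
  have hroots : (primitiveRoots p K').Nonempty := by
    refine ⟨⟨ζ, hζK'⟩, (mem_primitiveRoots hp.out.pos).mpr ?_⟩
    exact IsPrimitiveRoot.of_map_of_injective (f := algebraMap K' M') hζ
      (algebraMap K' M').injective
  have hsecond := hcore K' M' hdeg' hroots
  -- the generator of `Gal(M'/K')`
  let γ' : M' ≃ₐ[K'] M' := { g'.toRingEquiv with commutes' := hfix }
  have hγ'app : ∀ x : M', γ' x = g' x := fun _ => rfl
  have hcard' : Nat.card (M' ≃ₐ[K'] M') = p := by rw [IsGalois.card_aut_eq_finrank, hdeg']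
  have hγ'1 : γ' ≠ 1 := by
    intro h
    apply hg'1
    ext x
    rw [← hγ'app, h]
    rfl
  have hγ' : ∀ τ : M' ≃ₐ[K'] M', τ ∈ Subgroup.zpowers γ' :=
    fun τ => mem_zpowers_of_prime_card hcard' hγ'1
  -- both norm indices in Herbrand form
  have e1 := idx_delta_nrm_sigmaC g hg
  have e2 := idx_delta_nrm_sigmaC γ' hγ'
  rw [hdeg] at e1
  rw [hdeg'] at e2
  have hpow : (γ'.restrictScalars ℚ) ^ p = 1 := by
    rw [Fermat.Agent.CFT.Dict.PrimeOver.restrictScalars_pow, ← hcard', pow_card_eq_one']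
    rfl
  have hcomm : ∀ δ : M' ≃ₐ[M] M',
      γ'.restrictScalars ℚ * galHom M M' δ = galHom M M' δ * γ'.restrictScalars ℚ := by
    intro δ
    have h := commute_of_fixes_zeta (K := K) hζ g g' h1 h2 δ
    ext x
    exact DFunLike.congr_fun h x
  have hdvd := idx_actC_dvd M M' p coprime_finrank_cyclotomic (g.restrictScalars ℚ)
    (γ'.restrictScalars ℚ) h1 hpow hcomm
  have hdvd' : idx (delta (MonoidHom.toAdditive (sigmaC (g.restrictScalars ℚ))))
      (nrm (MonoidHom.toAdditive (sigmaC (g.restrictScalars ℚ))) p) ∣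
      idx (delta (MonoidHom.toAdditive (sigmaC (γ'.restrictScalars ℚ))))
        (nrm (MonoidHom.toAdditive (sigmaC (γ'.restrictScalars ℚ))) p) := hdvd
  rw [e1, e2, ← index_sup_range_normJ, ← index_sup_range_normJ] at hdvd'
  exact hdvd'.trans hsecond

end Reduction

/-! ### The cyclotomic model -/

section Final

/-- **The second inequality reduces to the case `μ_p ⊂ K`.** -/
theorem second_inequality_of_core {p : ℕ} (hp : p.Prime)
    (hcore : ∀ (K₁ M₁ : Type) [Field K₁] [Field M₁] [NumberField K₁] [NumberField M₁]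
      [Algebra K₁ M₁] [IsGalois K₁ M₁], finrank K₁ M₁ = p → (primitiveRoots p K₁).Nonempty →
      ((diag K₁).range ⊔ (normJ K₁ M₁).range).index ∣ p)
    (K M : Type) [Field K] [Field M] [NumberField K] [NumberField M] [Algebra K M] [IsGalois K M]
    (hdeg : finrank K M = p) :
    ((diag K).range ⊔ (normJ K M).range).index ∣ p := by
  haveI : Fact p.Prime := ⟨hp⟩
  haveI : NeZero p := ⟨hp.ne_zero⟩
  haveI : FiniteDimensional M (CyclotomicField p M) :=
    IsCyclotomicExtension.finiteDimensional {p} M (CyclotomicField p M)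
  haveI : FiniteDimensional K (CyclotomicField p M) := Module.Finite.trans M (CyclotomicField p M)
  haveI : Normal K (CyclotomicField p M) := by
    obtain ⟨f, hf⟩ := Normal.exists_isSplittingField K M
    have hf0 : f ≠ 0 := by
      rintro rfl
      have h1 := hf.adjoin_rootSet'
      rw [Polynomial.rootSet_zero, Algebra.adjoin_empty] at h1
      have h2 := Subalgebra.bot_eq_top_iff_finrank_eq_one.mp h1
      rw [hdeg] at h2
      exact hp.one_lt.ne' h2
    have hX : (X ^ p - 1 : K[X]) ≠ 0 := by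
      rw [← C_1]
      exact X_pow_sub_C_ne_zero hp.pos 1
    haveI : IsSplittingField M (CyclotomicField p M) ((X ^ p - 1 : K[X]).map (algebraMap K M)) := by
      rw [Polynomial.map_sub, Polynomial.map_pow, Polynomial.map_X, Polynomial.map_one]
      exact IsCyclotomicExtension.isSplittingField_X_pow_sub_one p M (CyclotomicField p M)
    haveI : IsSplittingField K (CyclotomicField p M) (f * (X ^ p - 1)) :=
      IsSplittingField.mul (K := M) (CyclotomicField p M) f (X ^ p - 1) hf0 hX
    exact Normal.of_isSplittingField (f * (X ^ p - 1))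
  haveI : IsGalois K (CyclotomicField p M) := IsGalois.mk
  exact index_dvd_of_cyclotomic (CyclotomicField p M) hdeg hcore

/-- **First + second inequality in prime degree, from the core case `μ_p ⊂ K`**: for every Galois
extension `M/K` of number fields of odd prime degree `p`: `H¹(G, C_M) = 0` and `#H²(G, C_M) = p`
(`= hprime` of `C5/ClassDevissage`). -/
theorem h1_h2_of_core {p : ℕ} (hp : p.Prime) (hp2 : p ≠ 2)
    (hcore : ∀ (K₁ M₁ : Type) [Field K₁] [Field M₁] [NumberField K₁] [NumberField M₁]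
      [Algebra K₁ M₁] [IsGalois K₁ M₁], finrank K₁ M₁ = p → (primitiveRoots p K₁).Nonempty →
      ((diag K₁).range ⊔ (normJ K₁ M₁).range).index ∣ p)
    (K M : Type) [Field K] [Field M] [NumberField K] [NumberField M] [Algebra K M] [IsGalois K M]
    (hdeg : finrank K M = p) :
    Subsingleton (groupCohomology (Rep.res (galHom K M) (repC M)) 1) ∧
      Nat.card (groupCohomology (Rep.res (galHom K M) (repC M)) 2) = p :=
  Fermat.Agent.CFT.C4.FirstInequalityRep.h1_h2_of_prime_degree hp hp2 hdeg
    (Nat.le_of_dvd hp.pos (second_inequality_of_core hp hcore K M hdeg))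

end Final

end Fermat.Agent.CFT.C5.CoprimeIndex
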