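import Mathlib

/-!
# The index computation of the second inequality, in abstract group-theoretic form

Layer 1: the index identity `[K⊔B : K⊔C] * [K⊓B : K⊓C] = [B : C]` for subgroups of a commutative
group with `C ≤ B`.

Layer 2: the abstract form of the classical computation `[J : K·E] = p^(b-a)`.

Layer 3: the instantiation for a restricted product `J = ∏' (G v, U v)` over an arbitrary index
type of "places", with `E = ∏_S (G v)^p × ∏_T G v × ∏_rest U v` and
`D = ∏_S G v × ∏_T (U v)^p × ∏_rest U v`.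
-/

set_option autoImplicit false

namespace Fermat.Agent.CFT.C5.IndexAbstract

section Layer1

variable {M : Type*} [CommGroup M]

/-- **Index identity.** For subgroups `K`, `C ≤ B` of a commutative group:
`[K ⊔ B : K ⊔ C] * [K ⊓ B : K ⊓ C] = [B : C]` (all indices with the convention `0 = ∞`). -/
theorem relIndex_sup_mul_relIndex_inf (K B C : Subgroup M) (hCB : C ≤ B) :
    (K ⊔ C).relIndex (K ⊔ B) * (K ⊓ C).relIndex (K ⊓ B) = C.relIndex B := by
  -- `[K⊔B : K⊔C] = [B : (K⊔C) ⊓ B]`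
  have h1 : (K ⊔ C).relIndex (K ⊔ B) = ((K ⊓ B) ⊔ C).relIndex B := by
    have e1 : K ⊔ B = (K ⊔ C) ⊔ B := by
      rw [sup_assoc, sup_eq_right.mpr hCB]
    have e2 : (K ⊔ C) ⊓ B = (K ⊓ B) ⊔ C := by
      rw [sup_comm K C, sup_inf_assoc_of_le K hCB, sup_comm]
    rw [e1, Subgroup.relIndex_sup_left, ← Subgroup.inf_relIndex_right, e2]
  -- `[(K⊓B)⊔C : C] = [K⊓B : K⊓C]`
  have h2 : C.relIndex ((K ⊓ B) ⊔ C) = (K ⊓ C).relIndex (K ⊓ B) := by
    have e3 : C ⊓ (K ⊓ B) = K ⊓ C := by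
      rw [inf_comm C, inf_assoc, inf_eq_right.mpr hCB]
    rw [Subgroup.relIndex_sup_right, ← Subgroup.inf_relIndex_right, e3]
  rw [h1, ← h2, mul_comm]
  exact Subgroup.relIndex_mul_relIndex _ _ _ le_sup_right (sup_le inf_le_right hCB)

end Layer1

section Layer2

variable {M : Type*} [CommGroup M] (p : ℕ)

/-- The subgroup of `p`-th powers of the elements of a subgroup. -/
abbrev powSubgroup (H : Subgroup M) : Subgroup M := H.map (powMonoidHom p)

theorem mem_powSubgroup {H : Subgroup M} {y : M} : y ∈ powSubgroup p H ↔ ∃ z ∈ H, z ^ p = y :=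
  Subgroup.mem_map

/-- **Key lemma of the second inequality, abstract form.**
`J = K·B₀`, `B₀ ≤ D·(K ∩ B₀)`, and (`FI`) a non-`p`-th power `y ∈ K ∩ C` would force `K·D ≠ J`.
Then `K ∩ C = (K ∩ B)^p`. -/
theorem inf_eq_powSubgroup (J K B₀ B C D : Subgroup M)
    (hCG : J ≤ K ⊔ B₀) (hTC : B₀ ≤ D ⊔ (K ⊓ B₀))
    (hFI : ∀ y ∈ K ⊓ C, (¬ ∃ z ∈ K, z ^ p = y) → ¬ J ≤ K ⊔ D)
    (hTF : ∀ z ∈ K, z ^ p ∈ C → z ∈ B)
    (hpow : ∀ z ∈ K ⊓ B, z ^ p ∈ C) :
    K ⊓ C = powSubgroup p (K ⊓ B) := by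
  have hKD : J ≤ K ⊔ D := by
    refine hCG.trans (sup_le le_sup_left (hTC.trans (sup_le le_sup_right ?_)))
    exact inf_le_left.trans le_sup_left
  apply le_antisymm
  · intro y hy
    by_cases hz : ∃ z ∈ K, z ^ p = y
    · obtain ⟨z, hzK, rfl⟩ := hz
      exact (mem_powSubgroup p).mpr ⟨z, ⟨hzK, hTF z hzK hy.2⟩, rfl⟩
    · exact absurd hKD (hFI y hy hz)
  · rintro y hy
    obtain ⟨z, hz, rfl⟩ := (mem_powSubgroup p).mp hy
    exact ⟨K.pow_mem hz.1 p, hpow z hz⟩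

/-- **Index computation of the second inequality, abstract form.**
With `[K∩B : (K∩B)^p] = p^a` and `[B : C] = p^b` one gets `[J : K·C] * p^a = p^b`. -/
theorem relIndex_mul_pow_eq (J K B₀ B C D : Subgroup M)
    (hB₀B : B₀ ≤ B) (hBJ : B ≤ J) (hKJ : K ≤ J) (hCB : C ≤ B)
    (hCG : J ≤ K ⊔ B₀) (hTC : B₀ ≤ D ⊔ (K ⊓ B₀))
    (hFI : ∀ y ∈ K ⊓ C, (¬ ∃ z ∈ K, z ^ p = y) → ¬ J ≤ K ⊔ D)
    (hTF : ∀ z ∈ K, z ^ p ∈ C → z ∈ B)
    (hpow : ∀ z ∈ K ⊓ B, z ^ p ∈ C)
    (a b : ℕ) (hDU : (powSubgroup p (K ⊓ B)).relIndex (K ⊓ B) = p ^ a)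
    (hLI : C.relIndex B = p ^ b) :
    (K ⊔ C).relIndex J * p ^ a = p ^ b := by
  have hJ : K ⊔ B = J :=
    le_antisymm (sup_le hKJ hBJ) (hCG.trans (sup_le_sup_left hB₀B K))
  have key := inf_eq_powSubgroup p J K B₀ B C D hCG hTC hFI hTF hpow
  have := relIndex_sup_mul_relIndex_inf K B C hCB
  rw [hJ, key, hDU, hLI] at this
  exact this

/-- The same, solved for the index when `a + c = b`. -/
theorem relIndex_eq_pow (hp : 0 < p) (J K B₀ B C D : Subgroup M)
    (hB₀B : B₀ ≤ B) (hBJ : B ≤ J) (hKJ : K ≤ J) (hCB : C ≤ B)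
    (hCG : J ≤ K ⊔ B₀) (hTC : B₀ ≤ D ⊔ (K ⊓ B₀))
    (hFI : ∀ y ∈ K ⊓ C, (¬ ∃ z ∈ K, z ^ p = y) → ¬ J ≤ K ⊔ D)
    (hTF : ∀ z ∈ K, z ^ p ∈ C → z ∈ B)
    (hpow : ∀ z ∈ K ⊓ B, z ^ p ∈ C)
    (a b c : ℕ) (hDU : (powSubgroup p (K ⊓ B)).relIndex (K ⊓ B) = p ^ a)
    (hLI : C.relIndex B = p ^ b) (habc : a + c = b) :
    (K ⊔ C).relIndex J = p ^ c := by
  have h := relIndex_mul_pow_eq p J K B₀ B C D hB₀B hBJ hKJ hCB hCG hTC hFI hTF hpow a b hDU hLI
  rw [← habc, pow_add, mul_comm] at h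
  exact Nat.eq_of_mul_eq_mul_left (pow_pos hp a) h

/-- Any subgroup `N` containing `C` then has `[J : K·N]` dividing `p^c` (the second inequality
follows with `N` the norm group). -/
theorem relIndex_dvd_of_le (J K C N : Subgroup M) (hCN : C ≤ N) :
    (K ⊔ N).relIndex J ∣ (K ⊔ C).relIndex J :=
  Subgroup.relIndex_dvd_of_le_left J (sup_le_sup_left hCN K)

end Layer2

section Layer3

/-! ### Restricted products -/

variable {ι : Type*} {G : ι → Type*} [∀ v, CommGroup (G v)]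
  (U : ∀ v, Subgroup (G v)) (p : ℕ)

/-- The restricted product `∏' (G v, U v)` as a subgroup of the full product. -/
def restrictedProduct : Subgroup (∀ v, G v) where
  carrier := {x | {v | x v ∉ U v}.Finite}
  one_mem' := by
    have : {v | (1 : ∀ v, G v) v ∉ U v} = ∅ := by
      ext v
      simp
    change {v | (1 : ∀ v, G v) v ∉ U v}.Finite
    rw [this]
    exact Set.finite_empty
  mul_mem' := by
    intro x y hx hy
    change {v | x v ∉ U v}.Finite at hx
    change {v | y v ∉ U v}.Finite at hy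
    change {v | (x * y) v ∉ U v}.Finite
    refine (hx.union hy).subset ?_
    intro v hv
    by_contra hcon
    have hcon' : x v ∈ U v ∧ y v ∈ U v := by
      constructor
      · by_contra h1
        exact hcon (Or.inl h1)
      · by_contra h1
        exact hcon (Or.inr h1)
    exact hv ((U v).mul_mem hcon'.1 hcon'.2)
  inv_mem' := by
    intro x hx
    change {v | x v ∉ U v}.Finite at hx
    change {v | x⁻¹ v ∉ U v}.Finite
    refine hx.subset ?_
    intro v hv hcon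
    exact hv ((U v).inv_mem hcon)

theorem mem_restrictedProduct {x : ∀ v, G v} :
    x ∈ restrictedProduct U ↔ {v | x v ∉ U v}.Finite := Iff.rfl

/-- `S`-ideles: units outside the finite set `S`. -/
def ideleS (S : Finset ι) : Subgroup (∀ v, G v) where
  carrier := {x | ∀ v ∉ S, x v ∈ U v}
  one_mem' := fun v _ => (U v).one_mem
  mul_mem' := fun hx hy v hv => (U v).mul_mem (hx v hv) (hy v hv)
  inv_mem' := fun hx v hv => (U v).inv_mem (hx v hv)

theorem mem_ideleS {S : Finset ι} {x : ∀ v, G v} : x ∈ ideleS U S ↔ ∀ v ∉ S, x v ∈ U v := Iff.rfl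

theorem ideleS_le_restrictedProduct (S : Finset ι) : ideleS U S ≤ restrictedProduct U := by
  intro x hx
  refine (Finset.finite_toSet S).subset ?_
  intro v hv
  by_contra hcon
  exact hv (hx v hcon)

theorem ideleS_mono {S S' : Finset ι} (h : S ⊆ S') : ideleS U S ≤ ideleS U S' :=
  fun _ hx v hv => hx v fun hvS => hv (h hvS)

variable [DecidableEq ι]

/-- `E = ∏_S (G v)^p × ∏_T G v × ∏_rest U v`. -/
def groupE (S T : Finset ι) : Subgroup (∀ v, G v) where
  carrier := {x | (∀ v ∈ S, x v ∈ (powMonoidHom p : G v →* G v).range) ∧ ∀ v ∉ S ∪ T, x v ∈ U v}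
  one_mem' := ⟨fun _ _ => Subgroup.one_mem _, fun v _ => (U v).one_mem⟩
  mul_mem' := fun hx hy =>
    ⟨fun v hv => Subgroup.mul_mem _ (hx.1 v hv) (hy.1 v hv),
      fun v hv => (U v).mul_mem (hx.2 v hv) (hy.2 v hv)⟩
  inv_mem' := fun hx =>
    ⟨fun v hv => Subgroup.inv_mem _ (hx.1 v hv), fun v hv => (U v).inv_mem (hx.2 v hv)⟩

theorem mem_groupE {S T : Finset ι} {x : ∀ v, G v} :
    x ∈ groupE U p S T ↔
      (∀ v ∈ S, x v ∈ (powMonoidHom p : G v →* G v).range) ∧ ∀ v ∉ S ∪ T, x v ∈ U v := Iff.rfl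

theorem groupE_le_ideleS (S T : Finset ι) : groupE U p S T ≤ ideleS U (S ∪ T) :=
  fun _ hx => hx.2

/-- `D = ∏_S G v × ∏_T (U v)^p × ∏_rest U v`. -/
def groupD (S T : Finset ι) : Subgroup (∀ v, G v) where
  carrier := {x | (∀ v ∈ T, x v ∈ (U v).map (powMonoidHom p : G v →* G v)) ∧ ∀ v ∉ S ∪ T, x v ∈ U v}
  one_mem' := ⟨fun _ _ => Subgroup.one_mem _, fun v _ => (U v).one_mem⟩
  mul_mem' := fun hx hy =>
    ⟨fun v hv => Subgroup.mul_mem _ (hx.1 v hv) (hy.1 v hv),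
      fun v hv => (U v).mul_mem (hx.2 v hv) (hy.2 v hv)⟩
  inv_mem' := fun hx =>
    ⟨fun v hv => Subgroup.inv_mem _ (hx.1 v hv), fun v hv => (U v).inv_mem (hx.2 v hv)⟩

theorem mem_groupD {S T : Finset ι} {x : ∀ v, G v} :
    x ∈ groupD U p S T ↔
      (∀ v ∈ T, x v ∈ (U v).map (powMonoidHom p : G v →* G v)) ∧ ∀ v ∉ S ∪ T, x v ∈ U v := Iff.rfl

/-- The reduction map to `∏_{v ∈ S} G v / (G v)^p`. -/
def redS (S : Finset ι) :
    (∀ v, G v) →* (∀ v : S, G v ⧸ (powMonoidHom p : G v →* G v).range) where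
  toFun x v := QuotientGroup.mk (x v)
  map_one' := rfl
  map_mul' _ _ := rfl

omit [DecidableEq ι] in
theorem mem_ker_redS {S : Finset ι} {x : ∀ v, G v} :
    x ∈ (redS (G := G) p S).ker ↔ ∀ v ∈ S, x v ∈ (powMonoidHom p : G v →* G v).range := by
  rw [MonoidHom.mem_ker]
  constructor
  · intro h v hv
    have := congrFun h ⟨v, hv⟩
    exact (QuotientGroup.eq_one_iff _).mp this
  · intro h
    funext v
    exact (QuotientGroup.eq_one_iff _).mpr (h v v.2)

theorem groupE_eq (S T : Finset ι) :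
    groupE U p S T = (redS (G := G) p S).ker ⊓ ideleS U (S ∪ T) := by
  ext x
  rw [Subgroup.mem_inf, mem_ker_redS, mem_groupE, mem_ideleS]

theorem map_redS_ideleS (S T : Finset ι) :
    (ideleS U (S ∪ T)).map (redS (G := G) p S) = ⊤ := by
  classical
  rw [eq_top_iff]
  intro y _
  -- lift `y` componentwise, extend by `1`
  choose g hg using fun v : S => QuotientGroup.mk_surjective (y v)
  refine ⟨fun v => if hv : v ∈ S then g ⟨v, hv⟩ else 1, ?_, ?_⟩
  · intro v hv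
    have hvS : v ∉ S := fun h => hv (Finset.mem_union_left T h)
    show (if hv : v ∈ S then g ⟨v, hv⟩ else 1) ∈ U v
    rw [dif_neg hvS]
    exact (U v).one_mem
  · funext v
    show QuotientGroup.mk (if hv : (v : ι) ∈ S then g ⟨v, hv⟩ else 1) = y v
    rw [dif_pos v.2]
    exact hg v

/-- **(LI)**: `[J_{S∪T} : E] = ∏_{v ∈ S} [G v : (G v)^p]`. -/
theorem relIndex_groupE (S T : Finset ι) :
    (groupE U p S T).relIndex (ideleS U (S ∪ T))
      = ∏ v ∈ S, (powMonoidHom p : G v →* G v).range.index := by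
  rw [groupE_eq, Subgroup.inf_relIndex_right, Subgroup.relIndex_ker, map_redS_ideleS,
    Subgroup.card_top, Nat.card_pi]
  rw [← Finset.prod_coe_sort S fun v => (powMonoidHom p : G v →* G v).range.index]
  exact Finset.prod_congr rfl fun v _ => (Subgroup.index_eq_card _).symm

/-- **The index computation of the second inequality for a restricted product.**

* `K` ("principal ideles") `≤ J = ∏' (G v, U v)`;
* `(CG)`: `J = K · J_S`;
* `(TC)`: every family of units at `T` is, modulo `p`-th powers of units, the image of an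
  element of `K ∩ J_S` ("`S`-units surject onto `∏_T U_v / U_v^p`");
* `(FI)`: for `y ∈ K ∩ E` not a `p`-th power in `K`, `K · D ≠ J` (first inequality for
  `K(y^{1/p})`, whose norm group contains `D`);
* `(TF)`: `G v / U v` has no `p`-torsion;
* `(DU)`: `[W : W^p] = p^a` for `W = K ∩ J_{S∪T}` (the `(S∪T)`-units);
* `(LI)`: `∏_{v∈S} [G v : (G v)^p] = p^b`.

Then `[J : K·E] * p^a = p^b`. -/
theorem relIndex_sup_groupE_mul (K : Subgroup (∀ v, G v)) (hKJ : K ≤ restrictedProduct U)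
    (S T : Finset ι) (hST : Disjoint S T)
    (hCG : restrictedProduct U ≤ K ⊔ ideleS U S)
    (hTC : ∀ u : ∀ v, G v, (∀ v ∈ T, u v ∈ U v) →
      ∃ k ∈ K ⊓ ideleS U S, ∀ v ∈ T, (k v)⁻¹ * u v ∈ (U v).map (powMonoidHom p : G v →* G v))
    (hFI : ∀ y ∈ K ⊓ groupE U p S T, (¬ ∃ z ∈ K, z ^ p = y) →
      ¬ restrictedProduct U ≤ K ⊔ groupD U p S T)
    (hTF : ∀ v, ∀ g : G v, g ^ p ∈ U v → g ∈ U v)
    (a b : ℕ)
    (hDU : (powSubgroup p (K ⊓ ideleS U (S ∪ T))).relIndex (K ⊓ ideleS U (S ∪ T)) = p ^ a)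
    (hLI : ∏ v ∈ S, (powMonoidHom p : G v →* G v).range.index = p ^ b) :
    (K ⊔ groupE U p S T).relIndex (restrictedProduct U) * p ^ a = p ^ b := by
  refine relIndex_mul_pow_eq p (restrictedProduct U) K (ideleS U S) (ideleS U (S ∪ T))
    (groupE U p S T) (groupD U p S T) (ideleS_mono U Finset.subset_union_left)
    (ideleS_le_restrictedProduct U _) hKJ (groupE_le_ideleS U p S T) hCG ?_ hFI ?_ ?_ a b hDU ?_
  · -- `J_S ≤ D · (K ∩ J_S)` from (TC)
    intro x hx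
    have hxT : ∀ v ∈ T, x v ∈ U v := fun v hv =>
      hx v (Finset.disjoint_right.mp hST hv)
    obtain ⟨k, hk, hkT⟩ := hTC x hxT
    rw [Subgroup.mem_sup]
    refine ⟨x * k⁻¹, ⟨?_, ?_⟩, k, hk, by simp⟩
    · intro v hv
      have := hkT v hv
      rwa [Pi.mul_apply, Pi.inv_apply, mul_comm]
    · intro v hv
      have hvS : v ∉ S := fun h => hv (Finset.mem_union_left T h)
      exact (U v).mul_mem (hx v hvS) ((U v).inv_mem (hk.2 v hvS))
  · -- (TF)
    intro z _ hz v hv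
    exact hTF v (z v) (hz.2 v hv)
  · -- `p`-th powers of `(S∪T)`-units lie in `E`
    intro z hz
    exact ⟨fun v _ => ⟨z v, rfl⟩, fun v hv => (U v).pow_mem (hz.2 v hv) p⟩
  · rw [relIndex_groupE, hLI]

/-- Solved form: if `a + c = b` then `[J : K·E] = p^c`. -/
theorem relIndex_sup_groupE (hp : 0 < p) (K : Subgroup (∀ v, G v))
    (hKJ : K ≤ restrictedProduct U)
    (S T : Finset ι) (hST : Disjoint S T)
    (hCG : restrictedProduct U ≤ K ⊔ ideleS U S)
    (hTC : ∀ u : ∀ v, G v, (∀ v ∈ T, u v ∈ U v) →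
      ∃ k ∈ K ⊓ ideleS U S, ∀ v ∈ T, (k v)⁻¹ * u v ∈ (U v).map (powMonoidHom p : G v →* G v))
    (hFI : ∀ y ∈ K ⊓ groupE U p S T, (¬ ∃ z ∈ K, z ^ p = y) →
      ¬ restrictedProduct U ≤ K ⊔ groupD U p S T)
    (hTF : ∀ v, ∀ g : G v, g ^ p ∈ U v → g ∈ U v)
    (a b c : ℕ)
    (hDU : (powSubgroup p (K ⊓ ideleS U (S ∪ T))).relIndex (K ⊓ ideleS U (S ∪ T)) = p ^ a)
    (hLI : ∏ v ∈ S, (powMonoidHom p : G v →* G v).range.index = p ^ b)
    (habc : a + c = b) :
    (K ⊔ groupE U p S T).relIndex (restrictedProduct U) = p ^ c := by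
  have h := relIndex_sup_groupE_mul U p K hKJ S T hST hCG hTC hFI hTF a b hDU hLI
  rw [← habc, pow_add, mul_comm] at h
  exact Nat.eq_of_mul_eq_mul_left (pow_pos hp a) h

end Layer3

end Fermat.Agent.CFT.C5.IndexAbstract
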