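import Mathlib
import Fermat.Agent.CFT.C5.IndexAbstract

/-!
# The `S`-class count, in abstract group-theoretic form

`M` is a commutative group (the idele group), `K` (principal ideles), `U` (units outside `S`) and
`JS` (the `S`-component) are subgroups, `P = M ^ p` is the subgroup of all `p`-th powers and
`H ^ p = powSubgroup p H` is the subgroup of `p`-th powers of the elements of `H`.

Hypotheses:
* `hJS : JS ⊓ (U ⊔ P) ≤ JS ^ p` (true as soon as there is a retraction `pr` of `M` onto `JS` killing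
  `U`, see `inf_le_powSubgroup_of_retraction`);
* `htf : ∀ x, x ^ p ∈ JS ⊔ U → x ∈ JS ⊔ U` (the quotient `M / (JS ⊔ U)` is torsion free).

With `N = K ⊔ U ⊔ P`, `N' = K ⊔ JS ⊔ U ⊔ P`, `A = K ⊓ (JS ⊔ U ⊔ P)`, `A₀ = K ⊓ (U ⊔ P)`,
`E = K ⊓ (JS ⊔ U)`, `W = K ⊔ JS ⊔ U`:

* `index_mul_relIndex` : `[M : N] * [A : K ^ p] = [M : N'] * [JS : JS ^ p] * [A₀ : K ^ p]`;
* `relIndex_eq_mul` : `[A : K ^ p] = [E : E ^ p] * [W_p : W]` where `W_p = {x | x ^ p ∈ W}`;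
* `relIndex_comap_pow_eq_index` : `[W_p : W] = [M : W ⊔ P]` when `[M : W]` is finite;
* `count` : if `[E : E ^ p] = e ≠ 0`, `[JS : JS ^ p] = e ^ 2` and `[M : W]` is finite then
  `[A : K ^ p] = e * [M : N']`, `[M : N] = e * [A₀ : K ^ p]` and `[M : N] ≠ 0`;
* `index_le_of_count` : if moreover `[A₀ : K ^ p] ≤ [M : N']` then `[M : N] ≤ [A : K ^ p]`.
-/

set_option autoImplicit false

namespace Fermat.Agent.CFT.C5.CountS

open Fermat.Agent.CFT.C5.IndexAbstract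

variable {M : Type*} [CommGroup M] (p : ℕ)

/-- the subgroup of all `p`-th powers -/
abbrev Pw (M : Type*) [CommGroup M] (p : ℕ) : Subgroup M := (powMonoidHom p : M →* M).range

variable {p} in
theorem mem_Pw {x : M} : x ∈ Pw M p ↔ ∃ y : M, y ^ p = x := MonoidHom.mem_range

theorem pow_mem_Pw (y : M) : y ^ p ∈ Pw M p := ⟨y, rfl⟩

theorem powSubgroup_le_self (H : Subgroup M) : powSubgroup p H ≤ H := by
  rintro _ ⟨z, hz, rfl⟩
  exact H.pow_mem hz p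

theorem powSubgroup_le_Pw (H : Subgroup M) : powSubgroup p H ≤ Pw M p := by
  rintro _ ⟨z, _, rfl⟩
  exact ⟨z, rfl⟩

theorem powSubgroup_mono {H H' : Subgroup M} (h : H ≤ H') :
    powSubgroup p H ≤ powSubgroup p H' :=
  Subgroup.map_mono h

theorem pow_mem_powSubgroup {H : Subgroup M} {z : M} (hz : z ∈ H) : z ^ p ∈ powSubgroup p H :=
  ⟨z, hz, rfl⟩

/-- a retraction `pr` onto `JS` killing `U` gives `JS ⊓ (U ⊔ P) ≤ JS ^ p` -/
theorem inf_le_powSubgroup_of_retraction (U JS : Subgroup M) (pr : M →* M)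
    (hmem : ∀ x, pr x ∈ JS) (hid : ∀ j ∈ JS, pr j = j) (hU : ∀ u ∈ U, pr u = 1) :
    JS ⊓ (U ⊔ Pw M p) ≤ powSubgroup p JS := by
  rintro x ⟨hx, hx'⟩
  obtain ⟨u, hu, t, ht, rfl⟩ := Subgroup.mem_sup.mp hx'
  obtain ⟨y, rfl⟩ := mem_Pw.mp ht
  refine ⟨pr y, hmem y, ?_⟩
  have h1 := hid _ hx
  rw [map_mul, hU u hu, one_mul, map_pow] at h1
  change pr y ^ p = u * y ^ p
  exact h1

/-- `JS ⊓ (U ⊔ P) = JS ^ p` -/
theorem inf_eq_powSubgroup (U JS : Subgroup M)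
    (hJS : JS ⊓ (U ⊔ Pw M p) ≤ powSubgroup p JS) :
    JS ⊓ (U ⊔ Pw M p) = powSubgroup p JS :=
  le_antisymm hJS
    (le_inf (powSubgroup_le_self p JS) ((powSubgroup_le_Pw p JS).trans le_sup_right))

/-- **(a)** `[M : K·U·P] * [A : K^p] = [M : K·JS·U·P] * [JS : JS^p] * [A₀ : K^p]`. -/
theorem index_mul_relIndex (K U JS : Subgroup M)
    (hJS : JS ⊓ (U ⊔ Pw M p) ≤ powSubgroup p JS) :
    (K ⊔ (U ⊔ Pw M p)).index *
        (powSubgroup p K).relIndex (K ⊓ (JS ⊔ (U ⊔ Pw M p))) =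
      (K ⊔ (JS ⊔ (U ⊔ Pw M p))).index * (powSubgroup p JS).relIndex JS *
        (powSubgroup p K).relIndex (K ⊓ (U ⊔ Pw M p)) := by
  set Q : Subgroup M := U ⊔ Pw M p with hQ
  have hKpQ : powSubgroup p K ≤ K ⊓ Q :=
    le_inf (powSubgroup_le_self p K) ((powSubgroup_le_Pw p K).trans le_sup_right)
  have hAA : K ⊓ Q ≤ K ⊓ (JS ⊔ Q) := inf_le_inf_left K le_sup_right
  have h1 := relIndex_sup_mul_relIndex_inf K (JS ⊔ Q) Q le_sup_right
  have h2 : Q.relIndex (JS ⊔ Q) = (powSubgroup p JS).relIndex JS := by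
    rw [Subgroup.relIndex_sup_right, ← Subgroup.inf_relIndex_right, inf_comm,
      inf_eq_powSubgroup p U JS hJS]
  have h3 := Subgroup.relIndex_mul_relIndex _ _ _ hKpQ hAA
  have h4 := Subgroup.relIndex_mul_index
    (show K ⊔ Q ≤ K ⊔ (JS ⊔ Q) from sup_le_sup_left le_sup_right K)
  rw [← h4, ← h3, ← h2, ← h1]
  ring

/-- `K ^ p ⊓ (K ⊓ Y) = (K ⊓ Y) ^ p` when `M / Y` has no `p`-torsion -/
theorem powSubgroup_inf_eq (K Y : Subgroup M) (htf : ∀ x : M, x ^ p ∈ Y → x ∈ Y) :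
    powSubgroup p K ⊓ (K ⊓ Y) = powSubgroup p (K ⊓ Y) := by
  apply le_antisymm
  · rintro x ⟨⟨k, hk, rfl⟩, hx⟩
    exact ⟨k, ⟨hk, htf k hx.2⟩, rfl⟩
  · exact le_inf (powSubgroup_mono p inf_le_left) (powSubgroup_le_self p _)

/-- `K ⊔ Y = {x | x ^ p ∈ Y ⊔ K ^ p}` when `M / Y` has no `p`-torsion -/
theorem sup_eq_comap (K Y : Subgroup M) (htf : ∀ x : M, x ^ p ∈ Y → x ∈ Y) :
    K ⊔ Y = (Y ⊔ powSubgroup p K).comap (powMonoidHom p) := by
  apply le_antisymm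
  · refine sup_le ?_ ?_
    · intro k hk
      exact Subgroup.mem_sup_right (pow_mem_powSubgroup p hk)
    · intro y hy
      exact Subgroup.mem_sup_left (Y.pow_mem hy p)
  · intro x hx
    obtain ⟨y, hy, z, hz, hyz⟩ := Subgroup.mem_sup.mp (Subgroup.mem_comap.mp hx)
    obtain ⟨k, hk, rfl⟩ := hz
    have h1 : (x / k) ^ p = y := by
      rw [div_pow]
      change y * k ^ p = x ^ p at hyz
      rw [← hyz, mul_div_cancel_right]
    have h2 : x / k ∈ Y := htf _ (h1 ▸ hy)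
    have h3 : x = k * (x / k) := by rw [mul_div_cancel]
    rw [h3]
    exact Subgroup.mul_mem_sup hk h2

/-- **(b)** `[A : K^p] = [E : E^p] * [W_p : W]`. -/
theorem relIndex_eq_mul (K U JS : Subgroup M)
    (htf : ∀ x : M, x ^ p ∈ JS ⊔ U → x ∈ JS ⊔ U) :
    (powSubgroup p K).relIndex (K ⊓ (JS ⊔ (U ⊔ Pw M p))) =
      (powSubgroup p (K ⊓ (JS ⊔ U))).relIndex (K ⊓ (JS ⊔ U)) *
        (K ⊔ (JS ⊔ U)).relIndex ((K ⊔ (JS ⊔ U)).comap (powMonoidHom p)) := by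
  rw [← sup_assoc JS U (Pw M p)]
  set Y : Subgroup M := JS ⊔ U with hY
  set E : Subgroup M := K ⊓ Y with hE
  set W : Subgroup M := K ⊔ Y with hW
  set Kp : Subgroup M := powSubgroup p K with hKp
  set A : Subgroup M := K ⊓ (Y ⊔ Pw M p) with hA
  set Z : Subgroup M := W ⊓ (Y ⊔ Pw M p) with hZ
  have hKpK : Kp ≤ K := powSubgroup_le_self p K
  have hKpP : Kp ≤ Pw M p := powSubgroup_le_Pw p K
  have hEA : E ≤ A := le_inf inf_le_left (inf_le_right.trans le_sup_left)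
  have hKpA : Kp ≤ A := le_inf hKpK (hKpP.trans le_sup_right)
  -- first factor
  have s3 : Kp.relIndex (E ⊔ Kp) = (powSubgroup p E).relIndex E := by
    rw [Subgroup.relIndex_sup_right, ← Subgroup.inf_relIndex_right,
      powSubgroup_inf_eq p K Y htf]
  -- second factor, lattice side
  have s4 : (E ⊔ Kp).relIndex A = (Y ⊔ Kp).relIndex Z := by
    have h1 := relIndex_sup_mul_relIndex_inf Y A (E ⊔ Kp) (sup_le hEA hKpA)
    have e1 : Y ⊔ (E ⊔ Kp) = Y ⊔ Kp := by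
      rw [← sup_assoc, sup_eq_left.mpr (inf_le_right : E ≤ Y)]
    have e2 : Y ⊔ A = Z := by
      rw [hZ, hW, hA, sup_comm K Y]
      exact (sup_inf_assoc_of_le K (le_sup_left : Y ≤ Y ⊔ Pw M p)).symm
    have e3 : (Y ⊓ (E ⊔ Kp)).relIndex (Y ⊓ A) = 1 := by
      rw [Subgroup.relIndex_eq_one]
      intro x hx
      exact ⟨hx.1, Subgroup.mem_sup_left ⟨hx.2.1, hx.1⟩⟩
    rw [e1, e2, e3, mul_one] at h1
    exact h1.symm
  -- second factor, `p`-torsion side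
  have s5 : W.relIndex (W.comap (powMonoidHom p)) = (Y ⊔ Kp).relIndex Z := by
    have hWc : W = (Y ⊔ Kp).comap (powMonoidHom p) := sup_eq_comap p K Y htf
    have h1 : W.relIndex (W.comap (powMonoidHom p)) =
        ((Y ⊔ Kp).comap (powMonoidHom p)).relIndex (W.comap (powMonoidHom p)) := by
      rw [← hWc]
    rw [h1, Subgroup.relIndex_comap, Subgroup.map_comap_eq, ← Subgroup.relIndex_sup_right]
    congr 1
    apply le_antisymm
    · refine sup_le (le_inf inf_le_right (inf_le_left.trans le_sup_right))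
        (sup_le (le_inf le_sup_right le_sup_left)
          (le_inf (hKpK.trans le_sup_left) (hKpP.trans le_sup_right)))
    · rintro x ⟨hxW, hxYP⟩
      obtain ⟨y, hy, t, ht, rfl⟩ := Subgroup.mem_sup.mp hxYP
      have hyW : y ∈ W := Subgroup.mem_sup_right hy
      have htW : t ∈ W := by
        have := W.mul_mem (W.inv_mem hyW) hxW
        rwa [inv_mul_cancel_left] at this
      rw [mul_comm]
      exact Subgroup.mul_mem_sup ⟨ht, htW⟩ (Subgroup.mem_sup_left hy)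
  rw [← Subgroup.relIndex_mul_relIndex Kp (E ⊔ Kp) A le_sup_right (sup_le hEA hKpA), s3, s4, s5]

/-- **(b')** `[W_p : W] = [M : W ⊔ P]` if `[M : W]` is finite (`|G[p]| = |G / p|` for the finite
abelian group `G = M / W`). -/
theorem relIndex_comap_pow_eq_index (W : Subgroup M) (hW : W.index ≠ 0) :
    W.relIndex (W.comap (powMonoidHom p)) = (W ⊔ Pw M p).index := by
  have h1 : W ≤ W.comap (powMonoidHom p) := fun w hw => W.pow_mem hw p
  have h2 := Subgroup.relIndex_mul_index h1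
  have h3 : (W.comap (powMonoidHom p)).index = W.relIndex (Pw M p) := Subgroup.index_comap _ _
  have h4 := Subgroup.relIndex_mul_index (le_sup_left : W ≤ W ⊔ Pw M p)
  rw [Subgroup.relIndex_sup_left] at h4
  rw [h3] at h2
  have hr : W.relIndex (Pw M p) ≠ 0 := by
    intro h0
    rw [h0, zero_mul] at h4
    exact hW h4.symm
  have h5 : W.relIndex (Pw M p) * W.relIndex (W.comap (powMonoidHom p)) =
      W.relIndex (Pw M p) * (W ⊔ Pw M p).index := by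
    rw [h4, mul_comm, h2]
  exact Nat.eq_of_mul_eq_mul_left (Nat.pos_of_ne_zero hr) h5

/-- **(c)** the count. -/
theorem count (K U JS : Subgroup M)
    (hJS : JS ⊓ (U ⊔ Pw M p) ≤ powSubgroup p JS)
    (htf : ∀ x : M, x ^ p ∈ JS ⊔ U → x ∈ JS ⊔ U)
    (e : ℕ) (he : e ≠ 0)
    (hE : (powSubgroup p (K ⊓ (JS ⊔ U))).relIndex (K ⊓ (JS ⊔ U)) = e)
    (hJ : (powSubgroup p JS).relIndex JS = e ^ 2)
    (hW : (K ⊔ (JS ⊔ U)).index ≠ 0) :
    (powSubgroup p K).relIndex (K ⊓ (JS ⊔ (U ⊔ Pw M p))) =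
        e * (K ⊔ (JS ⊔ (U ⊔ Pw M p))).index ∧
      (K ⊔ (U ⊔ Pw M p)).index =
        e * (powSubgroup p K).relIndex (K ⊓ (U ⊔ Pw M p)) ∧
      (K ⊔ (U ⊔ Pw M p)).index ≠ 0 := by
  have hb := relIndex_eq_mul p K U JS htf
  rw [hE, relIndex_comap_pow_eq_index p _ hW, sup_assoc, sup_assoc] at hb
  have ha := index_mul_relIndex p K U JS hJS
  rw [hJ, hb] at ha
  have hN' : (K ⊔ (JS ⊔ (U ⊔ Pw M p))).index ≠ 0 := by
    have hle : K ⊔ (JS ⊔ U) ≤ K ⊔ (JS ⊔ (U ⊔ Pw M p)) :=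
      sup_le_sup_left (sup_le_sup_left le_sup_left JS) K
    exact ne_zero_of_dvd_ne_zero hW (Subgroup.index_dvd_of_le hle)
  set n' := (K ⊔ (JS ⊔ (U ⊔ Pw M p))).index with hn'
  set n := (K ⊔ (U ⊔ Pw M p)).index with hn
  set b := (powSubgroup p K).relIndex (K ⊓ (U ⊔ Pw M p)) with hb'
  have hen' : e * n' ≠ 0 := mul_ne_zero he hN'
  have h1 : (e * n') * n = (e * n') * (e * b) := by
    calc (e * n') * n = n * (e * n') := mul_comm _ _
      _ = n' * e ^ 2 * b := ha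
      _ = (e * n') * (e * b) := by ring
  have h2 : n = e * b := Nat.eq_of_mul_eq_mul_left (Nat.pos_of_ne_zero hen') h1
  refine ⟨hb, h2, ?_⟩
  -- `b ≠ 0` since `b ∣ [A : K^p] = e * n' ≠ 0`
  have hKpQ : powSubgroup p K ≤ K ⊓ (U ⊔ Pw M p) :=
    le_inf (powSubgroup_le_self p K) ((powSubgroup_le_Pw p K).trans le_sup_right)
  have hAA : K ⊓ (U ⊔ Pw M p) ≤ K ⊓ (JS ⊔ (U ⊔ Pw M p)) := inf_le_inf_left K le_sup_right
  have h3 := Subgroup.relIndex_mul_relIndex _ _ _ hKpQ hAA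
  rw [hb] at h3
  have hb0 : b ≠ 0 := by
    intro h0
    rw [← hb', h0, zero_mul] at h3
    exact hen' h3.symm
  rw [h2]
  exact mul_ne_zero he hb0

/-- **(c')** the inequality `[M : K·U·P] ≤ [A : K^p]` from `[A₀ : K^p] ≤ [M : K·JS·U·P]`. -/
theorem index_le_of_count (K U JS : Subgroup M)
    (hJS : JS ⊓ (U ⊔ Pw M p) ≤ powSubgroup p JS)
    (htf : ∀ x : M, x ^ p ∈ JS ⊔ U → x ∈ JS ⊔ U)
    (e : ℕ) (he : e ≠ 0)
    (hE : (powSubgroup p (K ⊓ (JS ⊔ U))).relIndex (K ⊓ (JS ⊔ U)) = e)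
    (hJ : (powSubgroup p JS).relIndex JS = e ^ 2)
    (hW : (K ⊔ (JS ⊔ U)).index ≠ 0)
    (hF2 : (powSubgroup p K).relIndex (K ⊓ (U ⊔ Pw M p)) ≤
      (K ⊔ (JS ⊔ (U ⊔ Pw M p))).index) :
    (K ⊔ (U ⊔ Pw M p)).index ≤ (powSubgroup p K).relIndex (K ⊓ (JS ⊔ (U ⊔ Pw M p))) := by
  obtain ⟨h1, h2, -⟩ := count p K U JS hJS htf e he hE hJ hW
  rw [h1, h2]
  exact Nat.mul_le_mul_left e hF2

end Fermat.Agent.CFT.C5.CountS
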