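import Mathlib
import Fermat.Agent.CFT.C4.FirstInequalityRep
import Fermat.Agent.CFT.C5.ClassDevissage

/-!
# Prime degree layers of the idele class formation (Project C, Layer C, slice C5 (c6)(β))

Glue between

* the **second inequality in prime degree `p`**, in the idele form
  `[J_K : Kˣ · N_{M/K} J_M] ≤ p` for `M/K` Galois of degree `p` (`SecondInequality p`; this is
  the output of the C5 core, via `C5/CoprimeReduction` for fields without `μ_p`),
* helper15's first inequality (`C4/FirstInequalityRep.h1_h2_of_prime_degree`),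
* the `p`-primary dévissage of `C5/ClassDevissage`.

Output: `(I2)` of the Tate argument for the idele class module `classRep K M`, conditional only
on `SecondInequality p`:

* `hprime` : `H¹(Gal(M/K), C_M) = 0`, `|H²(Gal(M/K), C_M)| = p` in degree `p`;
* `eq_zero_of_pow_nsmul_H1`, `exists_coprime_nsmul_H1`, `card_pPrimary_H2_dvd` for every
  subgroup of `Gal(M/K)`, `M/K` any finite Galois extension of number fields;
* `h1_h2_of_isPGroup`.
-/

set_option autoImplicit false

noncomputable section

namespace Fermat.Agent.CFT.C5.PrimeDegree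

open Fermat.Agent.CFT.Idele Fermat.Agent.CFT.C6.IdeleNorm Fermat.Agent.CFT.C5.ClassDevissage
  Fermat.Agent.CFT.C5.DevissageP

/-- **The second inequality in prime degree `p`**, idele form: `[J_K : Kˣ · N J_M] ≤ p` for every
Galois extension `M/K` of number fields of degree `p`. -/
def SecondInequality (p : ℕ) : Prop :=
  ∀ (K M : Type) [Field K] [Field M] [NumberField K] [NumberField M] [Algebra K M]
    [IsGalois K M], Module.finrank K M = p →
    ((diag K).range ⊔ (normJ K M).range).index ≤ p

/-- The second inequality in prime degree `p` over base fields containing the `p`-th roots of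
unity (the case treated by Kummer theory). -/
def SecondInequalityMu (p : ℕ) : Prop :=
  ∀ (K M : Type) [Field K] [Field M] [NumberField K] [NumberField M] [Algebra K M]
    [IsGalois K M], (∃ ζ : K, IsPrimitiveRoot ζ p) → Module.finrank K M = p →
    ((diag K).range ⊔ (normJ K M).range).index ≤ p

theorem SecondInequality.mu {p : ℕ} (h : SecondInequality p) : SecondInequalityMu p :=
  fun K M _ _ _ _ _ _ _ hdeg => h K M hdeg

/-- the class group form `[C_K : N C_M] ≤ p` -/
theorem SecondInequality.index_normC_le {p : ℕ} (h : SecondInequality p)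
    (K M : Type) [Field K] [Field M] [NumberField K] [NumberField M] [Algebra K M]
    [IsGalois K M] (hdeg : Module.finrank K M = p) : (normC K M).range.index ≤ p := by
  rw [← Fermat.Agent.CFT.C4.FirstInequalityNorm.index_sup_range_normJ]
  exact h K M hdeg

variable (p : ℕ) [hp : Fact p.Prime] (hp2 : p ≠ 2) (hSI : SecondInequality p)

include hp2 hSI in
/-- **Prime degree layers**: `H¹(Gal(M/K), C_M) = 0` and `|H²(Gal(M/K), C_M)| = p` for `M/K`
Galois of degree `p` (odd). -/
theorem h1_h2_of_finrank_eq (K M : Type) [Field K] [Field M] [NumberField K] [NumberField M]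
    [Algebra K M] [IsGalois K M] (hdeg : Module.finrank K M = p) :
    Subsingleton (groupCohomology (classRep K M) 1) ∧
      Nat.card (groupCohomology (classRep K M) 2) = p :=
  Fermat.Agent.CFT.C4.FirstInequalityRep.h1_h2_of_prime_degree hp.out hp2 hdeg (hSI K M hdeg)

include hp2 hSI in
/-- the hypothesis `hprime` of `C5/ClassDevissage` -/
theorem hprime (K M : Type) [Field K] [Field M] [NumberField K] [NumberField M]
    [Algebra K M] [IsGalois K M] (hdeg : Module.finrank K M = p) :
    Subsingleton (groupCohomology (classRep K M) 1) ∧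
      Nat.card (groupCohomology (classRep K M) 2) ∣ p := by
  obtain ⟨h1, h2⟩ := h1_h2_of_finrank_eq p hp2 hSI K M hdeg
  exact ⟨h1, h2 ▸ dvd_rfl⟩

variable (K M : Type) [Field K] [Field M] [NumberField K] [NumberField M] [Algebra K M]
  [IsGalois K M]

include hp2 hSI in
/-- **(I2), `H¹`**: for every subgroup `H ≤ Gal(M/K)`, `H¹(H, C_M)` has no `p`-torsion. -/
theorem eq_zero_of_pow_nsmul_H1 (H : Subgroup (M ≃ₐ[K] M))
    (x : groupCohomology (Rep.res H.subtype (classRep K M)) 1) (m : ℕ) (hm : p ^ m • x = 0) :
    x = 0 :=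
  ClassDevissage.eq_zero_of_pow_nsmul_H1 p (fun K M => hprime p hp2 hSI K M) K M H x m hm

include hp2 hSI in
/-- **(I2), `H¹`**, annihilator form: `H¹(H, C_M)` is killed by an integer prime to `p`. -/
theorem exists_coprime_nsmul_H1 (H : Subgroup (M ≃ₐ[K] M))
    (x : groupCohomology (Rep.res H.subtype (classRep K M)) 1) : ∃ s : ℕ, ¬ p ∣ s ∧ s • x = 0 :=
  ClassDevissage.exists_coprime_nsmul_H1 p (fun K M => hprime p hp2 hSI K M) K M H x

include hp2 hSI in
/-- **(I2), `H²`**: for every subgroup `H ≤ Gal(M/K)`, the `p`-primary part of `H²(H, C_M)` has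
order dividing the `p`-part of `|H|`. -/
theorem card_pPrimary_H2_dvd (H : Subgroup (M ≃ₐ[K] M)) :
    Nat.card (pPrimary p (groupCohomology (Rep.res H.subtype (classRep K M)) 2)) ∣
      p ^ (Nat.card H).factorization p :=
  ClassDevissage.card_pPrimary_H2_dvd p (fun K M => hprime p hp2 hSI K M) K M H

include hp2 hSI in
theorem eq_zero_of_pow_nsmul_H1_top (x : groupCohomology (classRep K M) 1) (m : ℕ)
    (hm : p ^ m • x = 0) : x = 0 :=
  ClassDevissage.eq_zero_of_pow_nsmul_H1_top p (fun K M => hprime p hp2 hSI K M) K M x m hm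

include hp2 hSI in
theorem card_pPrimary_H2_dvd_top :
    Nat.card (pPrimary p (groupCohomology (classRep K M) 2)) ∣
      p ^ (Module.finrank K M).factorization p :=
  ClassDevissage.card_pPrimary_H2_dvd_top p (fun K M => hprime p hp2 hSI K M) K M

include hp2 hSI in
/-- `p`-extensions: `H¹(Gal(M/K), C_M) = 0` and `|H²(Gal(M/K), C_M)|` divides `[M:K]`. -/
theorem h1_h2_of_isPGroup (hG : IsPGroup p (M ≃ₐ[K] M)) :
    Subsingleton (groupCohomology (classRep K M) 1) ∧
      Nat.card (groupCohomology (classRep K M) 2) ∣ Module.finrank K M :=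
  ClassDevissage.h1_h2_of_isPGroup p (fun K M => hprime p hp2 hSI K M) K M hG

end Fermat.Agent.CFT.C5.PrimeDegree
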