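import Mathlib
import Fermat.Agent.CFT.C5.PrimeDegree

/-!
# The second inequality for cyclic `p`-power extensions (Project C, Layer C, C5 → C6 glue)

From `SecondInequality p` (prime degree) and the `p`-group dévissage of `C5/ClassDevissage`:
for `M/K` cyclic of `p`-power degree (generator `g`), `[C_K : N C_M]` divides `[M:K]`, hence
(first inequality, `p` odd) equals `[M:K]`; the same for `[J_K : Kˣ N J_M]`.  This is the input
`hSI` of helper7's `C6/ArtinK`.
-/

set_option autoImplicit false

noncomputable section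

namespace Fermat.Agent.CFT.C5.CyclicPPower

open Module
open Fermat.Agent.CFT.Idele Fermat.Agent.CFT.C6.IdeleNorm Fermat.Agent.CFT.C5.ClassDevissage
  Fermat.Agent.CFT.C5.PrimeDegree Fermat.Agent.CFT.C4.FirstInequalityNorm
  Fermat.Agent.CFT.C4.FirstInequalityRep

variable (p : ℕ) [hp : Fact p.Prime] (hp2 : p ≠ 2) (hSI : SecondInequality p)

variable {K M : Type} [Field K] [Field M] [NumberField K] [NumberField M] [Algebra K M]
  [IsGalois K M] (g : M ≃ₐ[K] M) (hgen : ∀ τ : M ≃ₐ[K] M, τ ∈ Subgroup.zpowers g)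

include hp2 hSI hgen in
/-- `[C_K : N C_M]` divides `[M:K]` for `M/K` cyclic of `p`-power degree -/
theorem index_range_normC_dvd (hG : IsPGroup p (M ≃ₐ[K] M)) :
    (normC K M).range.index ∣ finrank K M := by
  rw [← card_H2_eq g hgen]
  exact (PrimeDegree.h1_h2_of_isPGroup p hp2 hSI K M hG).2

include hp2 hSI hgen in
/-- **second inequality** for `M/K` cyclic of `p`-power degree: `[C_K : N C_M] ≤ [M:K]` -/
theorem index_range_normC_le (hG : IsPGroup p (M ≃ₐ[K] M)) :
    (normC K M).range.index ≤ finrank K M :=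
  Nat.le_of_dvd finrank_pos (index_range_normC_dvd p hp2 hSI g hgen hG)

include hp2 hSI hgen in
/-- `[C_K : N C_M] = [M:K]` for `M/K` cyclic of `p`-power degree, `p` odd -/
theorem index_range_normC_eq (hG : IsPGroup p (M ≃ₐ[K] M)) :
    (normC K M).range.index = finrank K M := by
  obtain ⟨a, ha⟩ := (IsPGroup.iff_card.mp hG)
  have hodd : Odd (finrank K M) := by
    rw [← IsGalois.card_aut_eq_finrank, ha]
    exact (hp.out.odd_of_ne_two hp2).pow
  have : IsUnramifiedAtInfinitePlaces K M := IsUnramifiedAtInfinitePlaces_of_odd_finrank hodd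
  exact le_antisymm (index_range_normC_le p hp2 hSI g hgen hG)
    (finrank_le_index_range_normC g hgen)

include hp2 hSI hgen in
/-- idele form: `[J_K : Kˣ · N J_M]` divides `[M:K]` -/
theorem index_sup_range_normJ_dvd (hG : IsPGroup p (M ≃ₐ[K] M)) :
    ((diag K).range ⊔ (normJ K M).range).index ∣ finrank K M := by
  rw [index_sup_range_normJ]
  exact index_range_normC_dvd p hp2 hSI g hgen hG

include hp2 hSI hgen in
/-- idele form: `[J_K : Kˣ · N J_M] = [M:K]` -/
theorem index_sup_range_normJ_eq (hG : IsPGroup p (M ≃ₐ[K] M)) :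
    ((diag K).range ⊔ (normJ K M).range).index = finrank K M := by
  rw [index_sup_range_normJ]
  exact index_range_normC_eq p hp2 hSI g hgen hG

include hp2 hSI hgen in
/-- degree form of the hypothesis: `[M:K] = p^a` -/
theorem index_range_normC_le_of_finrank (a : ℕ) (hdeg : finrank K M = p ^ a) :
    (normC K M).range.index ≤ finrank K M :=
  index_range_normC_le p hp2 hSI g hgen
    (IsPGroup.of_card (by rw [IsGalois.card_aut_eq_finrank, hdeg]))

include hp2 hSI hgen in
theorem index_range_normC_eq_of_finrank (a : ℕ) (hdeg : finrank K M = p ^ a) :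
    (normC K M).range.index = finrank K M :=
  index_range_normC_eq p hp2 hSI g hgen
    (IsPGroup.of_card (by rw [IsGalois.card_aut_eq_finrank, hdeg]))

include hp2 hSI hgen in
/-- `H¹(Gal(M/K), C_M) = 0` and `|H²(Gal(M/K), C_M)| = [M:K]` for `M/K` cyclic of `p`-power
degree, `p` odd -/
theorem h1_h2_of_cyclic (hG : IsPGroup p (M ≃ₐ[K] M)) :
    Subsingleton (groupCohomology (classRep K M) 1) ∧
      Nat.card (groupCohomology (classRep K M) 2) = finrank K M :=
  ⟨(PrimeDegree.h1_h2_of_isPGroup p hp2 hSI K M hG).1, by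
    rw [show classRep K M = Rep.res (galHom K M) (repC M) from rfl, card_H2_eq g hgen]
    exact index_range_normC_eq p hp2 hSI g hgen hG⟩

end Fermat.Agent.CFT.C5.CyclicPPower
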