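import Fermat.Agent.CFT.C5.IndexAbstract

/-!
# Auxiliary places from "the Frobenius elements generate", in abstract form

`A` a finite commutative group of exponent `p` (e.g. `Gal(N/L)` for the Kummer extension
`N = K(U_S^{1/p})`), `frob : I → A` a family (Frobenius elements of the places outside `S` that
split in `L`) not killed by any non-trivial character of `A` (consequence of the first inequality),
`χ : A →* (B →* μ)` a pairing realising every character of `A` (Kummer duality, `B` the
`S`-units).  Then there is a finite set `T ⊆ I` with `p ^ |T| = |A|` such that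
`b ↦ (χ (frob i) b)_{i ∈ T}` is onto `μ^T`.
-/

set_option autoImplicit false

namespace Fermat.Agent.CFT.C5.FrobBasis

open Module

/-- A family in a finite elementary abelian `p`-group on which no non-trivial character vanishes
contains a basis; dual-basis form. -/
theorem exists_finset_dual_family (p : ℕ) [hp : Fact p.Prime]
    {A μ I : Type*} [CommGroup A] [Finite A] [CommGroup μ]
    (hA : ∀ a : A, a ^ p = 1) (hμ : ∀ z : μ, z ^ p = 1) (hμ1 : ∃ g : μ, g ≠ 1)
    (frob : I → A) (hfrob : ∀ ψ : A →* μ, ψ ≠ 1 → ∃ i, ψ (frob i) ≠ 1) :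
    ∃ T : Finset I, p ^ T.card = Nat.card A ∧ Set.InjOn frob T ∧
      ∀ z : I → μ, ∃ ψ : A →* μ, ∀ i ∈ T, ψ (frob i) = z i := by
  classical
  have hVA : ∀ x : Additive A, p • x = 0 := fun x => by
    induction x using Additive.rec with
    | ofMul a => rw [← ofMul_pow, hA, ofMul_one]
  have hVμ : ∀ x : Additive μ, p • x = 0 := fun x => by
    induction x using Additive.rec with
    | ofMul a => rw [← ofMul_pow, hμ, ofMul_one]
  let _ : Module (ZMod p) (Additive A) := AddCommGroup.zmodModule (n := p) hVA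
  let _ : Module (ZMod p) (Additive μ) := AddCommGroup.zmodModule (n := p) hVμ
  let s : Set (Additive A) := Set.range fun i => Additive.ofMul (frob i)
  have hspan : Submodule.span (ZMod p) s = (⊤ : Submodule (ZMod p) (Additive A)) := by
    by_contra hne
    obtain ⟨f, hf0, hfle⟩ :=
      Submodule.exists_le_ker_of_lt_top (Submodule.span (ZMod p) s) (lt_top_iff_ne_top.mpr hne)
    obtain ⟨g, hg⟩ := hμ1
    let ψadd : Additive A →+ Additive μ :=
      ((LinearMap.toSpanSingleton (ZMod p) (Additive μ) (Additive.ofMul g)).comp f).toAddMonoidHom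
    let ψ : A →* μ := MonoidHom.toAdditive.symm ψadd
    have hψapp : ∀ a : A, Additive.ofMul (ψ a) = f (Additive.ofMul a) • Additive.ofMul g :=
      fun a => rfl
    have hψ : ψ ≠ 1 := by
      intro h1
      apply hf0
      ext x
      induction x using Additive.rec with
      | ofMul a =>
        have h2 := hψapp a
        rw [h1, MonoidHom.one_apply, ofMul_one] at h2
        rcases smul_eq_zero.mp h2.symm with h3 | h3
        · simpa using h3
        · exact absurd (Additive.ofMul.injective (h3.trans ofMul_one.symm)) hg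
    obtain ⟨i, hi⟩ := hfrob ψ hψ
    apply hi
    have hmem : Additive.ofMul (frob i) ∈ Submodule.span (ZMod p) s :=
      Submodule.subset_span ⟨i, rfl⟩
    have hker : f (Additive.ofMul (frob i)) = 0 := hfle hmem
    apply Additive.ofMul.injective
    rw [hψapp, hker, zero_smul, ofMul_one]
  obtain ⟨b, hbs, hbspan, hli⟩ := exists_linearIndependent (ZMod p) s
  have hbtop : ⊤ ≤ Submodule.span (ZMod p) (Set.range (Subtype.val : b → Additive A)) := by
    rw [Subtype.range_coe, hbspan, hspan]
  let bas : Basis b (ZMod p) (Additive A) := Basis.mk hli hbtop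
  have hfinA : Finite (Additive A) := inferInstanceAs (Finite A)
  have : Fintype b := Fintype.ofFinite b
  have : Fintype (Additive A) := Fintype.ofFinite _
  have hidx : ∀ x : b, ∃ i : I, Additive.ofMul (frob i) = (x : Additive A) := fun x => hbs x.2
  choose idx hidx using hidx
  have hidx_inj : Function.Injective idx := by
    intro x y hxy
    apply Subtype.ext
    rw [← hidx x, ← hidx y, hxy]
  refine ⟨Finset.univ.image idx, ?_, ?_, ?_⟩
  · rw [Finset.card_image_of_injective _ hidx_inj, Finset.card_univ,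
      ← Module.finrank_eq_card_basis bas]
    have h1 := Module.card_eq_pow_finrank (K := ZMod p) (V := Additive A)
    rw [ZMod.card] at h1
    rw [← h1, ← Nat.card_eq_fintype_card]
    exact Nat.card_congr Additive.ofMul.symm
  · intro i hi j hj hij
    obtain ⟨x, -, rfl⟩ := Finset.mem_image.mp (Finset.mem_coe.mp hi)
    obtain ⟨y, -, rfl⟩ := Finset.mem_image.mp (Finset.mem_coe.mp hj)
    have : (x : Additive A) = y := by rw [← hidx x, ← hidx y, hij]
    rw [Subtype.ext this]
  · intro z
    let F : Additive A →ₗ[ZMod p] Additive μ :=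
      bas.constr (ZMod p) fun x => Additive.ofMul (z (idx x))
    refine ⟨MonoidHom.toAdditive.symm F.toAddMonoidHom, ?_⟩
    intro i hi
    obtain ⟨x, -, rfl⟩ := Finset.mem_image.mp hi
    apply Additive.ofMul.injective
    change F (Additive.ofMul (frob (idx x))) = Additive.ofMul (z (idx x))
    rw [hidx x]
    have : (x : Additive A) = bas x := (Basis.mk_apply hli hbtop x).symm
    rw [this, Basis.constr_basis]

/-- **Auxiliary places, abstract form.** -/
theorem exists_finset_surjective (p : ℕ) [hp : Fact p.Prime]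
    {A B μ I : Type*} [CommGroup A] [Finite A] [CommGroup B] [CommGroup μ]
    (hA : ∀ a : A, a ^ p = 1) (hμ : ∀ z : μ, z ^ p = 1) (hμ1 : ∃ g : μ, g ≠ 1)
    (χ : A →* (B →* μ)) (hsurj : ∀ ψ : A →* μ, ∃ b : B, ∀ a, χ a b = ψ a)
    (frob : I → A) (hfrob : ∀ ψ : A →* μ, ψ ≠ 1 → ∃ i, ψ (frob i) ≠ 1) :
    ∃ T : Finset I, p ^ T.card = Nat.card A ∧ Set.InjOn frob T ∧
      ∀ z : I → μ, ∃ b : B, ∀ i ∈ T, χ (frob i) b = z i := by
  obtain ⟨T, hcard, hinj, hT⟩ := exists_finset_dual_family p hA hμ hμ1 frob hfrob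
  refine ⟨T, hcard, hinj, fun z => ?_⟩
  obtain ⟨ψ, hψ⟩ := hT z
  obtain ⟨b, hb⟩ := hsurj ψ
  exact ⟨b, fun i hi => by rw [hb, hψ i hi]⟩

/-- **(TC) from local characters.** If for `v ∈ T` the units `U v` carry characters
`loc v : G v →* μ` detecting `p`-th powers of units, and every family `(z v)_{v ∈ T}` of values is
realised by an element of `K ∩ J_S`, then hypothesis `(TC)` of
`IndexAbstract.relIndex_sup_groupE` holds. -/
theorem tc_of_local_characters {ι : Type*} {G : ι → Type*} [∀ v, CommGroup (G v)]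
    (U : ∀ v, Subgroup (G v)) (p : ℕ) (K : Subgroup (∀ v, G v)) (S T : Finset ι)
    (hST : Disjoint S T) {μ : Type*} [CommGroup μ] (loc : ∀ v, G v →* μ)
    (hloc : ∀ v ∈ T, ∀ u ∈ U v, loc v u = 1 → u ∈ (U v).map (powMonoidHom p : G v →* G v))
    (hreal : ∀ z : ι → μ, ∃ k ∈ K ⊓ IndexAbstract.ideleS U S, ∀ v ∈ T, loc v (k v) = z v) :
    ∀ u : ∀ v, G v, (∀ v ∈ T, u v ∈ U v) →
      ∃ k ∈ K ⊓ IndexAbstract.ideleS U S,
        ∀ v ∈ T, (k v)⁻¹ * u v ∈ (U v).map (powMonoidHom p : G v →* G v) := by
  intro u hu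
  obtain ⟨k, hk, hkz⟩ := hreal fun v => loc v (u v)
  refine ⟨k, hk, fun v hv => ?_⟩
  have hvS : v ∉ S := Finset.disjoint_right.mp hST hv
  have hkU : k v ∈ U v := hk.2 v hvS
  refine hloc v hv _ ((U v).mul_mem ((U v).inv_mem hkU) (hu v hv)) ?_
  rw [map_mul, map_inv, hkz v hv, inv_mul_cancel]

end Fermat.Agent.CFT.C5.FrobBasis
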