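import Mathlib
import Fermat.Agent.CFT.C5.NonSplit
import Fermat.Agent.CFT.Local.KummerLocal
import Fermat.Agent.CFT.C4.FirstInequalityNorm

/-!
# PROJECT C, slice C5-(iii), part (b): the local-global principle for `p`-th powers

`L` a number field containing `μ_p`, `p` an odd prime.

* `splitsCompletely_of_local_pow`: for a Kummer extension `F = L(α)`, `α^p = b`, a rational prime
  `q` such that `b` is a `p`-th power in `L ⊗ ℚ_q` splits completely in `F/L` (in the tensor-model
  sense `NonSplit.SplitsCompletely`; idempotents from helper20's `KummerLocal.idem`);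
* `RootField b p`: the field `L(b^{1/p})` as a number field in `Type`;
* `exists_pow_eq_of_forall_local`: **if `b ∈ L` is a `p`-th power in `L ⊗ ℚ_q` for all `q` outside
  a finite set, then `b` is a `p`-th power in `L`** (first inequality for `L(b^{1/p})/L`:
  helper15's `FirstInequalityNorm.finrank_le_index_range_normC` + helper29's
  `NonSplit.exists_not_splitsCompletely_of_class`).
-/

set_option autoImplicit false
set_option linter.unusedSectionVars false
set_option linter.style.haveILetI false

open scoped TensorProduct NumberField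
open Fermat.Agent.CFT.Idele NumberField Fermat.Agent.CFT.Local.KummerLocal

noncomputable section

namespace Fermat.Agent.CFT.C5.PowerLocalGlobal

section Split

variable {L F : Type*} [Field L] [Field F] [NumberField L] [NumberField F] [Algebra L F]
  {p : ℕ} [hp : Fact p.Prime]

/-- The automorphism of `F ⊗ ℚ_q` induced by `g ∈ Gal(F/L)`, as an algebra map over `L ⊗ ℚ_q`. -/
def locAutAlgHom (q : Nat.Primes) (g : F ≃ₐ[L] F) :
    letI : Algebra (Loc L q) (Loc F q) := (Loc.map q (inclHom L F)).toRingHom.toAlgebra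
    Loc F q →ₐ[Loc L q] Loc F q :=
  letI : Algebra (Loc L q) (Loc F q) := (Loc.map q (inclHom L F)).toRingHom.toAlgebra
  { (Loc.aut F q (galHom L F g) : Loc F q →+* Loc F q) with
    commutes' := fun r =>
      Loc.aut_map_of_fixes q (inclHom L F) (galHom L F g) (galHom_inclHom L F g) r }

theorem aut_pow_apply (q : Nat.Primes) (σ : F ≃ₐ[ℚ] F) (i : ℕ) (x : Loc F q) :
    Loc.aut F q (σ ^ i) x = (Loc.aut F q σ)^[i] x := by
  induction i generalizing x with
  | zero => rw [pow_zero, Loc.aut_one]; rfl
  | succ i ih =>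
    rw [pow_succ, Loc.aut_mul_apply, ih, Function.iterate_succ_apply]

/-- **A Kummer extension splits completely where the radicand is a local `p`-th power.**
`F = L(α)`, `α^p = b ∈ L`, `Gal(F/L) = ⟨g⟩` with `g α = ζ α`; if `b` is a `p`-th power in
`L ⊗ ℚ_q` then `q` splits completely in `F/L`. -/
theorem splitsCompletely_of_local_pow {ζ : L} (hζ : IsPrimitiveRoot ζ p) {b : L} {α : F}
    (hα : α ^ p = algebraMap L F b) (g : F ≃ₐ[L] F) (hg : g α = algebraMap L F ζ * α)
    (hgen : ∀ τ : F ≃ₐ[L] F, τ ∈ Subgroup.zpowers g) (hord : orderOf g = p)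
    (q : Nat.Primes) {γ : (Loc L q)ˣ} (hγ : (γ : Loc L q) ^ p = inclL L q b) :
    NonSplit.SplitsCompletely L F q := by
  classical
  letI : Algebra (Loc L q) (Loc F q) := (Loc.map q (inclHom L F)).toRingHom.toAlgebra
  have hsmul : ∀ (r : Loc L q) (x : Loc F q), r • x = Loc.map q (inclHom L F) r * x :=
    fun r x => rfl
  set σ : Loc F q →ₐ[Loc L q] Loc F q := locAutAlgHom q g with hσdef
  have hσapp : ∀ x, σ x = Loc.aut F q (galHom L F g) x := fun x => rfl
  set ζR : Loc L q := inclL L q ζ with hζR
  set pinv : Loc L q := inclL L q ((p : L)⁻¹) with hpinv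
  set β : Loc F q := inclL F q α * Loc.map q (inclHom L F) ((γ⁻¹ : (Loc L q)ˣ) : Loc L q) with hβ
  have hp0 : (p : L) ≠ 0 := Nat.cast_ne_zero.mpr hp.out.ne_zero
  have hpR : (p : Loc L q) * pinv = 1 := by
    rw [hpinv, ← map_natCast (inclL L q), ← map_mul, mul_inv_cancel₀ hp0, map_one]
  have hζp : ζR ^ p = 1 := by rw [hζR, ← map_pow, hζ.pow_eq_one, map_one]
  have hβp : β ^ p = 1 := by
    rw [hβ, mul_pow, ← map_pow, ← map_pow, hα, ← Units.val_pow_eq_pow_val, inv_pow,
      ← inclHom_apply, ← Loc.map_inclL q (inclHom L F) b, ← hγ, ← map_mul,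
      ← Units.val_pow_eq_pow_val, ← Units.val_mul, mul_inv_cancel, Units.val_one, map_one]
  have hσβ : σ β = ζR • β := by
    rw [hσapp, hβ, map_mul, Loc.aut_inclL, Loc.aut_map_of_fixes q (inclHom L F) (galHom L F g)
      (galHom_inclHom L F g), hsmul, hζR, Loc.map_inclL, galHom_apply, hg, map_mul, inclHom_apply,
      mul_assoc]
  have hsum : ∀ d, 0 < d → d < p → ∑ j ∈ Finset.range p, ζR ^ (d * j) = 0 := by
    intro d hd0 hdp
    have hcop : Nat.Coprime d p :=
      Nat.Coprime.symm ((Nat.Prime.coprime_iff_not_dvd hp.out).mpr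
        (Nat.not_dvd_of_pos_of_lt hd0 hdp))
    have hζd : IsPrimitiveRoot (ζ ^ d) p := hζ.pow_of_coprime d hcop
    have h0 := hζd.geom_sum_eq_zero hp.out.one_lt
    have h1 : ∑ j ∈ Finset.range p, ζR ^ (d * j) = inclL L q (∑ j ∈ Finset.range p, (ζ ^ d) ^ j) := by
      rw [map_sum]
      refine Finset.sum_congr rfl fun j _ => ?_
      rw [hζR, ← map_pow, pow_mul]
    rw [h1, h0, map_zero]
  set e : Loc F q := idem p ζR pinv β 0 with he
  have hiter : ∀ i : ℕ, Loc.aut F q (galHom L F (g ^ i)) e = idem p ζR pinv β i := by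
    intro i
    rw [map_pow, aut_pow_apply, ← iterate_idem σ hσβ i]
    rfl
  refine ⟨e, ?_, ?_⟩
  · intro τ₁ τ₂ hne
    obtain ⟨i, hi, rfl⟩ : ∃ i, i < p ∧ g ^ i = τ₁ := by
      have := IsCyclic.image_range_orderOf hgen
      have hmem : τ₁ ∈ Finset.image (fun i => g ^ i) (Finset.range (orderOf g)) := by
        rw [this]; exact Finset.mem_univ _
      obtain ⟨i, hi, rfl⟩ := Finset.mem_image.mp hmem
      exact ⟨i, hord ▸ Finset.mem_range.mp hi, rfl⟩
    obtain ⟨l, hl, rfl⟩ : ∃ l, l < p ∧ g ^ l = τ₂ := by
      have := IsCyclic.image_range_orderOf hgen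
      have hmem : τ₂ ∈ Finset.image (fun i => g ^ i) (Finset.range (orderOf g)) := by
        rw [this]; exact Finset.mem_univ _
      obtain ⟨i, hi, rfl⟩ := Finset.mem_image.mp hmem
      exact ⟨i, hord ▸ Finset.mem_range.mp hi, rfl⟩
    rw [hiter, hiter]
    have hil : i ≠ l := fun h => hne (by rw [h])
    rcases lt_or_gt_of_ne hil with h | h
    · rw [mul_comm]
      exact idem_mul_idem_of_lt hζp hβp hsum h hl
    · exact idem_mul_idem_of_lt hζp hβp hsum h hi
  · rw [← IsCyclic.image_range_orderOf hgen, Finset.sum_image, hord]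
    · rw [Finset.sum_congr rfl fun i _ => hiter i]
      exact sum_idem hpR hsum
    · intro i hi j hj h
      exact pow_injOn_Iio_orderOf (Finset.mem_range.mp hi) (Finset.mem_range.mp hj) h

end Split

section RootField

open Polynomial

variable {L : Type} [Field L] (b : L) (p : ℕ)

/-- `L(b^{1/p})`, as a wrapper around `AdjoinRoot (X ^ p - C b)` carrying only the `Field` and
`Algebra L` instances (so that its `ℚ`-algebra structure is the canonical one of a field of
characteristic zero). -/
def RootField : Type := AdjoinRoot (X ^ p - C b)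

variable [hirr : Fact (Irreducible (X ^ p - C b))]

instance instFieldRootField : Field (RootField b p) :=
  inferInstanceAs (Field (AdjoinRoot (X ^ p - C b)))

instance instAlgebraRootField : Algebra L (RootField b p) :=
  inferInstanceAs (Algebra L (AdjoinRoot (X ^ p - C b)))

/-- The chosen `p`-th root of `b`. -/
def rootOf : RootField b p := AdjoinRoot.root (X ^ p - C b)

theorem rootOf_pow : rootOf b p ^ p = algebraMap L (RootField b p) b := by
  have h := AdjoinRoot.eval₂_root (X ^ p - C b)
  rw [eval₂_sub, eval₂_X_pow, eval₂_C, sub_eq_zero] at h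
  exact h

instance instFiniteDimensionalRootField : FiniteDimensional L (RootField b p) :=
  (AdjoinRoot.powerBasis hirr.out.ne_zero).finite

end RootField

section Main

open Polynomial Fermat.Agent.CFT.C6.IdeleNorm Fermat.Agent.CFT.C4.FirstInequalityNorm Module

variable {L : Type} [Field L] [NumberField L] {p : ℕ} [hp : Fact p.Prime]

/-- **Local-global principle for `p`-th powers** (`p` odd, `μ_p ⊂ L`): an element of a number field
`L` which is a `p`-th power in `L ⊗ ℚ_q` for all `q` outside a finite set is a `p`-th power.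
(Consequence of the first inequality for `L(b^{1/p})/L`.) -/
theorem exists_pow_eq_of_forall_local (hodd : Odd p) {ζ : L} (hζ : IsPrimitiveRoot ζ p)
    (S₀ : Finset Nat.Primes) (b : L)
    (h : ∀ q : Nat.Primes, q ∉ S₀ → ∃ γ : (Loc L q)ˣ, (γ : Loc L q) ^ p = inclL L q b) :
    ∃ c : L, c ^ p = b := by
  by_contra hcon
  push Not at hcon
  have hirr : Irreducible (X ^ p - C b) := X_pow_sub_C_irreducible_of_prime hp.out hcon
  haveI : Fact (Irreducible (X ^ p - C b)) := ⟨hirr⟩
  haveI : NeZero p := ⟨hp.out.ne_zero⟩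
  have hζ' : (primitiveRoots p L).Nonempty := ⟨ζ, (mem_primitiveRoots hp.out.pos).mpr hζ⟩
  haveI : NumberField (RootField b p) := NumberField.of_module_finite L (RootField b p)
  haveI hsf : IsSplittingField L (RootField b p) (X ^ p - C b) :=
    isSplittingField_AdjoinRoot_X_pow_sub_C hζ' hirr
  haveI : IsGalois L (RootField b p) := isGalois_of_isSplittingField_X_pow_sub_C hζ' hirr _
  have hfin : finrank L (RootField b p) = p := finrank_of_isSplittingField_X_pow_sub_C hζ' hirr _
  let e : Gal(RootField b p/L) ≃* Multiplicative (ZMod p) := autEquivZmod hirr (RootField b p) hζ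
  set g : RootField b p ≃ₐ[L] RootField b p := e.symm (Multiplicative.ofAdd (1 : ZMod p)) with hgdef
  have hα := rootOf_pow b p
  have hg : g (rootOf b p) = algebraMap L (RootField b p) ζ * rootOf b p := by
    have := autEquivZmod_symm_apply_natCast hirr (RootField b p) hα hζ 1
    rw [Nat.cast_one, pow_one, Algebra.smul_def] at this
    exact this
  have hgen : ∀ τ : RootField b p ≃ₐ[L] RootField b p, τ ∈ Subgroup.zpowers g := by
    intro τ
    have h1 : e τ ∈ Subgroup.zpowers (Multiplicative.ofAdd (1 : ZMod p)) := by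
      rw [Subgroup.mem_zpowers_iff]
      refine ⟨((Multiplicative.toAdd (e τ)).val : ℤ), ?_⟩
      apply Multiplicative.toAdd.injective
      rw [toAdd_zpow, toAdd_ofAdd, zsmul_eq_mul, mul_one, Int.cast_natCast, ZMod.natCast_zmod_val]
    obtain ⟨k, hk⟩ := Subgroup.mem_zpowers_iff.mp h1
    rw [Subgroup.mem_zpowers_iff]
    refine ⟨k, ?_⟩
    apply e.injective
    rw [map_zpow, hgdef, MulEquiv.apply_symm_apply, hk]
  have hord : orderOf g = p := by
    exact (Fermat.Agent.CFT.C4.FirstInequality.orderOf_eq_finrank g hgen).trans hfin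
  -- every `q ∉ S₀` splits completely
  have hsplit : ∀ q : Nat.Primes, q ∉ S₀ → NonSplit.SplitsCompletely L (RootField b p) q := by
    intro q hq
    obtain ⟨γ, hγ⟩ := h q hq
    exact splitsCompletely_of_local_pow hζ hα g hg hgen hord q hγ
  -- first inequality
  have hodd' : Odd (finrank L (RootField b p)) := by rw [hfin]; exact hodd
  haveI : IsUnramifiedAtInfinitePlaces L (RootField b p) :=
    IsUnramifiedAtInfinitePlaces_of_odd_finrank hodd'
  have hle := finrank_le_index_range_normC g hgen
  have hne : (normC L (RootField b p)).range ≠ ⊤ := by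
    intro htop
    rw [htop, Subgroup.index_top, hfin] at hle
    have := hp.out.two_le
    omega
  obtain ⟨c', hc'⟩ : ∃ c' : C L, c' ∉ (normC L (RootField b p)).range := by
    by_contra hall
    push Not at hall
    exact hne (eq_top_iff.mpr fun x _ => hall x)
  have hex : ∃ c : C (RootField b p),
      (∀ σ : RootField b p ≃ₐ[L] RootField b p, galHom L (RootField b p) σ • c = c) ∧
        ∀ d : C (RootField b p),
          c ≠ ∏ σ : RootField b p ≃ₐ[L] RootField b p, galHom L (RootField b p) σ • d := by
    refine ⟨C.map (inclHom L (RootField b p)) c', ?_, ?_⟩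
    · intro σ
      exact C.smul_map_of_fixes (inclHom L (RootField b p)) (galHom L (RootField b p) σ)
        (galHom_inclHom L (RootField b p) σ) c'
    · intro d hd
      rw [← map_normC] at hd
      exact hc' ⟨d, (C.map_inclHom_injective L (RootField b p) hd).symm⟩
  obtain ⟨q, hq, hns⟩ := NonSplit.exists_not_splitsCompletely_of_class hex S₀
  exact hns (hsplit q hq)

/-- Units form of `exists_pow_eq_of_forall_local`. -/
theorem exists_unit_pow_eq_of_forall_local (hodd : Odd p) {ζ : L} (hζ : IsPrimitiveRoot ζ p)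
    (S₀ : Finset Nat.Primes) (b : Lˣ)
    (h : ∀ q : Nat.Primes, q ∉ S₀ →
      ∃ γ : (Loc L q)ˣ, γ ^ p = Units.map (inclL L q : L →* Loc L q) b) :
    ∃ c : Lˣ, c ^ p = b := by
  obtain ⟨c, hc⟩ := exists_pow_eq_of_forall_local hodd hζ S₀ (b : L) (fun q hq => by
    obtain ⟨γ, hγ⟩ := h q hq
    refine ⟨γ, ?_⟩
    have := congrArg (fun u : (Loc L q)ˣ => (u : Loc L q)) hγ
    simpa using this)
  have hc0 : c ≠ 0 := by
    rintro rfl
    rw [zero_pow hp.out.ne_zero] at hc
    exact b.ne_zero hc.symm
  exact ⟨Units.mk0 c hc0, Units.ext (by simpa using hc)⟩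

end Main

end Fermat.Agent.CFT.C5.PowerLocalGlobal
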