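import Mathlib
import Fermat.Agent.CFT.C5.LocalFields
import Fermat.Agent.CFT.C5.NonSplit
import Fermat.Agent.CFT.C6.IdeleNorm
import Fermat.Agent.CFT.Semilocal.Unramified
import Fermat.Agent.CFT.Local.KummerLocal

/-!
# PROJECT C, slice C5 (second inequality), concrete part (ii): idele norms of Kummer extensions

`K` a number field containing a primitive `p`-th root of unity `ζ`, `M/K` cyclic of degree `p` with
generator `g`, `α ∈ M` with `α ^ p = y ∈ Kˣ` and `g α = ζ α` (so `M = K(y^(1/p))`).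

* `locNorm K M q` : the group of local norms in `(K ⊗ ℚ_q)ˣ`;
* local-global principle: an idele all of whose components are local norms is a norm
  (`mem_range_normJ_of_forall_mem_locNorm`; integral units are norms of integral units at the
  primes not dividing the discriminant, helper25's `Semilocal/Unramified`);
* placewise (through `C5/LocalFields`): at a place `v` of `K`
  (N1) `p`-th powers are norms, (N2) if `y` is a `p`-th power in `K_v` everything is a norm,
  (N3) if `v ∤ p` and `y` is a unit at `v`, units are norms (`Local/KummerLocal`);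
* `mem_range_normJ_of_forall_place` : the criterion used for `E ≤ N J_L` and `D ≤ N J_M`.
-/

set_option autoImplicit false
set_option linter.unusedSectionVars false

open scoped TensorProduct NumberField Fermat.Agent.CFT.Idele Fermat.Agent.CFT.C5.LocalFields

open Fermat.Agent.CFT.Idele Fermat.Agent.CFT.Dict Fermat.Agent.CFT.Local.Model
  Fermat.Agent.CFT.C5.LocalFields Finset

noncomputable section

namespace Fermat.Agent.CFT.C5.NormIdele

/-! ### Lifting norms along an idempotent -/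

section Lifting

variable {R B : Type*} [CommRing R] [CommRing B] (φ : R →+* B) (σ : B →+* B)

theorem mul_map_eq_zero_of_mem_map {𝔪 : Ideal R} {e : R} (he : ∀ r ∈ 𝔪, r * e = 0) {x : B}
    (hx : x ∈ 𝔪.map φ) : x * φ e = 0 := by
  rw [Ideal.map] at hx
  induction hx using Submodule.span_induction with
  | mem x hx =>
    obtain ⟨r, hr, rfl⟩ := hx
    rw [← map_mul, he r hr, map_zero]
  | zero => rw [zero_mul]
  | add x y _ _ hx hy => rw [add_mul, hx, hy, add_zero]
  | smul a x _ hx => rw [smul_eq_mul, mul_assoc, hx, mul_zero]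

theorem prod_mul_idem_add {E : B} (hE : E * E = E) {ι : Type*} (s : Finset ι) (x : ι → B) :
    ∏ i ∈ s, (x i * E + (1 - E)) = (∏ i ∈ s, x i) * E + (1 - E) := by
  classical
  induction s using Finset.induction_on with
  | empty => simp
  | insert a s ha ih =>
    rw [Finset.prod_insert ha, Finset.prod_insert ha, ih]
    have h1 : E * (1 - E) = 0 := by rw [mul_sub, mul_one, hE, sub_self]
    have h2 : (1 - E) * (1 - E) = 1 - E := by
      rw [sub_mul, one_mul, h1, sub_zero]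
    calc (x a * E + (1 - E)) * ((∏ i ∈ s, x i) * E + (1 - E))
        = x a * (∏ i ∈ s, x i) * (E * E) + (x a + ∏ i ∈ s, x i) * (E * (1 - E))
          + (1 - E) * (1 - E) := by ring
      _ = x a * (∏ i ∈ s, x i) * E + (1 - E) := by rw [hE, h1, h2, mul_zero, add_zero]

theorem iterate_mul_idem_add {E : B} (hσE : σ E = E) (b : B) (i : ℕ) :
    σ^[i] (b * E + (1 - E)) = σ^[i] b * E + (1 - E) := by
  induction i generalizing b with
  | zero => rfl
  | succ i ih =>
    rw [Function.iterate_succ_apply, Function.iterate_succ_apply, map_add, map_mul, map_sub,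
      map_one, hσE, ih]

/-- **Lifting a norm equation from the quotient at an idempotent.**  `e ∈ R` idempotent killing the
ideal `𝔪`; if `b` is a unit modulo `𝔪 B` with `σ`-norm `≡ a` modulo `𝔪 B`, then
`b e + (1 - e)` is a unit of `B` with `σ`-norm `a e + (1 - e)`. -/
theorem lift_norm {𝔪 : Ideal R} {e : R} (he : ∀ r ∈ 𝔪, r * e = 0) (he2 : e * e = e)
    (hσ : ∀ r, σ (φ r) = φ r) {b c : B} (hbc : b * c - 1 ∈ 𝔪.map φ) {a : R} {n : ℕ}
    (hN : ∏ i ∈ range n, σ^[i] b - φ a ∈ 𝔪.map φ) :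
    (b * φ e + (1 - φ e)) * (c * φ e + (1 - φ e)) = 1 ∧
      ∏ i ∈ range n, σ^[i] (b * φ e + (1 - φ e)) = φ (a * e + (1 - e)) := by
  have hE : φ e * φ e = φ e := by rw [← map_mul, he2]
  have h1 : φ e * (1 - φ e) = 0 := by rw [mul_sub, mul_one, hE, sub_self]
  have h2 : (1 - φ e) * (1 - φ e) = 1 - φ e := by rw [sub_mul, one_mul, h1, sub_zero]
  constructor
  · have h3 := mul_map_eq_zero_of_mem_map φ he hbc
    rw [sub_mul, one_mul, sub_eq_zero] at h3
    calc (b * φ e + (1 - φ e)) * (c * φ e + (1 - φ e))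
        = b * c * φ e * φ e + (b + c) * (φ e * (1 - φ e)) + (1 - φ e) * (1 - φ e) := by ring
      _ = 1 := by rw [h3, hE, h1, h2, mul_zero, add_zero]; ring
  · simp only [iterate_mul_idem_add σ (hσ e)]
    rw [prod_mul_idem_add hE]
    have h3 := mul_map_eq_zero_of_mem_map φ he hN
    rw [sub_mul, sub_eq_zero] at h3
    rw [h3, map_add, map_mul, map_sub, map_one]

end Lifting

/-! ### The primitive idempotents of `K ⊗ ℚ_q` -/

section Idem

variable {K : Type} [Field K] [NumberField K] {q : Nat.Primes}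

/-- the primitive idempotent of `K ⊗ ℚ_q` at the place `v` -/
def idemV (v : PrimeOver (q : ℕ) (𝓞 K)) : Loc K q :=
  (locEquiv (K := K) (q := q)).symm (Pi.single v 1)

theorem toKv_idemV (v w : PrimeOver (q : ℕ) (𝓞 K)) :
    toKv w (idemV v) = (Pi.single v 1 : ∀ x : PrimeOver (q : ℕ) (𝓞 K), Kv x) w := by
  rw [← locEquiv_apply, idemV, RingEquiv.apply_symm_apply]

theorem toKv_idemV_same (v : PrimeOver (q : ℕ) (𝓞 K)) : toKv v (idemV v) = 1 := by
  rw [toKv_idemV, Pi.single_eq_same]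

theorem toKv_idemV_of_ne {v w : PrimeOver (q : ℕ) (𝓞 K)} (h : w ≠ v) : toKv w (idemV v) = 0 := by
  rw [toKv_idemV, Pi.single_eq_of_ne h]

theorem ext_toKv {x y : Loc K q} (h : ∀ v : PrimeOver (q : ℕ) (𝓞 K), toKv v x = toKv v y) :
    x = y :=
  (locEquiv (K := K) (q := q)).injective (funext h)

theorem idemV_mul_self (v : PrimeOver (q : ℕ) (𝓞 K)) : idemV v * idemV v = idemV v := by
  classical
  apply ext_toKv
  intro w
  rw [map_mul]
  by_cases hw : w = v
  · subst hw; rw [toKv_idemV_same, mul_one]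
  · rw [toKv_idemV_of_ne hw, mul_zero]

theorem mul_idemV_of_mem_kerV {v : PrimeOver (q : ℕ) (𝓞 K)} {r : Loc K q} (hr : r ∈ kerV v) :
    r * idemV v = 0 := by
  classical
  apply ext_toKv
  intro w
  rw [map_mul, map_zero]
  by_cases hw : w = v
  · subst hw
    have : toKv w r = 0 := (toKv_eq_zero_iff w r).mpr hr
    rw [this, zero_mul]
  · rw [toKv_idemV_of_ne hw, mul_zero]

theorem coe_single (v : PrimeOver (q : ℕ) (𝓞 K)) (a : (Kv v)ˣ) (a' : Loc K q)
    (h : toKv v a' = (a : Kv v)) :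
    ((single v a : (Loc K q)ˣ) : Loc K q) = a' * idemV v + (1 - idemV v) := by
  classical
  apply ext_toKv
  intro w
  rw [← coe_piV, piV_single, map_add, map_mul, map_sub, map_one]
  by_cases hw : w = v
  · subst hw
    rw [Pi.mulSingle_eq_same, toKv_idemV_same, h, mul_one, sub_self, add_zero]
  · rw [Pi.mulSingle_eq_of_ne hw, toKv_idemV_of_ne hw, mul_zero, sub_zero, zero_add, Units.val_one]

end Idem

/-! ### Local norm groups and the local-global principle -/

section LocNorm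

open Fermat.Agent.CFT.C5.NonSplit Fermat.Agent.CFT.C6.IdeleNorm Fermat.Agent.CFT.Semilocal
  Fermat.Agent.CFT.Local.CyclicVanish Fermat.Agent.CFT.Herbrand

variable (K M : Type) [Field K] [NumberField K] [Field M] [NumberField M] [Algebra K M]

/-- the ring automorphism of `M ⊗ ℚ_q` induced by `σ ∈ Gal(M/K)` -/
def autM (q : Nat.Primes) (σ : M ≃ₐ[K] M) : Loc M q →+* Loc M q :=
  ((Loc.aut M q (galHom K M σ) : Loc M q ≃ₐ[ℚ] Loc M q) : Loc M q →+* Loc M q)

variable {K M}

theorem autM_apply (q : Nat.Primes) (σ : M ≃ₐ[K] M) (x : Loc M q) :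
    autM K M q σ x = Loc.aut M q (galHom K M σ) x := rfl

theorem autM_map (q : Nat.Primes) (σ : M ≃ₐ[K] M) (r : Loc K q) :
    autM K M q σ (Loc.map q (inclHom K M) r) = Loc.map q (inclHom K M) r :=
  Loc.aut_map_of_fixes q (inclHom K M) (galHom K M σ) (galHom_inclHom K M σ) r

theorem autM_iterate (q : Nat.Primes) (g : M ≃ₐ[K] M) (i : ℕ) (x : Loc M q) :
    (autM K M q g)^[i] x = autM K M q (g ^ i) x := by
  induction i generalizing x with
  | zero =>
    rw [Function.iterate_zero, id, pow_zero, autM_apply, map_one, Loc.aut_one]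
    rfl
  | succ i ih =>
    rw [Function.iterate_succ_apply, ih, pow_succ, autM_apply, autM_apply, autM_apply, map_mul,
      Loc.aut_mul_apply]

/-- a product over a cyclic group as a product over the powers of a generator -/
theorem prod_univ_eq_prod_range {G A : Type*} [Group G] [Fintype G] [CommMonoid A] (g : G)
    (hgen : ∀ τ : G, τ ∈ Subgroup.zpowers g) (f : G → A) :
    ∏ σ : G, f σ = ∏ j ∈ range (orderOf g), f (g ^ j) := by
  classical
  rw [← IsCyclic.image_range_orderOf hgen, Finset.prod_image]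
  intro i hi j hj h
  exact pow_injOn_Iio_orderOf (Finset.mem_range.mp hi) (Finset.mem_range.mp hj) h

variable (K M)

/-- the norm map on the units of `M ⊗ ℚ_q` -/
def locNormHom (q : Nat.Primes) : (Loc M q)ˣ →* (Loc M q)ˣ :=
  ∏ σ : M ≃ₐ[K] M, autUnits (galHom K M σ) q

/-- the group of local norms at `q` -/
def locNorm (q : Nat.Primes) : Subgroup (Loc K q)ˣ :=
  (locNormHom K M q).range.comap (locUp (L := M) q)

variable {K M}

theorem coe_locNormHom (q : Nat.Primes) (y : (Loc M q)ˣ) :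
    ((locNormHom K M q y : (Loc M q)ˣ) : Loc M q) =
      ∏ σ : M ≃ₐ[K] M, autM K M q σ (y : Loc M q) := by
  rw [locNormHom, MonoidHom.finsetProd_apply, Units.coe_prod]
  exact Finset.prod_congr rfl fun σ _ => autUnits_apply _ _ _

theorem mem_locNorm {q : Nat.Primes} {u : (Loc K q)ˣ} :
    u ∈ locNorm K M q ↔ ∃ y : (Loc M q)ˣ, ∏ σ : M ≃ₐ[K] M, autM K M q σ (y : Loc M q) =
      Loc.map q (inclHom K M) (u : Loc K q) := by
  rw [locNorm, Subgroup.mem_comap, MonoidHom.mem_range]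
  constructor
  · rintro ⟨y, hy⟩
    refine ⟨y, ?_⟩
    rw [← coe_locNormHom, hy]
    rfl
  · rintro ⟨y, hy⟩
    refine ⟨y, Units.ext ?_⟩
    rw [coe_locNormHom, hy]
    rfl

/-- cyclic form of the local norm -/
theorem mem_locNorm_of_cyclic {q : Nat.Primes} (g : M ≃ₐ[K] M)
    (hgen : ∀ τ : M ≃ₐ[K] M, τ ∈ Subgroup.zpowers g) {u : (Loc K q)ˣ} (y : (Loc M q)ˣ)
    (hy : ∏ i ∈ range (orderOf g), (autM K M q g)^[i] (y : Loc M q) =
      Loc.map q (inclHom K M) (u : Loc K q)) : u ∈ locNorm K M q := by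
  rw [mem_locNorm]
  refine ⟨y, ?_⟩
  rw [prod_univ_eq_prod_range g hgen, ← hy]
  exact Finset.prod_congr rfl fun i _ => (autM_iterate q g i _).symm

/-- **(N1)** `[M : K]`-th powers are local norms -/
theorem pow_card_mem_locNorm (q : Nat.Primes) (u : (Loc K q)ˣ) :
    u ^ Fintype.card (M ≃ₐ[K] M) ∈ locNorm K M q := by
  rw [mem_locNorm]
  refine ⟨locUp (L := M) q u, ?_⟩
  have h : ∀ σ : M ≃ₐ[K] M, autM K M q σ ((locUp (L := M) q u : (Loc M q)ˣ) : Loc M q) =
      Loc.map q (inclHom K M) (u : Loc K q) := fun σ => autM_map q σ _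
  rw [Finset.prod_congr rfl fun σ _ => h σ, Finset.prod_const, Finset.card_univ,
    Units.val_pow_eq_pow_val, map_pow]

/-- **(B)** at a prime not dividing the discriminant, integral units are norms of integral units
(helper25's `Semilocal/Unramified`) -/
theorem exists_intUnit_norm_eq {q : Nat.Primes} (g : M ≃ₐ[K] M)
    (hgen : ∀ τ : M ≃ₐ[K] M, τ ∈ Subgroup.zpowers g)
    (hq : ¬ (((q : ℕ) : ℤ) ∣ NumberField.discr M)) {u : (Loc K q)ˣ} (hu : u ∈ intUnits K q) :
    ∃ y : (Loc M q)ˣ, y ∈ intUnits M q ∧ ∏ σ : M ≃ₐ[K] M, autM K M q σ (y : Loc M q) =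
      Loc.map q (inclHom K M) (u : Loc K q) := by
  obtain ⟨k, hk⟩ : ∃ k, orderOf g = k + 1 :=
    Nat.exists_eq_succ_of_ne_zero (orderOf_pos g).ne'
  have h0 := (v0On_v1On_sigmaU q g k hk hq).1
  have hup : locUp (L := M) q u ∈ intUnits M q := locUp_mem_intUnits hu
  have hfix : sigmaU q g (Additive.ofMul ⟨locUp (L := M) q u, hup⟩) =
      Additive.ofMul ⟨locUp (L := M) q u, hup⟩ := by
    apply congrArg Additive.ofMul
    apply Subtype.ext
    apply Units.ext
    exact autM_map q g _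
  obtain ⟨b, -, hb⟩ := h0 (Additive.ofMul ⟨locUp (L := M) q u, hup⟩) (AddSubgroup.mem_top _) hfix
  refine ⟨((Additive.toMul b : intUnits M q) : (Loc M q)ˣ), (Additive.toMul b).2, ?_⟩
  have hiter : ∀ (i : ℕ) (c : Additive (intUnits M q)),
      ((((Additive.toMul ((sigmaU q g)^[i] c) : intUnits M q) : (Loc M q)ˣ)) : Loc M q) =
        (autM K M q g)^[i] (((Additive.toMul c : intUnits M q) : (Loc M q)ˣ) : Loc M q) := by
    intro i
    induction i with
    | zero => intro c; rfl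
    | succ i ih =>
      intro c
      rw [Function.iterate_succ_apply, ih, Function.iterate_succ_apply]
      rfl
  have h1 := congrArg (fun c : Additive (intUnits M q) =>
    (((Additive.toMul c : intUnits M q) : (Loc M q)ˣ) : Loc M q)) hb
  simp only [nrm_apply, toMul_sum, toMul_ofMul] at h1
  rw [Subgroup.val_finsetProd, Units.coe_prod] at h1
  rw [prod_univ_eq_prod_range g hgen, hk]
  rw [show (Loc.map q (inclHom K M) (u : Loc K q)) =
    (((⟨locUp (L := M) q u, hup⟩ : intUnits M q) : (Loc M q)ˣ) : Loc M q) from rfl, ← h1]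
  refine Finset.prod_congr rfl fun i _ => ?_
  rw [← autM_iterate, ← hiter]

/-- **Local-global principle for idele norms** (`M/K` cyclic): an idele of `K` all of whose
components are local norms is the norm of an idele of `M`. -/
theorem mem_range_normJ_of_forall_mem_locNorm [IsGalois K M] (g : M ≃ₐ[K] M)
    (hgen : ∀ τ : M ≃ₐ[K] M, τ ∈ Subgroup.zpowers g) (x : J K)
    (h : ∀ q : Nat.Primes, (x : ∀ q : Nat.Primes, (Loc K q)ˣ) q ∈ locNorm K M q) :
    x ∈ (normJ K M).range := by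
  classical
  set xK : ∀ q : Nat.Primes, (Loc K q)ˣ := (x : ∀ q : Nat.Primes, (Loc K q)ˣ) with hxK
  have hloc : ∀ q : Nat.Primes, ∃ y : (Loc M q)ˣ,
      (xK q ∈ intUnits K q → ¬ (((q : ℕ) : ℤ) ∣ NumberField.discr M) → y ∈ intUnits M q) ∧
        ∏ σ : M ≃ₐ[K] M, autM K M q σ (y : Loc M q) =
          Loc.map q (inclHom K M) (xK q : Loc K q) := by
    intro q
    by_cases hq : xK q ∈ intUnits K q ∧ ¬ (((q : ℕ) : ℤ) ∣ NumberField.discr M)
    · obtain ⟨y, hy1, hy2⟩ := exists_intUnit_norm_eq g hgen hq.2 hq.1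
      exact ⟨y, fun _ _ => hy1, hy2⟩
    · obtain ⟨y, hy⟩ := mem_locNorm.mp (h q)
      exact ⟨y, fun h1 h2 => absurd ⟨h1, h2⟩ hq, hy⟩
  choose y hy1 hy2 using hloc
  have hyJ : y ∈ J M := by
    rw [mem_J]
    have hx2 : {q | xK q ∉ intUnits K q}.Finite := x.2
    have hd2 : {q : Nat.Primes | ((q : ℕ) : ℤ) ∣ NumberField.discr M}.Finite :=
      finite_setOf_int_dvd (NumberField.discr_ne_zero M)
    refine (hx2.union hd2).subset ?_
    intro q hq
    by_contra hcon
    rw [Set.mem_union, not_or] at hcon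
    exact hq (hy1 q (not_not.mp hcon.1) hcon.2)
  refine ⟨⟨y, hyJ⟩, ?_⟩
  apply normJ_eq_of_forall
  intro q
  exact hy2 q

end LocNorm

/-! ### Placewise norm groups -/

section Placewise

open Fermat.Agent.CFT.C5.NonSplit Fermat.Agent.CFT.Local.KummerLocal

variable {K : Type} [Field K] [NumberField K] (M : Type) [Field M] [NumberField M] [Algebra K M]
  {q : Nat.Primes}

/-- the local norm group at the place `v` of `K` -/
def NV (v : PrimeOver (q : ℕ) (𝓞 K)) : Subgroup (Kv v)ˣ := (locNorm K M q).comap (single v)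

variable {M}

theorem mem_NV {v : PrimeOver (q : ℕ) (𝓞 K)} {a : (Kv v)ˣ} :
    a ∈ NV M v ↔ single v a ∈ locNorm K M q := Iff.rfl

/-- a unit of `K ⊗ ℚ_q` all of whose components are local norms is a local norm -/
theorem mem_locNorm_of_forall_piV_mem {u : (Loc K q)ˣ}
    (h : ∀ v : PrimeOver (q : ℕ) (𝓞 K), piV v u ∈ NV M v) : u ∈ locNorm K M q := by
  rw [← prod_single_piV u]
  exact Subgroup.prod_mem _ fun v _ => h v

/-- **(N1)** placewise: `[M : K]`-th powers are norms -/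
theorem pow_card_mem_NV (v : PrimeOver (q : ℕ) (𝓞 K)) (a : (Kv v)ˣ) :
    a ^ Fintype.card (M ≃ₐ[K] M) ∈ NV M v := by
  rw [mem_NV, map_pow]
  exact pow_card_mem_locNorm q _

variable (M)

/-- the extension to `M ⊗ ℚ_q` of the maximal ideal of `K ⊗ ℚ_q` at `v` -/
def extV (v : PrimeOver (q : ℕ) (𝓞 K)) : Ideal (Loc M q) :=
  (kerV v).map (Loc.map q (inclHom K M) : Loc K q →+* Loc M q)

/-- `M ⊗_K K_v` as a quotient of `M ⊗ ℚ_q` -/
abbrev Av (v : PrimeOver (q : ℕ) (𝓞 K)) : Type := Loc M q ⧸ extV M v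

/-- `K_v → M ⊗_K K_v` -/
def kvToAv (v : PrimeOver (q : ℕ) (𝓞 K)) : Kv v →+* Av M v :=
  Ideal.quotientMap (extV M v) (Loc.map q (inclHom K M) : Loc K q →+* Loc M q) Ideal.le_comap_map

instance algebraAv (v : PrimeOver (q : ℕ) (𝓞 K)) : Algebra (Kv v) (Av M v) :=
  (kvToAv M v).toAlgebra

variable {M}

theorem algebraMap_Av_toKv (v : PrimeOver (q : ℕ) (𝓞 K)) (r : Loc K q) :
    algebraMap (Kv v) (Av M v) (toKv v r) =
      Ideal.Quotient.mk (extV M v) (Loc.map q (inclHom K M) r) := rfl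

theorem extV_le_comap (v : PrimeOver (q : ℕ) (𝓞 K)) (σ : M ≃ₐ[K] M) :
    extV M v ≤ (extV M v).comap (autM K M q σ) := by
  rw [extV, Ideal.map_le_iff_le_comap]
  intro r hr
  rw [Ideal.mem_comap, Ideal.mem_comap]
  have h : autM K M q σ ((Loc.map q (inclHom K M) : Loc K q →+* Loc M q) r) =
      Loc.map q (inclHom K M) r := autM_map q σ r
  rw [h]
  exact Ideal.mem_map_of_mem _ hr

variable (M)

/-- the automorphism of `M ⊗_K K_v` induced by `σ ∈ Gal(M/K)` -/
def autAv (v : PrimeOver (q : ℕ) (𝓞 K)) (σ : M ≃ₐ[K] M) : Av M v →ₐ[Kv v] Av M v :=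
  { Ideal.quotientMap (extV M v) (autM K M q σ) (extV_le_comap v σ) with
    commutes' := by
      intro r
      obtain ⟨r, rfl⟩ := toKv_surjective v r
      change Ideal.quotientMap (extV M v) (autM K M q σ) (extV_le_comap v σ)
        (Ideal.Quotient.mk (extV M v) (Loc.map q (inclHom K M) r)) = _
      rw [Ideal.quotientMap_mk, autM_map]
      rfl }

variable {M}

theorem autAv_mk (v : PrimeOver (q : ℕ) (𝓞 K)) (σ : M ≃ₐ[K] M) (x : Loc M q) :
    autAv M v σ (Ideal.Quotient.mk (extV M v) x) =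
      Ideal.Quotient.mk (extV M v) (autM K M q σ x) := rfl

theorem autAv_iterate_mk (v : PrimeOver (q : ℕ) (𝓞 K)) (σ : M ≃ₐ[K] M) (i : ℕ) (x : Loc M q) :
    (autAv M v σ)^[i] (Ideal.Quotient.mk (extV M v) x) =
      Ideal.Quotient.mk (extV M v) ((autM K M q σ)^[i] x) := by
  induction i generalizing x with
  | zero => rfl
  | succ i ih => rw [Function.iterate_succ_apply, autAv_mk, ih, Function.iterate_succ_apply]

/-- **Placewise criterion**: if `a ∈ K_vˣ` is the `σ`-norm of an element of `M ⊗_K K_v`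
(`σ` a generator of `Gal(M/K)`), then `a` is a local norm at `v`. -/
theorem mem_NV_of_sigmaNorm (g : M ≃ₐ[K] M) (hgen : ∀ τ : M ≃ₐ[K] M, τ ∈ Subgroup.zpowers g)
    (v : PrimeOver (q : ℕ) (𝓞 K)) (a : (Kv v)ˣ) (b' : Av M v)
    (hb : sigmaNorm ((autAv M v g : Av M v →ₐ[Kv v] Av M v) : Av M v →+* Av M v) (orderOf g) b' =
      algebraMap (Kv v) (Av M v) (a : Kv v)) : a ∈ NV M v := by
  have hunit : IsUnit b' := by
    apply isUnit_of_isUnit_sigmaNorm _ (orderOf_pos g).ne'
    rw [hb]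
    exact a.isUnit.map _
  obtain ⟨bu, rfl⟩ := hunit
  obtain ⟨b, hb1⟩ := Ideal.Quotient.mk_surjective (bu : Av M v)
  obtain ⟨c, hc1⟩ := Ideal.Quotient.mk_surjective ((bu⁻¹ : (Av M v)ˣ) : Av M v)
  obtain ⟨a', ha'⟩ := toKv_surjective v (a : Kv v)
  have hbc : b * c - 1 ∈ (kerV v).map (Loc.map q (inclHom K M) : Loc K q →+* Loc M q) := by
    change b * c - 1 ∈ extV M v
    rw [← Ideal.Quotient.eq_zero_iff_mem, map_sub, map_mul, map_one, hb1, hc1, Units.mul_inv,
      sub_self]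
  have hN : ∏ i ∈ range (orderOf g), (autM K M q g)^[i] b -
      (Loc.map q (inclHom K M) : Loc K q →+* Loc M q) a' ∈
        (kerV v).map (Loc.map q (inclHom K M) : Loc K q →+* Loc M q) := by
    change _ ∈ extV M v
    rw [← Ideal.Quotient.eq_zero_iff_mem, map_sub, map_prod, sub_eq_zero]
    rw [sigmaNorm_apply] at hb
    rw [← hb1] at hb
    simp only [AlgHom.coe_toRingHom, autAv_iterate_mk] at hb
    rw [hb, ← ha']
    rfl
  obtain ⟨h1, h2⟩ := lift_norm (Loc.map q (inclHom K M) : Loc K q →+* Loc M q) (autM K M q g)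
    (fun r hr => mul_idemV_of_mem_kerV hr) (idemV_mul_self v) (autM_map q g) hbc hN
  rw [mem_NV]
  refine mem_locNorm_of_cyclic g hgen ⟨_, _, h1, by rw [mul_comm]; exact h1⟩ ?_
  rw [coe_single v a a' ha']
  exact h2

/-! ### Kummer extensions `M = K(y^(1/p))` -/

section Kummer

variable {p : ℕ} {ζ : K} {y : Kˣ} {α : M} {g : M ≃ₐ[K] M}

/-- the image of `α` in `M ⊗_K K_v` -/
def alphaV (v : PrimeOver (q : ℕ) (𝓞 K)) (α : M) : Av M v :=
  Ideal.Quotient.mk (extV M v) (inclL M q α)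

theorem algebraMap_Av_kToKv (v : PrimeOver (q : ℕ) (𝓞 K)) (a : K) :
    algebraMap (Kv v) (Av M v) (kToKv v a) =
      Ideal.Quotient.mk (extV M v) (inclL M q (algebraMap K M a)) := rfl

theorem alphaV_pow (v : PrimeOver (q : ℕ) (𝓞 K)) (hα : α ^ p = algebraMap K M (y : K)) :
    alphaV v α ^ p = algebraMap (Kv v) (Av M v) (kToKv v (y : K)) := by
  rw [alphaV, ← map_pow, ← map_pow, hα, algebraMap_Av_kToKv]

theorem autAv_alphaV (v : PrimeOver (q : ℕ) (𝓞 K)) (hg : g α = algebraMap K M ζ * α) :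
    autAv M v g (alphaV v α) = kToKv v ζ • alphaV v α := by
  rw [alphaV, autAv_mk, autM_apply, Loc.aut_inclL, galHom_apply, hg, map_mul, map_mul,
    Algebra.smul_def, algebraMap_Av_kToKv]

/-- **(N2)** if `y` is a `p`-th power in `K_v`, every element of `K_vˣ` is a norm from
`K(y^(1/p))` -/
theorem NV_eq_top_of_pow (hp : p.Prime) (hζ : IsPrimitiveRoot ζ p)
    (hα : α ^ p = algebraMap K M (y : K)) (hg : g α = algebraMap K M ζ * α)
    (hgen : ∀ τ : M ≃ₐ[K] M, τ ∈ Subgroup.zpowers g) (hord : orderOf g = p)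
    (v : PrimeOver (q : ℕ) (𝓞 K)) (z : Kv v) (hz : z ^ p = kToKv v (y : K)) : NV M v = ⊤ := by
  rw [eq_top_iff]
  intro a _
  have : CharZero (Kv v) := charZero_field (q : ℕ) (Kv v)
  have hp0 : ((p : ℕ) : Kv v) ≠ 0 := by exact_mod_cast hp.ne_zero
  have hz0 : z ≠ 0 := by
    intro h0
    rw [h0, zero_pow hp.ne_zero] at hz
    exact (Units.ne_zero y) ((kToKv v).injective (hz.symm.trans (map_zero _).symm))
  have hζ' : IsPrimitiveRoot (kToKv v ζ) p := hζ.map_of_injective (kToKv_injective v)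
  have hβp : (z⁻¹ • alphaV v α) ^ p = 1 := by
    rw [smul_pow, alphaV_pow v hα, ← hz, Algebra.smul_def, ← map_mul, inv_pow,
      inv_mul_cancel₀ (pow_ne_zero p hz0), map_one]
  have hσβ : autAv M v g (z⁻¹ • alphaV v α) = kToKv v ζ • (z⁻¹ • alphaV v α) := by
    rw [map_smul, autAv_alphaV v hg, smul_comm]
  have key := sigmaNorm_split (autAv M v g) (p := p) (ζ := kToKv v ζ)
    (pinv := ((p : ℕ) : Kv v)⁻¹) (β := z⁻¹ • alphaV v α) (mul_inv_cancel₀ hp0)
    (hζ'.pow_eq_one) hβp hσβ (fun d hd0 hdp => sum_pow_mul_eq_zero hp hζ' d hd0 hdp) (a : Kv v)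
  rw [← hord] at key
  exact mem_NV_of_sigmaNorm g hgen v a _ key

/-- `ℤ_q`-integers of `K_v` act on `M ⊗_K K_v` -/
abbrev algebraOAv (v : PrimeOver (q : ℕ) (𝓞 K)) : Algebra ↥(𝒪 (q : ℕ) (Kv v)) (Av M v) :=
  ((algebraMap (Kv v) (Av M v)).comp (algebraMap ↥(𝒪 (q : ℕ) (Kv v)) (Kv v))).toAlgebra

attribute [local instance] algebraOAv

instance isScalarTower_OAv (v : PrimeOver (q : ℕ) (𝓞 K)) :
    IsScalarTower ↥(𝒪 (q : ℕ) (Kv v)) (Kv v) (Av M v) :=
  IsScalarTower.of_algebraMap_eq fun _ => rfl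

open Fermat.Agent.CFT.Local.PowIndexModel in
/-- **(N3)** at a place `v ∤ p` where `y` is a unit, the units of `K_v` are norms from
`K(y^(1/p))` -/
theorem UV_le_NV (hp : p.Prime) (hζ : IsPrimitiveRoot ζ p)
    (hα : α ^ p = algebraMap K M (y : K)) (hg : g α = algebraMap K M ζ * α)
    (hgen : ∀ τ : M ≃ₐ[K] M, τ ∈ Subgroup.zpowers g) (hord : orderOf g = p)
    (v : PrimeOver (q : ℕ) (𝓞 K)) (hpq : p ≠ (q : ℕ))
    (hy : piV v (Units.map (inclL K q : K →* Loc K q) y) ∈ UV v) : UV v ≤ NV M v := by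
  intro a ha
  have hcop : (q : ℕ).Coprime p := (Nat.coprime_primes q.2 hp).mpr (Ne.symm hpq)
  have hζ' : IsPrimitiveRoot (kToKv v ζ) p := hζ.map_of_injective (kToKv_injective v)
  have hζmem : kToKv v ζ ∈ 𝒪 (q : ℕ) (Kv v) := by
    rw [mem_𝒪_iff_isIntegral]
    apply IsIntegral.of_pow hp.pos
    rw [hζ'.pow_eq_one]
    exact isIntegral_one
  set ζO : ↥(𝒪 (q : ℕ) (Kv v)) := ⟨kToKv v ζ, hζmem⟩ with hζO
  have hζO' : IsPrimitiveRoot ζO p :=
    IsPrimitiveRoot.of_map_of_injective (f := (𝒪 (q : ℕ) (Kv v)).subtype) hζ'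
      Subtype.val_injective
  set u : (↥(𝒪 (q : ℕ) (Kv v)))ˣ := (𝒪 (q : ℕ) (Kv v)).unitGroupMulEquiv ⟨_, hy⟩ with hu
  set aO : (↥(𝒪 (q : ℕ) (Kv v)))ˣ := (𝒪 (q : ℕ) (Kv v)).unitGroupMulEquiv ⟨a, ha⟩ with haO
  have hαV : alphaV v α ^ p = algebraMap (Kv v) (Av M v)
      (algebraMap ↥(𝒪 (q : ℕ) (Kv v)) (Kv v) (u : ↥(𝒪 (q : ℕ) (Kv v))) *
        ((1 : (Kv v)ˣ) : Kv v) ^ p) := by
    rw [alphaV_pow v hα, Units.val_one, one_pow, mul_one]
    rfl
  have hσV : autAv M v g (alphaV v α) =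
      algebraMap ↥(𝒪 (q : ℕ) (Kv v)) (Kv v) ζO • alphaV v α := autAv_alphaV v hg
  obtain ⟨b, hb⟩ := exists_unit_sigmaNorm_eq_of_field (O := ↥(𝒪 (q : ℕ) (Kv v))) (K := Kv v)
    (autAv M v g) hp (isUnit_natCast (q : ℕ) (Kv v) hcop) hζO' u 1 hαV hσV aO
  refine mem_NV_of_sigmaNorm g hgen v a (b : Av M v) ?_
  rw [sigmaNorm_apply, hord]
  exact hb

/-- **The norm criterion for `M = K(y^(1/p))`** (`ζ_p ∈ K`, `M/K` cyclic of degree `p` with
generator `g`, `g α = ζ α`, `α^p = y`): an idele `x` of `K` is a norm from `M` as soon as at every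
place `v` of `K`: `y` is a `p`-th power in `K_v`, or `x_v` is a `p`-th power, or `v ∤ p` and both
`y` and `x_v` are units at `v`.  This gives both `E ≤ N J_L` and `D ≤ N J_M` in the proof of the
second inequality. -/
theorem mem_range_normJ_of_forall_place [IsGalois K M] (hp : p.Prime) (hζ : IsPrimitiveRoot ζ p)
    (hα : α ^ p = algebraMap K M (y : K)) (hg : g α = algebraMap K M ζ * α)
    (hgen : ∀ τ : M ≃ₐ[K] M, τ ∈ Subgroup.zpowers g) (hord : orderOf g = p) (x : J K)
    (h : ∀ (q : Nat.Primes) (v : PrimeOver (q : ℕ) (𝓞 K)),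
      piV v (Units.map (inclL K q : K →* Loc K q) y) ∈
          (powMonoidHom p : (Kv v)ˣ →* (Kv v)ˣ).range ∨
        piV v ((x : ∀ q : Nat.Primes, (Loc K q)ˣ) q) ∈
          (powMonoidHom p : (Kv v)ˣ →* (Kv v)ˣ).range ∨
        (p ≠ (q : ℕ) ∧ piV v (Units.map (inclL K q : K →* Loc K q) y) ∈ UV v ∧
          piV v ((x : ∀ q : Nat.Primes, (Loc K q)ˣ) q) ∈ UV v)) :
    x ∈ (Fermat.Agent.CFT.C6.IdeleNorm.normJ K M).range := by
  have hcard : Fintype.card (M ≃ₐ[K] M) = p := by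
    rw [← hord, orderOf_eq_card_of_forall_mem_zpowers hgen, Nat.card_eq_fintype_card]
  refine mem_range_normJ_of_forall_mem_locNorm g hgen x fun q =>
    mem_locNorm_of_forall_piV_mem fun v => ?_
  rcases h q v with ⟨w, hw⟩ | ⟨w, hw⟩ | ⟨hpq, hy, hx⟩
  · have hz : ((w : (Kv v)ˣ) : Kv v) ^ p = kToKv v (y : K) := by
      rw [← coe_piV_inclL, ← hw, powMonoidHom_apply, Units.val_pow_eq_pow_val]
    rw [NV_eq_top_of_pow hp hζ hα hg hgen hord v _ hz]
    exact Subgroup.mem_top _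
  · rw [← hw, powMonoidHom_apply, ← hcard]
    exact pow_card_mem_NV v w
  · exact UV_le_NV hp hζ hα hg hgen hord v hpq hy hx

end Kummer

end Placewise

end Fermat.Agent.CFT.C5.NormIdele
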