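import Mathlib
import Fermat.Agent.CFT.C5.LocalFields
import Fermat.Agent.CFT.C5.NormIdele
import Fermat.Agent.CFT.C5.IndexAbstract

/-!
# PROJECT C, slice C5 (second inequality), concrete part (c2): ideles as a restricted product over
the places of `K`

`Place K := Σ q, PrimeOver q (𝓞 K)`, `Gp K i := (Kv i.2)ˣ`, `Up K i := UV i.2` (`C5/LocalFields`).

* `toProd K : (∀ q, (Loc K q)ˣ) ≃* ∀ i : Place K, Gp K i`;
* `mem_J_iff : x ∈ J K ↔ toProd K x ∈ restrictedProduct (Up K)` (helper29's `C5/IndexAbstract`);
* `diagP`, `toProd_diag` : the principal ideles;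
* `jToProd K : J K →* ∀ i, Gp K i`, injective with range the restricted product, and the transport
  of indices `index_eq_relIndex_map`.
The norm inclusions and the wiring of the index computation are in `C5/NormWiring`.
-/

set_option autoImplicit false
set_option linter.unusedSectionVars false

open scoped TensorProduct NumberField Fermat.Agent.CFT.Idele Fermat.Agent.CFT.C5.LocalFields

open Fermat.Agent.CFT.Idele Fermat.Agent.CFT.Dict Fermat.Agent.CFT.Local.Model
  Fermat.Agent.CFT.C5.LocalFields Fermat.Agent.CFT.C5.IndexAbstract

noncomputable section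

namespace Fermat.Agent.CFT.C5.IdeleProduct

variable (K : Type) [Field K] [NumberField K]

/-- the finite places of `K` -/
abbrev Place : Type := Σ q : Nat.Primes, PrimeOver (q : ℕ) (𝓞 K)

/-- the multiplicative group of the local field at a place -/
abbrev Gp (i : Place K) : Type := (Kv i.2)ˣ

/-- the local units at a place -/
def Up (i : Place K) : Subgroup (Gp K i) := UV i.2

/-- **the ideles as a product over the places** (before imposing the restriction) -/
def toProd : (∀ q : Nat.Primes, (Loc K q)ˣ) ≃* (∀ i : Place K, Gp K i) where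
  toFun x i := piV i.2 (x i.1)
  invFun y q := (locUnitsEquiv (K := K) (q := q)).symm fun v => y ⟨q, v⟩
  left_inv x := by
    funext q
    apply (locUnitsEquiv (K := K) (q := q)).injective
    rw [MulEquiv.apply_symm_apply]
    rfl
  right_inv y := by
    funext i
    obtain ⟨q, v⟩ := i
    change piV v ((locUnitsEquiv (K := K) (q := q)).symm fun w => y ⟨q, w⟩) = y ⟨q, v⟩
    rw [← locUnitsEquiv_apply, MulEquiv.apply_symm_apply]
  map_mul' x y := by
    funext i
    exact map_mul (piV i.2) _ _

variable {K}

theorem toProd_apply (x : ∀ q : Nat.Primes, (Loc K q)ˣ) (i : Place K) :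
    toProd K x i = piV i.2 (x i.1) := rfl

/-- an idele is a family which is a unit at almost all places -/
theorem mem_J_iff (x : ∀ q : Nat.Primes, (Loc K q)ˣ) :
    x ∈ J K ↔ toProd K x ∈ restrictedProduct (Up K) := by
  rw [mem_J, mem_restrictedProduct]
  constructor
  · intro h
    have hfin : (⋃ q ∈ {q : Nat.Primes | x q ∉ intUnits K q},
        Set.range (fun v : PrimeOver (q : ℕ) (𝓞 K) => (⟨q, v⟩ : Place K))).Finite :=
      h.biUnion fun q _ => Set.finite_range _
    refine hfin.subset ?_
    rintro ⟨q, v⟩ hi
    rw [Set.mem_iUnion₂]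
    refine ⟨q, ?_, ⟨v, rfl⟩⟩
    intro hq
    exact hi ((mem_intUnits_iff_forall_mem_UV _).mp hq v)
  · intro h
    refine (h.image Sigma.fst).subset ?_
    intro q hq
    rw [Set.mem_ofPred_eq, mem_intUnits_iff_forall_mem_UV] at hq
    push Not at hq
    obtain ⟨v, hv⟩ := hq
    exact ⟨⟨q, v⟩, hv, rfl⟩

theorem map_J : (J K).map (toProd K).toMonoidHom = restrictedProduct (Up K) := by
  ext y
  constructor
  · rintro ⟨x, hx, rfl⟩
    exact (mem_J_iff x).mp hx
  · intro hy
    refine ⟨(toProd K).symm y, ?_, (toProd K).apply_symm_apply y⟩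
    rw [SetLike.mem_coe, mem_J_iff, MulEquiv.apply_symm_apply]
    exact hy

variable (K)

/-- the principal ideles in the product over the places -/
def diagP : Kˣ →* (∀ i : Place K, Gp K i) where
  toFun a i := Units.map (kToKv i.2 : K →* Kv i.2) a
  map_one' := by
    funext i
    exact map_one _
  map_mul' a b := by
    funext i
    exact map_mul _ a b

variable {K}

theorem toProd_diag (a : Kˣ) :
    toProd K ((diag K a : J K) : ∀ q : Nat.Primes, (Loc K q)ˣ) = diagP K a := by
  funext i
  apply Units.ext
  rfl

variable (K)

/-- the ideles inside the product over the places -/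
def jToProd : J K →* (∀ i : Place K, Gp K i) :=
  (toProd K).toMonoidHom.comp (J K).subtype

variable {K}

theorem jToProd_apply (x : J K) :
    jToProd K x = toProd K (x : ∀ q : Nat.Primes, (Loc K q)ˣ) := rfl

theorem jToProd_injective : Function.Injective (jToProd K) :=
  (toProd K).injective.comp Subtype.val_injective

theorem range_jToProd : (jToProd K).range = restrictedProduct (Up K) := by
  rw [jToProd, MonoidHom.range_comp, Subgroup.range_subtype, map_J]

theorem jToProd_mem (x : J K) : jToProd K x ∈ restrictedProduct (Up K) := by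
  rw [← range_jToProd]
  exact ⟨x, rfl⟩

theorem exists_jToProd_eq {y : ∀ i : Place K, Gp K i} (hy : y ∈ restrictedProduct (Up K)) :
    ∃ x : J K, jToProd K x = y := by
  rw [← range_jToProd] at hy
  exact hy

theorem jToProd_diag (a : Kˣ) : jToProd K (diag K a) = diagP K a := toProd_diag a

theorem map_range_diag : (diag K).range.map (jToProd K) = (diagP K).range := by
  ext y
  constructor
  · rintro ⟨_, ⟨a, rfl⟩, rfl⟩
    exact ⟨a, (jToProd_diag a).symm⟩
  · rintro ⟨a, rfl⟩
    exact ⟨diag K a, ⟨a, rfl⟩, jToProd_diag a⟩

theorem range_diagP_le : (diagP K).range ≤ restrictedProduct (Up K) := by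
  rw [← map_range_diag, ← range_jToProd, MonoidHom.range_eq_map (jToProd K)]
  exact Subgroup.map_mono le_top

/-- **transport of indices**: the index of a subgroup of the idele group is the relative index of
its image in the restricted product -/
theorem index_eq_relIndex_map (A : Subgroup (J K)) :
    A.index = (A.map (jToProd K)).relIndex (restrictedProduct (Up K)) := by
  rw [← range_jToProd, MonoidHom.range_eq_map,
    Subgroup.relIndex_map_map_of_injective _ _ jToProd_injective, Subgroup.relIndex_top_right]

theorem map_sup_range_diag (A : Subgroup (J K)) :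
    ((diag K).range ⊔ A).map (jToProd K) = (diagP K).range ⊔ A.map (jToProd K) := by
  rw [Subgroup.map_sup, map_range_diag]

end Fermat.Agent.CFT.C5.IdeleProduct
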