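import Mathlib
import Fermat.Agent.CFT.C5.IdeleProduct
import Fermat.Agent.CFT.Dict.Fibres
import Fermat.Agent.CFT.SUnit.TUnitsPow
import Fermat.Agent.CFT.C4.FirstInequalityKummer

/-!
# PROJECT C, slice C5 (second inequality), part (c2-b): the index computation for a number field

`K` a number field containing a primitive `p`-th root of unity (`p` an odd prime), `S₀ ∋ p` a finite
set of rational primes with `J_K = Kˣ · J_{K,S₀}`, `S` the places of `K` above `S₀`, `T` a finite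
set of places disjoint from `S` with `#T + 1 = #{infinite places} + #S`, such that
(`TC`) the `S`-units surject onto `∏_{v ∈ T} U_v / U_v ^ p`. Then, with

* `E = ∏_{v ∈ S} (K_vˣ)^p × ∏_{v ∈ T} K_vˣ × ∏_{v ∉ S ∪ T} U_v`,
* `D = ∏_{v ∈ S} K_vˣ × ∏_{v ∈ T} U_v ^ p × ∏_{v ∉ S ∪ T} U_v`,

and the input (`D ≤ Kˣ · N J_M` for the Kummer extensions `M = K(y^{1/p})`, `y ∈ K ∩ E`), one gets
`[J_K : Kˣ · E] = p`, hence `[J_K : Kˣ · N] ∣ p` for every subgroup `N ⊇ E` of `J_K`.
-/

set_option autoImplicit false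
set_option linter.unusedSectionVars false

open scoped TensorProduct NumberField Fermat.Agent.CFT.Idele

open Fermat.Agent.CFT.Idele Fermat.Agent.CFT.Dict Fermat.Agent.CFT.Local.Model
  Fermat.Agent.CFT.C5.LocalFields Fermat.Agent.CFT.C5.IndexAbstract
  Fermat.Agent.CFT.C5.IdeleProduct IsDedekindDomain NumberField
  Fermat.Agent.CFT.C3.ClassGen

noncomputable section

namespace Fermat.Agent.CFT.C5.SecondInequality

variable {K : Type} [Field K] [NumberField K]

/-! ### Places and height one primes -/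

attribute [local instance] Classical.propDecidable

/-- the height one prime of a place -/
def toHOS (i : Place K) : HeightOneSpectrum (𝓞 K) := i.2.toHeightOneSpectrum

theorem toHOS_injective : Function.Injective (toHOS (K := K)) := by
  rintro ⟨q, v⟩ ⟨q', v'⟩ h
  have h1 : natPrime K (toHOS ⟨q, v⟩) = q := PrimeOver.natPrime_toHeightOneSpectrum K v
  have h2 : natPrime K (toHOS ⟨q', v'⟩) = q' := PrimeOver.natPrime_toHeightOneSpectrum K v'
  rw [h] at h1
  exact PrimeOver.sigma_ext K (h1.symm.trans h2) v v' (congrArg HeightOneSpectrum.asIdeal h)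

theorem toHOS_surjective : Function.Surjective (toHOS (K := K)) := fun w =>
  ⟨⟨natPrime K w, PrimeOver.ofHeightOneSpectrum w (natPrime_mem K w)⟩,
    PrimeOver.toHeightOneSpectrum_ofHeightOneSpectrum w _⟩

/-! ### Places above a finite set of rational primes -/

variable (K) in
/-- the places above a finite set of rational primes -/
def placesOver (S₀ : Finset Nat.Primes) : Finset (Place K) := S₀.sigma fun _ => Finset.univ

theorem mem_placesOver {S₀ : Finset Nat.Primes} {i : Place K} :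
    i ∈ placesOver K S₀ ↔ i.1 ∈ S₀ := by
  rw [placesOver, Finset.mem_sigma]
  exact ⟨fun h => h.1, fun h => ⟨h, Finset.mem_univ _⟩⟩

theorem card_placesOver (S₀ : Finset Nat.Primes) :
    (placesOver K S₀).card = ∑ q ∈ S₀, Fintype.card (PrimeOver (q : ℕ) (𝓞 K)) := by
  rw [placesOver, Finset.card_sigma]
  exact Finset.sum_congr rfl fun q _ => Finset.card_univ

theorem mem_intUnits_iff_forall_toProd (x : ∀ q : Nat.Primes, (Loc K q)ˣ) (q : Nat.Primes) :
    x q ∈ intUnits K q ↔ ∀ v : PrimeOver (q : ℕ) (𝓞 K), toProd K x ⟨q, v⟩ ∈ Up K ⟨q, v⟩ :=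
  mem_intUnits_iff_forall_mem_UV (x q)

/-- `J_{K,S₀}` corresponds to the `S`-ideles, `S` the places above `S₀` -/
theorem jToProd_mem_ideleS_iff (S₀ : Finset Nat.Primes) (x : J K) :
    jToProd K x ∈ ideleS (Up K) (placesOver K S₀) ↔ x ∈ JTsub K (S₀ : Set Nat.Primes) := by
  rw [mem_ideleS, mem_JTsub]
  constructor
  · intro h q hq
    rw [mem_intUnits_iff_forall_toProd]
    intro v
    exact h ⟨q, v⟩ (fun hcon => hq (Finset.mem_coe.mpr (mem_placesOver.mp hcon)))
  · intro h i hi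
    have hq : i.1 ∉ (S₀ : Set Nat.Primes) := fun hcon => hi (mem_placesOver.mpr hcon)
    exact (mem_intUnits_iff_forall_toProd _ i.1).mp (h i.1 hq) i.2

/-! ### The principal ideles and the `R`-units -/

theorem diagP_apply (a : Kˣ) (i : Place K) :
    diagP K a i = piV i.2 (Units.map (inclL K i.1 : K →* Loc K i.1) a) :=
  Units.ext rfl

theorem diagP_injective : Function.Injective (diagP K) := by
  intro a b hab
  apply diag_injective K
  apply jToProd_injective
  rw [jToProd_diag, jToProd_diag, hab]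

theorem diagP_mem_Up_iff (a : Kˣ) (i : Place K) :
    diagP K a i ∈ Up K i ↔ (toHOS i).valuation K (a : K) = 1 := by
  rw [diagP_apply]
  exact piV_inclL_mem_UV_iff i.2 a

open Fermat.Agent.CFT.C3.SUnitRank in
/-- **the `R`-units**: `Kˣ ∩ J_R` is the group of `R`-units, for a finite set `R` of places -/
theorem range_diagP_inf_ideleS (R : Finset (Place K)) :
    (diagP K).range ⊓ ideleS (Up K) R = (TUnits K (R.image toHOS)).map (diagP K) := by
  ext y
  rw [Subgroup.mem_inf, Subgroup.mem_map]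
  constructor
  · rintro ⟨⟨a, rfl⟩, h⟩
    refine ⟨a, ?_, rfl⟩
    intro w hw
    obtain ⟨i, rfl⟩ := toHOS_surjective w
    have hi : i ∉ R := fun hcon => hw (Finset.mem_coe.mpr (Finset.mem_image_of_mem _ hcon))
    exact (diagP_mem_Up_iff a i).mp (h i hi)
  · rintro ⟨a, ha, rfl⟩
    refine ⟨⟨a, rfl⟩, fun i hi => (diagP_mem_Up_iff a i).mpr (ha (toHOS i) ?_)⟩
    intro hcon
    rw [Finset.mem_coe, Finset.mem_image] at hcon
    obtain ⟨j, hj, hji⟩ := hcon
    exact hi (toHOS_injective hji ▸ hj)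

/-- **(DU)**: `[U_R : U_R ^ p] = p ^ (#{infinite places} + #R)` when `μ_p ⊆ K` -/
theorem relIndex_powSubgroup_units {p : ℕ} (hp : p ≠ 0) {ζ : K} (hζ : IsPrimitiveRoot ζ p)
    (R : Finset (Place K)) :
    (powSubgroup p ((diagP K).range ⊓ ideleS (Up K) R)).relIndex
        ((diagP K).range ⊓ ideleS (Up K) R) =
      p ^ (Fintype.card (InfinitePlace K) + R.card) := by
  rw [range_diagP_inf_ideleS]
  have h1 : powSubgroup p ((C3.SUnitRank.TUnits K (R.image toHOS)).map (diagP K)) =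
      ((C3.SUnitRank.TUnits K (R.image toHOS)).map (powMonoidHom p : Kˣ →* Kˣ)).map (diagP K) := by
    rw [powSubgroup, Subgroup.map_map, Subgroup.map_map]
    congr 1
    ext a : 1
    exact (map_pow (diagP K) a p).symm
  rw [h1, Subgroup.relIndex_map_map_of_injective _ _ diagP_injective,
    SUnit.TUnitsPow.relIndex_map_pow_TUnits_of_isPrimitiveRoot' K _ hp hζ,
    Finset.card_image_of_injective _ toHOS_injective]

/-! ### The local counts -/

/-- **(LI)**: `∏_{v ∈ S} [K_vˣ : K_vˣ ^ p] = p ^ (2 #S + [K : ℚ])` for `S` the places above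
`S₀ ∋ p`, when `μ_p ⊆ K` -/
theorem prod_index_placesOver (P : Nat.Primes) {ζ : K} (hζ : IsPrimitiveRoot ζ (P : ℕ))
    (S₀ : Finset Nat.Primes) (hpS : P ∈ S₀) :
    ∏ i ∈ placesOver K S₀, (powMonoidHom (P : ℕ) : Gp K i →* Gp K i).range.index =
      (P : ℕ) ^ (2 * (placesOver K S₀).card + Module.finrank ℚ K) := by
  rw [placesOver, Finset.prod_sigma]
  have h1 : ∀ q ∈ S₀, ∏ v : PrimeOver (q : ℕ) (𝓞 K),
      (powMonoidHom (P : ℕ) : Gp K ⟨q, v⟩ →* Gp K ⟨q, v⟩).range.index =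
      (P : ℕ) ^ (2 * Fintype.card (PrimeOver (q : ℕ) (𝓞 K)) +
        if q = P then Module.finrank ℚ K else 0) := by
    intro q _
    by_cases hq : q = P
    · subst hq
      rw [if_pos rfl]
      exact prod_index_pow_self hζ
    · rw [if_neg hq, add_zero]
      exact prod_index_pow_of_ne P.2 (fun h => hq (Subtype.ext h.symm)) hζ
  rw [Finset.prod_congr rfl h1, Finset.prod_pow_eq_pow_sum, Finset.sum_add_distrib,
    Finset.sum_ite_eq' S₀ P, if_pos hpS, ← Finset.mul_sum, Finset.card_sigma]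
  simp only [Finset.card_univ]

/-- **(TF)**: `K_vˣ / U_v` is torsion free -/
theorem mem_Up_of_pow_mem {p : ℕ} (hp : p ≠ 0) (i : Place K) (g : Gp K i)
    (h : g ^ p ∈ Up K i) : g ∈ Up K i := by
  rw [Up, mem_UV_iff] at h ⊢
  rw [Units.val_pow_eq_pow_val, nrm_pow] at h
  exact (pow_eq_one_iff_of_nonneg (nrm_nonneg _ _ _) hp).mp h

/-- a number field containing the `p`-th roots of unity, `p > 2`, is totally complex -/
theorem two_mul_card_infinitePlace {p : ℕ} (hp : 2 < p) {ζ : K} (hζ : IsPrimitiveRoot ζ p) :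
    2 * Fintype.card (InfinitePlace K) = Module.finrank ℚ K := by
  have h0 := InfinitePlace.IsPrimitiveRoot.nrRealPlaces_eq_zero_of_two_lt hp hζ
  have h1 := InfinitePlace.card_add_two_mul_card_eq_rank K
  have h2 := InfinitePlace.card_eq_nrRealPlaces_add_nrComplexPlaces K
  rw [h0, zero_add] at h1 h2
  rw [h2, h1]

/-! ### The index computation -/

section Main

variable (P : Nat.Primes) (S₀ : Finset Nat.Primes) (T : Finset (Place K))

/-- **The index computation of the second inequality**: `[J_K : Kˣ · E] = p ^ c` in `∏_v K_vˣ`,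
where `#T + c = #{infinite places} + #S`. -/
theorem relIndex_sup_groupE_eq_pow (c : ℕ) (hP2 : (P : ℕ) ≠ 2) {ζ : K} (hζ : IsPrimitiveRoot ζ (P : ℕ))
    (hPS : P ∈ S₀) (hCG : (diag K).range ⊔ JTsub K (S₀ : Set Nat.Primes) = ⊤)
    (hST : Disjoint (placesOver K S₀) T)
    (hcard : T.card + c = Fintype.card (InfinitePlace K) + (placesOver K S₀).card)
    (hTC : ∀ u : ∀ i : Place K, Gp K i, (∀ i ∈ T, u i ∈ Up K i) →
      ∃ a : Kˣ, diagP K a ∈ ideleS (Up K) (placesOver K S₀) ∧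
        ∀ i ∈ T, (diagP K a i)⁻¹ * u i ∈ (Up K i).map (powMonoidHom (P : ℕ) : Gp K i →* Gp K i))
    (hFI : ∀ y : Kˣ, diagP K y ∈ groupE (Up K) (P : ℕ) (placesOver K S₀) T →
      (¬ ∃ z : Kˣ, z ^ (P : ℕ) = y) →
      ¬ restrictedProduct (Up K) ≤
        (diagP K).range ⊔ groupD (Up K) (P : ℕ) (placesOver K S₀) T) :
    ((diagP K).range ⊔ groupE (Up K) (P : ℕ) (placesOver K S₀) T).relIndex
      (restrictedProduct (Up K)) = (P : ℕ) ^ c := by
  have hP3 : 2 < (P : ℕ) := lt_of_le_of_ne P.2.two_le (Ne.symm hP2)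
  have hcx := two_mul_card_infinitePlace hP3 hζ
  have key := relIndex_sup_groupE (Up K) (P : ℕ) P.2.pos (diagP K).range range_diagP_le
    (placesOver K S₀) T hST ?_ ?_ ?_ (fun i g hg => mem_Up_of_pow_mem P.2.ne_zero i g hg)
    (Fintype.card (InfinitePlace K) + (placesOver K S₀ ∪ T).card)
    (2 * (placesOver K S₀).card + Module.finrank ℚ K) c
    (relIndex_powSubgroup_units P.2.ne_zero hζ _) (prod_index_placesOver P hζ S₀ hPS) ?_
  · exact key
  · -- (CG)
    rw [← range_jToProd]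
    rintro _ ⟨x, rfl⟩
    have hx : x ∈ (diag K).range ⊔ JTsub K (S₀ : Set Nat.Primes) := hCG ▸ Subgroup.mem_top x
    obtain ⟨_, ⟨a, rfl⟩, z, hz, rfl⟩ := Subgroup.mem_sup.mp hx
    rw [map_mul]
    exact Subgroup.mul_mem_sup ⟨a, rfl⟩ ((jToProd_mem_ideleS_iff S₀ z).mpr hz)
  · -- (TC)
    intro u hu
    obtain ⟨a, ha, hau⟩ := hTC u hu
    exact ⟨diagP K a, ⟨⟨a, rfl⟩, ha⟩, hau⟩
  · -- (FI)
    rintro _ ⟨⟨y, rfl⟩, hyE⟩ hy
    refine hFI y hyE fun ⟨z, hz⟩ => hy ⟨diagP K z, ⟨z, rfl⟩, ?_⟩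
    rw [← map_pow, hz]
  · -- the count
    rw [Finset.card_union_of_disjoint hST]
    omega

/-- the same in `J_K`: every subgroup `N ⊇ E` has `[J_K : Kˣ · N] ∣ p ^ c` -/
theorem index_sup_dvd_pow (c : ℕ) (hP2 : (P : ℕ) ≠ 2) {ζ : K} (hζ : IsPrimitiveRoot ζ (P : ℕ))
    (hPS : P ∈ S₀) (hCG : (diag K).range ⊔ JTsub K (S₀ : Set Nat.Primes) = ⊤)
    (hST : Disjoint (placesOver K S₀) T)
    (hcard : T.card + c = Fintype.card (InfinitePlace K) + (placesOver K S₀).card)
    (hTC : ∀ u : ∀ i : Place K, Gp K i, (∀ i ∈ T, u i ∈ Up K i) →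
      ∃ a : Kˣ, diagP K a ∈ ideleS (Up K) (placesOver K S₀) ∧
        ∀ i ∈ T, (diagP K a i)⁻¹ * u i ∈ (Up K i).map (powMonoidHom (P : ℕ) : Gp K i →* Gp K i))
    (hFI : ∀ y : Kˣ, diagP K y ∈ groupE (Up K) (P : ℕ) (placesOver K S₀) T →
      (¬ ∃ z : Kˣ, z ^ (P : ℕ) = y) →
      ¬ restrictedProduct (Up K) ≤
        (diagP K).range ⊔ groupD (Up K) (P : ℕ) (placesOver K S₀) T)
    (N : Subgroup (J K))
    (hN : ∀ x : J K, jToProd K x ∈ groupE (Up K) (P : ℕ) (placesOver K S₀) T → x ∈ N) :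
    ((diag K).range ⊔ N).index ∣ (P : ℕ) ^ c := by
  have key := relIndex_sup_groupE_eq_pow P S₀ T c hP2 hζ hPS hCG hST hcard hTC hFI
  have h1 : ((diag K).range ⊔ N).index =
      (((diag K).range ⊔ N).map (jToProd K)).relIndex (restrictedProduct (Up K)) := by
    have hr : restrictedProduct (Up K) = (⊤ : Subgroup (J K)).map (jToProd K) := by
      rw [← range_jToProd, MonoidHom.range_eq_map]
    rw [hr, Subgroup.relIndex_map_map_of_injective _ _ jToProd_injective,
      Subgroup.relIndex_top_right]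
  rw [h1, ← key, Subgroup.map_sup, map_range_diag]
  refine Subgroup.relIndex_dvd_of_le_left _ (sup_le_sup_left ?_ _)
  intro y hy
  have hy' : y ∈ (jToProd K).range := by
    rw [range_jToProd]
    exact ideleS_le_restrictedProduct _ _ (groupE_le_ideleS _ _ _ _ hy)
  obtain ⟨x, rfl⟩ := hy'
  exact ⟨x, hN x hy, rfl⟩

open Fermat.Agent.CFT.C6.IdeleNorm in
/-- input (FI) from the first inequality for the Kummer extensions `K(y^{1/p})` (helper15's
`C4/FirstInequalityKummer`) and the local computation `D ≤ Kˣ · N J_M` -/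
theorem not_le_sup_groupD (hP2 : (P : ℕ) ≠ 2) {ζ : K} (hζ : IsPrimitiveRoot ζ (P : ℕ))
    (y : Kˣ) (hy : ¬ ∃ z : Kˣ, z ^ (P : ℕ) = y)
    (hD : ∀ (M : Type) [Field M] [NumberField M] [Algebra K M] [IsGalois K M],
      Module.finrank K M = (P : ℕ) → (∃ α : M, α ^ (P : ℕ) = algebraMap K M (y : K)) →
      ∀ x : J K, jToProd K x ∈ groupD (Up K) (P : ℕ) (placesOver K S₀) T →
        x ∈ (diag K).range ⊔ (normJ K M).range) :
    ¬ restrictedProduct (Up K) ≤
      (diagP K).range ⊔ groupD (Up K) (P : ℕ) (placesOver K S₀) T := by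
  have hy' : ∀ b : K, b ^ (P : ℕ) ≠ (y : K) := by
    intro b hb
    have hb0 : b ≠ 0 := by
      rintro rfl
      rw [zero_pow P.2.ne_zero] at hb
      exact y.ne_zero hb.symm
    exact hy ⟨Units.mk0 b hb0, Units.ext hb⟩
  have hprim : (primitiveRoots (P : ℕ) K).Nonempty :=
    ⟨ζ, (mem_primitiveRoots P.2.pos).mpr hζ⟩
  obtain ⟨M, _, _, _, _, hdeg, hα, x, hx⟩ :=
    C4.FirstInequalityKummer.exists_kummer_extension_notMem P.2 hP2 hprim (y : K) hy'
  intro hle
  have h1 : jToProd K x ∈ restrictedProduct (Up K) := by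
    rw [← range_jToProd]
    exact ⟨x, rfl⟩
  obtain ⟨_, ⟨a, rfl⟩, d, hd, hadx⟩ := Subgroup.mem_sup.mp (hle h1)
  have hd' : d ∈ (jToProd K).range := by
    rw [range_jToProd]
    exact ideleS_le_restrictedProduct _ _ (fun i hi => hd.2 i hi)
  obtain ⟨x', rfl⟩ := hd'
  have hx' : x = diag K a * x' := by
    apply jToProd_injective
    rw [map_mul, ← hadx]
    rfl
  apply hx
  rw [hx']
  exact Subgroup.mul_mem _ (Subgroup.mem_sup_left ⟨a, rfl⟩) (hD M hdeg hα x' hd)

open Fermat.Agent.CFT.C6.IdeleNorm in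
/-- **The second inequality from the data `(S₀, T)`**, for a subgroup `N ⊇ E` of `J_K`
(e.g. the norm group of a cyclic extension of degree `p` in which the places of `T` split
completely and which is unramified outside `S`). -/
theorem index_sup_dvd_pow_of_data (c : ℕ) (hP2 : (P : ℕ) ≠ 2) {ζ : K} (hζ : IsPrimitiveRoot ζ (P : ℕ))
    (hPS : P ∈ S₀) (hCG : (diag K).range ⊔ JTsub K (S₀ : Set Nat.Primes) = ⊤)
    (hST : Disjoint (placesOver K S₀) T)
    (hcard : T.card + c = Fintype.card (InfinitePlace K) + (placesOver K S₀).card)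
    (hTC : ∀ u : ∀ i : Place K, Gp K i, (∀ i ∈ T, u i ∈ Up K i) →
      ∃ a : Kˣ, diagP K a ∈ ideleS (Up K) (placesOver K S₀) ∧
        ∀ i ∈ T, (diagP K a i)⁻¹ * u i ∈ (Up K i).map (powMonoidHom (P : ℕ) : Gp K i →* Gp K i))
    (hD : ∀ y : Kˣ, diagP K y ∈ groupE (Up K) (P : ℕ) (placesOver K S₀) T →
      (¬ ∃ z : Kˣ, z ^ (P : ℕ) = y) → ∀ (M : Type) [Field M] [NumberField M] [Algebra K M] [IsGalois K M],
      Module.finrank K M = (P : ℕ) → (∃ α : M, α ^ (P : ℕ) = algebraMap K M (y : K)) →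
      ∀ x : J K, jToProd K x ∈ groupD (Up K) (P : ℕ) (placesOver K S₀) T →
        x ∈ (diag K).range ⊔ (normJ K M).range)
    (N : Subgroup (J K))
    (hN : ∀ x : J K, jToProd K x ∈ groupE (Up K) (P : ℕ) (placesOver K S₀) T → x ∈ N) :
    ((diag K).range ⊔ N).index ∣ (P : ℕ) ^ c :=
  index_sup_dvd_pow P S₀ T c hP2 hζ hPS hCG hST hcard hTC
    (fun y hyE hy => not_le_sup_groupD P S₀ T hP2 hζ y hy (hD y hyE hy)) N hN

open Fermat.Agent.CFT.C6.IdeleNorm in
/-- the case `c = 1` (second inequality) -/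
theorem index_sup_dvd_of_data (hP2 : (P : ℕ) ≠ 2) {ζ : K} (hζ : IsPrimitiveRoot ζ (P : ℕ))
    (hPS : P ∈ S₀) (hCG : (diag K).range ⊔ JTsub K (S₀ : Set Nat.Primes) = ⊤)
    (hST : Disjoint (placesOver K S₀) T)
    (hcard : T.card + 1 = Fintype.card (InfinitePlace K) + (placesOver K S₀).card)
    (hTC : ∀ u : ∀ i : Place K, Gp K i, (∀ i ∈ T, u i ∈ Up K i) →
      ∃ a : Kˣ, diagP K a ∈ ideleS (Up K) (placesOver K S₀) ∧
        ∀ i ∈ T, (diagP K a i)⁻¹ * u i ∈ (Up K i).map (powMonoidHom (P : ℕ) : Gp K i →* Gp K i))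
    (hD : ∀ y : Kˣ, diagP K y ∈ groupE (Up K) (P : ℕ) (placesOver K S₀) T →
      (¬ ∃ z : Kˣ, z ^ (P : ℕ) = y) → ∀ (M : Type) [Field M] [NumberField M] [Algebra K M] [IsGalois K M],
      Module.finrank K M = (P : ℕ) → (∃ α : M, α ^ (P : ℕ) = algebraMap K M (y : K)) →
      ∀ x : J K, jToProd K x ∈ groupD (Up K) (P : ℕ) (placesOver K S₀) T →
        x ∈ (diag K).range ⊔ (normJ K M).range)
    (N : Subgroup (J K))
    (hN : ∀ x : J K, jToProd K x ∈ groupE (Up K) (P : ℕ) (placesOver K S₀) T → x ∈ N) :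
    ((diag K).range ⊔ N).index ∣ (P : ℕ) := by
  have h := index_sup_dvd_pow_of_data P S₀ T 1 hP2 hζ hPS hCG hST hcard hTC hD N hN
  rwa [pow_one] at h

open Fermat.Agent.CFT.C6.IdeleNorm in
/-- the case `T = ∅`: `[J_K : Kˣ · ∏_{v ∈ S} K_vˣ ^ p × ∏_{v ∉ S} U_v] = p ^ (r + #S)`, `r` the
number of infinite places (index computation of the existence theorem in exponent `p`) -/
theorem relIndex_sup_groupE_empty (hP2 : (P : ℕ) ≠ 2) {ζ : K} (hζ : IsPrimitiveRoot ζ (P : ℕ))
    (hPS : P ∈ S₀) (hCG : (diag K).range ⊔ JTsub K (S₀ : Set Nat.Primes) = ⊤)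
    (hD : ∀ y : Kˣ, diagP K y ∈ groupE (Up K) (P : ℕ) (placesOver K S₀) ∅ →
      (¬ ∃ z : Kˣ, z ^ (P : ℕ) = y) → ∀ (M : Type) [Field M] [NumberField M] [Algebra K M] [IsGalois K M],
      Module.finrank K M = (P : ℕ) → (∃ α : M, α ^ (P : ℕ) = algebraMap K M (y : K)) →
      ∀ x : J K, jToProd K x ∈ groupD (Up K) (P : ℕ) (placesOver K S₀) ∅ →
        x ∈ (diag K).range ⊔ (normJ K M).range) :
    ((diagP K).range ⊔ groupE (Up K) (P : ℕ) (placesOver K S₀) ∅).relIndex
      (restrictedProduct (Up K)) =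
        (P : ℕ) ^ (Fintype.card (InfinitePlace K) + (placesOver K S₀).card) := by
  refine relIndex_sup_groupE_eq_pow P S₀ ∅ _ hP2 hζ hPS hCG (Finset.disjoint_empty_right _)
    (by rw [Finset.card_empty, zero_add]) ?_
    (fun y hyE hy => not_le_sup_groupD P S₀ ∅ hP2 hζ y hy (hD y hyE hy))
  intro u _
  exact ⟨1, by rw [map_one]; exact Subgroup.one_mem _, fun i hi => absurd hi (Finset.notMem_empty i)⟩

end Main

end Fermat.Agent.CFT.C5.SecondInequality
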