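import Mathlib
import Fermat.Agent.CFT.Local.KummerLocal
import Fermat.Agent.CFT.C5.LocalFields

/-!
# PROJECT C, slice C5-(iii), part (a): unit characters

* abstract: a subgroup `H` of prime index `p` of a commutative group `G` is the kernel of a
  surjective character `charOfIndex : G →* Multiplicative (ZMod p)`; modulo `H` every element is a
  power of any element outside `H` (`exists_pow_mul_mem`);
* local fields: `[U : U^p] = p` for the unit group of a finite extension of `ℚ_q` containing `μ_p`,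
  `p ≠ q` (`index_range_pow_unitGroup`, from helper20's `KummerLocal.index_range_pow_units`);
* places (helper20's `LocalFields`): `locV v : U_v →* ℤ/p` surjective with kernel `U_v^p`
  (`locV_eq_one_iff_mem_map` = `hloc` of `FrobBasis.tc_of_local_characters`, on units), and
  `exists_pow_mul_mem_map`: `U_v/U_v^p` is generated by any unit which is not a `p`-th power.
-/

set_option autoImplicit false
set_option linter.unusedSectionVars false
set_option linter.style.haveILetI false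

open scoped NumberField Fermat.Agent.CFT.Idele Fermat.Agent.CFT.Local.Model
open Fermat.Agent.CFT.Idele Fermat.Agent.CFT.Dict Fermat.Agent.CFT.Local.Model
  Fermat.Agent.CFT.C5.LocalFields

namespace Fermat.Agent.CFT.C5.UnitChar

section Abstract

variable {G : Type*} [CommGroup G] (H : Subgroup G) (p : ℕ) [hp : Fact p.Prime]

/-- A subgroup of prime index `p` of a commutative group is the kernel of a surjective character
with values in `ℤ/p`. -/
theorem exists_char_of_index (hH : H.index = p) :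
    ∃ χ : G →* Multiplicative (ZMod p), Function.Surjective χ ∧ χ.ker = H := by
  have hcard : Nat.card (G ⧸ H) = p := by rw [← Subgroup.index_eq_card, hH]
  have hcyc : IsCyclic (G ⧸ H) := isCyclic_of_prime_card hcard
  let e1 : Multiplicative (ZMod (Nat.card (G ⧸ H))) ≃* (G ⧸ H) := zmodCyclicMulEquiv hcyc
  let e2 : Multiplicative (ZMod (Nat.card (G ⧸ H))) ≃* Multiplicative (ZMod p) :=
    AddEquiv.toMultiplicative (ZMod.ringEquivCongr hcard).toAddEquiv
  let e : (G ⧸ H) ≃* Multiplicative (ZMod p) := e1.symm.trans e2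
  refine ⟨e.toMonoidHom.comp (QuotientGroup.mk' H), ?_, ?_⟩
  · exact e.surjective.comp (QuotientGroup.mk'_surjective H)
  · ext x
    rw [MonoidHom.mem_ker, MonoidHom.comp_apply]
    change e (QuotientGroup.mk' H x) = 1 ↔ x ∈ H
    rw [MulEquiv.map_eq_one_iff, QuotientGroup.mk'_apply, QuotientGroup.eq_one_iff]

/-- The character with kernel `H`. -/
noncomputable def charOfIndex (hH : H.index = p) : G →* Multiplicative (ZMod p) :=
  (exists_char_of_index H p hH).choose

theorem charOfIndex_surjective (hH : H.index = p) : Function.Surjective (charOfIndex H p hH) :=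
  (exists_char_of_index H p hH).choose_spec.1

theorem ker_charOfIndex (hH : H.index = p) : (charOfIndex H p hH).ker = H :=
  (exists_char_of_index H p hH).choose_spec.2

theorem charOfIndex_eq_one_iff (hH : H.index = p) (x : G) : charOfIndex H p hH x = 1 ↔ x ∈ H := by
  rw [← MonoidHom.mem_ker, ker_charOfIndex]

/-- Modulo a subgroup of prime index, every element is a power of any element outside it. -/
theorem exists_pow_mul_mem (hH : H.index = p) {d : G} (hd : d ∉ H) (b : G) :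
    ∃ j : ℕ, j < p ∧ b * (d ^ j)⁻¹ ∈ H := by
  haveI : NeZero p := ⟨hp.out.ne_zero⟩
  set χ := charOfIndex H p hH with hχ
  have hd1 : Multiplicative.toAdd (χ d) ≠ 0 := by
    intro h
    apply hd
    rw [← charOfIndex_eq_one_iff H p hH]
    exact Multiplicative.toAdd.injective h
  set j : ZMod p := Multiplicative.toAdd (χ b) * (Multiplicative.toAdd (χ d))⁻¹ with hj
  refine ⟨j.val, ZMod.val_lt j, ?_⟩
  rw [← charOfIndex_eq_one_iff H p hH, map_mul, map_inv, map_pow, ← hχ]
  apply Multiplicative.toAdd.injective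
  rw [toAdd_mul, toAdd_inv, toAdd_pow, toAdd_one, nsmul_eq_mul, ZMod.natCast_zmod_val, hj,
    inv_mul_cancel_right₀ hd1, add_neg_cancel]

end Abstract

section Model

variable (q : ℕ) [Fact q.Prime] (E : Type*) [Field E] [Algebra ℚ_[q] E] [FiniteDimensional ℚ_[q] E]

/-- `[U : U^p] = p` for the units `U` of a finite extension `E` of `ℚ_q` containing `μ_p`,
`p ≠ q`, in the form of the subgroup `(𝒪 q E).unitGroup` of `Eˣ`. -/
theorem index_range_pow_unitGroup {p : ℕ} (hp : p.Prime) (hpq : p ≠ q) {ζ : E}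
    (hζ : IsPrimitiveRoot ζ p) :
    (powMonoidHom p : ↥(𝒪 q E).unitGroup →* ↥(𝒪 q E).unitGroup).range.index = p := by
  have hcop : q.Coprime p := (Nat.coprime_primes (Fact.out : q.Prime) hp).mpr (Ne.symm hpq)
  have hpu : IsUnit ((p : ℕ) : ↥(𝒪 q E)) :=
    Fermat.Agent.CFT.Local.PowIndexModel.isUnit_natCast q E hcop
  -- `ζ` is integral
  have hζO : ζ ∈ 𝒪 q E := by
    rw [mem_𝒪_iff]
    have h1 : nrm q E ζ ^ p = 1 := by rw [← nrm_pow, hζ.pow_eq_one]; exact nrm_one q E
    exact le_of_eq ((pow_eq_one_iff_of_nonneg (nrm_nonneg q E ζ) hp.ne_zero).mp h1)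
  have hζ' : IsPrimitiveRoot (⟨ζ, hζO⟩ : ↥(𝒪 q E)) p :=
    IsPrimitiveRoot.of_map_of_injective (f := (𝒪 q E).subtype) hζ Subtype.val_injective
  have h := Fermat.Agent.CFT.Local.KummerLocal.index_range_pow_units (O := ↥(𝒪 q E)) hpu
    hp.ne_zero hζ'
  let e : ↥(𝒪 q E).unitGroup ≃* (↥(𝒪 q E))ˣ := (𝒪 q E).unitGroupMulEquiv
  have hmap : (powMonoidHom p : ↥(𝒪 q E).unitGroup →* ↥(𝒪 q E).unitGroup).range.map
      e.toMonoidHom = (powMonoidHom p : (↥(𝒪 q E))ˣ →* (↥(𝒪 q E))ˣ).range := by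
    ext x
    constructor
    · rintro ⟨_, ⟨y, rfl⟩, rfl⟩
      exact ⟨e y, by simp [powMonoidHom_apply]⟩
    · rintro ⟨y, rfl⟩
      refine ⟨(e.symm y) ^ p, ⟨e.symm y, rfl⟩, ?_⟩
      simp [powMonoidHom_apply]
  have h2 := Subgroup.index_map_equiv
    (powMonoidHom p : ↥(𝒪 q E).unitGroup →* ↥(𝒪 q E).unitGroup).range e
  rw [← h2]
  exact (congrArg Subgroup.index hmap).trans h

end Model

section Places

variable {K : Type} [Field K] [NumberField K] {q : Nat.Primes} (v : PrimeOver (q : ℕ) (𝓞 K))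
variable {p : ℕ} [hp : Fact p.Prime] (hpq : p ≠ (q : ℕ)) {ζ : K} (hζ : IsPrimitiveRoot ζ p)

include hpq hζ in
/-- `[U_v : U_v^p] = p` for `v ∤ p`, `μ_p ⊂ K`. -/
theorem index_range_pow_UV :
    (powMonoidHom p : ↥(UV v) →* ↥(UV v)).range.index = p :=
  index_range_pow_unitGroup (q : ℕ) (Kv v) hp.out hpq (hζ.map_of_injective (kToKv_injective v))

/-- The unit character at `v ∤ p`: a surjection `U_v → ℤ/p` with kernel `U_v^p`. -/
noncomputable def locV : ↥(UV v) →* Multiplicative (ZMod p) :=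
  charOfIndex _ p (index_range_pow_UV v hpq hζ)

theorem locV_surjective : Function.Surjective (locV v hpq hζ) :=
  charOfIndex_surjective _ p _

theorem locV_eq_one_iff (u : ↥(UV v)) : locV v hpq hζ u = 1 ↔ ∃ w : ↥(UV v), w ^ p = u := by
  rw [locV, charOfIndex_eq_one_iff]
  rfl

/-- `(U_v)^p` as a subgroup of `K_vˣ` versus `p`-th powers inside the group `U_v`. -/
theorem mem_map_pow_iff (u : ↥(UV v)) :
    (u : (Kv v)ˣ) ∈ (UV v).map (powMonoidHom p : (Kv v)ˣ →* (Kv v)ˣ) ↔
      ∃ w : ↥(UV v), w ^ p = u := by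
  constructor
  · rintro ⟨w, hw, hwu⟩
    exact ⟨⟨w, hw⟩, Subtype.ext hwu⟩
  · rintro ⟨w, rfl⟩
    exact ⟨w, w.2, rfl⟩

/-- `hloc` of `FrobBasis.tc_of_local_characters`, on units. -/
theorem locV_eq_one_iff_mem_map (u : (Kv v)ˣ) (hu : u ∈ UV v) :
    locV v hpq hζ ⟨u, hu⟩ = 1 ↔ u ∈ (UV v).map (powMonoidHom p : (Kv v)ˣ →* (Kv v)ˣ) := by
  rw [locV_eq_one_iff, ← mem_map_pow_iff v ⟨u, hu⟩]

include hpq hζ in
/-- `U_v / U_v^p` is cyclic of order `p`, generated by any unit which is not a `p`-th power. -/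
theorem exists_pow_mul_mem_map {d b : (Kv v)ˣ} (hd : d ∈ UV v) (hb : b ∈ UV v)
    (hdp : d ∉ (UV v).map (powMonoidHom p : (Kv v)ˣ →* (Kv v)ˣ)) :
    ∃ j : ℕ, j < p ∧ b * (d ^ j)⁻¹ ∈ (UV v).map (powMonoidHom p : (Kv v)ˣ →* (Kv v)ˣ) := by
  have hd' : (⟨d, hd⟩ : ↥(UV v)) ∉ (powMonoidHom p : ↥(UV v) →* ↥(UV v)).range := by
    rintro ⟨w, hw⟩
    exact hdp ((mem_map_pow_iff v ⟨d, hd⟩).mpr ⟨w, hw⟩)
  obtain ⟨j, hj, ⟨w, hw⟩⟩ := exists_pow_mul_mem _ p (index_range_pow_UV v hpq hζ) hd' ⟨b, hb⟩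
  refine ⟨j, hj, ?_⟩
  have := (mem_map_pow_iff v (⟨b, hb⟩ * (⟨d, hd⟩ ^ j)⁻¹)).mpr ⟨w, hw⟩
  simpa using this

end Places

end Fermat.Agent.CFT.C5.UnitChar
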