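import Mathlib
import Fermat.Agent.CFT.C5.SecondInequality
import Fermat.Agent.CFT.C5.CharBasis
import Fermat.Agent.CFT.C5.UnitChar

/-!
# PROJECT C, slice C5 (second inequality): the auxiliary places `T` ("no Frobenius" selection)

`K ∋ μ_p` a number field, `S₀ ∋ p` a finite set of rational primes, `S` the places above `S₀`,
`Δ` the `S`-units, `d ∈ Δ` not a `p`-th power in `K`. Hypothesis (`H`): every `b ∈ Δ` which is a
`p`-th power of a unit at all places `v ∉ S` at which `d` is one, lies in `⟨d⟩ · Kˣ ^ p`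
(this is helper2's `C5/HypH` for `L = K(d^{1/p})`). Then there is a finite set `T` of places,
disjoint from `S`, with `#T + 1 = #{infinite places} + #S`, such that `d` is a `p`-th power at the
places of `T` and the `S`-units surject onto `∏_{v ∈ T} U_v / U_v ^ p`: the data `(S₀, T)` of
`SecondInequality.index_sup_dvd_of_data`.
-/

set_option autoImplicit false
set_option linter.unusedSectionVars false

open scoped TensorProduct NumberField Fermat.Agent.CFT.Idele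

open Fermat.Agent.CFT.Idele Fermat.Agent.CFT.Dict Fermat.Agent.CFT.Local.Model
  Fermat.Agent.CFT.C5.LocalFields Fermat.Agent.CFT.C5.IndexAbstract
  Fermat.Agent.CFT.C5.IdeleProduct IsDedekindDomain NumberField
  Fermat.Agent.CFT.C5.SecondInequality Fermat.Agent.CFT.C5.UnitChar

noncomputable section

namespace Fermat.Agent.CFT.C5.TData

attribute [local instance] Classical.propDecidable

variable {K : Type} [Field K] [NumberField K] (P : Nat.Primes) (S₀ : Finset Nat.Primes)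

variable (K) in
/-- the `S`-units, `S` the places above `S₀` -/
abbrev SUnits : Subgroup Kˣ := C3.SUnitRank.TUnits K ((placesOver K S₀).image toHOS)

theorem mem_SUnits_iff (a : Kˣ) :
    a ∈ SUnits K S₀ ↔ diagP K a ∈ ideleS (Up K) (placesOver K S₀) := by
  have h := range_diagP_inf_ideleS (K := K) (placesOver K S₀)
  constructor
  · intro ha
    have h1 : diagP K a ∈ (SUnits K S₀).map (diagP K) := ⟨a, ha, rfl⟩
    rw [← h] at h1
    exact h1.2
  · intro ha
    have h1 : diagP K a ∈ (diagP K).range ⊓ ideleS (Up K) (placesOver K S₀) := ⟨⟨a, rfl⟩, ha⟩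
    rw [h] at h1
    obtain ⟨a', ha', h2⟩ := h1
    rwa [← diagP_injective h2]

theorem mem_SUnits_of_pow_mem {n : ℕ} (hn : n ≠ 0) (c : Kˣ) (h : c ^ n ∈ SUnits K S₀) :
    c ∈ SUnits K S₀ := by
  rw [mem_SUnits_iff] at h ⊢
  intro i hi
  have h1 := h i hi
  rw [map_pow, Pi.pow_apply] at h1
  exact mem_Up_of_pow_mem hn i _ h1

/-- the places outside `S` -/
abbrev OutPlace : Type := {i : Place K // i ∉ placesOver K S₀}

variable {S₀}

/-- the component of an `S`-unit at a place outside `S`, as a local unit -/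
def unitAt (i : OutPlace (K := K) S₀) : SUnits K S₀ →* ↥(UV i.1.2) where
  toFun b := ⟨diagP K (b : Kˣ) i.1, (mem_SUnits_iff S₀ _).mp b.2 i.1 i.2⟩
  map_one' := by
    apply Subtype.ext
    show diagP K ((1 : SUnits K S₀) : Kˣ) i.1 = 1
    rw [Subgroup.coe_one, map_one]
    rfl
  map_mul' a b := by
    apply Subtype.ext
    show diagP K ((a * b : SUnits K S₀) : Kˣ) i.1 = diagP K (a : Kˣ) i.1 * diagP K (b : Kˣ) i.1
    rw [Subgroup.coe_mul, map_mul]
    rfl

theorem coe_unitAt (i : OutPlace (K := K) S₀) (b : SUnits K S₀) :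
    ((unitAt i b : ↥(UV i.1.2)) : (Kv i.1.2)ˣ) = diagP K (b : Kˣ) i.1 := rfl

variable {P}

theorem ne_of_outPlace (hPS : P ∈ S₀) (i : OutPlace (K := K) S₀) : (P : ℕ) ≠ (i.1.1 : ℕ) := by
  intro h
  apply i.2
  rw [mem_placesOver]
  have : P = i.1.1 := Subtype.ext h
  rwa [← this]

instance factP : Fact (P : ℕ).Prime := ⟨P.2⟩

/-- the unit character of the `S`-units at a place outside `S` -/
def lam {ζ : K} (hζ : IsPrimitiveRoot ζ (P : ℕ)) (hPS : P ∈ S₀) (i : OutPlace (K := K) S₀) :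
    SUnits K S₀ →* Multiplicative (ZMod (P : ℕ)) :=
  (locV i.1.2 (ne_of_outPlace hPS i) hζ).comp (unitAt i)

theorem lam_eq_one_iff {ζ : K} (hζ : IsPrimitiveRoot ζ (P : ℕ)) (hPS : P ∈ S₀)
    (i : OutPlace (K := K) S₀) (b : SUnits K S₀) :
    lam hζ hPS i b = 1 ↔
      diagP K (b : Kˣ) i.1 ∈ (Up K i.1).map (powMonoidHom (P : ℕ) : Gp K i.1 →* Gp K i.1) :=
  locV_eq_one_iff_mem_map i.1.2 (ne_of_outPlace hPS i) hζ _ _

/-- **The auxiliary places.** -/
theorem exists_finset_places {ζ : K} (hζ : IsPrimitiveRoot ζ (P : ℕ))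
    (hPS : P ∈ S₀) (d : Kˣ) (hdS : d ∈ SUnits K S₀) (hd : ¬ ∃ z : Kˣ, z ^ (P : ℕ) = d)
    (hH : ∀ b : Kˣ, b ∈ SUnits K S₀ →
      (∀ i : Place K, i ∉ placesOver K S₀ →
        diagP K d i ∈ (Up K i).map (powMonoidHom (P : ℕ) : Gp K i →* Gp K i) →
        diagP K b i ∈ (Up K i).map (powMonoidHom (P : ℕ) : Gp K i →* Gp K i)) →
      ∃ (j : ℕ) (c : Kˣ), b = d ^ j * c ^ (P : ℕ)) :
    ∃ T : Finset (Place K), Disjoint (placesOver K S₀) T ∧
      T.card + 1 = Fintype.card (InfinitePlace K) + (placesOver K S₀).card ∧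
      (∀ i ∈ T, diagP K d i ∈ (Up K i).map (powMonoidHom (P : ℕ) : Gp K i →* Gp K i)) ∧
      ∀ u : ∀ i : Place K, Gp K i, (∀ i ∈ T, u i ∈ Up K i) →
        ∃ a : Kˣ, diagP K a ∈ ideleS (Up K) (placesOver K S₀) ∧
          ∀ i ∈ T, (diagP K a i)⁻¹ * u i ∈
            (Up K i).map (powMonoidHom (P : ℕ) : Gp K i →* Gp K i) := by
  -- the index of the `p`-th powers in the `S`-units
  have hidx : (powMonoidHom (P : ℕ) : SUnits K S₀ →* SUnits K S₀).range.index =
      (P : ℕ) ^ (Fintype.card (InfinitePlace K) + (placesOver K S₀).card) := by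
    rw [SUnit.TUnitsPow.index_range_pow_TUnits_of_isPrimitiveRoot' K _ P.2.ne_zero hζ,
      Finset.card_image_of_injective _ toHOS_injective]
  have hfin : (powMonoidHom (P : ℕ) : SUnits K S₀ →* SUnits K S₀).range.index ≠ 0 := by
    rw [hidx]
    exact pow_ne_zero _ P.2.ne_zero
  -- the abstract selection
  have hHabs : ∀ b : SUnits K S₀,
      (∀ i, lam hζ hPS i ⟨d, hdS⟩ = 1 → lam hζ hPS i b = 1) →
      ∃ (j : ℕ) (c : SUnits K S₀), b = (⟨d, hdS⟩ : SUnits K S₀) ^ j * c ^ (P : ℕ) := by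
    intro b hb
    obtain ⟨j, c, hc⟩ := hH (b : Kˣ) b.2 fun i hi hdi => by
      have h1 := hb ⟨i, hi⟩ ((lam_eq_one_iff hζ hPS ⟨i, hi⟩ ⟨d, hdS⟩).mpr hdi)
      exact (lam_eq_one_iff hζ hPS ⟨i, hi⟩ b).mp h1
    have hcS : c ∈ SUnits K S₀ := by
      apply mem_SUnits_of_pow_mem S₀ P.2.ne_zero
      have : c ^ (P : ℕ) = (d ^ j)⁻¹ * (b : Kˣ) := by rw [hc, inv_mul_cancel_left]
      rw [this]
      exact Subgroup.mul_mem _ (Subgroup.inv_mem _ (Subgroup.pow_mem _ hdS j)) b.2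
    exact ⟨j, ⟨c, hcS⟩, Subtype.ext hc⟩
  obtain ⟨T', hT'd, hT'card, hT'surj⟩ :=
    CharBasis.exists_finset_of_forall_imp (P : ℕ) hfin (⟨d, hdS⟩ : SUnits K S₀)
      (lam hζ hPS) hHabs
  have hdpow : (⟨d, hdS⟩ : SUnits K S₀) ∉
      (powMonoidHom (P : ℕ) : SUnits K S₀ →* SUnits K S₀).range := by
    rintro ⟨c, hc⟩
    exact hd ⟨(c : Kˣ), congrArg Subtype.val hc⟩
  have hcount := CharBasis.index_range_pow_eq_mul (P : ℕ) (⟨d, hdS⟩ : SUnits K S₀) hdpow
  rw [hidx, ← hT'card, ← pow_succ'] at hcount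
  have hcard : T'.card + 1 = Fintype.card (InfinitePlace K) + (placesOver K S₀).card :=
    (Nat.pow_right_injective P.2.two_le hcount).symm
  refine ⟨T'.map (Function.Embedding.subtype _), ?_, ?_, ?_, ?_⟩
  · rw [Finset.disjoint_right]
    intro i hi
    obtain ⟨i', -, rfl⟩ := Finset.mem_map.mp hi
    exact i'.2
  · rw [Finset.card_map]
    exact hcard
  · intro i hi
    obtain ⟨i', hi', rfl⟩ := Finset.mem_map.mp hi
    exact (lam_eq_one_iff hζ hPS i' ⟨d, hdS⟩).mp (hT'd i' hi')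
  · intro u hu
    let z : OutPlace (K := K) S₀ → Multiplicative (ZMod (P : ℕ)) := fun i =>
      if h : u i.1 ∈ UV i.1.2 then locV i.1.2 (ne_of_outPlace hPS i) hζ ⟨u i.1, h⟩ else 1
    obtain ⟨b, hb⟩ := hT'surj z
    refine ⟨(b : Kˣ), (mem_SUnits_iff S₀ _).mp b.2, fun i hi => ?_⟩
    obtain ⟨i', hi', rfl⟩ := Finset.mem_map.mp hi
    have hui : u i'.1 ∈ UV i'.1.2 := hu _ hi
    have hbi := hb i' hi'
    have hz : z i' = locV i'.1.2 (ne_of_outPlace hPS i') hζ ⟨u i'.1, hui⟩ := dif_pos hui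
    rw [hz] at hbi
    have hmem : (diagP K (b : Kˣ) i'.1)⁻¹ * u i'.1 ∈ UV i'.1.2 :=
      Subgroup.mul_mem _ (Subgroup.inv_mem _ (unitAt i' b).2) hui
    refine (locV_eq_one_iff_mem_map i'.1.2 (ne_of_outPlace hPS i') hζ _ hmem).mp ?_
    have h2 : (⟨(diagP K (b : Kˣ) i'.1)⁻¹ * u i'.1, hmem⟩ : ↥(UV i'.1.2)) =
        (unitAt i' b)⁻¹ * ⟨u i'.1, hui⟩ := Subtype.ext rfl
    rw [h2, map_mul, map_inv, ← hbi]
    exact inv_mul_cancel _

end Fermat.Agent.CFT.C5.TData
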