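import Mathlib
import Fermat.Agent.CFT.C5.TData
import Fermat.Agent.CFT.C5.PowerLocalGlobal

/-!
# PROJECT C, slice C5-(iii), part (c): hypothesis (H) of the "no Frobenius" `T`-selection

`K ∋ μ_p` a number field, `p` odd, `S₀ ∋ p` a finite set of rational primes, `S` the places above
`S₀`, `d` an `S`-unit which is not a `p`-th power in `K`.

* `sum_idem_mul_pow`: powers of combinations of orthogonal idempotents;
* `exists_algebraMap_eq_mul_inv_pow`: Kummer descent `K ∩ M^p = ⟨d⟩ K^p` for `M = K(d^{1/p})`;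
* `exists_local_root`: if `b` is a `p`-th power of a unit at every place above `q ≠ p` where `d`
  is one (`d`, `b` units above `q`), then `b` is a `p`-th power in `K(d^{1/p}) ⊗ ℚ_q`
  (`U_v / U_v^p` is cyclic: `UnitChar.exists_pow_mul_mem_map`; gluing along helper20's idempotents
  `idemV`);
* `hypH`: **(H)** an `S`-unit `b` which is a `p`-th power of a unit at every place outside `S`
  where `d` is one lies in `⟨d⟩ Kˣ^p` (via `PowerLocalGlobal.exists_pow_eq_of_forall_local` over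
  `K(d^{1/p})`, i.e. the first inequality);
* `exists_finset_places`: the auxiliary places `T` of helper29's `TData.exists_finset_places`,
  unconditionally.
-/

set_option autoImplicit false
set_option linter.unusedSectionVars false
set_option linter.style.haveILetI false

open scoped TensorProduct NumberField Fermat.Agent.CFT.Idele

open Fermat.Agent.CFT.Idele Fermat.Agent.CFT.Dict Fermat.Agent.CFT.Local.Model
  Fermat.Agent.CFT.C5.LocalFields Fermat.Agent.CFT.C5.IndexAbstract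
  Fermat.Agent.CFT.C5.IdeleProduct IsDedekindDomain NumberField
  Fermat.Agent.CFT.C5.SecondInequality Fermat.Agent.CFT.C5.UnitChar
  Fermat.Agent.CFT.C5.TData Fermat.Agent.CFT.C5.NormIdele

noncomputable section

namespace Fermat.Agent.CFT.C5.HypH

section Algebra

/-- Powers of a combination of orthogonal idempotents. -/
theorem sum_idem_mul_pow {R X : Type*} [CommRing R] [Fintype X] [DecidableEq X] (e x : X → R)
    (horth : ∀ v w, v ≠ w → e v * e w = 0) (hidem : ∀ v, e v * e v = e v) {n : ℕ} (hn : n ≠ 0) :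
    (∑ v, e v * x v) ^ n = ∑ v, e v * x v ^ n := by
  induction n with
  | zero => exact absurd rfl hn
  | succ n ih =>
    rcases Nat.eq_zero_or_pos n with h0 | h0
    · subst h0
      simp
    · rw [pow_succ, ih (by omega), Finset.sum_mul]
      refine Finset.sum_congr rfl fun v _ => ?_
      rw [Finset.mul_sum, Finset.sum_eq_single v]
      · rw [pow_succ]
        calc e v * x v ^ n * (e v * x v) = (e v * e v) * (x v ^ n * x v) := by ring
          _ = e v * (x v ^ n * x v) := by rw [hidem]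
      · intro w _ hw
        calc e v * x v ^ n * (e w * x w) = (e v * e w) * (x v ^ n * x w) := by ring
          _ = 0 := by rw [horth v w (Ne.symm hw), zero_mul]
      · intro h
        exact absurd (Finset.mem_univ v) h

/-- **Kummer descent.** `M/K` Galois with group generated by `g`, `g δ = ζ δ`; if `c' ∈ M` has
`c'^p ∈ K` then `c' / δ^j ∈ K` for some `j`. -/
theorem exists_algebraMap_eq_mul_inv_pow {K M : Type*} [Field K] [Field M] [Algebra K M]
    [FiniteDimensional K M] [IsGalois K M] {p : ℕ} (hp : 0 < p) {ζ : K}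
    (hζ : IsPrimitiveRoot ζ p) (g : M ≃ₐ[K] M) (hgen : ∀ τ : M ≃ₐ[K] M, τ ∈ Subgroup.zpowers g)
    {δ : M} (hδ0 : δ ≠ 0) (hg : g δ = algebraMap K M ζ * δ) {b : K} {c' : M}
    (hc' : c' ^ p = algebraMap K M b) (hc0 : c' ≠ 0) :
    ∃ (j : ℕ) (c : K), algebraMap K M c = c' * (δ ^ j)⁻¹ := by
  haveI : NeZero p := ⟨hp.ne'⟩
  have hζM : IsPrimitiveRoot (algebraMap K M ζ) p :=
    hζ.map_of_injective (algebraMap K M).injective
  have h1 : (g c' / c') ^ p = 1 := by
    rw [div_pow, ← map_pow, hc', AlgEquiv.commutes, div_self]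
    rw [← hc']
    exact pow_ne_zero p hc0
  obtain ⟨j, -, hj⟩ := hζM.eq_pow_of_pow_eq_one h1
  refine ⟨j, ?_⟩
  have hgc : g c' = algebraMap K M ζ ^ j * c' := by
    rw [hj, div_mul_cancel₀ _ hc0]
  have hfix : g (c' * (δ ^ j)⁻¹) = c' * (δ ^ j)⁻¹ := by
    have hζ0 : algebraMap K M ζ ≠ 0 := hζM.ne_zero hp.ne'
    rw [map_mul, map_inv₀, map_pow, hgc, hg, mul_pow]
    field_simp
  have hall : ∀ τ : M ≃ₐ[K] M, τ (c' * (δ ^ j)⁻¹) = c' * (δ ^ j)⁻¹ := by
    intro τ
    have hle : Subgroup.zpowers g ≤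
        MulAction.stabilizer (M ≃ₐ[K] M) (c' * (δ ^ j)⁻¹) := by
      rw [Subgroup.zpowers_le]
      exact hfix
    exact hle (hgen τ)
  obtain ⟨c, hc⟩ := (IsGalois.mem_range_algebraMap_iff_fixed _).mpr hall
  exact ⟨c, hc⟩

end Algebra

section Local

variable {K M : Type} [Field K] [NumberField K] [Field M] [NumberField M] [Algebra K M]
  {p : ℕ} [hp : Fact p.Prime]

theorem idemV_mul_of_ne {q : Nat.Primes} {v w : PrimeOver (q : ℕ) (𝓞 K)} (h : v ≠ w) :
    idemV v * idemV w = 0 := by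
  apply ext_toKv
  intro x
  rw [map_mul, map_zero]
  by_cases hx : x = v
  · subst hx
    rw [toKv_idemV_of_ne h, mul_zero]
  · rw [toKv_idemV_of_ne hx, zero_mul]

/-- **Local step.**  `q ≠ p`, `d, b` units at all places of `K` above `q`, `b` a `p`-th power of a
unit at every place above `q` where `d` is one; `δ ∈ M`, `δ^p = d`.  Then `b` is a `p`-th power in
`M ⊗ ℚ_q`. -/
theorem exists_local_root (q : Nat.Primes) (hpq : p ≠ (q : ℕ)) {ζ : K} (hζ : IsPrimitiveRoot ζ p)
    (d b : Kˣ)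
    (hdU : ∀ v : PrimeOver (q : ℕ) (𝓞 K), diagP K d ⟨q, v⟩ ∈ Up K ⟨q, v⟩)
    (hbU : ∀ v : PrimeOver (q : ℕ) (𝓞 K), diagP K b ⟨q, v⟩ ∈ Up K ⟨q, v⟩)
    (h : ∀ v : PrimeOver (q : ℕ) (𝓞 K),
      diagP K d ⟨q, v⟩ ∈ (Up K ⟨q, v⟩).map (powMonoidHom p : Gp K ⟨q, v⟩ →* Gp K ⟨q, v⟩) →
      diagP K b ⟨q, v⟩ ∈ (Up K ⟨q, v⟩).map (powMonoidHom p : Gp K ⟨q, v⟩ →* Gp K ⟨q, v⟩))
    {δ : M} (hδ : δ ^ p = algebraMap K M (d : K)) :
    ∃ γ : (Loc M q)ˣ, (γ : Loc M q) ^ p = inclL M q (algebraMap K M (b : K)) := by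
  classical
  -- the relation at each place
  have hloc : ∀ v : PrimeOver (q : ℕ) (𝓞 K), ∃ (j : ℕ) (c : Kv v),
      kToKv v (b : K) = kToKv v (d : K) ^ j * c ^ p := by
    intro v
    by_cases hd : diagP K d ⟨q, v⟩ ∈
        (Up K ⟨q, v⟩).map (powMonoidHom p : Gp K ⟨q, v⟩ →* Gp K ⟨q, v⟩)
    · obtain ⟨c, -, hc⟩ := h v hd
      refine ⟨0, (c : Kv v), ?_⟩
      have := congrArg (fun u : (Kv v)ˣ => (u : Kv v)) hc
      simp only [powMonoidHom_apply, Units.val_pow_eq_pow_val] at this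
      rw [pow_zero, one_mul, this]
      rfl
    · obtain ⟨j, -, ⟨c, -, hc⟩⟩ := exists_pow_mul_mem_map v hpq hζ (hdU v) (hbU v) hd
      refine ⟨j, (c : Kv v), ?_⟩
      have := congrArg (fun u : (Kv v)ˣ => (u : Kv v)) hc
      simp only [powMonoidHom_apply, Units.val_pow_eq_pow_val, Units.val_mul,
        Units.val_inv_eq_inv_val] at this
      have hd0 : ((diagP K d ⟨q, v⟩ : (Kv v)ˣ) : Kv v) ≠ 0 := Units.ne_zero _
      have hbv : ((diagP K b ⟨q, v⟩ : (Kv v)ˣ) : Kv v) = kToKv v (b : K) := rfl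
      have hdv : ((diagP K d ⟨q, v⟩ : (Kv v)ˣ) : Kv v) = kToKv v (d : K) := rfl
      rw [hbv, hdv] at this
      rw [this]
      have hd0' : kToKv v (d : K) ^ j ≠ 0 := pow_ne_zero _ (hdv ▸ hd0)
      field_simp
  choose j c hjc using hloc
  -- glue the local roots
  obtain ⟨c₀, hc₀⟩ : ∃ c₀ : Loc K q, ∀ v, toKv v c₀ = c v :=
    ⟨(locEquiv (K := K) (q := q)).symm c, fun v => by
      rw [← locEquiv_apply, RingEquiv.apply_symm_apply]⟩
  set y : Loc K q := ∑ v, idemV v * inclL K q ((d : K) ^ j v) with hy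
  have hrel : inclL K q (b : K) = y * c₀ ^ p := by
    apply ext_toKv
    intro w
    rw [map_mul, map_pow, hc₀, hy, map_sum, Finset.sum_eq_single w]
    · rw [map_mul, toKv_idemV_same, one_mul, map_pow]
      exact hjc w
    · intro v _ hv
      rw [map_mul, toKv_idemV_of_ne (Ne.symm hv), zero_mul]
    · intro hw
      exact absurd (Finset.mem_univ w) hw
  set φ : Loc K q →ₐ[ℚ] Loc M q := Loc.map q (inclHom K M) with hφ
  set γ₀ : Loc M q := (∑ v, φ (idemV v) * inclL M q (δ ^ j v)) * φ c₀ with hγ₀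
  have hγp : γ₀ ^ p = inclL M q (algebraMap K M (b : K)) := by
    rw [hγ₀, mul_pow, sum_idem_mul_pow (fun v => φ (idemV v)) (fun v => inclL M q (δ ^ j v))
      (fun v w hvw => by rw [← map_mul, idemV_mul_of_ne hvw, map_zero])
      (fun v => by rw [← map_mul, idemV_mul_self]) hp.out.ne_zero]
    have h1 : ∀ v, φ (idemV v) * inclL M q (δ ^ j v) ^ p
        = φ (idemV v * inclL K q ((d : K) ^ j v)) := by
      intro v
      rw [map_mul, ← map_pow, ← pow_mul, mul_comm (j v) p, pow_mul, hδ, ← map_pow, hφ,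
        Loc.map_inclL, inclHom_apply]
    rw [Finset.sum_congr rfl fun v _ => h1 v, ← map_sum, ← map_pow, ← map_mul, ← hy, ← hrel, hφ,
      Loc.map_inclL, inclHom_apply]
  have hunit : IsUnit γ₀ := by
    have hb0 : IsUnit (inclL M q (algebraMap K M (b : K))) := by
      apply IsUnit.map
      apply IsUnit.map
      exact b.isUnit
    rw [← hγp] at hb0
    exact (isUnit_pow_iff hp.out.ne_zero).mp hb0
  exact ⟨hunit.unit, by rw [IsUnit.unit_spec, hγp]⟩

end Local

section Main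

open Polynomial Fermat.Agent.CFT.C5.PowerLocalGlobal Module

variable {K : Type} [Field K] [NumberField K] (P : Nat.Primes) (S₀ : Finset Nat.Primes)

/-- **Hypothesis (H) of the "no Frobenius" `T`-selection.**  `K ∋ μ_p`, `p` odd, `S₀ ∋ p`, `d` an
`S`-unit which is not a `p`-th power.  An `S`-unit `b` which is a `p`-th power of a unit at every
place outside `S` where `d` is one, lies in `⟨d⟩ · Kˣ ^ p`. -/
theorem hypH (hP2 : (P : ℕ) ≠ 2) {ζ : K} (hζ : IsPrimitiveRoot ζ (P : ℕ)) (hPS : P ∈ S₀)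
    (d : Kˣ) (hdS : d ∈ SUnits K S₀) (hd : ¬ ∃ z : Kˣ, z ^ (P : ℕ) = d)
    (b : Kˣ) (hbS : b ∈ SUnits K S₀)
    (h : ∀ i : Place K, i ∉ placesOver K S₀ →
      diagP K d i ∈ (Up K i).map (powMonoidHom (P : ℕ) : Gp K i →* Gp K i) →
      diagP K b i ∈ (Up K i).map (powMonoidHom (P : ℕ) : Gp K i →* Gp K i)) :
    ∃ (j : ℕ) (c : Kˣ), b = d ^ j * c ^ (P : ℕ) := by
  haveI : NeZero (P : ℕ) := ⟨P.2.ne_zero⟩
  have hdK : ∀ z : K, z ^ (P : ℕ) ≠ (d : K) := by
    intro z hz
    have hz0 : z ≠ 0 := by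
      rintro rfl
      rw [zero_pow P.2.ne_zero] at hz
      exact d.ne_zero hz.symm
    exact hd ⟨Units.mk0 z hz0, Units.ext hz⟩
  have hirr : Irreducible (X ^ (P : ℕ) - C (d : K)) := X_pow_sub_C_irreducible_of_prime P.2 hdK
  haveI : Fact (Irreducible (X ^ (P : ℕ) - C (d : K))) := ⟨hirr⟩
  have hζ' : (primitiveRoots (P : ℕ) K).Nonempty := ⟨ζ, (mem_primitiveRoots P.2.pos).mpr hζ⟩
  haveI : NumberField (RootField (d : K) (P : ℕ)) :=
    NumberField.of_module_finite K (RootField (d : K) (P : ℕ))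
  haveI hsf : IsSplittingField K (RootField (d : K) (P : ℕ)) (X ^ (P : ℕ) - C (d : K)) :=
    isSplittingField_AdjoinRoot_X_pow_sub_C hζ' hirr
  haveI : IsGalois K (RootField (d : K) (P : ℕ)) :=
    isGalois_of_isSplittingField_X_pow_sub_C hζ' hirr _
  let e : Gal(RootField (d : K) (P : ℕ)/K) ≃* Multiplicative (ZMod (P : ℕ)) :=
    autEquivZmod hirr (RootField (d : K) (P : ℕ)) hζ
  set g : RootField (d : K) (P : ℕ) ≃ₐ[K] RootField (d : K) (P : ℕ) :=
    e.symm (Multiplicative.ofAdd (1 : ZMod (P : ℕ))) with hgdef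
  have hδ := rootOf_pow (d : K) (P : ℕ)
  have hg : g (rootOf (d : K) (P : ℕ)) =
      algebraMap K (RootField (d : K) (P : ℕ)) ζ * rootOf (d : K) (P : ℕ) := by
    have := autEquivZmod_symm_apply_natCast hirr (RootField (d : K) (P : ℕ)) hδ hζ 1
    rw [Nat.cast_one, pow_one, Algebra.smul_def] at this
    exact this
  have hgen : ∀ τ : RootField (d : K) (P : ℕ) ≃ₐ[K] RootField (d : K) (P : ℕ),
      τ ∈ Subgroup.zpowers g := by
    intro τ
    have h1 : e τ ∈ Subgroup.zpowers (Multiplicative.ofAdd (1 : ZMod (P : ℕ))) := by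
      rw [Subgroup.mem_zpowers_iff]
      refine ⟨((Multiplicative.toAdd (e τ)).val : ℤ), ?_⟩
      apply Multiplicative.toAdd.injective
      rw [toAdd_zpow, toAdd_ofAdd, zsmul_eq_mul, mul_one, Int.cast_natCast, ZMod.natCast_zmod_val]
    obtain ⟨k, hk⟩ := Subgroup.mem_zpowers_iff.mp h1
    rw [Subgroup.mem_zpowers_iff]
    refine ⟨k, ?_⟩
    apply e.injective
    rw [map_zpow, hgdef, MulEquiv.apply_symm_apply, hk]
  have hδ0 : rootOf (d : K) (P : ℕ) ≠ 0 := by
    intro h0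
    rw [h0, zero_pow P.2.ne_zero] at hδ
    exact d.ne_zero ((algebraMap K (RootField (d : K) (P : ℕ))).injective
      (by rw [map_zero]; exact hδ.symm))
  -- the local roots
  have hSd := (mem_SUnits_iff S₀ d).mp hdS
  have hSb := (mem_SUnits_iff S₀ b).mp hbS
  have hloc : ∀ q : Nat.Primes, q ∉ S₀ → ∃ γ : (Loc (RootField (d : K) (P : ℕ)) q)ˣ,
      (γ : Loc (RootField (d : K) (P : ℕ)) q) ^ (P : ℕ) =
        inclL (RootField (d : K) (P : ℕ)) q (algebraMap K (RootField (d : K) (P : ℕ)) (b : K)) := by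
    intro q hq
    have hpq : (P : ℕ) ≠ (q : ℕ) := by
      intro hPq
      apply hq
      have : P = q := Subtype.ext hPq
      rwa [← this]
    have hnot : ∀ v : PrimeOver (q : ℕ) (𝓞 K), (⟨q, v⟩ : Place K) ∉ placesOver K S₀ := by
      intro v hv
      exact hq (mem_placesOver.mp hv)
    exact exists_local_root q hpq hζ d b (fun v => hSd ⟨q, v⟩ (hnot v))
      (fun v => hSb ⟨q, v⟩ (hnot v)) (fun v => h ⟨q, v⟩ (hnot v)) hδ
  -- the local-global principle over `M`
  have hodd : Odd (P : ℕ) := P.2.odd_of_ne_two hP2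
  have hζM : IsPrimitiveRoot (algebraMap K (RootField (d : K) (P : ℕ)) ζ) (P : ℕ) :=
    hζ.map_of_injective (algebraMap K (RootField (d : K) (P : ℕ))).injective
  obtain ⟨c', hc'⟩ := exists_pow_eq_of_forall_local hodd hζM S₀
    (algebraMap K (RootField (d : K) (P : ℕ)) (b : K)) hloc
  have hc0 : c' ≠ 0 := by
    rintro rfl
    rw [zero_pow P.2.ne_zero] at hc'
    exact b.ne_zero ((algebraMap K (RootField (d : K) (P : ℕ))).injective
      (by rw [map_zero]; exact hc'.symm))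
  -- Kummer descent
  obtain ⟨j, c, hc⟩ := exists_algebraMap_eq_mul_inv_pow P.2.pos hζ g hgen hδ0 hg hc' hc0
  have hrel : (b : K) = (d : K) ^ j * c ^ (P : ℕ) := by
    apply (algebraMap K (RootField (d : K) (P : ℕ))).injective
    rw [map_mul, map_pow, map_pow, hc, mul_pow, hc', ← hδ, inv_pow, ← pow_mul, ← pow_mul,
      mul_comm (P : ℕ) j]
    have : (rootOf (d : K) (P : ℕ)) ^ (j * (P : ℕ)) ≠ 0 := pow_ne_zero _ hδ0
    field_simp
  have hcK0 : c ≠ 0 := by
    rintro rfl
    rw [zero_pow P.2.ne_zero, mul_zero] at hrel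
    exact b.ne_zero hrel
  exact ⟨j, Units.mk0 c hcK0, Units.ext (by simpa using hrel)⟩

/-- **The auxiliary places `T` of the second inequality, unconditionally**: the conclusion of
`TData.exists_finset_places` with hypothesis (H) discharged by `hypH`. -/
theorem exists_finset_places (hP2 : (P : ℕ) ≠ 2) {ζ : K} (hζ : IsPrimitiveRoot ζ (P : ℕ))
    (hPS : P ∈ S₀) (d : Kˣ) (hdS : d ∈ SUnits K S₀) (hd : ¬ ∃ z : Kˣ, z ^ (P : ℕ) = d) :
    ∃ T : Finset (Place K), Disjoint (placesOver K S₀) T ∧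
      T.card + 1 = Fintype.card (InfinitePlace K) + (placesOver K S₀).card ∧
      (∀ i ∈ T, diagP K d i ∈ (Up K i).map (powMonoidHom (P : ℕ) : Gp K i →* Gp K i)) ∧
      ∀ u : ∀ i : Place K, Gp K i, (∀ i ∈ T, u i ∈ Up K i) →
        ∃ a : Kˣ, diagP K a ∈ ideleS (Up K) (placesOver K S₀) ∧
          ∀ i ∈ T, (diagP K a i)⁻¹ * u i ∈
            (Up K i).map (powMonoidHom (P : ℕ) : Gp K i →* Gp K i) :=
  TData.exists_finset_places hζ hPS d hdS hd
    (fun b hbS hb => hypH P S₀ hP2 hζ hPS d hdS hd b hbS hb)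

end Main

end Fermat.Agent.CFT.C5.HypH
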