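import Mathlib

/-!
# Kummer generators of cyclic extensions of prime degree (Project C, Layer C, C5 glue)

`M/K` Galois of prime degree `p`, `K ∋ ζ_p`: there is `d ∈ Kˣ`, not a `p`-th power in `K`, with a
`p`-th root `δ ∈ M` (so `M = K(d^{1/p})`).  From Mathlib's `exists_root_adjoin_eq_top_of_isCyclic`.
-/

set_option autoImplicit false

namespace Fermat.Agent.CFT.C5.KummerGen

open Module IntermediateField

variable {K M : Type*} [Field K] [Field M] [Algebra K M] [IsGalois K M] {p : ℕ}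

omit [IsGalois K M] in
/-- an element of `M` whose `p`-th power is `1` lies in `K` when `K` contains a primitive `p`-th
root of unity -/
theorem mem_range_of_pow_eq_one (hp : 0 < p) {ζ : K} (hζ : IsPrimitiveRoot ζ p) {ξ : M}
    (hξ : ξ ^ p = 1) : ξ ∈ Set.range (algebraMap K M) := by
  have hζ' : IsPrimitiveRoot (algebraMap K M ζ) p :=
    hζ.map_of_injective (algebraMap K M).injective
  have : NeZero p := ⟨hp.ne'⟩
  obtain ⟨i, -, hi⟩ := hζ'.eq_pow_of_pow_eq_one hξ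
  exact ⟨ζ ^ i, by rw [map_pow, hi]⟩

/-- **Kummer generator**: `M/K` Galois of prime degree `p`, `ζ_p ∈ K`: `M ∋ δ` with
`δ^p = d ∈ Kˣ` and `d` not a `p`-th power in `K`; moreover `K⟮δ⟯ = ⊤`. -/
theorem exists_kummer_generator_adjoin (hp : p.Prime) (hdeg : finrank K M = p)
    (hζ : (primitiveRoots p K).Nonempty) :
    ∃ (d : Kˣ) (δ : M), (¬ ∃ z : Kˣ, z ^ p = d) ∧ δ ^ p = algebraMap K M (d : K) ∧ K⟮δ⟯ = ⊤ := by
  have hfd : FiniteDimensional K M := Module.finite_of_finrank_pos (hdeg ▸ hp.pos)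
  have hfact : Fact p.Prime := ⟨hp⟩
  have hcard : Nat.card (M ≃ₐ[K] M) = p := by rw [IsGalois.card_aut_eq_finrank, hdeg]
  have hcyc : IsCyclic (M ≃ₐ[K] M) := isCyclic_of_prime_card hcard
  have hK : (primitiveRoots (finrank K M) K).Nonempty := by rw [hdeg]; exact hζ
  obtain ⟨α, ⟨a, ha⟩, htop⟩ := exists_root_adjoin_eq_top_of_isCyclic K M hK
  rw [hdeg] at ha
  obtain ⟨ζ, hζ'⟩ := hζ
  rw [mem_primitiveRoots hp.pos] at hζ'
  -- `α ∉ K`
  have hα : α ∉ Set.range (algebraMap K M) := by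
    intro hmem
    have hbot : K⟮α⟯ = ⊥ := by
      rw [adjoin_simple_eq_bot_iff, IntermediateField.mem_bot]
      exact hmem
    have h1 : finrank K M = 1 := by
      rw [← bot_eq_top_iff_finrank_eq_one, ← hbot, htop]
    rw [hdeg] at h1
    exact hp.one_lt.ne' h1
  have ha0 : a ≠ 0 := by
    rintro rfl
    rw [map_zero] at ha
    have : α = 0 := pow_eq_zero_iff hp.ne_zero |>.mp ha.symm
    exact hα ⟨0, by rw [map_zero, this]⟩
  refine ⟨Units.mk0 a ha0, α, ?_, by rw [Units.val_mk0, ha], htop⟩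
  rintro ⟨z, hz⟩
  have hz' : (z : K) ^ p = a := by
    have := congrArg Units.val hz
    rwa [Units.val_pow_eq_pow_val, Units.val_mk0] at this
  have hzM : algebraMap K M (z : K) ≠ 0 := by
    rw [Ne, map_eq_zero]
    exact z.ne_zero
  have hξ : (α / algebraMap K M (z : K)) ^ p = 1 := by
    rw [div_pow, ← map_pow, hz', ha, div_self]
    rw [← ha, Ne, map_eq_zero]
    exact ha0
  obtain ⟨c, hc⟩ := mem_range_of_pow_eq_one hp.pos hζ' hξ
  refine hα ⟨c * z, ?_⟩
  rw [map_mul, hc, div_mul_cancel₀ _ hzM]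

/-- **Kummer generator** (helper29's shape): `∃ d : Kˣ`, not a `p`-th power, with a `p`-th root
in `M`. -/
theorem exists_kummer_generator (hp : p.Prime) (hdeg : finrank K M = p)
    (hζ : (primitiveRoots p K).Nonempty) :
    ∃ d : Kˣ, (¬ ∃ z : Kˣ, z ^ p = d) ∧ ∃ δ : M, δ ^ p = algebraMap K M (d : K) := by
  obtain ⟨d, δ, h1, h2, -⟩ := exists_kummer_generator_adjoin hp hdeg hζ
  exact ⟨d, h1, δ, h2⟩

/-- variant with `∃ ζ, IsPrimitiveRoot ζ p` -/
theorem exists_kummer_generator' (hp : p.Prime) (hdeg : finrank K M = p)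
    (hζ : ∃ ζ : K, IsPrimitiveRoot ζ p) :
    ∃ d : Kˣ, (¬ ∃ z : Kˣ, z ^ p = d) ∧ ∃ δ : M, δ ^ p = algebraMap K M (d : K) := by
  obtain ⟨ζ, h⟩ := hζ
  exact exists_kummer_generator hp hdeg ⟨ζ, (mem_primitiveRoots hp.pos).mpr h⟩

omit [IsGalois K M] in
/-- a `p`-th root `δ ∈ M` of a non-`p`-th power `d ∈ K` is not in `K` -/
theorem not_mem_range_of_pow_eq {d : Kˣ} (hd : ¬ ∃ z : Kˣ, z ^ p = d) (hp : p ≠ 0) {δ : M}
    (hδ : δ ^ p = algebraMap K M (d : K)) : δ ∉ Set.range (algebraMap K M) := by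
  rintro ⟨c, rfl⟩
  rw [← map_pow] at hδ
  have hc := (algebraMap K M).injective hδ
  have hc0 : c ≠ 0 := by
    rintro rfl
    rw [zero_pow hp] at hc
    exact d.ne_zero hc.symm
  exact hd ⟨Units.mk0 c hc0, Units.ext (by rw [Units.val_pow_eq_pow_val, Units.val_mk0, hc])⟩

end Fermat.Agent.CFT.C5.KummerGen
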