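import Mathlib
import Fermat.Agent.CFT.C5.TData
import Fermat.Agent.CFT.C5.KummerGen
import Fermat.Agent.CFT.C5.NormIdele
import Fermat.Agent.CFT.C5.PrimeDegree

/-!
# PROJECT C, slice C5: the second inequality over base fields containing `μ_p` — final assembly

`K ∋ μ_p` a number field (`p` an odd prime), `M/K` Galois of degree `p`. Then
`[J_K : Kˣ · N_{M/K} J_M] ∣ p`.

Inputs:
* `C5/SecondInequality` (the index computation `[J_K : Kˣ E] = p`),
* `C5/TData` (the auxiliary places `T`),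
* `C5/KummerGen` (helper18: `M = K(d^{1/p})`),
* (`W`) the norm criterion for Kummer extensions of degree `p` (helper20's
  `NormIdele.mem_range_normJ_of_forall_place`), in the generator-free form `NormCriterion`
  (proved here: `normCriterion`),
* (`H`) helper2's `HypH`, in the form `HypH`.
-/

set_option autoImplicit false
set_option linter.unusedSectionVars false

open scoped TensorProduct NumberField Fermat.Agent.CFT.Idele

open Fermat.Agent.CFT.Idele Fermat.Agent.CFT.Dict Fermat.Agent.CFT.Local.Model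
  Fermat.Agent.CFT.C5.LocalFields Fermat.Agent.CFT.C5.IndexAbstract
  Fermat.Agent.CFT.C5.IdeleProduct IsDedekindDomain NumberField
  Fermat.Agent.CFT.C5.SecondInequality Fermat.Agent.CFT.C5.TData
  Fermat.Agent.CFT.C6.IdeleNorm

noncomputable section

namespace Fermat.Agent.CFT.C5.SecondInequalityMu

variable (K : Type) [Field K] [NumberField K] (P : Nat.Primes)

/-- **(W) the norm criterion for Kummer extensions of degree `p`**: for `M' = K(y^{1/p})` of
degree `p`, an idele `x` of `K` is a norm from `M'` as soon as at every place `v`: `y` is a `p`-th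
power in `K_v`, or `x_v` is a `p`-th power, or `v ∤ p` and both `y` and `x_v` are units. -/
def NormCriterion : Prop :=
  ∀ (M' : Type) [Field M'] [NumberField M'] [Algebra K M'] [IsGalois K M'],
    Module.finrank K M' = (P : ℕ) → ∀ y : Kˣ, (¬ ∃ z : Kˣ, z ^ (P : ℕ) = y) →
    (∃ α : M', α ^ (P : ℕ) = algebraMap K M' (y : K)) → ∀ x : J K,
    (∀ i : Place K,
      diagP K y i ∈ (powMonoidHom (P : ℕ) : Gp K i →* Gp K i).range ∨
      jToProd K x i ∈ (powMonoidHom (P : ℕ) : Gp K i →* Gp K i).range ∨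
      ((P : ℕ) ≠ (i.1 : ℕ) ∧ diagP K y i ∈ Up K i ∧ jToProd K x i ∈ Up K i)) →
    x ∈ (normJ K M').range

/-- **(H)** for the `S₀`-units `b`, `d`, with `d` not a `p`-th power: if `b` is a `p`-th power of
a unit at every place outside `S₀` at which `d` is one, then `b ∈ ⟨d⟩ · Kˣ ^ p`. -/
def HypH (S₀ : Finset Nat.Primes) (d : Kˣ) : Prop :=
  ∀ b : Kˣ, b ∈ SUnits K S₀ →
    (∀ i : Place K, i ∉ placesOver K S₀ →
      diagP K d i ∈ (Up K i).map (powMonoidHom (P : ℕ) : Gp K i →* Gp K i) →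
      diagP K b i ∈ (Up K i).map (powMonoidHom (P : ℕ) : Gp K i →* Gp K i)) →
    ∃ (j : ℕ) (c : Kˣ), b = d ^ j * c ^ (P : ℕ)

variable {K P}

open Module in
/-- **the Kummer generator of the Galois group**: `M/K` Galois of prime degree `p`, `ζ_p ∈ K`,
`α ∈ M` with `α^p = y ∈ K` not a `p`-th power: a generator `g` of `Gal(M/K)` and a primitive
`p`-th root of unity `ζ'` with `g α = ζ' α`. -/
theorem exists_generator {K M : Type*} [Field K] [Field M] [Algebra K M] [IsGalois K M]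
    {p : ℕ} (hp : p.Prime) (hdeg : finrank K M = p) {ζ : K} (hζ : IsPrimitiveRoot ζ p)
    {y : Kˣ} (hy : ¬ ∃ z : Kˣ, z ^ p = y) {α : M} (hα : α ^ p = algebraMap K M (y : K)) :
    ∃ (ζ' : K) (g : M ≃ₐ[K] M), IsPrimitiveRoot ζ' p ∧ g α = algebraMap K M ζ' * α ∧
      (∀ τ : M ≃ₐ[K] M, τ ∈ Subgroup.zpowers g) ∧ orderOf g = p := by
  have hfd : FiniteDimensional K M := Module.finite_of_finrank_pos (hdeg ▸ hp.pos)
  have hfact : Fact p.Prime := ⟨hp⟩
  have hcard : Nat.card (M ≃ₐ[K] M) = p := by rw [IsGalois.card_aut_eq_finrank, hdeg]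
  have hαK : α ∉ Set.range (algebraMap K M) :=
    KummerGen.not_mem_range_of_pow_eq hy hp.ne_zero hα
  have hα0 : α ≠ 0 := by
    rintro rfl
    rw [zero_pow hp.ne_zero] at hα
    exact y.ne_zero ((algebraMap K M).injective (by rw [map_zero]; exact hα.symm))
  -- some `σ` moves `α`
  obtain ⟨σ, hσ⟩ : ∃ σ : M ≃ₐ[K] M, σ α ≠ α := by
    by_contra hcon
    push Not at hcon
    exact hαK ((IsGalois.mem_range_algebraMap_iff_fixed α).mpr hcon)
  have hσ1 : σ ≠ 1 := by
    rintro rfl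
    exact hσ rfl
  -- `σ α / α` is a `p`-th root of unity
  have hξ : (σ α / α) ^ p = 1 := by
    rw [div_pow, ← map_pow, hα, AlgEquiv.commutes, div_self]
    rw [← hα]
    exact pow_ne_zero _ hα0
  obtain ⟨ζ', hζ'⟩ := KummerGen.mem_range_of_pow_eq_one hp.pos hζ hξ
  have hζ'p : ζ' ^ p = 1 := by
    apply (algebraMap K M).injective
    rw [map_pow, hζ', hξ, map_one]
  have hζ'1 : ζ' ≠ 1 := by
    rintro rfl
    rw [map_one] at hζ'
    exact hσ ((div_eq_one_iff_eq hα0).mp hζ'.symm)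
  refine ⟨ζ', σ, IsPrimitiveRoot.iff_orderOf.mpr (orderOf_eq_prime hζ'p hζ'1), ?_, ?_, ?_⟩
  · rw [hζ', div_mul_cancel₀ _ hα0]
  · intro τ
    rw [zpowers_eq_top_of_prime_card hcard hσ1]
    exact Subgroup.mem_top τ
  · refine orderOf_eq_prime ?_ hσ1
    rw [← hcard]
    exact pow_card_eq_one'

/-- **(W)**: the norm criterion, from helper20's `NormIdele.mem_range_normJ_of_forall_place`. -/
theorem normCriterion (K : Type) [Field K] [NumberField K] (P : Nat.Primes) {ζ : K}
    (hζ : IsPrimitiveRoot ζ (P : ℕ)) : NormCriterion K P := by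
  intro M' _ _ _ _ hdeg y hy hα x h
  obtain ⟨α, hα⟩ := hα
  obtain ⟨ζ', g, hζ', hg, hgen, hord⟩ := exists_generator P.2 hdeg hζ hy hα
  refine NormIdele.mem_range_normJ_of_forall_place P.2 hζ' hα hg hgen hord x fun q v => ?_
  have h1 := h ⟨q, v⟩
  rw [diagP_apply] at h1
  exact h1

/-- a global unit is an `S₀`-unit for a suitable finite `S₀` (containing any given finite set) -/
theorem exists_finset_mem_SUnits (d : Kˣ) (S₁ : Finset Nat.Primes) :
    ∃ S₀ : Finset Nat.Primes, S₁ ⊆ S₀ ∧ d ∈ SUnits K S₀ := by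
  classical
  have hfin : {q : Nat.Primes |
      ((diag K d : J K) : ∀ q : Nat.Primes, (Loc K q)ˣ) q ∉ intUnits K q}.Finite := (diag K d).2
  refine ⟨S₁ ∪ hfin.toFinset, Finset.subset_union_left, ?_⟩
  rw [mem_SUnits_iff, ← jToProd_diag, jToProd_mem_ideleS_iff, mem_JTsub]
  intro q hq
  by_contra hcon
  apply hq
  rw [Finset.mem_coe, Finset.mem_union]
  exact Or.inr ((Set.Finite.mem_toFinset hfin).mpr hcon)

/-- **The second inequality for `K ∋ μ_p`**, from (W) and (H). -/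
theorem index_sup_range_normJ_dvd (hP2 : (P : ℕ) ≠ 2) {ζ : K} (hζ : IsPrimitiveRoot ζ (P : ℕ))
    (hW : NormCriterion K P)
    (M : Type) [Field M] [NumberField M] [Algebra K M] [IsGalois K M]
    (hdeg : Module.finrank K M = (P : ℕ))
    (hH : ∀ (S₀ : Finset Nat.Primes) (d : Kˣ), P ∈ S₀ → d ∈ SUnits K S₀ →
      (¬ ∃ z : Kˣ, z ^ (P : ℕ) = d) → (∃ δ : M, δ ^ (P : ℕ) = algebraMap K M (d : K)) →
      HypH K P S₀ d) :
    ((diag K).range ⊔ (normJ K M).range).index ∣ (P : ℕ) := by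
  have hprim : (primitiveRoots (P : ℕ) K).Nonempty :=
    ⟨ζ, (mem_primitiveRoots P.2.pos).mpr hζ⟩
  -- Kummer theory: `M = K(d^{1/p})`
  obtain ⟨d, hd, hδ⟩ := KummerGen.exists_kummer_generator P.2 hdeg hprim
  -- the finite set `S₀`
  obtain ⟨T₀, hT₀⟩ := exists_finset_sup_eq_top (L := K)
  obtain ⟨S₀, hS₁, hdS⟩ := exists_finset_mem_SUnits d (T₀ ∪ {P})
  have hPS : P ∈ S₀ := hS₁ (Finset.mem_union_right _ (Finset.mem_singleton_self P))
  have hCG : (diag K).range ⊔ JTsub K (S₀ : Set Nat.Primes) = ⊤ :=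
    hT₀ _ (fun q hq => Finset.mem_coe.mpr (hS₁ (Finset.mem_union_left _ (Finset.mem_coe.mp hq))))
  -- the auxiliary places
  obtain ⟨T, hST, hcard, hdT, hTC⟩ :=
    exists_finset_places hζ hPS d hdS hd (hH S₀ d hPS hdS hd hδ)
  have hdU : ∀ i : Place K, i ∉ placesOver K S₀ → diagP K d i ∈ Up K i :=
    (mem_SUnits_iff S₀ d).mp hdS
  refine index_sup_dvd_of_data P S₀ T hP2 hζ hPS hCG hST hcard hTC ?_ (normJ K M).range ?_
  · -- `D ≤ N J_{M'}` for `M' = K(y^{1/p})`, `y ∈ K ∩ E`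
    intro y hyE hy M' _ _ _ _ hdeg' hα x hx
    refine Subgroup.mem_sup_right (hW M' hdeg' y hy hα x fun i => ?_)
    by_cases hiS : i ∈ placesOver K S₀
    · exact Or.inl (hyE.1 i hiS)
    · by_cases hiT : i ∈ T
      · obtain ⟨w, -, hw⟩ := hx.1 i hiT
        exact Or.inr (Or.inl ⟨w, hw⟩)
      · have hiST : i ∉ placesOver K S₀ ∪ T := by
          rw [Finset.mem_union]
          exact fun h => h.elim hiS hiT
        refine Or.inr (Or.inr ⟨?_, hyE.2 i hiST, hx.2 i hiST⟩)
        intro hPi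
        apply hiS
        rw [mem_placesOver]
        have : P = i.1 := Subtype.ext hPi
        rwa [← this]
  · -- `E ≤ N J_M`
    intro x hx
    refine hW M hdeg d hd hδ x fun i => ?_
    by_cases hiS : i ∈ placesOver K S₀
    · exact Or.inr (Or.inl (hx.1 i hiS))
    · by_cases hiT : i ∈ T
      · obtain ⟨w, -, hw⟩ := hdT i hiT
        exact Or.inl ⟨w, hw⟩
      · have hiST : i ∉ placesOver K S₀ ∪ T := by
          rw [Finset.mem_union]
          exact fun h => h.elim hiS hiT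
        refine Or.inr (Or.inr ⟨?_, hdU i hiS, hx.2 i hiST⟩)
        intro hPi
        apply hiS
        rw [mem_placesOver]
        have : P = i.1 := Subtype.ext hPi
        rwa [← this]

/-- **The second inequality for `K ∋ μ_p`**, from (H) alone. -/
theorem index_sup_range_normJ_dvd_of_hypH (hP2 : (P : ℕ) ≠ 2) {ζ : K}
    (hζ : IsPrimitiveRoot ζ (P : ℕ))
    (M : Type) [Field M] [NumberField M] [Algebra K M] [IsGalois K M]
    (hdeg : Module.finrank K M = (P : ℕ))
    (hH : ∀ (S₀ : Finset Nat.Primes) (d : Kˣ), P ∈ S₀ → d ∈ SUnits K S₀ →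
      (¬ ∃ z : Kˣ, z ^ (P : ℕ) = d) → (∃ δ : M, δ ^ (P : ℕ) = algebraMap K M (d : K)) →
      HypH K P S₀ d) :
    ((diag K).range ⊔ (normJ K M).range).index ∣ (P : ℕ) :=
  index_sup_range_normJ_dvd hP2 hζ (normCriterion K P hζ) M hdeg hH

/-- **(H) for all Kummer extensions of degree `p`** (helper2's `C5/HypH`), as a proposition. -/
def HypHAll (P : Nat.Primes) : Prop :=
  ∀ (K M : Type) [Field K] [Field M] [NumberField K] [NumberField M] [Algebra K M]
    [IsGalois K M], (∃ ζ : K, IsPrimitiveRoot ζ (P : ℕ)) → Module.finrank K M = (P : ℕ) →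
    ∀ (S₀ : Finset Nat.Primes) (d : Kˣ), P ∈ S₀ → d ∈ SUnits K S₀ →
      (¬ ∃ z : Kˣ, z ^ (P : ℕ) = d) → (∃ δ : M, δ ^ (P : ℕ) = algebraMap K M (d : K)) →
      HypH K P S₀ d

/-- **C5 core**: helper18's `PrimeDegree.SecondInequalityMu p` from (H). -/
theorem secondInequalityMu_of_hypHAll (hP2 : (P : ℕ) ≠ 2) (hH : HypHAll P) :
    PrimeDegree.SecondInequalityMu (P : ℕ) := by
  intro K M _ _ _ _ _ _ hζ hdeg
  obtain ⟨ζ, hζ⟩ := hζ
  exact Nat.le_of_dvd P.2.pos
    (index_sup_range_normJ_dvd_of_hypH hP2 hζ M hdeg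
      (fun S₀ d hPS hdS hd hδ => hH K M ⟨ζ, hζ⟩ hdeg S₀ d hPS hdS hd hδ))

end Fermat.Agent.CFT.C5.SecondInequalityMu
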