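import Mathlib
import Fermat.Agent.CFT.C5.SecondInequalityMu
import Fermat.Agent.CFT.C5.PowerLocalGlobal

/-!
# PROJECT C, slice C5: hypothesis (H) of the `T`-selection

`K ∋ μ_p` a number field (`p` odd), `M = K(δ)`, `δ^p = d ∉ K^p`, `b, d` units outside `S₀ ∋ p`.
If `b` is a `p`-th power of a unit at all places `v ∉ S₀` at which `d` is one, then
`b ∈ ⟨d⟩ · Kˣ ^ p`:

* locally `b = d^{j_v} c_v^p` at every `v ∉ S₀` (`U_v / U_v^p` is cyclic of order `p`);
* gluing along the idempotents of `K ⊗ ℚ_q`: `b` is a `p`-th power in `(M ⊗ ℚ_q)ˣ` for `q ∉ S₀`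
  (`exists_loc_pow_eq`);
* local-global principle for `p`-th powers over `M` (helper2's `PowerLocalGlobal`);
* Kummer descent `K ∩ M^p = ⟨d⟩ K^p` (`exists_pow_mul_of_pow_eq`).
-/

set_option autoImplicit false
set_option linter.unusedSectionVars false

open scoped TensorProduct NumberField Fermat.Agent.CFT.Idele

open Fermat.Agent.CFT.Idele Fermat.Agent.CFT.Dict Fermat.Agent.CFT.Local.Model
  Fermat.Agent.CFT.C5.LocalFields Fermat.Agent.CFT.C5.IndexAbstract
  Fermat.Agent.CFT.C5.IdeleProduct IsDedekindDomain NumberField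
  Fermat.Agent.CFT.C5.SecondInequality Fermat.Agent.CFT.C5.TData
  Fermat.Agent.CFT.C5.SecondInequalityMu Fermat.Agent.CFT.C5.NormIdele

noncomputable section

namespace Fermat.Agent.CFT.C5.HypHGlue

/-! ### (G1) powers of sums along complete orthogonal idempotents -/

theorem pow_sum_idem {R ι : Type*} [CommRing R] [Fintype ι] [DecidableEq ι] (E : ι → R)
    (hE : ∀ v, E v * E v = E v) (hEo : ∀ v w, v ≠ w → E v * E w = 0) (hsum : ∑ v, E v = 1)
    (x : ι → R) (n : ℕ) : (∑ v, E v * x v) ^ n = ∑ v, E v * x v ^ n := by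
  induction n with
  | zero => simp only [pow_zero, mul_one, hsum]
  | succ n ih =>
    rw [pow_succ, ih, Finset.sum_mul_sum]
    refine Finset.sum_congr rfl fun v _ => ?_
    rw [Finset.sum_eq_single v]
    · rw [pow_succ]
      calc E v * x v ^ n * (E v * x v) = (E v * E v) * (x v ^ n * x v) := by ring
        _ = E v * (x v ^ n * x v) := by rw [hE]
    · intro w _ hw
      calc E v * x v ^ n * (E w * x w) = (E v * E w) * (x v ^ n * x w) := by ring
        _ = 0 := by rw [hEo v w (Ne.symm hw), zero_mul]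
    · intro h
      exact absurd (Finset.mem_univ v) h

/-! ### (G2) gluing local `p`-th power decompositions -/

section Glue

variable {K L : Type} [Field K] [NumberField K] [Field L] [NumberField L] [Algebra K L]

theorem sum_idemV (q : Nat.Primes) : ∑ v : PrimeOver (q : ℕ) (𝓞 K), idemV v = 1 := by
  classical
  apply ext_toKv
  intro w
  rw [map_sum, map_one, Finset.sum_eq_single w]
  · exact toKv_idemV_same w
  · intro v _ hv
    exact toKv_idemV_of_ne (Ne.symm hv)
  · intro h
    exact absurd (Finset.mem_univ w) h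

theorem idemV_mul_of_ne {q : Nat.Primes} {v w : PrimeOver (q : ℕ) (𝓞 K)} (h : v ≠ w) :
    idemV v * idemV w = 0 := by
  classical
  apply ext_toKv
  intro u
  rw [map_mul, map_zero]
  by_cases hu : u = v
  · subst hu
    rw [toKv_idemV_of_ne h, mul_zero]
  · rw [toKv_idemV_of_ne hu, zero_mul]

/-- **gluing**: if `b = d^{j_v} c_v^p` in `K_v` for every `v ∣ q`, and `δ^p = d` in `L ⊇ K`, then
`b` is a `p`-th power in `(L ⊗ ℚ_q)ˣ` -/
theorem exists_loc_pow_eq (q : Nat.Primes) {p : ℕ} (hp : p ≠ 0) (b d : Kˣ) (δ : L)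
    (hδ : δ ^ p = algebraMap K L (d : K))
    (h : ∀ v : PrimeOver (q : ℕ) (𝓞 K), ∃ (j : ℕ) (c : (Kv v)ˣ),
      piV v (Units.map (inclL K q : K →* Loc K q) b) =
        piV v (Units.map (inclL K q : K →* Loc K q) d) ^ j * c ^ p) :
    ∃ γ : (Loc L q)ˣ,
      γ ^ p = Units.map (inclL L q : L →* Loc L q) (Units.map (algebraMap K L : K →* L) b) := by
  classical
  choose j c hjc using h
  obtain ⟨ct, hct⟩ := exists_forall_piV_eq c
  let φ : Loc K q →+* Loc L q := (Loc.map q (inclHom K L) : Loc K q →ₐ[ℚ] Loc L q)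
  have hφincl : ∀ a : K, φ (inclL K q a) = inclL L q (algebraMap K L a) := fun a => rfl
  let γ₀ : Loc L q :=
    ∑ v : PrimeOver (q : ℕ) (𝓞 K), φ (idemV v) * (inclL L q δ ^ j v * φ (ct : Loc K q))
  have hγ₀ : γ₀ ^ p = inclL L q (algebraMap K L (b : K)) := by
    have h1 := pow_sum_idem (fun v : PrimeOver (q : ℕ) (𝓞 K) => φ (idemV v))
      (fun v => by rw [← map_mul, idemV_mul_self])
      (fun v w hvw => by rw [← map_mul, idemV_mul_of_ne hvw, map_zero])
      (by rw [← map_sum, sum_idemV, map_one])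
      (fun v => inclL L q δ ^ j v * φ (ct : Loc K q)) p
    show (∑ v : PrimeOver (q : ℕ) (𝓞 K),
      φ (idemV v) * (inclL L q δ ^ j v * φ (ct : Loc K q))) ^ p = _
    rw [h1]
    have h2 : ∀ v : PrimeOver (q : ℕ) (𝓞 K),
        φ (idemV v) * (inclL L q δ ^ j v * φ (ct : Loc K q)) ^ p =
          φ (idemV v * (inclL K q (d : K) ^ j v * (ct : Loc K q) ^ p)) := by
      intro v
      rw [mul_pow, ← pow_mul, mul_comm (j v) p, pow_mul, ← map_pow (inclL L q) δ p, hδ,
        ← hφincl, map_mul, map_mul, map_pow, map_pow]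
    rw [Finset.sum_congr rfl fun v _ => h2 v, ← map_sum, ← hφincl]
    congr 1
    apply ext_toKv
    intro w
    rw [map_sum, Finset.sum_eq_single w]
    · rw [map_mul, toKv_idemV_same, one_mul, map_mul, map_pow, map_pow]
      have h3 := congrArg (fun u : (Kv w)ˣ => (u : Kv w)) (hjc w)
      simp only [Units.val_mul, Units.val_pow_eq_pow_val] at h3
      rw [← hct w] at h3
      exact h3.symm
    · intro v _ hv
      rw [map_mul, toKv_idemV_of_ne (Ne.symm hv), zero_mul]
    · intro h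
      exact absurd (Finset.mem_univ w) h
  have hunit : IsUnit γ₀ := by
    rw [← isUnit_pow_iff hp, hγ₀]
    exact (Units.map (inclL L q : L →* Loc L q)
      (Units.map (algebraMap K L : K →* L) b)).isUnit
  refine ⟨hunit.unit, Units.ext ?_⟩
  rw [Units.val_pow_eq_pow_val, IsUnit.unit_spec, hγ₀]
  rfl

end Glue

/-! ### (G3) Kummer descent -/

open Module in
/-- **Kummer descent** `K ∩ M^p = ⟨d⟩ K^p` for `M = K(d^{1/p})` of prime degree `p`, `ζ_p ∈ K`. -/
theorem exists_pow_mul_of_pow_eq {K M : Type*} [Field K] [Field M] [Algebra K M] [IsGalois K M]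
    {p : ℕ} (hp : p.Prime) (hdeg : finrank K M = p) {ζ : K} (hζ : IsPrimitiveRoot ζ p)
    {d : Kˣ} (hd : ¬ ∃ z : Kˣ, z ^ p = d) {δ : M} (hδ : δ ^ p = algebraMap K M (d : K))
    (b : Kˣ) {β : M} (hβ : β ^ p = algebraMap K M (b : K)) :
    ∃ (j : ℕ) (c : Kˣ), b = d ^ j * c ^ p := by
  have hpne : NeZero p := ⟨hp.ne_zero⟩
  have hfd : FiniteDimensional K M := Module.finite_of_finrank_pos (hdeg ▸ hp.pos)
  obtain ⟨ζ', g, hζ', hg, hgen, -⟩ := exists_generator hp hdeg hζ hd hδ
  have hβ0 : β ≠ 0 := by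
    rintro rfl
    rw [zero_pow hp.ne_zero] at hβ
    exact b.ne_zero ((algebraMap K M).injective (by rw [map_zero]; exact hβ.symm))
  have hδ0 : δ ≠ 0 := by
    rintro rfl
    rw [zero_pow hp.ne_zero] at hδ
    exact d.ne_zero ((algebraMap K M).injective (by rw [map_zero]; exact hδ.symm))
  have hξ : (g β / β) ^ p = 1 := by
    rw [div_pow, ← map_pow, hβ, AlgEquiv.commutes, div_self]
    rw [← hβ]
    exact pow_ne_zero _ hβ0
  have hζ'M : IsPrimitiveRoot (algebraMap K M ζ') p :=
    hζ'.map_of_injective (algebraMap K M).injective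
  obtain ⟨i, -, hi⟩ := hζ'M.eq_pow_of_pow_eq_one hξ
  have hgβ : g β = algebraMap K M ζ' ^ i * β := by
    rw [hi, div_mul_cancel₀ _ hβ0]
  -- `c := β / δ^i` is fixed by `g`
  have hgc : g (β / δ ^ i) = β / δ ^ i := by
    rw [map_div₀, map_pow, hgβ, hg, mul_pow]
    have h0 : algebraMap K M ζ' ^ i ≠ 0 := pow_ne_zero _ (hζ'M.ne_zero hp.ne_zero)
    rw [mul_div_mul_left _ _ h0]
  have hfix : ∀ τ : M ≃ₐ[K] M, τ (β / δ ^ i) = β / δ ^ i := by
    intro τ
    have h1 : Subgroup.zpowers g ≤ MulAction.stabilizer (M ≃ₐ[K] M) (β / δ ^ i) := by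
      rw [Subgroup.zpowers_le]
      exact hgc
    exact h1 (hgen τ)
  obtain ⟨c₀, hc₀⟩ := (IsGalois.mem_range_algebraMap_iff_fixed (β / δ ^ i)).mpr hfix
  have hb : (b : K) = (d : K) ^ i * c₀ ^ p := by
    apply (algebraMap K M).injective
    rw [map_mul, map_pow, map_pow, hc₀, ← hδ, ← hβ, div_pow, ← pow_mul, ← pow_mul,
      mul_comm p i, mul_div_cancel₀]
    exact pow_ne_zero _ hδ0
  have hc₀0 : c₀ ≠ 0 := by
    rintro rfl
    rw [zero_pow hp.ne_zero, mul_zero] at hb
    exact b.ne_zero hb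
  exact ⟨i, Units.mk0 c₀ hc₀0, Units.ext hb⟩

/-! ### (G4) hypothesis (H) -/

/-- **(H)** for all Kummer extensions of odd prime degree. -/
theorem hypHAll (P : Nat.Primes) (hP2 : (P : ℕ) ≠ 2) : HypHAll P := by
  intro K M _ _ _ _ _ _ hζ hdeg S₀ d hPS hdS hd hδ b hbS hloc
  obtain ⟨ζ, hζ⟩ := hζ
  obtain ⟨δ, hδ⟩ := hδ
  have hdU := (mem_SUnits_iff S₀ d).mp hdS
  have hbU := (mem_SUnits_iff S₀ b).mp hbS
  have hodd : Odd (P : ℕ) := P.2.odd_of_ne_two hP2
  have hζM : IsPrimitiveRoot (algebraMap K M ζ) (P : ℕ) :=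
    hζ.map_of_injective (algebraMap K M).injective
  obtain ⟨β, hβ⟩ := PowerLocalGlobal.exists_unit_pow_eq_of_forall_local (L := M) hodd hζM S₀
    (Units.map (algebraMap K M : K →* M) b) fun q hq =>
      exists_loc_pow_eq q P.2.ne_zero b d δ hδ fun v => by
        have hi : (⟨q, v⟩ : Place K) ∉ placesOver K S₀ := fun h => hq (mem_placesOver.mp h)
        have hpq : (P : ℕ) ≠ (q : ℕ) := fun h => hq (by
          have : P = q := Subtype.ext h
          rwa [← this])
        have hdv : piV v (Units.map (inclL K q : K →* Loc K q) d) ∈ UV v := by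
          have := hdU ⟨q, v⟩ hi
          rwa [diagP_apply] at this
        have hbv : piV v (Units.map (inclL K q : K →* Loc K q) b) ∈ UV v := by
          have := hbU ⟨q, v⟩ hi
          rwa [diagP_apply] at this
        by_cases hdp : piV v (Units.map (inclL K q : K →* Loc K q) d) ∈
            (UV v).map (powMonoidHom (P : ℕ) : (Kv v)ˣ →* (Kv v)ˣ)
        · have h1 := hloc ⟨q, v⟩ hi (by rw [diagP_apply]; exact hdp)
          rw [diagP_apply] at h1
          obtain ⟨w, -, hw⟩ := h1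
          exact ⟨0, w, by rw [pow_zero, one_mul]; exact hw.symm⟩
        · obtain ⟨j, -, w, -, hw⟩ := UnitChar.exists_pow_mul_mem_map v hpq hζ hdv hbv hdp
          refine ⟨j, w, ?_⟩
          rw [powMonoidHom_apply] at hw
          rw [hw, mul_comm, inv_mul_cancel_right]
  have hβ' : (β : M) ^ (P : ℕ) = algebraMap K M (b : K) := by
    have := congrArg (fun u : Mˣ => (u : M)) hβ
    simpa using this
  exact exists_pow_mul_of_pow_eq P.2 hdeg hζ hd hδ b hβ'

/-- **C5 core, unconditional**: the second inequality in degree `p` over base fields containing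
the `p`-th roots of unity, `p` an odd prime. -/
theorem secondInequalityMu (P : Nat.Primes) (hP2 : (P : ℕ) ≠ 2) :
    PrimeDegree.SecondInequalityMu (P : ℕ) :=
  secondInequalityMu_of_hypHAll hP2 (hypHAll P hP2)

end Fermat.Agent.CFT.C5.HypHGlue
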