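import Mathlib
import Fermat.Agent.CFT.C7.USCohTrivial
import Fermat.Agent.CFT.C6.IdeleNorm
import Fermat.Agent.CFT.Idele.Global
import Fermat.Agent.CFT.C5.SecondInequality

/-!
# (N3-2): `Kˣ · E(S₀) = Kˣ · N J_L` for `L = K(E_{S₀}^{1/p})`

`K ∋ ζ_p` a number field, `S₀ ∋ p` a finite set of rational primes with `J_K = Kˣ · J_{K,S₀}`,
`E(S₀) = ∏_{q ∈ S₀} ((K ⊗ ℚ_q)ˣ)^p × ∏_{q ∉ S₀} U_q ≤ J_K` (`ES K p S₀`).

* Part B: `trivialInertiaAt_of_adjoin_radicals` — an extension `L/K` generated by `p`-th roots of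
  elements of `E_T · K^{×p}` (`E_T` the `T`-units, `p ∈ T`) has trivial inertia above every `q ∉ T`
  (helper22's `TrivialInertiaAt (galHom K L) q`), via `map_radical_eq_self`.
* Part A: `US_le_range_normJ` — for `L/K` Galois with trivial inertia outside `S`, the unit ideles
  outside `S` are norms.
* Part C: `ES`, `mem_ES_iff`, `exists_eq_pow_mul_of_mem_ES` (`E(S₀) ⊆ J^p · U^{S₀}`), `map_ES`.
* Part D: `index_sup_ES` (`[J_K : Kˣ E(S₀)] = p ^ (r + #S)`, helper29's `T = ∅` index),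
  `sup_ES_le_sup_range_normJ`, and **`sup_ES_eq_sup_range_normJ`**: if moreover
  `J_K^p ⊆ Kˣ N J_L` and `[J_K : Kˣ N J_L] = p ^ (r + #S)` (reciprocity for the layer `L/K`), then
  `Kˣ · E(S₀) = Kˣ · N J_L`.
-/

set_option autoImplicit false

open scoped NumberField
open NumberField

open IsDedekindDomain Fermat.Agent.CFT.Idele Fermat.Agent.CFT.C7.USCohTrivial
  Fermat.Agent.CFT.C6.IdeleNorm
  Fermat.Agent.CFT.C5.IdeleProduct Fermat.Agent.CFT.C5.IndexAbstract
  Fermat.Agent.CFT.C5.SecondInequality Fermat.Agent.CFT.C5.LocalFields Fermat.Agent.CFT.Dict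

noncomputable section

namespace Fermat.Agent.CFT.C5.KummerS

/-! ### Part B: inertia acts trivially on prime-to-`q` radicals of units -/

section Inertia

variable {L : Type} [Field L] [NumberField L]

omit [NumberField L] in
/-- a `p`-th root of unity congruent to `1` modulo a prime above `q ≠ p` is `1` -/
theorem eq_one_of_pow_eq_one_of_sub_one_mem {p q : ℕ} (hp : p.Prime) (hq : q.Prime) (hpq : p ≠ q)
    (w : Ideal (𝓞 L)) [hw : w.IsPrime] (hqw : (q : 𝓞 L) ∈ w) (ζ : 𝓞 L) (hζ : ζ ^ p = 1)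
    (h1 : ζ - 1 ∈ w) : ζ = 1 := by
  by_contra hne
  have hsum : ∑ i ∈ Finset.range p, ζ ^ i = 0 := by
    have h2 : (∑ i ∈ Finset.range p, ζ ^ i) * (ζ - 1) = 0 := by
      rw [geom_sum_mul, hζ, sub_self]
    rcases mul_eq_zero.mp h2 with h | h
    · exact h
    · exact absurd (sub_eq_zero.mp h) hne
  have hmk : Ideal.Quotient.mk w ζ = 1 := by
    rw [← sub_eq_zero, ← map_one (Ideal.Quotient.mk w), ← map_sub]
    exact Ideal.Quotient.eq_zero_iff_mem.mpr h1
  have hpw : (p : 𝓞 L) ∈ w := by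
    rw [← Ideal.Quotient.eq_zero_iff_mem, map_natCast]
    have := congrArg (Ideal.Quotient.mk w) hsum
    rw [map_sum, map_zero] at this
    simp only [map_pow, hmk, one_pow, Finset.sum_const, Finset.card_range, nsmul_eq_mul,
      mul_one] at this
    exact this
  have hcop : Nat.Coprime p q := (Nat.coprime_primes hp hq).mpr hpq
  have : (1 : 𝓞 L) ∈ w := by
    have h3 := Nat.isCoprime_iff_coprime.mpr hcop
    obtain ⟨a, b, hab⟩ := h3
    have h4 : ((a : 𝓞 L)) * (p : 𝓞 L) + (b : 𝓞 L) * (q : 𝓞 L) = 1 := by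
      have := congrArg (Int.cast : ℤ → 𝓞 L) hab
      push_cast at this
      exact this
    rw [← h4]
    exact w.add_mem (w.mul_mem_left _ hpw) (w.mul_mem_left _ hqw)
  exact hw.ne_top ((Ideal.eq_top_iff_one w).mpr this)

/-- an automorphism acting trivially modulo `w ∣ q` fixes an integral `β ∉ w` whose `p`-th power it
fixes (`p ≠ q`) -/
theorem map_eq_self_of_pow_fixed {p q : ℕ} (hp : p.Prime) (hq : q.Prime) (hpq : p ≠ q)
    (w : Ideal (𝓞 L)) [hw : w.IsPrime] (hqw : (q : 𝓞 L) ∈ w) (σ : L ≃+* L)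
    (hσ : ∀ x : 𝓞 L, ∃ y ∈ w, σ (x : L) - (x : L) = (y : L))
    (β : 𝓞 L) (hβ : β ∉ w) (hfix : σ ((β : L) ^ p) = (β : L) ^ p) : σ (β : L) = (β : L) := by
  obtain ⟨y, hy, hyβ⟩ := hσ β
  have hβ0 : (β : L) ≠ 0 := by
    intro h
    apply hβ
    have : β = 0 := RingOfIntegers.ext (by rw [h]; rfl)
    rw [this]
    exact w.zero_mem
  have hσβ : σ (β : L) = ((β + y : 𝓞 L) : L) := by
    have h0 : ((β + y : 𝓞 L) : L) = (β : L) + (y : L) := map_add _ _ _
    rw [h0]
    linear_combination hyβ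
  set ζL : L := σ (β : L) / (β : L) with hζL
  have hζp : ζL ^ p = 1 := by
    rw [hζL, div_pow, ← map_pow, hfix, div_self (pow_ne_zero p hβ0)]
  have hint : IsIntegral ℤ ζL := IsIntegral.of_pow hp.pos (by rw [hζp]; exact isIntegral_one)
  set ζ : 𝓞 L := ⟨ζL, hint⟩ with hζ
  have hζβ : ζ * β = β + y := by
    apply RingOfIntegers.ext
    rw [← hσβ]
    show ζL * (β : L) = σ (β : L)
    rw [hζL, div_mul_cancel₀ _ hβ0]
  have h1 : (ζ - 1) * β ∈ w := by
    have : (ζ - 1) * β = y := by rw [sub_mul, one_mul, hζβ]; ring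
    rw [this]
    exact hy
  have h2 : ζ - 1 ∈ w := (hw.mem_or_mem h1).resolve_right hβ
  have h3 : ζ = 1 := eq_one_of_pow_eq_one_of_sub_one_mem hp hq hpq w hqw ζ
    (RingOfIntegers.ext (by show ζL ^ p = 1; exact hζp)) h2
  have h4 : ζL = 1 := by
    have := congrArg (fun z : 𝓞 L => (z : L)) h3
    simpa [hζ] using this
  rw [hζL, div_eq_one_iff_eq hβ0] at h4
  exact h4

end Inertia

section Radical

variable {K L : Type} [Field K] [NumberField K] [Field L] [NumberField L] [Algebra K L]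

/-- **inertia fixes radicals of units**: `w` a prime of `𝓞 L` above `q`, `g ∈ Gal(L/K)` acting
trivially on `𝓞 L ⧸ w`, `α ^ p = a ∈ Kˣ` with `a` a unit at all primes of `K` above `q`,
`p ≠ q`: then `g α = α`. -/
theorem map_radical_eq_self {p q : ℕ} (hp : p.Prime) (hq : q.Prime) (hpq : p ≠ q)
    (w : Ideal (𝓞 L)) [hw : w.IsPrime] (hqw : (q : 𝓞 L) ∈ w) (g : L ≃ₐ[K] L)
    (hg : ∀ x : 𝓞 L, ∃ y ∈ w, g (x : L) - (x : L) = (y : L))
    (a : K) (ha : ∀ v : HeightOneSpectrum (𝓞 K), (q : 𝓞 K) ∈ v.asIdeal → v.valuation K a = 1)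
    (α : L) (hα : α ^ p = algebraMap K L a) : g α = α := by
  -- the prime of `K` below `w`
  have hq0 : (q : 𝓞 K) ≠ 0 := by exact_mod_cast hq.ne_zero
  have hcomap : (q : 𝓞 K) ∈ w.comap (algebraMap (𝓞 K) (𝓞 L)) := by
    rw [Ideal.mem_comap, map_natCast]
    exact hqw
  set v : HeightOneSpectrum (𝓞 K) := ⟨w.comap (algebraMap (𝓞 K) (𝓞 L)), Ideal.comap_isPrime _ _,
    fun h => hq0 (by rw [h] at hcomap; exact hcomap)⟩ with hv
  have hva : v.valuation K a = 1 := ha v hcomap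
  obtain ⟨n, d, hnd⟩ := v.exists_primeCompl_mul_eq_of_integer a hva.le
  have hd : (d : 𝓞 K) ∉ v.asIdeal := d.2
  have hvd : v.valuation K (algebraMap (𝓞 K) K (d : 𝓞 K)) = 1 := by
    rw [HeightOneSpectrum.valuation_of_algebraMap]
    exact (v.intValuation_eq_one_iff_mem_primeCompl _).mpr d.2
  have hn : n ∉ v.asIdeal := by
    have h1 : v.valuation K (algebraMap (𝓞 K) K n) = 1 := by
      rw [← hnd, map_mul, hva, hvd, one_mul]
    rw [HeightOneSpectrum.valuation_of_algebraMap] at h1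
    exact (v.intValuation_eq_one_iff_mem_primeCompl _).mp h1
  have hd0 : (d : 𝓞 K) ≠ 0 := fun h => hd (by rw [h]; exact v.asIdeal.zero_mem)
  -- the integral radical `β = d α`
  set dL : L := algebraMap K L (algebraMap (𝓞 K) K (d : 𝓞 K)) with hdL
  have hdL0 : dL ≠ 0 := by
    rw [hdL]
    simp only [ne_eq, map_eq_zero]
    intro h
    exact hd0 (RingOfIntegers.ext (h.trans (map_zero (algebraMap (𝓞 K) K)).symm))
  set c : 𝓞 K := (d : 𝓞 K) ^ (p - 1) * n with hc
  have hpow : (dL * α) ^ p = algebraMap K L (algebraMap (𝓞 K) K c) := by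
    rw [mul_pow, hα, hc, map_mul, map_mul, ← hnd, map_mul, map_pow, map_pow, ← hdL]
    have h1 : dL ^ p = dL ^ (p - 1) * dL := by
      rw [← pow_succ, Nat.sub_add_cancel hp.one_le]
    rw [h1]
    ring
  have hint : IsIntegral ℤ (dL * α) := by
    refine IsIntegral.of_pow hp.pos ?_
    rw [hpow]
    exact (c.2 : IsIntegral ℤ (c : K)).map (IsScalarTower.toAlgHom ℤ K L)
  set β : 𝓞 L := ⟨dL * α, hint⟩ with hβ
  have hβpow : β ^ p = algebraMap (𝓞 K) (𝓞 L) c := by
    apply RingOfIntegers.ext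
    show (dL * α) ^ p = _
    rw [hpow]
    rfl
  have hβw : β ∉ w := by
    intro h
    have h1 : β ^ p ∈ w := w.pow_mem_of_mem h p hp.pos
    rw [hβpow] at h1
    have h2 : c ∈ v.asIdeal := h1
    rw [hc] at h2
    rcases v.isPrime.mem_or_mem h2 with h3 | h3
    · exact hd (v.isPrime.mem_of_pow_mem _ h3)
    · exact hn h3
  have hfix : (g : L ≃+* L) ((β : L) ^ p) = (β : L) ^ p := by
    show g ((dL * α) ^ p) = (dL * α) ^ p
    rw [hpow, AlgEquiv.commutes]
  have h5 := map_eq_self_of_pow_fixed hp hq hpq w hqw (g : L ≃+* L) hg β hβw hfix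
  have h6 : g (dL * α) = dL * α := h5
  rw [map_mul, hdL, AlgEquiv.commutes, ← hdL] at h6
  exact mul_left_cancel₀ hdL0 h6

/-- **trivial inertia for Kummer extensions of `T`-units**: if `L` is generated over `K` by
`p`-th roots of elements of `E_T · K^{×p}` (`E_T` the `T`-units of `K`) and `p ∈ T`, then for `q ∉ T` no nontrivial element of
`Gal(L/K)` acts trivially on `𝓞 L ⧸ w`, `w ∣ q`. -/
theorem trivialInertiaAt_of_adjoin_radicals {p : ℕ} (hp : p.Prime) (T : Set Nat.Primes)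
    (hpT : (⟨p, hp⟩ : Nat.Primes) ∈ T) (R : Set L)
    (hR : ∀ α ∈ R, ∃ a : Kˣ, a ∈ TUnits K T ∧
      ∃ b : Kˣ, α ^ p = algebraMap K L ((a : K) * (b : K) ^ p))
    (hgen : IntermediateField.adjoin K R = ⊤) (q : Nat.Primes) (hq : q ∉ T) :
    TrivialInertiaAt (galHom K L) q := by
  intro w hw hqw g hg
  have hpq : p ≠ (q : ℕ) := by
    intro h
    apply hq
    have : q = ⟨p, hp⟩ := Subtype.ext h.symm
    rw [this]
    exact hpT
  have hfixR : ∀ α ∈ R, g α = α := by
    intro α hα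
    obtain ⟨a, haT, b, haα⟩ := hR α hα
    have hb0 : algebraMap K L (b : K) ≠ 0 := by
      rw [ne_eq, map_eq_zero]
      exact b.ne_zero
    have h1 : (α / algebraMap K L (b : K)) ^ p = algebraMap K L (a : K) := by
      rw [div_pow, haα, map_mul, map_pow, mul_div_cancel_right₀ _ (pow_ne_zero p hb0)]
    have h2 := map_radical_eq_self hp q.2 hpq w hqw g hg (a : K)
      (fun v hv => (mem_TUnits_iff_valuation T a).mp haT v q hv hq) _ h1
    rw [map_div₀, AlgEquiv.commutes] at h2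
    exact (div_left_inj' hb0).mp h2
  -- `g` fixes the field generated by `R`
  have hle : IntermediateField.adjoin K R ≤ IntermediateField.fixedField (Subgroup.zpowers g) := by
    rw [IntermediateField.adjoin_le_iff]
    intro α hα
    rw [SetLike.mem_coe, IntermediateField.mem_fixedField_iff]
    intro τ hτ
    obtain ⟨k, rfl⟩ := Subgroup.mem_zpowers_iff.mp hτ
    have h1 : ∀ m : ℕ, (g ^ m) α = α := by
      intro m
      induction m with
      | zero => simp
      | succ m ih => rw [pow_succ, AlgEquiv.mul_apply, hfixR α hα, ih]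
    have h2 : ∀ m : ℕ, (g ^ m)⁻¹ α = α := by
      intro m
      have := h1 m
      conv_lhs => rw [← this]
      exact (g ^ m).symm_apply_apply α
    rcases Int.eq_nat_or_neg k with ⟨m, rfl | rfl⟩
    · rw [zpow_natCast]; exact h1 m
    · rw [zpow_neg, zpow_natCast]; exact h2 m
  rw [hgen, top_le_iff] at hle
  ext x
  have hx : x ∈ IntermediateField.fixedField (Subgroup.zpowers g) := by
    rw [hle]; exact IntermediateField.mem_top
  rw [IntermediateField.mem_fixedField_iff] at hx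
  exact hx g (Subgroup.mem_zpowers g)

end Radical

/-! ### Part A: unit ideles outside `S` are norms when the inertia outside `S` is trivial -/

section UnitNorm

variable {K L : Type} [Field K] [NumberField K] [Field L] [NumberField L] [Algebra K L]
  [IsGalois K L]

/-- `L/K` Galois with trivial inertia above every `q ∉ S`: the unit ideles of `K` outside `S` are
norms of (unit) ideles of `L`. -/
theorem US_le_range_normJ (S : Set Nat.Primes)
    (h : ∀ q ∉ S, TrivialInertiaAt (galHom K L) q) : US K S ≤ (normJ K L).range := by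
  classical
  intro u hu
  set a : US L S := ⟨J.map (inclHom K L) u, (J.map_mem_US_iff (inclHom K L) u).mpr hu⟩ with ha
  have hinv : ∀ g : L ≃ₐ[K] L, galHom K L g • a = a := by
    intro g
    apply Subtype.ext
    rw [US.coe_smul]
    exact J.smul_map_of_fixes _ _ (galHom_inclHom K L g) u
  obtain ⟨b, hb⟩ := exists_prod_smul_eq_US (galHom K L) h a hinv
  refine ⟨(b : J L), ?_⟩
  apply J.map_injective (inclHom K L)
  rw [map_normJ]
  have := congrArg (fun z : US L S => (z : J L)) hb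
  simp only [SubmonoidClass.coe_finsetProd, US.coe_smul] at this
  convert this using 2

end UnitNorm


/-! ### Part C: the group `E(S₀) = ∏_{q ∈ S₀} ((K ⊗ ℚ_q)ˣ)^p × ∏_{q ∉ S₀} U_q` -/

section GroupES

variable (K : Type) [Field K] [NumberField K] (p : ℕ) (S₀ : Finset Nat.Primes)

/-- `E(S₀)`: ideles which are `p`-th powers at the primes of `S₀` and units elsewhere
(helper29's `groupE … ∅` pulled back to `J K`) -/
def ES : Subgroup (J K) := (groupE (Up K) p (placesOver K S₀) ∅).comap (jToProd K)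

variable {K p S₀}

theorem mem_ES_iff {x : J K} :
    x ∈ ES K p S₀ ↔
      (∀ q ∈ S₀, ∃ y : (Loc K q)ˣ, y ^ p = (x : ∀ q : Nat.Primes, (Loc K q)ˣ) q) ∧
        ∀ q ∉ S₀, (x : ∀ q : Nat.Primes, (Loc K q)ˣ) q ∈ intUnits K q := by
  rw [ES, Subgroup.mem_comap, mem_groupE, Finset.union_empty]
  constructor
  · rintro ⟨h1, h2⟩
    refine ⟨fun q hq => ?_, fun q hq => ?_⟩
    · have h3 : ∀ v : PrimeOver (q : ℕ) (𝓞 K), ∃ g : (Kv v)ˣ,
          g ^ p = piV v ((x : ∀ q : Nat.Primes, (Loc K q)ˣ) q) := by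
        intro v
        obtain ⟨g, hg⟩ := h1 ⟨q, v⟩ (mem_placesOver.mpr hq)
        exact ⟨g, hg⟩
      choose g hg using h3
      obtain ⟨y, hy⟩ := exists_forall_piV_eq g
      refine ⟨y, ext_piV fun v => ?_⟩
      rw [map_pow, hy, hg]
    · rw [mem_intUnits_iff_forall_toProd]
      intro v
      exact h2 ⟨q, v⟩ (fun hcon => hq (mem_placesOver.mp hcon))
  · rintro ⟨h1, h2⟩
    refine ⟨fun i hi => ?_, fun i hi => ?_⟩
    · obtain ⟨y, hy⟩ := h1 i.1 (mem_placesOver.mp hi)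
      refine ⟨piV i.2 y, ?_⟩
      show (piV i.2 y) ^ p = piV i.2 ((x : ∀ q : Nat.Primes, (Loc K q)ˣ) i.1)
      rw [← map_pow, hy]
    · have hq : i.1 ∉ S₀ := fun hcon => hi (mem_placesOver.mpr hcon)
      exact (mem_intUnits_iff_forall_toProd _ i.1).mp (h2 i.1 hq) i.2

/-- `E(S₀) ⊆ J^p · U^{S₀}` -/
theorem exists_eq_pow_mul_of_mem_ES {x : J K} (hx : x ∈ ES K p S₀) :
    ∃ y : J K, ∃ u ∈ US K (S₀ : Set Nat.Primes), x = y ^ p * u := by
  classical
  obtain ⟨h1, h2⟩ := mem_ES_iff.mp hx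
  have h3 : ∀ q : Nat.Primes, ∃ y : (Loc K q)ˣ,
      (q ∈ S₀ → y ^ p = (x : ∀ q : Nat.Primes, (Loc K q)ˣ) q) ∧ (q ∉ S₀ → y = 1) := by
    intro q
    by_cases hq : q ∈ S₀
    · obtain ⟨y, hy⟩ := h1 q hq
      exact ⟨y, fun _ => hy, fun h => absurd hq h⟩
    · exact ⟨1, fun h => absurd h hq, fun _ => rfl⟩
  choose y hy1 hy2 using h3
  have hyJ : y ∈ J K := by
    rw [mem_J]
    refine S₀.finite_toSet.subset ?_
    intro q hq
    by_contra hcon
    apply hq
    rw [hy2 q hcon]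
    exact (intUnits K q).one_mem
  refine ⟨⟨y, hyJ⟩, x * (⟨y, hyJ⟩ ^ p)⁻¹, ⟨fun q hq => ?_, fun q hq => ?_⟩, ?_⟩
  · show (x : ∀ q : Nat.Primes, (Loc K q)ˣ) q * ((y q) ^ p)⁻¹ = 1
    rw [hy1 q hq, mul_inv_cancel]
  · show (x : ∀ q : Nat.Primes, (Loc K q)ˣ) q * ((y q) ^ p)⁻¹ ∈ intUnits K q
    rw [hy2 q hq, one_pow, inv_one, mul_one]
    exact h2 q hq
  · rw [mul_comm x, ← mul_assoc, mul_inv_cancel, one_mul]

theorem map_ES : (ES K p S₀).map (jToProd K) = groupE (Up K) p (placesOver K S₀) ∅ := by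
  rw [ES, Subgroup.map_comap_eq, range_jToProd, inf_eq_right]
  exact (groupE_le_ideleS _ _ _ _).trans (ideleS_le_restrictedProduct _ _)

end GroupES

/-! ### Part D: `Kˣ · E(S₀) = Kˣ · N J_L` for `L = K(E_{S₀}^{1/p})` -/

section Main

variable {K : Type} [Field K] [NumberField K] (P : Nat.Primes) (S₀ : Finset Nat.Primes)

/-- **`[J_K : Kˣ · E(S₀)] = p ^ (r + #S)`** (helper29's index computation with `T = ∅`, in `J K`) -/
theorem index_sup_ES (hP2 : (P : ℕ) ≠ 2) {ζ : K} (hζ : IsPrimitiveRoot ζ (P : ℕ))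
    (hPS : P ∈ S₀) (hCG : (diag K).range ⊔ JTsub K (S₀ : Set Nat.Primes) = ⊤)
    (hD : ∀ y : Kˣ, diagP K y ∈ groupE (Up K) (P : ℕ) (placesOver K S₀) ∅ →
      (¬ ∃ z : Kˣ, z ^ (P : ℕ) = y) →
      ∀ (M : Type) [Field M] [NumberField M] [Algebra K M] [IsGalois K M],
      Module.finrank K M = (P : ℕ) → (∃ α : M, α ^ (P : ℕ) = algebraMap K M (y : K)) →
      ∀ x : J K, jToProd K x ∈ groupD (Up K) (P : ℕ) (placesOver K S₀) ∅ →
        x ∈ (diag K).range ⊔ (normJ K M).range) :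
    ((diag K).range ⊔ ES K (P : ℕ) S₀).index =
      (P : ℕ) ^ (Fintype.card (InfinitePlace K) + (placesOver K S₀).card) := by
  rw [index_eq_relIndex_map, map_sup_range_diag, map_ES]
  exact relIndex_sup_groupE_empty P S₀ hP2 hζ hPS hCG hD

variable (L : Type) [Field L] [NumberField L] [Algebra K L] [IsGalois K L]

/-- **`Kˣ · E(S₀) ⊆ Kˣ · N J_L`** when `L/K` has trivial inertia outside `S₀` and `p`-th powers of
ideles are norms up to principal ideles -/
theorem sup_ES_le_sup_range_normJ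
    (hTI : ∀ q ∉ (S₀ : Set Nat.Primes), TrivialInertiaAt (galHom K L) q)
    (hp : ∀ x : J K, x ^ (P : ℕ) ∈ (diag K).range ⊔ (normJ K L).range) :
    (diag K).range ⊔ ES K (P : ℕ) S₀ ≤ (diag K).range ⊔ (normJ K L).range := by
  refine sup_le le_sup_left ?_
  intro x hx
  obtain ⟨y, u, hu, rfl⟩ := exists_eq_pow_mul_of_mem_ES hx
  exact Subgroup.mul_mem _ (hp y)
    (Subgroup.mem_sup_right (US_le_range_normJ (S₀ : Set Nat.Primes) hTI hu))

/-- **(N3-2)**: `Kˣ · E(S₀) = Kˣ · N_{L/K} J_L` as soon as `L/K` has trivial inertia outside `S₀`,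
`J_K^p ⊆ Kˣ · N J_L` and `[J_K : Kˣ · N J_L] = p ^ (r + #S)` (the last two: reciprocity for the
layer `L/K`, `L = K(E_{S₀}^{1/p})`). -/
theorem sup_ES_eq_sup_range_normJ (hP2 : (P : ℕ) ≠ 2) {ζ : K} (hζ : IsPrimitiveRoot ζ (P : ℕ))
    (hPS : P ∈ S₀) (hCG : (diag K).range ⊔ JTsub K (S₀ : Set Nat.Primes) = ⊤)
    (hD : ∀ y : Kˣ, diagP K y ∈ groupE (Up K) (P : ℕ) (placesOver K S₀) ∅ →
      (¬ ∃ z : Kˣ, z ^ (P : ℕ) = y) →
      ∀ (M : Type) [Field M] [NumberField M] [Algebra K M] [IsGalois K M],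
      Module.finrank K M = (P : ℕ) → (∃ α : M, α ^ (P : ℕ) = algebraMap K M (y : K)) →
      ∀ x : J K, jToProd K x ∈ groupD (Up K) (P : ℕ) (placesOver K S₀) ∅ →
        x ∈ (diag K).range ⊔ (normJ K M).range)
    (hTI : ∀ q ∉ (S₀ : Set Nat.Primes), TrivialInertiaAt (galHom K L) q)
    (hp : ∀ x : J K, x ^ (P : ℕ) ∈ (diag K).range ⊔ (normJ K L).range)
    (hidx : ((diag K).range ⊔ (normJ K L).range).index =
      (P : ℕ) ^ (Fintype.card (InfinitePlace K) + (placesOver K S₀).card)) :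
    (diag K).range ⊔ ES K (P : ℕ) S₀ = (diag K).range ⊔ (normJ K L).range := by
  have hle := sup_ES_le_sup_range_normJ P S₀ L hTI hp
  apply le_antisymm hle
  have h1 := Subgroup.relIndex_mul_index hle
  rw [hidx, index_sup_ES P S₀ hP2 hζ hPS hCG hD] at h1
  have h2 : ((diag K).range ⊔ ES K (P : ℕ) S₀).relIndex
      ((diag K).range ⊔ (normJ K L).range) = 1 := by
    have hpos : 0 < (P : ℕ) ^ (Fintype.card (InfinitePlace K) + (placesOver K S₀).card) :=
      pow_pos P.2.pos _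
    exact Nat.eq_of_mul_eq_mul_right hpos (by rw [h1, one_mul])
  exact Subgroup.relIndex_eq_one.mp h2

end Main

end Fermat.Agent.CFT.C5.KummerS
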