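import Mathlib
import Fermat.Agent.CFT.C5.PrimeDegree
import Fermat.Agent.CFT.C5.CoprimeReduction

/-!
# The `μ_p`-adjunction for the second inequality (Project C, Layer C, slice C5 (c6)(α), concrete)

`SecondInequalityMu p → SecondInequality p` (`C5/PrimeDegree`): the second inequality
`[J_K : Kˣ · N J_M] ≤ p` for `M/K` Galois of odd prime degree `p` follows from the same statement
over base fields containing a primitive `p`-th root of unity (the Kummer case, C5 core).

Construction: `M' = M(μ_p)` (any `p`-cyclotomic extension of `M`, e.g. `CyclotomicField p M`),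
`K' = K(ζ) ⊆ M'` (`F₂`), `F₁` = the image of `M`.  Then `F₁ F₂ = M'` is Galois over `K`,
`Gal(M'/K') → Gal(M/K)` is injective, `[M':K'] = p`, `[M':M]` and `[K':K]` divide `p - 1`, and a
generator `g'` of `Gal(M'/K')` restricts to a generator `g` of `Gal(M/K)` and commutes with
`Gal(M'/M)`; `CoprimeReduction.idx_actC_dvd` and helper15's `idx_delta_nrm_sigmaC` conclude.
-/

set_option autoImplicit false

noncomputable section

namespace Fermat.Agent.CFT.C5.MuAdjunction

open Module

/-- the degree of a `p`-cyclotomic extension divides `p - 1` -/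
theorem finrank_dvd_pred_of_isCyclotomicExtension {p : ℕ} [hp : Fact p.Prime] (F E : Type*)
    [Field F] [Field E] [Algebra F E] [IsCyclotomicExtension {p} F E] :
    finrank F E ∣ p - 1 := by
  have : NeZero p := ⟨hp.out.ne_zero⟩
  have := IsCyclotomicExtension.isGalois {p} F E
  have := IsCyclotomicExtension.finiteDimensional {p} F E
  obtain ⟨ζ, hζ⟩ := IsCyclotomicExtension.exists_isPrimitiveRoot F E (Set.mem_singleton p)
    hp.out.ne_zero
  have h := Subgroup.card_dvd_of_injective _ (hζ.autToPow_injective F)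
  rwa [IsGalois.card_aut_eq_finrank, Nat.card_eq_fintype_card, ZMod.card_units] at h

theorem coprime_of_dvd_pred {p d : ℕ} (hp : p.Prime) (h : d ∣ p - 1) : p.Coprime d := by
  rw [hp.coprime_iff_not_dvd]
  intro hpd
  have := Nat.le_of_dvd (Nat.sub_pos_of_lt hp.one_lt) (hpd.trans h)
  have := hp.one_lt
  omega

section Fields

variable {p : ℕ} [hp : Fact p.Prime]
variable (K M M' : Type*) [Field K] [Field M] [Field M'] [Algebra K M] [Algebra M M']
  [Algebra K M'] [IsScalarTower K M M'] [IsCyclotomicExtension {p} M M']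

/-- the image of `M` in `M' = M(μ_p)` -/
def F₁ : IntermediateField K M' := (IsScalarTower.toAlgHom K M M').fieldRange

/-- `K(ζ)` inside `M'` -/
def F₂ (ζ : M') : IntermediateField K M' := IntermediateField.adjoin K {ζ}

variable {M'}

theorem algebraMap_mem_F₁ (m : M) : algebraMap M M' m ∈ F₁ K M M' := ⟨m, rfl⟩

theorem mem_F₂ (ζ : M') : ζ ∈ F₂ K M' ζ := IntermediateField.mem_adjoin_simple_self K ζ

theorem F₁_sup_F₂ {ζ : M'} (hζ : IsPrimitiveRoot ζ p) : F₁ K M M' ⊔ F₂ K M' ζ = ⊤ := by
  have : NeZero p := ⟨hp.out.ne_zero⟩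
  rw [eq_top_iff]
  intro x hxt
  clear hxt
  have hx : x ∈ Algebra.adjoin M ({ζ} : Set M') := by
    rw [IsCyclotomicExtension.adjoin_primitive_root_eq_top hζ]
    trivial
  induction hx using Algebra.adjoin_induction with
  | mem y hy =>
    rw [Set.mem_singleton_iff] at hy
    subst hy
    exact (le_sup_right : F₂ K M' y ≤ _) (mem_F₂ K y)
  | algebraMap m => exact (le_sup_left : F₁ K M M' ≤ _) (algebraMap_mem_F₁ K M m)
  | add a b _ _ ha hb => exact add_mem ha hb
  | mul a b _ _ ha hb => exact mul_mem ha hb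

instance normal_F₁ [Normal K M] : Normal K (F₁ K M M') :=
  Normal.of_algEquiv (AlgEquiv.ofInjectiveField (IsScalarTower.toAlgHom K M M'))

omit hp [IsCyclotomicExtension {p} M M'] in
theorem finiteDimensional_top (p : ℕ) [hp : Fact p.Prime] [IsCyclotomicExtension {p} M M']
    [FiniteDimensional K M] : FiniteDimensional K M' := by
  have : NeZero p := ⟨hp.out.ne_zero⟩
  have : FiniteDimensional M M' := IsCyclotomicExtension.finiteDimensional {p} M M'
  exact Module.Finite.trans M M'

theorem isCyclotomicExtension_F₂ [FiniteDimensional K M] {ζ : M'} (hζ : IsPrimitiveRoot ζ p) :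
    IsCyclotomicExtension {p} K (F₂ K M' ζ) := by
  have : NeZero p := ⟨hp.out.ne_zero⟩
  have : FiniteDimensional K M' := finiteDimensional_top K M p
  exact hζ.intermediateField_adjoin_isCyclotomicExtension K

theorem normal_F₂ [FiniteDimensional K M] {ζ : M'} (hζ : IsPrimitiveRoot ζ p) :
    Normal K (F₂ K M' ζ) := by
  have := isCyclotomicExtension_F₂ K M hζ
  have : IsGalois K (F₂ K M' ζ) := IsCyclotomicExtension.isGalois {p} K _
  infer_instance

theorem normal_top [Normal K M] [FiniteDimensional K M] {ζ : M'} (hζ : IsPrimitiveRoot ζ p) :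
    Normal K M' := by
  have := normal_F₂ K M hζ
  have h : Normal K (F₁ K M M' ⊔ F₂ K M' ζ : IntermediateField K M') := inferInstance
  rw [F₁_sup_F₂ K M hζ] at h
  exact Normal.of_algEquiv (IntermediateField.topEquiv (F := K) (E := M'))

/-! ### Restriction `Gal(M'/K(ζ)) → Gal(M/K)` -/

variable (M') in
/-- restriction `Gal(M'/K(ζ)) → Gal(M/K)` -/
def resM [Normal K M] (ζ : M') : (M' ≃ₐ[F₂ K M' ζ] M') →* (M ≃ₐ[K] M) :=
  (AlgEquiv.restrictNormalHom M).comp
    { toFun := fun σ => σ.restrictScalars K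
      map_one' := rfl
      map_mul' := fun _ _ => rfl }

omit hp [IsCyclotomicExtension {p} M M'] in
theorem resM_commutes [Normal K M] (ζ : M') (σ : M' ≃ₐ[F₂ K M' ζ] M') (m : M) :
    algebraMap M M' (resM K M M' ζ σ m) = σ (algebraMap M M' m) :=
  AlgEquiv.restrictNormal_commutes (σ.restrictScalars K) M m

omit hp [IsCyclotomicExtension {p} M M'] in
theorem apply_zeta (ζ : M') (σ : M' ≃ₐ[F₂ K M' ζ] M') : σ ζ = ζ :=
  σ.commutes ⟨ζ, mem_F₂ K ζ⟩

theorem resM_injective [Normal K M] {ζ : M'} (hζ : IsPrimitiveRoot ζ p) :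
    Function.Injective (resM K M M' ζ) := by
  have : NeZero p := ⟨hp.out.ne_zero⟩
  rw [injective_iff_map_eq_one]
  intro σ hσ
  have hM : ∀ m : M, σ (algebraMap M M' m) = algebraMap M M' m := fun m => by
    rw [← resM_commutes, hσ]
    rfl
  ext x
  have hx : x ∈ Algebra.adjoin M ({ζ} : Set M') := by
    rw [IsCyclotomicExtension.adjoin_primitive_root_eq_top hζ]
    trivial
  change σ x = x
  induction hx using Algebra.adjoin_induction with
  | mem y hy =>
    rw [Set.mem_singleton_iff] at hy
    subst hy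
    exact apply_zeta K y σ
  | algebraMap m => exact hM m
  | add a b _ _ ha hb => rw [map_add, ha, hb]
  | mul a b _ _ ha hb => rw [map_mul, ha, hb]

/-! ### Degrees -/

theorem isGalois_top [CharZero K] [IsGalois K M] [FiniteDimensional K M] {ζ : M'}
    (hζ : IsPrimitiveRoot ζ p) : IsGalois K M' := by
  have hfd : FiniteDimensional K M' := finiteDimensional_top K M p
  have hnor : Normal K M' := normal_top K M hζ
  exact ⟨⟩

theorem not_dvd_pred : ¬ p ∣ p - 1 := fun h => by
  have := Nat.le_of_dvd (Nat.sub_pos_of_lt hp.out.one_lt) h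
  have := hp.out.one_lt
  omega

theorem finrank_F₂_top [CharZero K] [IsGalois K M] [FiniteDimensional K M] {ζ : M'}
    (hζ : IsPrimitiveRoot ζ p) (hdeg : finrank K M = p) : finrank (F₂ K M' ζ) M' = p := by
  have hfd : FiniteDimensional K M' := finiteDimensional_top K M p
  have hgal : IsGalois K M' := isGalois_top K M hζ
  have h1 : finrank (F₂ K M' ζ) M' ∣ p := by
    have := Subgroup.card_dvd_of_injective _ (resM_injective K M hζ)
    rwa [IsGalois.card_aut_eq_finrank, IsGalois.card_aut_eq_finrank, hdeg] at this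
  have hcyc := isCyclotomicExtension_F₂ K M hζ
  have h2 : finrank K (F₂ K M' ζ) ∣ p - 1 := finrank_dvd_pred_of_isCyclotomicExtension K _
  have h3 : finrank K (F₂ K M' ζ) * finrank (F₂ K M' ζ) M' = finrank K M * finrank M M' := by
    rw [Module.finrank_mul_finrank, Module.finrank_mul_finrank]
  rcases (Nat.dvd_prime hp.out).mp h1 with h | h
  · exfalso
    rw [h, mul_one, hdeg] at h3
    exact not_dvd_pred (p := p) ((Dvd.intro _ h3.symm).trans h2)
  · exact h

theorem coprime_finrank_top : p.Coprime (finrank M M') :=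
  coprime_of_dvd_pred hp.out (finrank_dvd_pred_of_isCyclotomicExtension M M')

end Fields

/-! ### The reduction for number fields -/

section NumberFields

open Fermat.Agent.CFT.Idele Fermat.Agent.CFT.C6.IdeleNorm Fermat.Agent.CFT.Herbrand
  Fermat.Agent.CFT.C4.FirstInequality Fermat.Agent.CFT.C4.FirstInequalityNorm
  Fermat.Agent.CFT.C5.CoprimeReduction Fermat.Agent.CFT.C5.PrimeDegree

variable {p : ℕ} [hp : Fact p.Prime]

/-- the second inequality for `M/K` from the one for `M(μ_p)/K(μ_p)`, with `M' = M(μ_p)` any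
`p`-cyclotomic extension of `M` -/
theorem index_le_of_isCyclotomicExtension (hp2 : p ≠ 2) (h : SecondInequalityMu p)
    (K M M' : Type) [Field K] [Field M] [Field M'] [NumberField K] [NumberField M]
    [NumberField M'] [Algebra K M] [Algebra M M'] [Algebra K M'] [IsScalarTower K M M']
    [IsGalois K M] [IsCyclotomicExtension {p} M M'] (hdeg : finrank K M = p) :
    ((diag K).range ⊔ (normJ K M).range).index ≤ p := by
  have hne : NeZero p := ⟨hp.out.ne_zero⟩
  obtain ⟨ζ, hζ⟩ := IsCyclotomicExtension.exists_isPrimitiveRoot M M' (Set.mem_singleton p)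
    hp.out.ne_zero
  have hgalK : IsGalois K M' := isGalois_top K M hζ
  have hgalM : IsGalois M M' := IsCyclotomicExtension.isGalois {p} M M'
  have hdeg' : finrank (F₂ K M' ζ) M' = p := finrank_F₂_top K M hζ hdeg
  have hμ : ∃ ζ' : F₂ K M' ζ, IsPrimitiveRoot ζ' p :=
    ⟨⟨ζ, mem_F₂ K ζ⟩, IsPrimitiveRoot.coe_submonoidClass_iff.mp hζ⟩
  have hSI' := h (F₂ K M' ζ) M' hμ hdeg'
  -- generators
  have hcard' : Nat.card (M' ≃ₐ[F₂ K M' ζ] M') = p := by
    rw [IsGalois.card_aut_eq_finrank, hdeg']
  have hcard : Nat.card (M ≃ₐ[K] M) = p := by rw [IsGalois.card_aut_eq_finrank, hdeg]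
  obtain ⟨g', hg'1⟩ : ∃ g' : M' ≃ₐ[F₂ K M' ζ] M', g' ≠ 1 := by
    have : Nontrivial (M' ≃ₐ[F₂ K M' ζ] M') :=
      Finite.one_lt_card_iff_nontrivial.mp (hcard' ▸ hp.out.one_lt)
    exact exists_ne 1
  have hg'gen : ∀ τ : M' ≃ₐ[F₂ K M' ζ] M', τ ∈ Subgroup.zpowers g' := fun τ =>
    mem_zpowers_of_prime_card hcard' hg'1
  have hg1 : resM K M M' ζ g' ≠ 1 := fun h1 =>
    hg'1 (resM_injective K M hζ (h1.trans (map_one _).symm))
  have hggen : ∀ τ : M ≃ₐ[K] M, τ ∈ Subgroup.zpowers (resM K M M' ζ g') := fun τ =>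
    mem_zpowers_of_prime_card hcard hg1
  -- unramified at infinity
  have hodd : Odd (finrank (F₂ K M' ζ) M') := by
    rw [hdeg']
    exact hp.out.odd_of_ne_two hp2
  have hunr : IsUnramifiedAtInfinitePlaces (F₂ K M' ζ) M' :=
    IsUnramifiedAtInfinitePlaces_of_odd_finrank hodd
  have hpos := (finrank_dvd_index_sup_range_normJ g' hg'gen).1
  -- translate to Herbrand indices
  rw [index_sup_range_normJ] at hSI' hpos ⊢
  rw [← idx_delta_nrm_sigmaC g' hg'gen, hdeg'] at hSI' hpos
  rw [← idx_delta_nrm_sigmaC (resM K M M' ζ g') hggen, hdeg]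
  refine le_trans (Nat.le_of_dvd (Nat.pos_of_ne_zero hpos) ?_) hSI'
  refine idx_actC_dvd M M' p (coprime_finrank_top M) _ _ ?_ ?_ ?_
  · intro a
    exact (resM_commutes K M ζ g' a).symm
  · have h1 : g' ^ p = 1 := by
      rw [← hcard']
      exact pow_card_eq_one'
    have h2 := congrArg (galHom (F₂ K M' ζ) M') h1
    rwa [map_pow, map_one] at h2
  · intro δ
    have hn2 := normal_F₂ K M hζ
    have hc := commute_of_fixes (F₁ K M M') (F₂ K M' ζ) (F₁_sup_F₂ K M hζ)
      (g'.restrictScalars K) (δ.restrictScalars K)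
      (fun x hx => g'.commutes ⟨x, hx⟩)
      (fun x hx => by
        obtain ⟨m, rfl⟩ := hx
        exact δ.commutes m)
    ext x
    exact congrArg (fun f : M' ≃ₐ[K] M' => f x) hc

/-- **(α) The `μ_p`-adjunction.**  The second inequality in odd prime degree `p` follows from the
second inequality over base fields containing the `p`-th roots of unity. -/
theorem secondInequality_of_mu (hp2 : p ≠ 2) (h : SecondInequalityMu p) : SecondInequality p :=
  fun K M _ _ _ _ _ _ hdeg =>
    index_le_of_isCyclotomicExtension hp2 h K M (CyclotomicField p M) hdeg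

theorem secondInequality_iff_mu (hp2 : p ≠ 2) : SecondInequality p ↔ SecondInequalityMu p :=
  ⟨SecondInequality.mu, secondInequality_of_mu hp2⟩

end NumberFields

end Fermat.Agent.CFT.C5.MuAdjunction
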