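import Mathlib
import Fermat.Agent.CFT.C5.IdeleProduct
import Fermat.Agent.CFT.C4.FirstInequalityKummer

/-!
# PROJECT C, slice C5 (second inequality): wiring of the norm groups into the abstract index
computation (`C5/IndexAbstract`, Layer 3) over the places of `K` (`C5/IdeleProduct`)

* (W1)/(W2) `mem_range_normJ_of_places`, `groupE_le_map_range_normJ`,
  `groupD_le_map_range_normJ` : the two norm inclusions `E ≤ N J_L` and `D ≤ N J_M`;
* (W3) `exists_kummer_generator`, `exists_kummer_data` and `hFI_of_firstInequality` : the hypothesis `hFI` of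
  `relIndex_sup_groupE` from the first inequality (`C4/FirstInequalityKummer`);
* (W1'), (W2') `mem_range_normJ_of_mem_groupE`, `mem_range_normJ_of_mem_groupD`, `hN_of_places`,
  `hD_of_places` : the same without a chosen generator, in the shapes of
  `C5/SecondInequality.index_sup_dvd_of_data`;
* (W4) `mem_Up_of_pow_mem` (`hTF`) and `prod_index_pow` (`hLI`).
-/

set_option autoImplicit false
set_option linter.unusedSectionVars false

open scoped TensorProduct NumberField Fermat.Agent.CFT.Idele Fermat.Agent.CFT.C5.LocalFields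

open Fermat.Agent.CFT.Idele Fermat.Agent.CFT.Dict Fermat.Agent.CFT.Local.Model
  Fermat.Agent.CFT.C5.LocalFields Fermat.Agent.CFT.C5.IndexAbstract
  Fermat.Agent.CFT.C5.IdeleProduct Fermat.Agent.CFT.C5.NormIdele
  Fermat.Agent.CFT.C6.IdeleNorm

noncomputable section

namespace Fermat.Agent.CFT.C5.NormWiring

variable {K : Type} [Field K] [NumberField K]

/-! ### (W1), (W2): the norm inclusions -/

section Inclusions

variable {M : Type} [Field M] [NumberField M] [Algebra K M] [IsGalois K M]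
  {p : ℕ} {ζ : K} {y : Kˣ} {α : M} {g : M ≃ₐ[K] M} [DecidableEq (Place K)]

theorem diagP_apply (a : Kˣ) (q : Nat.Primes) (v : PrimeOver (q : ℕ) (𝓞 K)) :
    diagP K a ⟨q, v⟩ = piV v (Units.map (inclL K q : K →* Loc K q) a) := by
  apply Units.ext
  rfl

/-- **The norm criterion over the places**: `M = K(y^(1/p))`; if `y` is a `p`-th power at the
places of `A`, the idele `x` is a `p`-th power at the places of `B`, and outside `A ∪ B` the
residue characteristic is not `p` and both `y` and `x` are units, then `x` is a norm from `M`. -/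
theorem mem_range_normJ_of_places (hp : p.Prime) (hζ : IsPrimitiveRoot ζ p)
    (hα : α ^ p = algebraMap K M (y : K)) (hg : g α = algebraMap K M ζ * α)
    (hgen : ∀ τ : M ≃ₐ[K] M, τ ∈ Subgroup.zpowers g) (hord : orderOf g = p)
    (A B : Finset (Place K)) (hAB : ∀ i : Place K, i ∉ A ∪ B → p ≠ (i.1 : ℕ))
    (hyA : ∀ i ∈ A, diagP K y i ∈ (powMonoidHom p : Gp K i →* Gp K i).range)
    (hyU : ∀ i : Place K, i ∉ A ∪ B → diagP K y i ∈ Up K i)
    (x : J K)
    (hxB : ∀ i ∈ B, jToProd K x i ∈ (powMonoidHom p : Gp K i →* Gp K i).range)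
    (hxU : ∀ i : Place K, i ∉ A ∪ B → jToProd K x i ∈ Up K i) :
    x ∈ (normJ K M).range := by
  have key : ∀ i : Place K,
      piV i.2 (Units.map (inclL K i.1 : K →* Loc K i.1) y) ∈
          (powMonoidHom p : (Kv i.2)ˣ →* (Kv i.2)ˣ).range ∨
        piV i.2 ((x : ∀ q : Nat.Primes, (Loc K q)ˣ) i.1) ∈
          (powMonoidHom p : (Kv i.2)ˣ →* (Kv i.2)ˣ).range ∨
        (p ≠ (i.1 : ℕ) ∧ piV i.2 (Units.map (inclL K i.1 : K →* Loc K i.1) y) ∈ UV i.2 ∧
          piV i.2 ((x : ∀ q : Nat.Primes, (Loc K q)ˣ) i.1) ∈ UV i.2) := by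
    intro i
    have hd : diagP K y i = piV i.2 (Units.map (inclL K i.1 : K →* Loc K i.1) y) := by
      apply Units.ext
      rfl
    by_cases hA : i ∈ A
    · left
      rw [← hd]
      exact hyA i hA
    by_cases hB : i ∈ B
    · right; left
      exact hxB i hB
    · right; right
      have hn : i ∉ A ∪ B := by
        rw [Finset.mem_union]
        exact fun h => h.elim hA hB
      refine ⟨hAB i hn, ?_, hxU i hn⟩
      rw [← hd]
      exact hyU i hn
  exact mem_range_normJ_of_forall_place hp hζ hα hg hgen hord x fun q v => key ⟨q, v⟩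

/-- **(W1)** `E ≤ N J_L` for `L = K(d^(1/p))`, `d` a `p`-th power at `T` and a unit outside
`S ∪ T`, `S` containing the places over `p` -/
theorem groupE_le_map_range_normJ (hp : p.Prime) (hζ : IsPrimitiveRoot ζ p)
    (hα : α ^ p = algebraMap K M (y : K)) (hg : g α = algebraMap K M ζ * α)
    (hgen : ∀ τ : M ≃ₐ[K] M, τ ∈ Subgroup.zpowers g) (hord : orderOf g = p)
    (S T : Finset (Place K)) (hST : ∀ i : Place K, i ∉ S ∪ T → p ≠ (i.1 : ℕ))
    (hyT : ∀ i ∈ T, diagP K y i ∈ (powMonoidHom p : Gp K i →* Gp K i).range)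
    (hyU : ∀ i : Place K, i ∉ S ∪ T → diagP K y i ∈ Up K i) :
    groupE (Up K) p S T ≤ (normJ K M).range.map (jToProd K) := by
  intro z hz
  obtain ⟨x, rfl⟩ := exists_jToProd_eq
    (ideleS_le_restrictedProduct (Up K) _ (groupE_le_ideleS (Up K) p S T hz))
  refine ⟨x, ?_, rfl⟩
  rw [SetLike.mem_coe]
  have hTS : T ∪ S = S ∪ T := Finset.union_comm T S
  refine mem_range_normJ_of_places hp hζ hα hg hgen hord T S ?_ hyT ?_ x hz.1 ?_
  · intro i hi
    exact hST i (hTS ▸ hi)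
  · intro i hi
    exact hyU i (hTS ▸ hi)
  · intro i hi
    exact hz.2 i (hTS ▸ hi)

/-- **(W2)** `D ≤ N J_M` for `M = K(y^(1/p))`, `y ∈ Kˣ ∩ E` -/
theorem groupD_le_map_range_normJ (hp : p.Prime) (hζ : IsPrimitiveRoot ζ p)
    (hα : α ^ p = algebraMap K M (y : K)) (hg : g α = algebraMap K M ζ * α)
    (hgen : ∀ τ : M ≃ₐ[K] M, τ ∈ Subgroup.zpowers g) (hord : orderOf g = p)
    (S T : Finset (Place K)) (hST : ∀ i : Place K, i ∉ S ∪ T → p ≠ (i.1 : ℕ))
    (hy : diagP K y ∈ groupE (Up K) p S T) :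
    groupD (Up K) p S T ≤ (normJ K M).range.map (jToProd K) := by
  intro z hz
  have hzS : z ∈ ideleS (Up K) (S ∪ T) := hz.2
  obtain ⟨x, rfl⟩ := exists_jToProd_eq (ideleS_le_restrictedProduct (Up K) _ hzS)
  refine ⟨x, ?_, rfl⟩
  rw [SetLike.mem_coe]
  refine mem_range_normJ_of_places hp hζ hα hg hgen hord S T hST hy.1 hy.2 x ?_ hz.2
  intro i hi
  obtain ⟨w, _, hw⟩ := hz.1 i hi
  exact ⟨w, hw⟩

end Inclusions

/-! ### (W3): the hypothesis `hFI` -/

section FI

/-- a Kummer generator: for `M/K` Galois of prime degree `p`, `ζ_p ∈ K`, `α ∉ K` with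
`α ^ p = y ∈ K`, there are a generator `g` of the Galois group and a primitive `p`-th root of unity
`ζ'` of `K` with `g α = ζ' α`. -/
theorem exists_kummer_generator_of_notMem {M : Type} [Field M] [Algebra K M]
    [FiniteDimensional K M] [IsGalois K M] {p : ℕ} (hp : p.Prime)
    (hdeg : Module.finrank K M = p) {ζ : K} (hζ : IsPrimitiveRoot ζ p) {y : K} {α : M}
    (hαK : α ∉ Set.range (algebraMap K M)) (hα : α ^ p = algebraMap K M y) :
    ∃ (ζ' : K) (g : M ≃ₐ[K] M), IsPrimitiveRoot ζ' p ∧ g α = algebraMap K M ζ' * α ∧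
      (∀ τ : M ≃ₐ[K] M, τ ∈ Subgroup.zpowers g) ∧ orderOf g = p := by
  have : Fact p.Prime := ⟨hp⟩
  have : NeZero p := ⟨hp.ne_zero⟩
  have hcard : Nat.card (M ≃ₐ[K] M) = p := by
    rw [IsGalois.card_aut_eq_finrank, hdeg]
  -- some `g` moves `α`
  obtain ⟨g, hgα⟩ : ∃ g : M ≃ₐ[K] M, g α ≠ α := by
    by_contra hcon
    push Not at hcon
    exact hαK ((IsGalois.mem_range_algebraMap_iff_fixed α).mpr hcon)
  have hg1 : g ≠ 1 := by
    rintro rfl
    exact hgα rfl
  have hgen : ∀ τ : M ≃ₐ[K] M, τ ∈ Subgroup.zpowers g := fun τ =>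
    mem_zpowers_of_prime_card hcard hg1
  have hord : orderOf g = p := by
    rw [orderOf_eq_card_of_forall_mem_zpowers hgen, hcard]
  have hα0 : α ≠ 0 := by
    rintro rfl
    exact hαK ⟨0, map_zero _⟩
  -- `g α / α` is a `p`-th root of unity
  have hroot : (g α / α) ^ p = 1 := by
    rw [div_pow, ← map_pow, hα, AlgEquiv.commutes, div_self]
    rw [← hα]
    exact pow_ne_zero p hα0
  have hζM : IsPrimitiveRoot (algebraMap K M ζ) p := hζ.map_of_injective (algebraMap K M).injective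
  obtain ⟨k, hkp, hk⟩ := hζM.eq_pow_of_pow_eq_one hroot
  have hk0 : k ≠ 0 := by
    rintro rfl
    rw [pow_zero] at hk
    exact hgα ((div_eq_one_iff_eq hα0).mp hk.symm)
  have hcop : k.Coprime p :=
    ((Nat.Prime.coprime_iff_not_dvd hp).mpr fun hdvd =>
      hk0 (Nat.eq_zero_of_dvd_of_lt hdvd hkp)).symm
  refine ⟨ζ ^ k, g, hζ.pow_of_coprime k hcop, ?_, hgen, hord⟩
  rw [map_pow, hk, div_mul_cancel₀ _ hα0]

/-- the same when `y` is not a `p`-th power in `K` -/
theorem exists_kummer_generator {M : Type} [Field M] [Algebra K M] [FiniteDimensional K M]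
    [IsGalois K M] {p : ℕ} (hp : p.Prime) (hdeg : Module.finrank K M = p) {ζ : K}
    (hζ : IsPrimitiveRoot ζ p) {y : K} (hy : ∀ b : K, b ^ p ≠ y) {α : M}
    (hα : α ^ p = algebraMap K M y) :
    ∃ (ζ' : K) (g : M ≃ₐ[K] M), IsPrimitiveRoot ζ' p ∧ g α = algebraMap K M ζ' * α ∧
      (∀ τ : M ≃ₐ[K] M, τ ∈ Subgroup.zpowers g) ∧ orderOf g = p := by
  refine exists_kummer_generator_of_notMem hp hdeg hζ ?_ hα
  rintro ⟨b, rfl⟩
  rw [← map_pow] at hα
  exact hy b ((algebraMap K M).injective hα)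

/-- **Kummer theory in degree `p`**: a Galois extension `M/K` of prime degree `p` with `ζ_p ∈ K`
is `K(d^(1/p))`: there are `d ∈ Kˣ`, `α ∈ M` with `α ^ p = d`, a generator `g` of the Galois group
and a primitive `p`-th root of unity `ζ'` with `g α = ζ' α`. -/
theorem exists_kummer_data {M : Type} [Field M] [Algebra K M] [FiniteDimensional K M]
    [IsGalois K M] {p : ℕ} (hp : p.Prime) (hdeg : Module.finrank K M = p) {ζ : K}
    (hζ : IsPrimitiveRoot ζ p) :
    ∃ (d : Kˣ) (α : M) (ζ' : K) (g : M ≃ₐ[K] M), α ^ p = algebraMap K M (d : K) ∧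
      IsPrimitiveRoot ζ' p ∧ g α = algebraMap K M ζ' * α ∧
      (∀ τ : M ≃ₐ[K] M, τ ∈ Subgroup.zpowers g) ∧ orderOf g = p := by
  have : Fact p.Prime := ⟨hp⟩
  have hcard : Nat.card (M ≃ₐ[K] M) = p := by
    rw [IsGalois.card_aut_eq_finrank, hdeg]
  have : IsCyclic (M ≃ₐ[K] M) := isCyclic_of_prime_card hcard
  have hroots : (primitiveRoots (Module.finrank K M) K).Nonempty := by
    rw [hdeg]
    exact ⟨ζ, (mem_primitiveRoots hp.pos).mpr hζ⟩
  obtain ⟨α, ⟨d, hd⟩, htop⟩ := exists_root_adjoin_eq_top_of_isCyclic K M hroots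
  rw [hdeg] at hd
  have hαK : α ∉ Set.range (algebraMap K M) := by
    intro hmem
    have hbot : IntermediateField.adjoin K {α} = ⊥ := by
      rw [IntermediateField.adjoin_simple_eq_bot_iff, IntermediateField.mem_bot]
      exact hmem
    rw [hbot] at htop
    rw [IntermediateField.bot_eq_top_iff_finrank_eq_one, hdeg] at htop
    exact hp.one_lt.ne' htop
  have hd0 : d ≠ 0 := by
    rintro rfl
    rw [map_zero] at hd
    exact hαK ⟨0, by rw [map_zero, pow_eq_zero_iff hp.ne_zero |>.mp hd.symm]⟩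
  obtain ⟨ζ', g, hζ', hg, hgen, hord⟩ :=
    exists_kummer_generator_of_notMem (y := d) hp hdeg hζ hαK hd.symm
  exact ⟨Units.mk0 d hd0, α, ζ', g, hd.symm, hζ', hg, hgen, hord⟩

open Fermat.Agent.CFT.C4.FirstInequalityKummer in
/-- **(W3)** the hypothesis `hFI` of `IndexAbstract.relIndex_sup_groupE` for the principal ideles:
for `y ∈ Kˣ ∩ E` not a `p`-th power, `Kˣ · D ≠ J` (first inequality for `K(y^(1/p))`, whose norm
group contains `D`). -/
theorem hFI_of_firstInequality [DecidableEq (Place K)] {p : ℕ} (hp : p.Prime) (hp2 : p ≠ 2)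
    {ζ : K} (hζ : IsPrimitiveRoot ζ p) (S T : Finset (Place K))
    (hST : ∀ i : Place K, i ∉ S ∪ T → p ≠ (i.1 : ℕ)) :
    ∀ y ∈ (diagP K).range ⊓ groupE (Up K) p S T, (¬ ∃ z ∈ (diagP K).range, z ^ p = y) →
      ¬ restrictedProduct (Up K) ≤ (diagP K).range ⊔ groupD (Up K) p S T := by
  rintro y ⟨⟨a, rfl⟩, hyE⟩ hnp hle
  have hy : ∀ b : K, b ^ p ≠ (a : K) := by
    intro b hb
    have hb0 : b ≠ 0 := by
      rintro rfl
      rw [zero_pow hp.ne_zero] at hb
      exact a.ne_zero hb.symm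
    refine hnp ⟨diagP K (Units.mk0 b hb0), ⟨_, rfl⟩, ?_⟩
    rw [← map_pow]
    congr 1
    apply Units.ext
    rw [Units.val_pow_eq_pow_val, Units.val_mk0, hb]
  obtain ⟨M, _, _, _, hgal, hdeg, ⟨α, hα⟩, x, hx⟩ :=
    exists_kummer_extension_notMem hp hp2 ⟨ζ, (mem_primitiveRoots hp.pos).mpr hζ⟩ (a : K) hy
  obtain ⟨ζ', g, hζ', hg, hgen, hord⟩ := exists_kummer_generator hp hdeg hζ hy hα
  have hD := groupD_le_map_range_normJ hp hζ' hα hg hgen hord S T hST hyE
  have hxJ := hle (jToProd_mem x)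
  rw [Subgroup.mem_sup] at hxJ
  obtain ⟨_, ⟨b, rfl⟩, d, hd, hbd⟩ := hxJ
  obtain ⟨_, ⟨m, rfl⟩, hm⟩ := hD hd
  apply hx
  have hxe : x = diag K b * normJ K M m := by
    apply jToProd_injective
    rw [map_mul, jToProd_diag, hm, hbd]
  rw [hxe]
  exact Subgroup.mul_mem_sup ⟨b, rfl⟩ ⟨m, rfl⟩

end FI

/-! ### Elementwise forms without a chosen generator (the shapes `hN`, `hD` consumed by
`C5/SecondInequality.index_sup_dvd_of_data`) -/

section Adapters

variable {M : Type} [Field M] [NumberField M] [Algebra K M] [IsGalois K M] {p : ℕ}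
  [DecidableEq (Place K)]

theorem forall_pow_ne_of_not_exists {y : Kˣ} (hp : p ≠ 0) (hy : ¬ ∃ z : Kˣ, z ^ p = y) :
    ∀ b : K, b ^ p ≠ (y : K) := by
  intro b hb
  have hb0 : b ≠ 0 := by
    rintro rfl
    rw [zero_pow hp] at hb
    exact y.ne_zero hb.symm
  exact hy ⟨Units.mk0 b hb0, Units.ext hb⟩

/-- **(W1')** `hN`: for `L = K(d^(1/p))` Galois of degree `p` over `K ∋ ζ_p`, `d` a `p`-th power
at `T` and a unit outside `S ∪ T`, `S` containing the places over `p`: the elements of `E` are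
norms from `L`. -/
theorem mem_range_normJ_of_mem_groupE (hp : p.Prime) (hdeg : Module.finrank K M = p) {ζ : K}
    (hζ : IsPrimitiveRoot ζ p) {d : Kˣ} (hd : ¬ ∃ z : Kˣ, z ^ p = d) {δ : M}
    (hδ : δ ^ p = algebraMap K M (d : K)) (S T : Finset (Place K))
    (hST : ∀ i : Place K, i ∉ S ∪ T → p ≠ (i.1 : ℕ))
    (hdT : ∀ i ∈ T, diagP K d i ∈ (powMonoidHom p : Gp K i →* Gp K i).range)
    (hdU : ∀ i : Place K, i ∉ S ∪ T → diagP K d i ∈ Up K i)
    (x : J K) (hx : jToProd K x ∈ groupE (Up K) p S T) : x ∈ (normJ K M).range := by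
  obtain ⟨ζ', g, hζ', hg, hgen, hord⟩ :=
    exists_kummer_generator hp hdeg hζ (forall_pow_ne_of_not_exists hp.ne_zero hd) hδ
  obtain ⟨x', hx', hxx'⟩ := groupE_le_map_range_normJ hp hζ' hδ hg hgen hord S T hST hdT hdU hx
  rwa [← jToProd_injective hxx']

/-- **(W2')** `hD`: for `M = K(y^(1/p))` Galois of degree `p` over `K ∋ ζ_p`, `y ∈ Kˣ ∩ E`, `S`
containing the places over `p`: the elements of `D` are norms from `M`. -/
theorem mem_range_normJ_of_mem_groupD (hp : p.Prime) (hdeg : Module.finrank K M = p) {ζ : K}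
    (hζ : IsPrimitiveRoot ζ p) {y : Kˣ} (hy : ¬ ∃ z : Kˣ, z ^ p = y) {α : M}
    (hα : α ^ p = algebraMap K M (y : K)) (S T : Finset (Place K))
    (hST : ∀ i : Place K, i ∉ S ∪ T → p ≠ (i.1 : ℕ))
    (hyE : diagP K y ∈ groupE (Up K) p S T)
    (x : J K) (hx : jToProd K x ∈ groupD (Up K) p S T) : x ∈ (normJ K M).range := by
  obtain ⟨ζ', g, hζ', hg, hgen, hord⟩ :=
    exists_kummer_generator hp hdeg hζ (forall_pow_ne_of_not_exists hp.ne_zero hy) hα
  obtain ⟨x', hx', hxx'⟩ := groupD_le_map_range_normJ hp hζ' hα hg hgen hord S T hST hyE hx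
  rwa [← jToProd_injective hxx']

end Adapters

/-- the hypothesis `hD` of `C5/SecondInequality.index_sup_dvd_of_data`, verbatim, for any finite
set `S` of places containing the places over `p` -/
theorem hD_of_places [DecidableEq (Place K)] {p : ℕ} (hp : p.Prime) {ζ : K}
    (hζ : IsPrimitiveRoot ζ p) (S T : Finset (Place K))
    (hS : ∀ i : Place K, (i.1 : ℕ) = p → i ∈ S) :
    ∀ y : Kˣ, diagP K y ∈ groupE (Up K) p S T → (¬ ∃ z : Kˣ, z ^ p = y) →
      ∀ (M : Type) [Field M] [NumberField M] [Algebra K M] [IsGalois K M],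
      Module.finrank K M = p → (∃ α : M, α ^ p = algebraMap K M (y : K)) →
      ∀ x : J K, jToProd K x ∈ groupD (Up K) p S T →
        x ∈ (diag K).range ⊔ (normJ K M).range := by
  intro y hyE hy M _ _ _ _ hdeg ⟨α, hα⟩ x hx
  refine Subgroup.mem_sup_right
    (mem_range_normJ_of_mem_groupD hp hdeg hζ hy hα S T ?_ hyE x hx)
  intro i hi hpi
  exact hi (Finset.mem_union_left T (hS i hpi.symm))

/-- the hypothesis `hN` of `C5/SecondInequality.index_sup_dvd_of_data` for the norm group of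
`L = K(d^(1/p))` -/
theorem hN_of_places [DecidableEq (Place K)] {M : Type} [Field M] [NumberField M] [Algebra K M]
    [IsGalois K M] {p : ℕ} (hp : p.Prime) (hdeg : Module.finrank K M = p) {ζ : K}
    (hζ : IsPrimitiveRoot ζ p) {d : Kˣ} (hd : ¬ ∃ z : Kˣ, z ^ p = d) {δ : M}
    (hδ : δ ^ p = algebraMap K M (d : K)) (S T : Finset (Place K))
    (hS : ∀ i : Place K, (i.1 : ℕ) = p → i ∈ S)
    (hdS : diagP K d ∈ ideleS (Up K) S)
    (hdT : ∀ i ∈ T, diagP K d i ∈ (powMonoidHom p : Gp K i →* Gp K i).range) :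
    ∀ x : J K, jToProd K x ∈ groupE (Up K) p S T → x ∈ (normJ K M).range := by
  intro x hx
  refine mem_range_normJ_of_mem_groupE hp hdeg hζ hd hδ S T ?_ hdT ?_ x hx
  · intro i hi hpi
    exact hi (Finset.mem_union_left T (hS i hpi.symm))
  · intro i hi
    exact hdS i fun h => hi (Finset.mem_union_left T h)


/-! ### (W4): `hTF` and `hLI` -/

section LocalIndices

/-- **(W4) `hTF`**: `K_vˣ / U_v` is torsion-free -/
theorem mem_Up_of_pow_mem {p : ℕ} (hp : p ≠ 0) (i : Place K) (g : Gp K i)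
    (h : g ^ p ∈ Up K i) : g ∈ Up K i := by
  rw [Up, mem_UV_iff] at h ⊢
  rw [Units.val_pow_eq_pow_val, nrm_pow] at h
  exact (pow_eq_one_iff_of_nonneg (nrm_nonneg _ _ _) hp).mp h

/-- the local index at one place: `p²` times `p^[K_v : ℚ_p]` if `v ∣ p` -/
theorem index_pow_place {p : ℕ} (hp : p.Prime) {ζ : K} (hζ : IsPrimitiveRoot ζ p)
    (i : Place K) :
    (powMonoidHom p : Gp K i →* Gp K i).range.index =
      p ^ 2 * p ^ (if (i.1 : ℕ) = p then Module.finrank ℚ_[(i.1 : ℕ)] (Kv i.2) else 0) := by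
  obtain ⟨q, v⟩ := i
  by_cases h : (q : ℕ) = p
  · subst h
    rw [if_pos rfl, pow_two]
    exact index_pow_self v hζ
  · rw [if_neg h, pow_zero, mul_one, pow_two]
    exact index_pow_of_ne v hp (Ne.symm h) hζ

/-- **(W4) `hLI`**: for a finite set `S` of places containing all places over `p`,
`∏_{v ∈ S} [K_vˣ : K_vˣᵖ] = p^(2 |S| + [K : ℚ])`. -/
theorem prod_index_pow {p : ℕ} (hp : p.Prime) {ζ : K} (hζ : IsPrimitiveRoot ζ p)
    (S : Finset (Place K)) (hS : ∀ i : Place K, (i.1 : ℕ) = p → i ∈ S) :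
    ∏ i ∈ S, (powMonoidHom p : Gp K i →* Gp K i).range.index =
      p ^ (2 * S.card + Module.finrank ℚ K) := by
  obtain ⟨P, rfl⟩ : ∃ P : Nat.Primes, (P : ℕ) = p := ⟨⟨p, hp⟩, rfl⟩
  have hsum : ∑ i ∈ S,
      (if (i.1 : ℕ) = (P : ℕ) then Module.finrank ℚ_[(i.1 : ℕ)] (Kv i.2) else 0) =
      Module.finrank ℚ K := by
    rw [← sum_finrank_Kv (K := K) (q := P), ← Finset.sum_filter]
    symm
    refine Finset.sum_bij (fun v _ => (⟨P, v⟩ : Place K)) ?_ ?_ ?_ ?_
    · intro v _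
      rw [Finset.mem_filter]
      exact ⟨hS _ rfl, rfl⟩
    · intro v _ w _ h
      exact eq_of_heq (Sigma.mk.inj_iff.mp h).2
    · rintro ⟨q, w⟩ hi
      rw [Finset.mem_filter] at hi
      obtain ⟨_, hq⟩ := hi
      have hqP : q = P := Subtype.ext hq
      subst hqP
      exact ⟨w, Finset.mem_univ _, rfl⟩
    · intro v _
      rfl
  rw [Finset.prod_congr rfl fun i _ => index_pow_place hp hζ i, Finset.prod_mul_distrib,
    Finset.prod_const, Finset.prod_pow_eq_pow_sum, hsum, ← pow_mul, ← pow_add]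

end LocalIndices

end Fermat.Agent.CFT.C5.NormWiring
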