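import Mathlib
import Fermat.Agent.CFT.C5.HypHGlue
import Fermat.Agent.CFT.C5.MuAdjunction
import Fermat.Agent.CFT.C5.CyclicPPower

/-!
# PROJECT C, slice C5: THE SECOND INEQUALITY (unconditional)

For every odd prime `p` and every Galois extension `M/K` of number fields of degree `p`:
`[J_K : Kˣ · N_{M/K} J_M] ≤ p` (`secondInequality`). Consequences (helper18's `PrimeDegree`,
`CyclicPPower`): `H¹(Gal(M/K), C_M)` has no `p`-torsion, `|H²(H, C_M)|_p ∣ |H|_p`, and for cyclic
`p`-power extensions `[C_K : N C_M] = [M : K]`.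
-/

set_option autoImplicit false

namespace Fermat.Agent.CFT.C5.SecondInequalityFinal

open Fermat.Agent.CFT.C5

/-- **The second inequality in odd prime degree `p`.** -/
theorem secondInequality (p : ℕ) [hp : Fact p.Prime] (hp2 : p ≠ 2) :
    PrimeDegree.SecondInequality p :=
  MuAdjunction.secondInequality_of_mu hp2
    (HypHGlue.secondInequalityMu (⟨p, hp.out⟩ : Nat.Primes) hp2)

end Fermat.Agent.CFT.C5.SecondInequalityFinal
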