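import Mathlib
import Fermat.Agent.CFT.C5.PowerLocalGlobal
import Fermat.Agent.CFT.C5.NormWiring
import Fermat.Agent.CFT.C6.SplitCompositum
import Fermat.Agent.CFT.Kummer.Classify
import Fermat.Agent.CFT.C7.ExistCount

/-!
# PROJECT C, (N3) step (F2), splitting half: multi-generator Kummer extensions split completely
where all their radicands are local `p`-th powers

`K` a number field containing `μ_p`, `L/K` a finite abelian extension of exponent `p`
(so `L = K(Δ^{1/p})` with `Δ = K^× ∩ L^{×p} = powFrom K L p`).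

* `splitsCompletely_of_powFrom`: if every `a ∈ Δ` is a `p`-th power in `K ⊗ ℚ_q`, then `q` splits
  completely in `L/K` (tensor-model form `NonSplit.SplitsCompletely`).
* `splitsCompletely_of_powFrom_eq_BS`: the case `Δ = B_S` (helper22's `ExistCount.BS`): every
  `q ∈ S` splits completely in `K(B_S^{1/p})`.

Proof: `L` is generated by the layers `K(β)`, `β` a `p`-th radical not in `K`
(`Kummer.adjoin_radicals_eq_top`); each layer is cyclic of degree `p` and splits completely at `q`
(`PowerLocalGlobal.splitsCompletely_of_local_pow`); composita of normal layers in which `q` splits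
completely split completely (helper14's `SplitCompositum.splitsCompletely_of_generated`).
-/

set_option autoImplicit false
set_option linter.unusedSectionVars false
set_option linter.style.haveILetI false

open scoped TensorProduct NumberField
open Fermat.Agent.CFT.Idele Fermat.Agent.CFT.Kummer NumberField IntermediateField Polynomial

namespace Fermat.Agent.CFT.C5.SplitKummer

section Layer

variable {K L : Type*} [Field K] [Field L] [Algebra K L] {p : ℕ}

/-- If `β ^ p = a ∈ K`, `β ∉ K` and `μ_p ⊂ K`, then `a` is not a `p`-th power in `K`. -/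
theorem forall_pow_ne_of_notMem_range (hp : 0 < p) {ζ : K} (hζ : IsPrimitiveRoot ζ p) {a : K}
    {β : L} (hβ : β ^ p = algebraMap K L a) (hβK : β ∉ Set.range (algebraMap K L)) :
    ∀ b : K, b ^ p ≠ a := by
  intro b hb
  haveI : NeZero p := ⟨hp.ne'⟩
  have hζL : IsPrimitiveRoot (algebraMap K L ζ) p :=
    hζ.map_of_injective (algebraMap K L).injective
  by_cases hb0 : b = 0
  · subst hb0
    rw [zero_pow hp.ne'] at hb
    rw [← hb, map_zero] at hβ
    have : β = 0 := pow_eq_zero_iff hp.ne' |>.mp hβ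
    exact hβK ⟨0, by rw [map_zero, this]⟩
  · have hbL : algebraMap K L b ≠ 0 := by
      rwa [Ne, map_eq_zero_iff _ (algebraMap K L).injective]
    have h1 : (β / algebraMap K L b) ^ p = 1 := by
      rw [div_pow, hβ, ← hb, map_pow, div_self (pow_ne_zero _ hbL)]
    obtain ⟨i, -, hi⟩ := hζL.eq_pow_of_pow_eq_one h1
    apply hβK
    refine ⟨ζ ^ i * b, ?_⟩
    rw [map_mul, map_pow, hi, div_mul_cancel₀ _ hbL]

/-- `[K(β) : K] = p` for a `p`-th radical `β ∉ K`, `μ_p ⊂ K`, `p` prime. -/
theorem finrank_adjoin_simple_radical (hp : p.Prime) {ζ : K} (hζ : IsPrimitiveRoot ζ p) {a : K}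
    {β : L} (hβ : β ^ p = algebraMap K L a) (hβK : β ∉ Set.range (algebraMap K L)) :
    Module.finrank K K⟮β⟯ = p := by
  have hirr : Irreducible (X ^ p - C a : K[X]) :=
    X_pow_sub_C_irreducible_of_prime hp (forall_pow_ne_of_notMem_range hp.pos hζ hβ hβK)
  have hroot : aeval β (X ^ p - C a : K[X]) = 0 := by
    rw [map_sub, map_pow, aeval_X, aeval_C, hβ, sub_self]
  have hmin : (X ^ p - C a : K[X]) = minpoly K β :=
    minpoly.eq_of_irreducible_of_monic hirr hroot (monic_X_pow_sub_C a hp.ne_zero)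
  have hint : IsIntegral K β := ⟨_, monic_X_pow_sub_C a hp.ne_zero, by
    rw [← aeval_def]; exact hroot⟩
  rw [IntermediateField.adjoin.finrank hint, ← hmin, natDegree_X_pow_sub_C]

variable [FiniteDimensional K L] [IsGalois K L]

/-- In an abelian extension every intermediate field is normal over the base. -/
theorem normal_of_comm (hcomm : ∀ σ τ : L ≃ₐ[K] L, σ * τ = τ * σ) (E : IntermediateField K L) :
    Normal K E := by
  haveI hN : E.fixingSubgroup.Normal :=
    ⟨fun n hn g => by rw [hcomm g n, mul_inv_cancel_right]; exact hn⟩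
  have h1 : IsGalois K (IntermediateField.fixedField E.fixingSubgroup) :=
    IsGalois.of_fixedField_normal_subgroup _
  have h2 := IsGalois.fixedField_fixingSubgroup E
  rw [h2] at h1
  exact h1.to_normal

/-- An automorphism fixing all `n`-th radicals of an abelian extension of exponent `n` (with
`μ_n ⊂ K`) is the identity. -/
theorem eq_one_of_fixes_radicals {n : ℕ} [NeZero n] (hζ : (primitiveRoots n K).Nonempty)
    (hcomm : ∀ σ τ : L ≃ₐ[K] L, σ * τ = τ * σ) (hexp : ∀ σ : L ≃ₐ[K] L, σ ^ n = 1)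
    (g : L ≃ₐ[K] L) (hg : ∀ β : Lˣ, β ∈ radicals K L n → g (β : L) = β) : g = 1 := by
  have htop := adjoin_radicals_eq_top (L := L) hζ hcomm hexp
  ext x
  have hx : x ∈ adjoin K (((↑) : Lˣ → L) '' (radicals K L n : Set Lˣ)) := by
    rw [htop]; exact IntermediateField.mem_top
  rw [AlgEquiv.one_apply]
  induction hx using IntermediateField.adjoin_induction with
  | mem y hy =>
    obtain ⟨β, hβ, rfl⟩ := hy
    exact hg β hβ
  | algebraMap y => exact g.commutes y
  | add y z _ _ hy hz => rw [map_add, hy, hz]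
  | inv y _ hy => rw [map_inv₀, hy]
  | mul y z _ _ hy hz => rw [map_mul, hy, hz]

end Layer

section Main

variable {K L : Type} [Field K] [NumberField K] [Field L] [NumberField L] [Algebra K L]
  [IsGalois K L] {p : ℕ} [hp : Fact p.Prime]

/-- **One cyclic layer**: for a `p`-th radical `β ∉ K` of `L/K` whose radicand is a `p`-th power in
`K ⊗ ℚ_q`, the prime `q` splits completely in `K(β)/K`. -/
theorem splitsCompletely_adjoin_radical {ζ : K} (hζ : IsPrimitiveRoot ζ p)
    (hcomm : ∀ σ τ : L ≃ₐ[K] L, σ * τ = τ * σ) {a : K} {β : L}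
    (hβ : β ^ p = algebraMap K L a) (hβK : β ∉ Set.range (algebraMap K L)) (q : Nat.Primes)
    {γ : (Loc K q)ˣ} (hγ : (γ : Loc K q) ^ p = inclL K q a) :
    C5.NonSplit.SplitsCompletely K K⟮β⟯ q := by
  haveI : Normal K K⟮β⟯ := normal_of_comm hcomm _
  haveI : IsGalois K K⟮β⟯ := ⟨⟩
  have hdeg : Module.finrank K K⟮β⟯ = p := finrank_adjoin_simple_radical hp.out hζ hβ hβK
  set α : K⟮β⟯ := ⟨β, mem_adjoin_simple_self K β⟩ with hα_def
  have hα : α ^ p = algebraMap K K⟮β⟯ a := by
    apply Subtype.ext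
    rw [SubmonoidClass.coe_pow]
    exact hβ
  have hαK : α ∉ Set.range (algebraMap K K⟮β⟯) := by
    rintro ⟨b, hb⟩
    apply hβK
    refine ⟨b, ?_⟩
    have := congrArg (fun x : K⟮β⟯ => (x : L)) hb
    simpa using this
  obtain ⟨ζ', g, hζ', hg, hgen, hord⟩ :=
    NormWiring.exists_kummer_generator_of_notMem hp.out hdeg hζ hαK hα
  exact PowerLocalGlobal.splitsCompletely_of_local_pow hζ' hα g hg hgen hord q hγ

/-- **(F2), splitting half.** `L/K` abelian of exponent `p`, `μ_p ⊂ K`. If every element of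
`Δ = K^× ∩ L^{×p}` is a `p`-th power in `K ⊗ ℚ_q`, then `q` splits completely in `L/K`. -/
theorem splitsCompletely_of_powFrom (hζ : (primitiveRoots p K).Nonempty)
    (hcomm : ∀ σ τ : L ≃ₐ[K] L, σ * τ = τ * σ) (hexp : ∀ σ : L ≃ₐ[K] L, σ ^ p = 1)
    (q : Nat.Primes)
    (hloc : ∀ a : Kˣ, a ∈ powFrom K L p →
      ∃ γ : (Loc K q)ˣ, (γ : Loc K q) ^ p = inclL K q (a : K)) :
    C5.NonSplit.SplitsCompletely K L q := by
  classical
  haveI : NeZero p := ⟨hp.out.ne_zero⟩
  obtain ⟨ζ, hζ'⟩ := id hζ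
  rw [mem_primitiveRoots hp.out.pos] at hζ'
  haveI hnorm : ∀ i : {β : Lˣ // β ∈ radicals K L p ∧ (β : L) ∉ Set.range (algebraMap K L)},
      Normal K K⟮((i.1 : Lˣ) : L)⟯ := fun i => normal_of_comm hcomm _
  refine C6.SplitCompositum.splitsCompletely_of_generated
    (fun i : {β : Lˣ // β ∈ radicals K L p ∧ (β : L) ∉ Set.range (algebraMap K L)} =>
      K⟮((i.1 : Lˣ) : L)⟯) ?_ ?_
  · intro g hg
    refine eq_one_of_fixes_radicals hζ hcomm hexp g fun β hβ => ?_
    by_cases hβK : (β : L) ∈ Set.range (algebraMap K L)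
    · obtain ⟨b, hb⟩ := hβK
      rw [← hb, g.commutes]
    · exact hg ⟨β, hβ, hβK⟩ ⟨(β : L), mem_adjoin_simple_self K _⟩
  · rintro ⟨β, hβ, hβK⟩
    obtain ⟨a, ha⟩ := mem_radicals_iff.mp hβ
    have hβa : (β : L) ^ p = algebraMap K L (a : K) := by
      have := congrArg Units.val ha
      simpa using this.symm
    obtain ⟨γ, hγ⟩ := hloc a ⟨β, by rw [powMonoidHom_apply]; exact ha.symm⟩
    exact splitsCompletely_adjoin_radical hζ' hcomm hβa hβK q hγ

/-- **(F2), splitting half, for `Δ = B_S`**: every `q ∈ S` splits completely in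
`L = K(B_S^{1/p})`. -/
theorem splitsCompletely_of_powFrom_eq_BS (hζ : (primitiveRoots p K).Nonempty)
    (hcomm : ∀ σ τ : L ≃ₐ[K] L, σ * τ = τ * σ) (hexp : ∀ σ : L ≃ₐ[K] L, σ ^ p = 1)
    {S : Set Nat.Primes} (hpow : powFrom K L p = C7.ExistCount.BS K S p) {q : Nat.Primes}
    (hq : q ∈ S) : C5.NonSplit.SplitsCompletely K L q :=
  splitsCompletely_of_powFrom hζ hcomm hexp q fun _ ha =>
    C7.ExistCount.exists_pow_eq_inclL_of_mem_BS (hpow ▸ ha) hq

/-- The same with `powFrom K L p ≤ B_S` only. -/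
theorem splitsCompletely_of_powFrom_le_BS (hζ : (primitiveRoots p K).Nonempty)
    (hcomm : ∀ σ τ : L ≃ₐ[K] L, σ * τ = τ * σ) (hexp : ∀ σ : L ≃ₐ[K] L, σ ^ p = 1)
    {S : Set Nat.Primes} (hpow : powFrom K L p ≤ C7.ExistCount.BS K S p) {q : Nat.Primes}
    (hq : q ∈ S) : C5.NonSplit.SplitsCompletely K L q :=
  splitsCompletely_of_powFrom hζ hcomm hexp q fun _ ha =>
    C7.ExistCount.exists_pow_eq_inclL_of_mem_BS (hpow ha) hq

end Main

end Fermat.Agent.CFT.C5.SplitKummer
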